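import Mathlib
import Fermat.Prelude.Def_ModularCurve_X0

set_option autoImplicit false

noncomputable section

namespace Fermat.Agent.S24B

open UpperHalfPlane ModularForm EisensteinSeries PowerSeries

/-- The `q`-expansion of Mathlib's `E₄` is the frozen formal series `eisenstein4`. -/
theorem qExpansion_E4 :
    qExpansion 1 (E₄ : ℍ → ℂ) = ModularCurve.eisenstein4.map (Int.castRingHom ℂ) := by
  ext m
  have h := E_qExpansion_coeff (k := 4) (by norm_num) (by decide) m
  rw [h, PowerSeries.coeff_map, ModularCurve.eisenstein4, PowerSeries.coeff_mk]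
  have hb : bernoulli 4 = -1 / 30 := by
    rw [bernoulli_eq_bernoulli'_of_ne_one (by norm_num), bernoulli'_four]
  by_cases hm : m = 0
  · simp [hm]
  · simp only [hm, if_false]
    rw [hb, ArithmeticFunction.sigma_apply]
    simp only [eq_intCast]
    push_cast
    ring

end Fermat.Agent.S24B
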