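import Mathlib
import Fermat.Prelude.Def_ModularCurve_X0

set_option autoImplicit false

noncomputable section

namespace Fermat.Agent.S24B

open UpperHalfPlane ModularForm PowerSeries Filter Topology Function
open scoped PowerSeries.WithPiTopology

/-- Taylor coefficients of a locally uniform limit of polynomials are the limits of the
coefficients. -/
theorem tendsto_coeff_of_tendstoLocallyUniformlyOn {F : ℕ → Polynomial ℂ} {G : ℂ → ℂ}
    {U : Set ℂ} (hU : IsOpen U) (h0 : (0 : ℂ) ∈ U)
    (hF : TendstoLocallyUniformlyOn (fun n q => (F n).eval q) G atTop U) (k : ℕ) :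
    Tendsto (fun n => (F n).coeff k) atTop
      (𝓝 ((k.factorial : ℂ)⁻¹ * iteratedDeriv k G 0)) := by
  have key : ∀ k : ℕ, TendstoLocallyUniformlyOn
      (fun n q => ((Polynomial.derivative^[k]) (F n)).eval q) (iteratedDeriv k G) atTop U := by
    intro k
    induction k with
    | zero => simpa using hF
    | succ k ih =>
      have h : TendstoLocallyUniformlyOn
          (deriv ∘ fun n q => ((Polynomial.derivative^[k]) (F n)).eval q)
          (deriv (iteratedDeriv k G)) atTop U :=
        ih.deriv (Eventually.of_forall fun n =>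
          (Polynomial.differentiable _).differentiableOn) hU
      rw [iteratedDeriv_succ]
      refine h.congr ?_
      intro n x _
      simp only [Function.comp_apply, Function.iterate_succ_apply']
      exact Polynomial.deriv _
  have h1 := (key k).tendsto_at h0
  have h2 : ∀ n, ((Polynomial.derivative^[k]) (F n)).eval 0 = (k.factorial : ℂ) * (F n).coeff k := by
    intro n
    rw [← Polynomial.coeff_zero_eq_eval_zero, Polynomial.coeff_iterate_derivative]
    simp [Nat.descFactorial_self]
  simp only [h2] at h1
  have h3 := h1.const_mul ((k.factorial : ℂ)⁻¹)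
  refine h3.congr fun n => ?_
  have : (k.factorial : ℂ) ≠ 0 := by exact_mod_cast Nat.factorial_ne_zero k
  field_simp

/-- Partial products of the Euler product as integer polynomials. -/
def etaPoly (n : ℕ) : Polynomial ℤ := ∏ i ∈ Finset.range n, (1 - Polynomial.X ^ (i + 1))

theorem coe_etaPoly (n : ℕ) :
    ((etaPoly n : Polynomial ℤ) : PowerSeries ℤ)
      = ∏ i ∈ Finset.range n, (1 - PowerSeries.X ^ (i + 1)) := by
  rw [etaPoly, ← Polynomial.coeToPowerSeries.ringHom_apply, map_prod]
  simp

theorem eventually_coeff_etaPoly (k : ℕ) :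
    ∀ᶠ n in atTop, (etaPoly n).coeff k = PowerSeries.coeff k ModularCurve.etaProd := by
  have h := (PowerSeries.WithPiTopology.multipliable_one_sub_X_pow ℤ).hasProd.tendsto_prod_nat
  have h2 := ((PowerSeries.WithPiTopology.continuous_coeff ℤ k).tendsto _).comp h
  rw [nhds_discrete, tendsto_pure] at h2
  filter_upwards [h2] with n hn
  rw [← Polynomial.coeff_coe, coe_etaPoly]
  exact hn

theorem tendstoLocallyUniformlyOn_etaPoly :
    TendstoLocallyUniformlyOn (fun n q => ((etaPoly n).map (Int.castRingHom ℂ)).eval q)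
      (fun q => ∏' n, (1 - q ^ (n + 1))) atTop (Metric.ball (0 : ℂ) 1) := by
  have h := multipliableLocallyUniformlyOn_one_sub_pow.hasProdLocallyUniformlyOn
  rw [hasProdLocallyUniformlyOn_iff_tendstoLocallyUniformlyOn] at h
  intro u hu x hx
  obtain ⟨t, ht, H⟩ := h u hu x hx
  refine ⟨t, ht, ?_⟩
  filter_upwards [tendsto_finset_range.eventually H] with n hn y hy
  have := hn y hy
  simpa [etaPoly, Polynomial.eval_prod, Polynomial.map_prod] using this

theorem taylor_coeff_etaFun (k : ℕ) :
    (k.factorial : ℂ)⁻¹ * iteratedDeriv k (fun q : ℂ => ∏' n, (1 - q ^ (n + 1))) 0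
      = ((PowerSeries.coeff k ModularCurve.etaProd : ℤ) : ℂ) := by
  have h1 := tendsto_coeff_of_tendstoLocallyUniformlyOn Metric.isOpen_ball
    (Metric.mem_ball_self one_pos) tendstoLocallyUniformlyOn_etaPoly k
  have h2 : Tendsto (fun n => ((etaPoly n).map (Int.castRingHom ℂ)).coeff k) atTop
      (𝓝 ((PowerSeries.coeff k ModularCurve.etaProd : ℤ) : ℂ)) := by
    refine tendsto_const_nhds.congr' ?_
    filter_upwards [eventually_coeff_etaPoly k] with n hn
    simp [Polynomial.coeff_map, hn]
  exact tendsto_nhds_unique h1 h2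

theorem hasSum_etaProd {q : ℂ} (hq : ‖q‖ < 1) :
    HasSum (fun k : ℕ => ((PowerSeries.coeff k ModularCurve.etaProd : ℤ) : ℂ) * q ^ k)
      (∏' n, (1 - q ^ (n + 1))) := by
  have h := Complex.hasSum_taylorSeries_on_ball differentiableOn_tprod_one_sub_pow (z := q)
    (by simpa using hq)
  refine h.congr_fun ?_ |>.mono_left le_rfl
  intro k
  rw [← taylor_coeff_etaFun k]
  simp only [sub_zero, smul_eq_mul]
  ring

end Fermat.Agent.S24B
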