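import Mathlib
import Fermat.Agent.S24.BridgeE4
import Fermat.Agent.S24.BridgeEta

set_option autoImplicit false

noncomputable section

namespace Fermat.Agent.S24B

open UpperHalfPlane ModularForm PowerSeries Filter Topology Function
open scoped Manifold

local notation "𝕢" => Function.Periodic.qParam

/-- `1`-periodic holomorphic functions on the upper half plane, bounded at `i∞`. -/
structure IsQHol (f : ℍ → ℂ) : Prop where
  per : Function.Periodic (f ∘ ofComplex) 1
  hol : MDiff f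
  bdd : IsBoundedAtImInfty f

theorem periodic_comp_ofComplex_of {f : ℍ → ℂ} (h : ∀ τ : ℍ, f ((1 : ℝ) +ᵥ τ) = f τ) :
    Function.Periodic (f ∘ ofComplex) 1 := by
  intro w
  by_cases hw : 0 < w.im
  · have h1 : 0 < (w + 1).im := by simpa using hw
    simp only [comp_apply, ofComplex_apply_of_im_pos h1, ofComplex_apply_of_im_pos hw]
    rw [← h ⟨w, hw⟩]
    congr 1
    ext
    simp [add_comm]
  · have hw' : w.im ≤ 0 := not_lt.mp hw
    have h1 : (w + 1).im ≤ 0 := by simpa using hw'
    simp [ofComplex_apply_of_im_nonpos h1, ofComplex_apply_of_im_nonpos hw']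

theorem IsQHol.vadd {f : ℍ → ℂ} (hf : IsQHol f) (τ : ℍ) : f ((1 : ℝ) +ᵥ τ) = f τ := by
  have h := hf.per (τ : ℂ)
  simp only [comp_apply, ofComplex_apply] at h
  rw [← h]
  congr 1
  have h1 : 0 < ((τ : ℂ) + 1).im := by simpa using τ.im_pos
  rw [ofComplex_apply_of_im_pos h1]
  ext
  simp [add_comm]

namespace IsQHol

variable {f g : ℍ → ℂ}

theorem analyticAt (hf : IsQHol f) : AnalyticAt ℂ (cuspFunction 1 f) 0 :=
  analyticAt_cuspFunction_zero one_pos hf.per hf.hol hf.bdd

theorem hasSum (hf : IsQHol f) (τ : ℍ) :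
    HasSum (fun m : ℕ => (qExpansion 1 f).coeff m • 𝕢 1 τ ^ m) (f τ) :=
  hasSum_qExpansion one_pos hf.per hf.hol hf.bdd τ

theorem tendsto (hf : IsQHol f) : Tendsto f atImInfty (𝓝 ((qExpansion 1 f).coeff 0)) := by
  have h1 : (cuspFunction 1 f ∘ fun τ : ℍ => 𝕢 1 τ) = f := by
    funext τ
    simpa using eq_cuspFunction τ one_ne_zero hf.per
  have h2 := hf.analyticAt.continuousAt.tendsto.comp (qParam_tendsto_atImInfty one_pos)
  rw [h1] at h2
  simpa [qExpansion_coeff] using h2

protected theorem add (hf : IsQHol f) (hg : IsQHol g) : IsQHol (f + g) :=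
  ⟨by simpa using hf.per.add hg.per, hf.hol.add hg.hol, hf.bdd.add hg.bdd⟩

protected theorem mul (hf : IsQHol f) (hg : IsQHol g) : IsQHol (f * g) :=
  ⟨by simpa using hf.per.mul hg.per, hf.hol.mul hg.hol, hf.bdd.mul hg.bdd⟩

protected theorem neg (hf : IsQHol f) : IsQHol (-f) :=
  ⟨fun x => by simpa using congrArg Neg.neg (hf.per x), hf.hol.neg, hf.bdd.neg_left⟩

protected theorem sub (hf : IsQHol f) (hg : IsQHol g) : IsQHol (f - g) := by
  simpa [sub_eq_add_neg] using hf.add hg.neg

theorem const (c : ℂ) : IsQHol (fun _ : ℍ => c) :=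
  ⟨fun _ => rfl, mdifferentiable_const, const_boundedAtFilter _ c⟩

theorem one : IsQHol (1 : ℍ → ℂ) := const 1

theorem zero : IsQHol (0 : ℍ → ℂ) := const 0

protected theorem pow (hf : IsQHol f) (n : ℕ) : IsQHol (f ^ n) := by
  induction n with
  | zero => simpa using one
  | succ n ih => simpa [pow_succ] using ih.mul hf

theorem qExpansion_add (hf : IsQHol f) (hg : IsQHol g) :
    qExpansion 1 (f + g) = qExpansion 1 f + qExpansion 1 g :=
  UpperHalfPlane.qExpansion_add hf.analyticAt hg.analyticAt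

theorem qExpansion_mul (hf : IsQHol f) (hg : IsQHol g) :
    qExpansion 1 (f * g) = qExpansion 1 f * qExpansion 1 g :=
  UpperHalfPlane.qExpansion_mul hf.analyticAt hg.analyticAt

theorem qExpansion_neg (hf : IsQHol f) : qExpansion 1 (-f) = -qExpansion 1 f :=
  UpperHalfPlane.qExpansion_neg hf.analyticAt

theorem qExpansion_pow (hf : IsQHol f) (n : ℕ) :
    qExpansion 1 (f ^ n) = qExpansion 1 f ^ n := by
  induction n with
  | zero => simpa using qExpansion_one 1
  | succ n ih => rw [pow_succ, (hf.pow n).qExpansion_mul hf, ih, pow_succ]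

theorem eq_zero_iff (hf : IsQHol f) : qExpansion 1 f = 0 ↔ f = 0 :=
  qExpansion_eq_zero_iff one_pos hf.per hf.hol hf.bdd

end IsQHol

theorem qExpansion_coeff_eq_of_hasSum {f : ℍ → ℂ} {c : ℕ → ℂ}
    (ha : AnalyticAt ℂ (cuspFunction 1 f) 0)
    (hsum : ∀ τ : ℍ, HasSum (fun m : ℕ => c m • 𝕢 1 τ ^ m) (f τ)) (m : ℕ) :
    (qExpansion 1 f).coeff m = c m := by
  have h1 := (hasFPowerSeriesOnBall_cuspFunction one_pos ha hsum).hasFPowerSeriesAt
  have h2 : HasFPowerSeriesAt (cuspFunction 1 f)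
      (FormalMultilinearSeries.ofScalars ℂ (fun m => (qExpansion 1 f).coeff m)) 0 := by
    simpa [qExpansion_coeff, div_eq_mul_inv, mul_comm] using ha.hasFPowerSeriesAt
  have h3 := h1.eq_formalMultilinearSeries h2
  have h4 := congr_arg (FormalMultilinearSeries.coeff · m) h3
  simpa [FormalMultilinearSeries.coeff_ofScalars] using h4.symm

/-- Build `IsQHol` and compute the `q`-expansion from a convergent expansion. -/
theorem isQHol_of_hasSum {f : ℍ → ℂ} {c : ℕ → ℂ} (hper : Function.Periodic (f ∘ ofComplex) 1)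
    (hhol : MDiff f) (hsum : ∀ τ : ℍ, HasSum (fun m : ℕ => c m • 𝕢 1 τ ^ m) (f τ)) :
    IsQHol f ∧ qExpansion 1 f = PowerSeries.mk c := by
  have hf : IsQHol f := ⟨hper, hhol, isBoundedAtImInfty_of_hasSum_qExpansion one_pos hsum⟩
  refine ⟨hf, ?_⟩
  ext m
  rw [PowerSeries.coeff_mk]
  exact qExpansion_coeff_eq_of_hasSum hf.analyticAt hsum m

/-- The function `q = exp(2πiτ)`. -/
def qFun : ℍ → ℂ := fun τ => Function.Periodic.qParam (1 : ℝ) (τ : ℂ)

theorem qFun_ne_zero (τ : ℍ) : qFun τ ≠ 0 := Function.Periodic.qParam_ne_zero _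

theorem qFun_periodic : Function.Periodic (qFun ∘ ofComplex) 1 := by
  refine periodic_comp_ofComplex_of fun τ => ?_
  simp only [qFun, Function.Periodic.qParam]
  rw [show (((1 : ℝ) +ᵥ τ : ℍ) : ℂ) = (τ : ℂ) + 1 by simp [add_comm]]
  rw [show 2 * (Real.pi : ℂ) * Complex.I * ((τ : ℂ) + 1) / ((1 : ℝ) : ℂ)
      = 2 * Real.pi * Complex.I * τ / ((1 : ℝ) : ℂ) + 2 * Real.pi * Complex.I by
    simp; ring]
  rw [Complex.exp_add, Complex.exp_two_pi_mul_I, mul_one]

theorem qFun_mdiff : MDiff qFun := by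
  rw [UpperHalfPlane.mdifferentiable_iff]
  have h : DifferentiableOn ℂ (𝕢 1) {z : ℂ | 0 < z.im} :=
    (Function.Periodic.differentiable_qParam (h := 1)).differentiableOn
  refine h.congr fun z hz => ?_
  simp [qFun, ofComplex_apply_of_im_pos hz]

theorem qFun_isQHol_and : IsQHol qFun ∧ qExpansion 1 qFun = PowerSeries.X := by
  have h := isQHol_of_hasSum (f := qFun) (c := fun m => if m = 1 then 1 else 0) qFun_periodic
    qFun_mdiff (fun τ => by
      have := hasSum_ite_eq (1 : ℕ) (𝕢 1 τ ^ 1)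
      simp only [pow_one] at this
      refine this.congr_fun ?_ |>.mono_left le_rfl
      intro m
      by_cases hm : m = 1
      · simp [hm]
      · simp [hm])
  refine ⟨h.1, h.2.trans ?_⟩
  ext m
  simp [PowerSeries.coeff_X]

theorem qFun_isQHol : IsQHol qFun := qFun_isQHol_and.1

theorem qExpansion_qFun : qExpansion 1 qFun = PowerSeries.X := qFun_isQHol_and.2

end Fermat.Agent.S24B
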