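import Mathlib
import Fermat.Agent.S24.BridgeCore

set_option autoImplicit false

noncomputable section

namespace Fermat.Agent.S24B

open UpperHalfPlane ModularForm EisensteinSeries PowerSeries Filter Topology Function
open scoped Manifold MatrixGroups

local notation "𝕢" => Function.Periodic.qParam

theorem IsQHol.inv {f : ℍ → ℂ} (hf : IsQHol f) (hne : ∀ τ, f τ ≠ 0)
    (h0 : (qExpansion 1 f).coeff 0 ≠ 0) : IsQHol f⁻¹ := by
  refine ⟨fun x => ?_, ?_, ?_⟩
  · have := hf.per x
    simp only [comp_apply, Pi.inv_apply] at this ⊢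
    rw [this]
  · have h := hf.hol
    rw [UpperHalfPlane.mdifferentiable_iff] at h ⊢
    have e : f⁻¹ ∘ ofComplex = fun z => ((f ∘ ofComplex) z)⁻¹ := rfl
    rw [e]
    exact h.inv fun z _ => hne _
  · have : Tendsto f⁻¹ atImInfty (𝓝 ((qExpansion 1 f).coeff 0)⁻¹) := hf.tendsto.inv₀ h0
    exact this.isBigO_one ℝ

theorem IsQHol.qExpansion_inv_mul {f : ℍ → ℂ} (hf : IsQHol f) (hne : ∀ τ, f τ ≠ 0)
    (h0 : (qExpansion 1 f).coeff 0 ≠ 0) : qExpansion 1 f⁻¹ * qExpansion 1 f = 1 := by
  rw [← (hf.inv hne h0).qExpansion_mul hf]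
  have : f⁻¹ * f = 1 := by
    funext τ
    simp [hne τ]
  rw [this, qExpansion_one]

/-- The Euler product `∏ (1 - qⁿ)` as a function on the upper half plane. -/
def etaFun : ℍ → ℂ := fun τ => ∏' n : ℕ, (1 - qFun τ ^ (n + 1))

theorem etaFun_ne_zero (τ : ℍ) : etaFun τ ≠ 0 := ModularForm.eta_tprod_ne_zero τ.2

theorem etaFun_isQHol_and :
    IsQHol etaFun ∧ qExpansion 1 etaFun = ModularCurve.etaProd.map (Int.castRingHom ℂ) := by
  have hper : Function.Periodic (etaFun ∘ ofComplex) 1 := by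
    refine periodic_comp_ofComplex_of fun τ => ?_
    simp only [etaFun, qFun_isQHol.vadd τ]
  have hhol : MDiff etaFun := by
    have h := qFun_mdiff
    rw [UpperHalfPlane.mdifferentiable_iff] at h ⊢
    have e : etaFun ∘ ofComplex
        = (fun q : ℂ => ∏' n : ℕ, (1 - q ^ (n + 1))) ∘ (qFun ∘ ofComplex) := rfl
    rw [e]
    refine ModularForm.differentiableOn_tprod_one_sub_pow.comp h ?_
    intro z _
    simp only [comp_apply, Metric.mem_ball, dist_zero_right]
    exact Function.Periodic.norm_qParam_lt_one one_pos (ofComplex z).im_pos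
  have h := isQHol_of_hasSum (f := etaFun)
    (c := fun k => ((PowerSeries.coeff k ModularCurve.etaProd : ℤ) : ℂ)) hper hhol (fun τ => by
      have := hasSum_etaProd (q := qFun τ)
        (Function.Periodic.norm_qParam_lt_one one_pos τ.im_pos)
      exact this)
  refine ⟨h.1, h.2.trans ?_⟩
  ext m
  simp

theorem etaFun_isQHol : IsQHol etaFun := etaFun_isQHol_and.1

theorem qExpansion_etaFun :
    qExpansion 1 etaFun = ModularCurve.etaProd.map (Int.castRingHom ℂ) := etaFun_isQHol_and.2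

theorem discriminant_eq_qFun_mul (τ : ℍ) :
    ModularForm.discriminant τ = qFun τ * etaFun τ ^ 24 := by
  rw [ModularForm.discriminant_eq_q_prod]
  have h := (ModularForm.multipliableLocallyUniformlyOn_eta.multipliable τ.2).tprod_pow 24
  rw [h]
  rfl

theorem E4_isQHol : IsQHol (E₄ : ℍ → ℂ) :=
  ⟨SlashInvariantFormClass.periodic_comp_ofComplex E₄ one_mem_strictPeriods_SL,
    ModularFormClass.holo E₄, ModularFormClass.bdd_at_infty E₄⟩

/-- The holomorphic function `q · j = E₄³ / ∏ (1 - qⁿ)²⁴`. -/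
def jNumFun : ℍ → ℂ := (E₄ : ℍ → ℂ) ^ 3 * (etaFun ^ 24)⁻¹

theorem etaFun_pow_coeff_zero : (qExpansion 1 (etaFun ^ 24)).coeff 0 ≠ 0 := by
  rw [etaFun_isQHol.qExpansion_pow, qExpansion_etaFun, ← map_pow, PowerSeries.coeff_map,
    PowerSeries.coeff_zero_eq_constantCoeff]
  have := ModularCurve.constantCoeff_dedekindEtaUnit
  rw [ModularCurve.dedekindEtaUnit] at this
  simp [this]

theorem jNumFun_isQHol : IsQHol jNumFun :=
  (E4_isQHol.pow 3).mul ((etaFun_isQHol.pow 24).inv
    (fun τ => pow_ne_zero _ (etaFun_ne_zero τ)) etaFun_pow_coeff_zero)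

theorem qExpansion_jNumFun :
    qExpansion 1 jNumFun = ModularCurve.jNum.map (Int.castRingHom ℂ) := by
  have hinv := (etaFun_isQHol.pow 24).inv
    (fun τ => pow_ne_zero _ (etaFun_ne_zero τ)) etaFun_pow_coeff_zero
  have h1 := (etaFun_isQHol.pow 24).qExpansion_inv_mul
    (fun τ => pow_ne_zero _ (etaFun_ne_zero τ)) etaFun_pow_coeff_zero
  rw [etaFun_isQHol.qExpansion_pow, qExpansion_etaFun, ← map_pow] at h1
  have h2 : (ModularCurve.etaProd ^ 24).map (Int.castRingHom ℂ)
      * ModularCurve.dedekindEtaUnitInv.map (Int.castRingHom ℂ) = 1 := by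
    rw [← map_mul]
    have := ModularCurve.dedekindEtaUnit_mul_inv
    rw [ModularCurve.dedekindEtaUnit] at this
    rw [this, map_one]
  have h3 : qExpansion 1 (etaFun ^ 24)⁻¹
      = ModularCurve.dedekindEtaUnitInv.map (Int.castRingHom ℂ) := by
    calc qExpansion 1 (etaFun ^ 24)⁻¹
        = qExpansion 1 (etaFun ^ 24)⁻¹ * ((ModularCurve.etaProd ^ 24).map (Int.castRingHom ℂ)
          * ModularCurve.dedekindEtaUnitInv.map (Int.castRingHom ℂ)) := by rw [h2, mul_one]
      _ = ModularCurve.dedekindEtaUnitInv.map (Int.castRingHom ℂ) := by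
          rw [← mul_assoc, h1, one_mul]
  rw [jNumFun, (E4_isQHol.pow 3).qExpansion_mul hinv, E4_isQHol.qExpansion_pow, qExpansion_E4, h3,
    ModularCurve.jNum, map_mul, map_pow]

/-- The analytic `j`-function. -/
def jFun : ℍ → ℂ := fun τ => E₄ τ ^ 3 / ModularForm.discriminant τ

theorem qFun_mul_jFun : qFun * jFun = jNumFun := by
  funext τ
  simp only [Pi.mul_apply, jFun, jNumFun, Pi.pow_apply, Pi.inv_apply, discriminant_eq_qFun_mul]
  have h1 := qFun_ne_zero τ
  have h2 := etaFun_ne_zero τ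
  field_simp

end Fermat.Agent.S24B
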