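import Mathlib
import Fermat.Agent.S24.BridgeJ
import Fermat.Prelude.Def_ModularCurve_JqCoeff

set_option autoImplicit false

noncomputable section

namespace Fermat.Agent.S24B

open UpperHalfPlane ModularForm PowerSeries Filter Topology Function
open scoped Manifold

local notation "𝕢" => Function.Periodic.qParam

/-! ### Scaling `τ ↦ d τ` -/

theorem IsQHol.eq_of_coe_eq_add_nat {f : ℍ → ℂ} (hf : IsQHol f) (n : ℕ) {τ τ' : ℍ}
    (h : (τ' : ℂ) = τ + n) : f τ' = f τ := by
  have h1 := hf.per.nat_mul n (τ : ℂ)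
  simp only [comp_apply, mul_one, ofComplex_apply] at h1
  rw [← h1, ← h, ofComplex_apply]

theorem qFun_scale {d : ℕ} {D : ℍ → ℍ} (hD : ∀ τ, (D τ : ℂ) = d * τ) (τ : ℍ) :
    qFun (D τ) = qFun τ ^ d := by
  simp only [qFun, Function.Periodic.qParam, hD]
  rw [← Complex.exp_nat_mul]
  congr 1
  simp only [Complex.ofReal_one, div_one]
  ring

/-- The coefficients of `s(q^d)`. -/
def scaleCoeff (d : ℕ) (c : ℕ → ℂ) : ℕ → ℂ := fun n => if d ∣ n then c (n / d) else 0

theorem IsQHol.scale {f : ℍ → ℂ} (hf : IsQHol f) {d : ℕ} [NeZero d] {D : ℍ → ℍ}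
    (hD : ∀ τ, (D τ : ℂ) = d * τ) :
    IsQHol (f ∘ D) ∧ qExpansion 1 (f ∘ D)
      = PowerSeries.mk (scaleCoeff d fun m => (qExpansion 1 f).coeff m) := by
  have hd : 0 < d := Nat.pos_of_ne_zero (NeZero.ne d)
  refine isQHol_of_hasSum ?_ ?_ ?_
  · refine periodic_comp_ofComplex_of fun τ => ?_
    simp only [comp_apply]
    refine hf.eq_of_coe_eq_add_nat d ?_
    rw [hD, hD]
    simp [add_comm]
    ring
  · have h := hf.hol
    rw [UpperHalfPlane.mdifferentiable_iff] at h ⊢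
    have hmaps : Set.MapsTo (fun z : ℂ => (d : ℂ) * z) {z : ℂ | 0 < z.im} {z : ℂ | 0 < z.im} := by
      intro z hz
      simp only [Set.mem_ofPred_eq, Complex.mul_im, Complex.natCast_re, Complex.natCast_im,
        zero_mul, add_zero] at hz ⊢
      positivity
    have h2 : DifferentiableOn ℂ ((f ∘ ofComplex) ∘ fun z : ℂ => (d : ℂ) * z) {z : ℂ | 0 < z.im} :=
      h.comp (by fun_prop) hmaps
    refine h2.congr fun z hz => ?_
    simp only [comp_apply]
    congr 1
    have hz' := hmaps hz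
    rw [ofComplex_apply_of_im_pos hz']
    ext
    rw [hD, ofComplex_apply_of_im_pos hz]
  · intro τ
    have h := hf.hasSum (D τ)
    have hq : 𝕢 1 (D τ : ℂ) = qFun τ ^ d := qFun_scale hD τ
    rw [hq] at h
    have hinj : Function.Injective (fun m : ℕ => d * m) := fun a b hab =>
      Nat.eq_of_mul_eq_mul_left hd hab
    rw [← hinj.hasSum_iff]
    · refine h.congr_fun ?_ |>.mono_left le_rfl
      intro m
      simp only [comp_apply, scaleCoeff, dvd_mul_right, if_true, Nat.mul_div_cancel_left _ hd,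
        pow_mul]
      rfl
    · intro n hn
      have : ¬ d ∣ n := fun ⟨k, hk⟩ => hn ⟨k, hk.symm⟩
      simp [scaleCoeff, this]

theorem qExpand_ofPowerSeries (d : ℕ) [NeZero d] (p : PowerSeries ℂ) :
    ModularCurve.qExpand ℂ d (HahnSeries.ofPowerSeries ℤ ℂ p)
      = HahnSeries.ofPowerSeries ℤ ℂ (PowerSeries.mk (scaleCoeff d fun m => p.coeff m)) := by
  have hd : 0 < d := Nat.pos_of_ne_zero (NeZero.ne d)
  ext k
  by_cases hk : (d : ℤ) ∣ k
  · obtain ⟨m, rfl⟩ := hk
    rw [ModularCurve.qExpand_coeff_mul]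
    rcases lt_or_ge m 0 with hm | hm
    · rw [ModularCurve.ofPowerSeries_coeff_of_neg _ hm,
        ModularCurve.ofPowerSeries_coeff_of_neg _ (by nlinarith [show (0 : ℤ) < d by exact_mod_cast hd])]
    · lift m to ℕ using hm
      rw [HahnSeries.ofPowerSeries_apply_coeff,
        show (d : ℤ) * (m : ℤ) = ((d * m : ℕ) : ℤ) by push_cast; ring,
        HahnSeries.ofPowerSeries_apply_coeff, PowerSeries.coeff_mk]
      simp [scaleCoeff, Nat.mul_div_cancel_left _ hd]
  · rw [ModularCurve.qExpand_coeff_of_not_dvd _ _ hk]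
    rcases lt_or_ge k 0 with hk0 | hk0
    · rw [ModularCurve.ofPowerSeries_coeff_of_neg _ hk0]
    · lift k to ℕ using hk0
      rw [HahnSeries.ofPowerSeries_apply_coeff, PowerSeries.coeff_mk]
      have : ¬ d ∣ k := fun h => hk (by exact_mod_cast h)
      simp [scaleCoeff, this]

/-! ### Laurent expansions -/

/-- `s` is the Laurent `q`-expansion of the `1`-periodic holomorphic function `f`
(meromorphic at `i∞`). -/
def IsLaurentOf (s : LaurentSeries ℂ) (f : ℍ → ℂ) : Prop :=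
  ∃ m : ℕ, IsQHol (qFun ^ m * f) ∧
    HahnSeries.single (m : ℤ) (1 : ℂ) * s
      = HahnSeries.ofPowerSeries ℤ ℂ (qExpansion 1 (qFun ^ m * f))

theorem isLaurentOf_step {s : LaurentSeries ℂ} {f : ℍ → ℂ} {m : ℕ}
    (h : IsQHol (qFun ^ m * f) ∧ HahnSeries.single (m : ℤ) (1 : ℂ) * s
      = HahnSeries.ofPowerSeries ℤ ℂ (qExpansion 1 (qFun ^ m * f))) (k : ℕ) :
    IsQHol (qFun ^ (m + k) * f) ∧ HahnSeries.single ((m + k : ℕ) : ℤ) (1 : ℂ) * s
      = HahnSeries.ofPowerSeries ℤ ℂ (qExpansion 1 (qFun ^ (m + k) * f)) := by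
  induction k with
  | zero => simpa using h
  | succ k ih =>
    have e : qFun ^ (m + (k + 1)) * f = qFun * (qFun ^ (m + k) * f) := by
      rw [← add_assoc, pow_succ']
      ring
    rw [e]
    refine ⟨qFun_isQHol.mul ih.1, ?_⟩
    rw [qFun_isQHol.qExpansion_mul ih.1, qExpansion_qFun, map_mul, HahnSeries.ofPowerSeries_X,
      ← ih.2, ← mul_assoc, HahnSeries.single_mul_single]
    have e3 : ((m + (k + 1) : ℕ) : ℤ) = 1 + ((m + k : ℕ) : ℤ) := by push_cast; ring
    rw [e3, one_mul]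

namespace IsLaurentOf

variable {s t : LaurentSeries ℂ} {f g : ℍ → ℂ}

theorem const (c : ℂ) : IsLaurentOf (HahnSeries.C c) (fun _ : ℍ => c) := by
  refine ⟨0, by simpa using IsQHol.const c, ?_⟩
  have h1 : qExpansion 1 (fun _ : ℍ => c) = PowerSeries.C c := by
    have : (fun _ : ℍ => c) = c • (1 : ℍ → ℂ) := by
      funext τ
      simp
    rw [this, qExpansion_smul IsQHol.one.analyticAt, qExpansion_one]
    ext n
    simp [PowerSeries.coeff_C, PowerSeries.coeff_one]
  simp only [pow_zero, one_mul, Nat.cast_zero]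
  rw [h1, HahnSeries.ofPowerSeries_C]
  simp

theorem zero : IsLaurentOf 0 (0 : ℍ → ℂ) := by
  have := const 0
  rw [map_zero] at this
  exact this

theorem one : IsLaurentOf 1 (1 : ℍ → ℂ) := by
  have := const 1
  rw [map_one] at this
  exact this

theorem add (hf : IsLaurentOf s f) (hg : IsLaurentOf t g) : IsLaurentOf (s + t) (f + g) := by
  obtain ⟨m₁, h₁⟩ := hf
  obtain ⟨m₂, h₂⟩ := hg
  have a := isLaurentOf_step h₁ m₂
  have b := isLaurentOf_step h₂ m₁
  rw [Nat.add_comm m₂ m₁] at b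
  refine ⟨m₁ + m₂, ?_, ?_⟩
  · rw [mul_add]
    exact a.1.add b.1
  · rw [mul_add, mul_add, a.1.qExpansion_add b.1, map_add, a.2, b.2]

theorem neg (hf : IsLaurentOf s f) : IsLaurentOf (-s) (-f) := by
  obtain ⟨m, h⟩ := hf
  refine ⟨m, ?_, ?_⟩
  · have e2 : qFun ^ m * -f = -(qFun ^ m * f) := by ring
    rw [e2]
    exact h.1.neg
  · have e1 : HahnSeries.single (m : ℤ) (1 : ℂ) * -s = -(HahnSeries.single (m : ℤ) (1 : ℂ) * s) := by
      ring
    have e2 : qFun ^ m * -f = -(qFun ^ m * f) := by ring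
    rw [e1, e2, h.1.qExpansion_neg, map_neg, h.2]

theorem mul (hf : IsLaurentOf s f) (hg : IsLaurentOf t g) : IsLaurentOf (s * t) (f * g) := by
  obtain ⟨m₁, h₁⟩ := hf
  obtain ⟨m₂, h₂⟩ := hg
  have e : qFun ^ (m₁ + m₂) * (f * g) = (qFun ^ m₁ * f) * (qFun ^ m₂ * g) := by
    rw [pow_add]
    ring
  refine ⟨m₁ + m₂, ?_, ?_⟩
  · rw [e]
    exact h₁.1.mul h₂.1
  · rw [e, h₁.1.qExpansion_mul h₂.1, map_mul, ← h₁.2, ← h₂.2]
    have : HahnSeries.single ((m₁ + m₂ : ℕ) : ℤ) (1 : ℂ)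
        = HahnSeries.single (m₁ : ℤ) (1 : ℂ) * HahnSeries.single (m₂ : ℤ) (1 : ℂ) := by
      rw [HahnSeries.single_mul_single]
      simp
    rw [this]
    ring

theorem mdiff (hf : IsLaurentOf s f) : MDiff f := by
  obtain ⟨m, h⟩ := hf
  have h1 : MDiff (fun τ => (qFun τ ^ m)⁻¹ * (qFun ^ m * f) τ) := by
    have hq : MDiff (fun τ => (qFun τ ^ m)⁻¹) := by
      have h2 : MDiff (qFun ^ m) := (qFun_isQHol.pow m).hol
      rw [UpperHalfPlane.mdifferentiable_iff] at h2 ⊢
      have e : (fun τ => (qFun τ ^ m)⁻¹) ∘ ofComplex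
          = fun z => (((qFun ^ m) ∘ ofComplex) z)⁻¹ := rfl
      rw [e]
      exact h2.inv fun z _ => pow_ne_zero _ (qFun_ne_zero _)
    exact hq.mul h.1.hol
  have e : (fun τ => (qFun τ ^ m)⁻¹ * (qFun ^ m * f) τ) = f := by
    funext τ
    simp only [Pi.mul_apply, Pi.pow_apply]
    rw [← mul_assoc, inv_mul_cancel₀ (pow_ne_zero _ (qFun_ne_zero τ)), one_mul]
  rwa [e] at h1

theorem vadd (hf : IsLaurentOf s f) (τ : ℍ) : f ((1 : ℝ) +ᵥ τ) = f τ := by
  obtain ⟨m, h⟩ := hf
  have h1 := h.1.vadd τ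
  simp only [Pi.mul_apply, Pi.pow_apply, qFun_isQHol.vadd τ] at h1
  exact mul_left_cancel₀ (pow_ne_zero _ (qFun_ne_zero τ)) h1

theorem eq_zero_iff (hf : IsLaurentOf s f) : s = 0 ↔ f = 0 := by
  obtain ⟨m, h⟩ := hf
  constructor
  · intro hs
    have h2 := h.2
    rw [hs, mul_zero] at h2
    have h3 : qExpansion 1 (qFun ^ m * f) = 0 :=
      HahnSeries.ofPowerSeries_injective (by rw [← h2, map_zero])
    have h4 := h.1.eq_zero_iff.mp h3
    funext τ
    have h5 := congrFun h4 τ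
    simp only [Pi.mul_apply, Pi.pow_apply, Pi.zero_apply, mul_eq_zero] at h5
    rcases h5 with h5 | h5
    · exact absurd h5 (pow_ne_zero _ (qFun_ne_zero τ))
    · exact h5
  · intro hf0
    have h2 := h.2
    rw [hf0, mul_zero, qExpansion_zero, map_zero] at h2
    rcases mul_eq_zero.mp h2 with h3 | h3
    · exact absurd h3 (HahnSeries.single_ne_zero one_ne_zero)
    · exact h3

theorem sub (hf : IsLaurentOf s f) (hg : IsLaurentOf t g) : IsLaurentOf (s - t) (f - g) := by
  simpa [sub_eq_add_neg] using hf.add hg.neg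

/-- The function is determined by the series. -/
theorem unique_right (hf : IsLaurentOf s f) (hg : IsLaurentOf s g) : f = g := by
  have h := (hf.sub hg).eq_zero_iff.mp (sub_self s)
  exact sub_eq_zero.mp h

/-- The series is determined by the function. -/
theorem unique_left (hf : IsLaurentOf s f) (hg : IsLaurentOf t f) : s = t := by
  have h := (hf.sub hg).eq_zero_iff.mpr (sub_self f)
  exact sub_eq_zero.mp h

theorem scale (hf : IsLaurentOf s f) {d : ℕ} [NeZero d] {D : ℍ → ℍ}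
    (hD : ∀ τ, (D τ : ℂ) = d * τ) : IsLaurentOf (ModularCurve.qExpand ℂ d s) (f ∘ D) := by
  obtain ⟨m, h⟩ := hf
  have e : qFun ^ (d * m) * (f ∘ D) = (qFun ^ m * f) ∘ D := by
    funext τ
    simp only [Pi.mul_apply, Pi.pow_apply, comp_apply, qFun_scale hD τ, pow_mul]
  have hs := h.1.scale hD
  refine ⟨d * m, ?_, ?_⟩
  · rw [e]
    exact hs.1
  · rw [e, hs.2, ← qExpand_ofPowerSeries, ← h.2, map_mul, ModularCurve.qExpand_single]
    push_cast
    rfl

end IsLaurentOf

/-- The analytic `j` has Laurent expansion the frozen `jq` (with complex coefficients). -/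
theorem isLaurentOf_jFun : IsLaurentOf (ModularCurve.jqModC ℂ) jFun := by
  refine ⟨1, ?_, ?_⟩
  · rw [pow_one, qFun_mul_jFun]
    exact jNumFun_isQHol
  · rw [pow_one, qFun_mul_jFun, qExpansion_jNumFun, ModularCurve.jqModC, ← mul_assoc,
      HahnSeries.single_mul_single]
    simp

end Fermat.Agent.S24B
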