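import Mathlib
import Fermat.Agent.S24.BridgeGraph
import Fermat.Prelude.Def_ModularCurve_ArithmeticGalois
import Fermat.Prelude.Thm_ModularCurve_coeffMap_qExpand

set_option autoImplicit false

noncomputable section

namespace Fermat.Agent.S24B

open UpperHalfPlane ModularForm PowerSeries Filter Topology Function ModularCurve
open scoped Manifold

/-- Multiplication by a positive integer on the upper half plane. -/
def mulH (d : ℕ) [NeZero d] (τ : ℍ) : ℍ :=
  ⟨(d : ℂ) * τ, by
    have hd : (0 : ℝ) < d := by exact_mod_cast Nat.pos_of_ne_zero (NeZero.ne d)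
    have := τ.im_pos
    simp only [Complex.mul_im, Complex.natCast_re, Complex.natCast_im, zero_mul, add_zero]
    exact mul_pos hd τ.im_pos⟩

@[simp]
theorem coe_mulH (d : ℕ) [NeZero d] (τ : ℍ) : (mulH d τ : ℂ) = d * τ := rfl

/-- The generators `j(q^d)`, `d ∣ N`, of the function field, with `ℚ̄`-coefficients. -/
def jGens (N : ℕ) : Set (LaurentSeries (AlgebraicClosure ℚ)) :=
  {x | ∃ (d : ℕ) (_ : NeZero d), d ∣ N ∧ x = coeffEmb (AlgebraicClosure ℚ) (qExpand ℚ d jq)}

theorem coeffEmb_algebraMap (L : Type*) [Field L] [Algebra ℚ L] (c : ℚ) :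
    coeffEmb L (algebraMap ℚ (LaurentSeries ℚ) c)
      = algebraMap L (LaurentSeries L) (algebraMap ℚ L c) := by
  rw [algebraMap_apply_eq_single, algebraMap_laurentSeries_eq_single, coeffEmb, coeffMap_single]

theorem modularFunctionFieldBar_eq_adjoin (N : ℕ) [NeZero N] :
    modularFunctionFieldBar N = IntermediateField.adjoin (AlgebraicClosure ℚ) (jGens N) := by
  apply le_antisymm
  · rw [modularFunctionFieldBar, laurentBaseChange, IntermediateField.adjoin_le_iff]
    rintro _ ⟨x, hx, rfl⟩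
    rw [SetLike.mem_coe, modularFunctionFieldFull] at hx
    induction hx using IntermediateField.adjoin_induction with
    | mem y hy =>
      obtain ⟨d, hne, hd, rfl⟩ := hy
      exact IntermediateField.subset_adjoin _ _ ⟨d, hne, hd, rfl⟩
    | algebraMap c =>
      rw [coeffEmb_algebraMap]
      exact IntermediateField.algebraMap_mem _ _
    | add x y _ _ hx hy =>
      rw [map_add]
      exact add_mem hx hy
    | inv x _ hx =>
      rw [map_inv₀]
      exact inv_mem hx
    | mul x y _ _ hx hy =>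
      rw [map_mul]
      exact mul_mem hx hy
  · rw [IntermediateField.adjoin_le_iff]
    rintro _ ⟨d, hne, hd, rfl⟩
    have := hne
    exact coeffEmb_mem_laurentBaseChange _ (jqd_mem_full N hd)

/-- The `ℚ̄`-algebra generated by the `j(q^d)`. -/
abbrev jAlg (N : ℕ) : Subalgebra (AlgebraicClosure ℚ) (LaurentSeries (AlgebraicClosure ℚ)) :=
  Algebra.adjoin (AlgebraicClosure ℚ) (jGens N)

theorem jAlg_le (N : ℕ) [NeZero N] : jAlg N ≤ (modularFunctionFieldBar N).toSubalgebra := by
  rw [modularFunctionFieldBar_eq_adjoin]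
  exact IntermediateField.algebra_adjoin_le_adjoin _ _

theorem gen_mem_jAlg {N d : ℕ} [NeZero d] (hd : d ∣ N) :
    coeffEmb (AlgebraicClosure ℚ) (qExpand ℚ d jq) ∈ jAlg N :=
  Algebra.subset_adjoin ⟨d, ‹_›, hd, rfl⟩

/-- Every element of the function field is a quotient of two elements of `jAlg N`. -/
theorem exists_div_of_mem (N : ℕ) [NeZero N] {x : LaurentSeries (AlgebraicClosure ℚ)}
    (hx : x ∈ modularFunctionFieldBar N) : ∃ r ∈ jAlg N, ∃ s ∈ jAlg N, s ≠ 0 ∧ x = r / s := by
  rw [modularFunctionFieldBar_eq_adjoin, IntermediateField.mem_adjoin_iff_div] at hx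
  obtain ⟨r, hr, s, hs, rfl⟩ := hx
  by_cases h0 : s = 0
  · refine ⟨0, zero_mem _, 1, one_mem _, one_ne_zero, ?_⟩
    simp [h0]
  · exact ⟨r, hr, s, hs, h0, rfl⟩

variable (φ : AlgebraicClosure ℚ →+* ℂ)

theorem coeffMap_gen (d : ℕ) [NeZero d] :
    coeffMap φ (coeffEmb (AlgebraicClosure ℚ) (qExpand ℚ d jq)) = qExpand ℂ d (jqModC ℂ) := by
  rw [coeffEmb, coeffMap_coeffMap, coeffMap_qExpand]
  congr 1
  rw [← jqModC_rat]
  exact map_jqModC _

theorem coeffMap_algebraMap' (c : AlgebraicClosure ℚ) :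
    coeffMap φ (algebraMap (AlgebraicClosure ℚ) (LaurentSeries (AlgebraicClosure ℚ)) c)
      = HahnSeries.C (φ c) := by
  rw [algebraMap_laurentSeries_eq_single, coeffMap_single]
  rfl

theorem coeffMap_injective : Function.Injective (coeffMap φ) := by
  intro x y h
  ext k
  have := congrArg (fun z => z.coeff k) h
  simp only [coeffMap_coeff] at this
  exact φ.injective this

theorem exists_isLaurentOf {N : ℕ} {x : LaurentSeries (AlgebraicClosure ℚ)} (hx : x ∈ jAlg N) :
    ∃ f : ℍ → ℂ, IsLaurentOf (coeffMap φ x) f := by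
  rw [jAlg] at hx
  induction hx using Algebra.adjoin_induction with
  | mem y hy =>
    obtain ⟨d, hne, _, rfl⟩ := hy
    have := hne
    exact ⟨jFun ∘ mulH d, by
      rw [coeffMap_gen]
      exact isLaurentOf_jFun.scale (coe_mulH d)⟩
  | algebraMap c =>
    exact ⟨fun _ => φ c, by
      rw [coeffMap_algebraMap']
      exact IsLaurentOf.const _⟩
  | add x y _ _ hx hy =>
    obtain ⟨f, hf⟩ := hx
    obtain ⟨g, hg⟩ := hy
    exact ⟨f + g, by rw [map_add]; exact hf.add hg⟩
  | mul x y _ _ hx hy =>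
    obtain ⟨f, hf⟩ := hx
    obtain ⟨g, hg⟩ := hy
    exact ⟨f * g, by rw [map_mul]; exact hf.mul hg⟩

/-- The function on the upper half plane attached to an element of `jAlg N`. -/
def bridgeFun (N : ℕ) (x : jAlg N) : ℍ → ℂ := Classical.choose (exists_isLaurentOf φ x.2)

theorem bridgeFun_spec (N : ℕ) (x : jAlg N) :
    IsLaurentOf (coeffMap φ (x : LaurentSeries (AlgebraicClosure ℚ))) (bridgeFun φ N x) :=
  Classical.choose_spec (exists_isLaurentOf φ x.2)

/-- The bridge: the ring `ℚ̄[j(q^d) : d ∣ N]` of formal Laurent series, as a ring of holomorphic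
functions on the upper half plane. -/
def bridge (N : ℕ) : jAlg N →+* (ℍ → ℂ) where
  toFun := bridgeFun φ N
  map_one' := (bridgeFun_spec φ N 1).unique_right (by
    rw [show ((1 : jAlg N) : LaurentSeries (AlgebraicClosure ℚ)) = 1 from rfl, map_one]
    exact IsLaurentOf.one)
  map_mul' x y := (bridgeFun_spec φ N (x * y)).unique_right (by
    rw [show ((x * y : jAlg N) : LaurentSeries (AlgebraicClosure ℚ)) = x * y from rfl, map_mul]
    exact (bridgeFun_spec φ N x).mul (bridgeFun_spec φ N y))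
  map_zero' := (bridgeFun_spec φ N 0).unique_right (by
    rw [show ((0 : jAlg N) : LaurentSeries (AlgebraicClosure ℚ)) = 0 from rfl, map_zero]
    exact IsLaurentOf.zero)
  map_add' x y := (bridgeFun_spec φ N (x + y)).unique_right (by
    rw [show ((x + y : jAlg N) : LaurentSeries (AlgebraicClosure ℚ)) = x + y from rfl, map_add]
    exact (bridgeFun_spec φ N x).add (bridgeFun_spec φ N y))

theorem bridge_spec (N : ℕ) (x : jAlg N) :
    IsLaurentOf (coeffMap φ (x : LaurentSeries (AlgebraicClosure ℚ))) (bridge φ N x) :=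
  bridgeFun_spec φ N x

/-- Characterisation of the bridge. -/
theorem bridge_eq_of_isLaurentOf {N : ℕ} (x : jAlg N) {f : ℍ → ℂ}
    (hf : IsLaurentOf (coeffMap φ (x : LaurentSeries (AlgebraicClosure ℚ))) f) :
    bridge φ N x = f :=
  (bridge_spec φ N x).unique_right hf

theorem bridge_injective (N : ℕ) : Function.Injective (bridge φ N) := by
  rw [injective_iff_map_eq_zero]
  intro x hx
  have h := (bridge_spec φ N x).eq_zero_iff.mpr hx
  have h2 : (x : LaurentSeries (AlgebraicClosure ℚ)) = 0 :=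
    coeffMap_injective φ (by rw [h, map_zero])
  exact Subtype.ext h2

theorem bridge_algebraMap (N : ℕ) (c : AlgebraicClosure ℚ) :
    bridge φ N (algebraMap (AlgebraicClosure ℚ) (jAlg N) c) = fun _ => φ c :=
  bridge_eq_of_isLaurentOf φ _ (by
    rw [show ((algebraMap (AlgebraicClosure ℚ) (jAlg N) c : jAlg N) :
        LaurentSeries (AlgebraicClosure ℚ))
        = algebraMap (AlgebraicClosure ℚ) (LaurentSeries (AlgebraicClosure ℚ)) c from rfl,
      coeffMap_algebraMap']
    exact IsLaurentOf.const _)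

/-- The generator `j(q^d)` goes to `τ ↦ j(dτ)`. -/
theorem bridge_gen {N d : ℕ} [NeZero d] (hd : d ∣ N) {D : ℍ → ℍ} (hD : ∀ τ, (D τ : ℂ) = d * τ) :
    bridge φ N ⟨coeffEmb (AlgebraicClosure ℚ) (qExpand ℚ d jq), gen_mem_jAlg hd⟩ = jFun ∘ D :=
  bridge_eq_of_isLaurentOf φ _ (by
    show IsLaurentOf (coeffMap φ (coeffEmb (AlgebraicClosure ℚ) (qExpand ℚ d jq))) (jFun ∘ D)
    rw [coeffMap_gen]
    exact isLaurentOf_jFun.scale hD)

theorem bridge_mdiff (N : ℕ) (x : jAlg N) : MDiff (bridge φ N x) := (bridge_spec φ N x).mdiff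

theorem bridge_vadd (N : ℕ) (x : jAlg N) (τ : ℍ) :
    bridge φ N x ((1 : ℝ) +ᵥ τ) = bridge φ N x τ := (bridge_spec φ N x).vadd τ

open IntermediateField.algebraAdjoinAdjoin in
/-- Extension of an injective ring hom on `jAlg N` to the whole function field. -/
theorem exists_lift_of_injective (N : ℕ) [NeZero N] {L : Type*} [Field L] (g : jAlg N →+* L)
    (hg : Function.Injective g) :
    ∃ G : modularFunctionFieldBar N →+* L,
      ∀ (x : LaurentSeries (AlgebraicClosure ℚ)) (hx : x ∈ jAlg N)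
        (hx' : x ∈ modularFunctionFieldBar N), G ⟨x, hx'⟩ = g ⟨x, hx⟩ := by
  have h := modularFunctionFieldBar_eq_adjoin N
  let G₀ : IntermediateField.adjoin (AlgebraicClosure ℚ) (jGens N) →+* L :=
    IsFractionRing.lift (A := Algebra.adjoin (AlgebraicClosure ℚ) (jGens N)) (g := g) hg
  refine ⟨G₀.comp (IntermediateField.equivOfEq h).toRingEquiv.toRingHom, ?_⟩
  intro x hx hx'
  have e : (IntermediateField.equivOfEq h ⟨x, hx'⟩ :
      IntermediateField.adjoin (AlgebraicClosure ℚ) (jGens N))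
      = algebraMap (Algebra.adjoin (AlgebraicClosure ℚ) (jGens N))
          (IntermediateField.adjoin (AlgebraicClosure ℚ) (jGens N)) ⟨x, hx⟩ := rfl
  show G₀ (IntermediateField.equivOfEq h ⟨x, hx'⟩) = g ⟨x, hx⟩
  rw [e]
  exact IsFractionRing.lift_algebraMap hg _

end Fermat.Agent.S24B
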