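import Mathlib
import Fermat.Prelude.Def_ModularCurve_ArithmeticGalois
import Fermat.Prelude.Def_ModularCurve_GenusNumerics
import Fermat.Prelude.Def_AlgebraicCurve_CanonicalDivisor

set_option autoImplicit false

/-!
# Project S24: shared definitions (interface between the algebraic and the analytic side)

* `VDF K`: a "valued differential field" over `K`: a field `L` with a `ℤ`-valued valuation `w`
  (junk value at `0`) and a derivation `d` with `w (d u) = w u - 1` whenever `w u ≠ 0`.
* `zc j a`: the centre element `j - a` (finite `a`) resp. `j⁻¹` (`a = none`, the point at infinity).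
* `LocalDatum K F j X a`: the conjugate embeddings of `F` at the point `a` of the `j`-line.
* `orbCount π`: number of orbits of a permutation.
* `iotaK : ℚ̄ →+* ℂ`, `scaleH d τ = d τ`.
-/

namespace Fermat.Agent.S24

open UpperHalfPlane

/-- A valued differential field over `K` (all data unbundled; `w 0` is junk). -/
structure VDF (K : Type) [Field K] where
  /-- the field -/
  L : Type
  [instField : Field L]
  [instAlg : Algebra K L]
  /-- the valuation (junk at `0`) -/
  w : L → ℤ
  w_mul : ∀ u v : L, u ≠ 0 → v ≠ 0 → w (u * v) = w u + w v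
  w_add : ∀ u v : L, u ≠ 0 → v ≠ 0 → u + v ≠ 0 → min (w u) (w v) ≤ w (u + v)
  w_alg : ∀ c : K, c ≠ 0 → w (algebraMap K L c) = 0
  /-- the derivation -/
  d : L → L
  d_add : ∀ u v : L, d (u + v) = d u + d v
  d_mul : ∀ u v : L, d (u * v) = u * d v + v * d u
  d_alg : ∀ c : K, d (algebraMap K L c) = 0
  w_d : ∀ u : L, u ≠ 0 → w u ≠ 0 → d u ≠ 0 ∧ w (d u) = w u - 1

attribute [instance] VDF.instField VDF.instAlg

/-- The centre element at a point `a` of the `j`-line: `j - a`, resp. `j⁻¹` at infinity. -/
def zc {K F : Type} [Field K] [Field F] [Algebra K F] (j : F) : Option K → F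
  | some a => j - algebraMap K F a
  | none => j⁻¹

/-- The conjugate embeddings of `F` at a point `a` of the `j`-line, indexed by a finite set `X`
(the cosets), together with the local monodromy permutation `π`. -/
structure LocalDatum (K F : Type) [Field K] [Field F] [Algebra K F] (j : F) (X : Type)
    (a : Option K) where
  /-- the local field -/
  V : VDF K
  /-- the conjugate embeddings -/
  σ : X → (F →ₐ[K] V.L)
  /-- the order of the centre element (ramification index of `ℍ → j`-line at the point) -/
  E : ℕ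
  E_pos : 0 < E
  w_zc : ∀ x, V.w (σ x (zc j a)) = E
  σ_j : ∀ x y, σ x j = σ y j
  σ_inj : Function.Injective σ
  /-- the local monodromy -/
  π : Equiv.Perm X
  w_π : ∀ x f, V.w (σ (π x) f) = V.w (σ x f)
  dvd : ∀ x f, f ≠ 0 → (E : ℤ) ∣ (Function.minimalPeriod π x : ℤ) * V.w (σ x f)

/-- Number of orbits of a permutation. -/
noncomputable def orbCount {X : Type} (π : Equiv.Perm X) : ℕ :=
  Nat.card (MulAction.orbitRel.Quotient (Subgroup.zpowers π) X)

/-- The fixed embedding `ℚ̄ → ℂ`. -/
noncomputable def iotaK : AlgebraicClosure ℚ →+* ℂ :=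
  letI : Algebra ℚ (AlgebraicClosure ℚ) := AlgebraicClosure.instAlgebra ℚ
  (IsAlgClosed.lift : AlgebraicClosure ℚ →ₐ[ℚ] ℂ).toRingHom

/-- `τ ↦ d τ` on the upper half plane. -/
noncomputable def scaleH (d : ℕ) [NeZero d] (τ : ℍ) : ℍ :=
  ⟨(d : ℂ) * (τ : ℂ), by
    have h : (0 : ℝ) < d := Nat.cast_pos.mpr (NeZero.pos d)
    simpa using mul_pos h τ.im_pos⟩

@[simp] theorem coe_scaleH (d : ℕ) [NeZero d] (τ : ℍ) : (scaleH d τ : ℂ) = (d : ℂ) * (τ : ℂ) := rfl

/-- The generators `j(q^d)` of the function field, as Laurent series over `ℚ̄`. -/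
noncomputable def Jd (d : ℕ) [NeZero d] : LaurentSeries (AlgebraicClosure ℚ) :=
  ModularCurve.coeffEmb (AlgebraicClosure ℚ) (ModularCurve.qExpand ℚ d ModularCurve.jq)

theorem Jd_mem (N : ℕ) {d : ℕ} [NeZero d] (hd : d ∣ N) :
    Jd d ∈ ModularCurve.modularFunctionFieldBar N :=
  ModularCurve.coeffEmb_mem_laurentBaseChange _ (ModularCurve.jqd_mem_full N hd)

/-- `j = j(q)` as an element of the function field. -/
noncomputable def jF (N : ℕ) : ModularCurve.modularFunctionFieldBar N :=
  ⟨Jd 1, Jd_mem N (one_dvd N)⟩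

end Fermat.Agent.S24
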