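import Fermat.Agent.ES.J.Zeros
import Fermat.Agent.ES.LWeight

/-!
# S24: the analytic `j`-function on the upper half plane

`jA = E₄³ / Δ`: invariance, holomorphy, the fibres are the `SL(2,ℤ)`-orbits, surjectivity, the
simple pole at `i∞`, and: every holomorphic `SL(2,ℤ)`-invariant function with a pole of finite
order at `i∞` is a polynomial in `jA`.
-/

set_option autoImplicit false

namespace Fermat.Agent.S24

open UpperHalfPlane hiding I
open Real Complex Filter Function
open ModularForm EisensteinSeries SlashInvariantForm SlashInvariantFormClass ModularFormClass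
open scoped Manifold MatrixGroups ModularForm Topology
open Fermat.Agent.ES

/-- The analytic `j`-function `E₄³ / Δ`. -/
noncomputable def jA (τ : ℍ) : ℂ := E₄ τ ^ 3 / ModularForm.discriminant τ

theorem jA_mul_discriminant (τ : ℍ) : jA τ * ModularForm.discriminant τ = E₄ τ ^ 3 := by
  unfold jA
  field_simp [discriminant_ne_zero τ]

theorem jA_sub_mul_discriminant (τ : ℍ) :
    (jA τ - 1728) * ModularForm.discriminant τ = E₆ τ ^ 2 := by
  rw [sub_mul, jA_mul_discriminant, discriminant_eq_E₄_cube_sub_E₆_sq τ]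
  ring

theorem discriminant_smul (γ : SL(2, ℤ)) (τ : ℍ) :
    ModularForm.discriminant (γ • τ) = denom γ τ ^ (12 : ℤ) * ModularForm.discriminant τ :=
  lweight_smul_apply CuspForm.discriminant γ τ

theorem jA_smul (γ : SL(2, ℤ)) (τ : ℍ) : jA (γ • τ) = jA τ := by
  unfold jA
  have hd : denom γ τ ≠ 0 := denom_ne_zero γ τ
  have h4 : E₄ (γ • τ) = denom γ τ ^ (4 : ℤ) * E₄ τ := levelOne_smul_apply E₄ γ τ
  rw [h4, discriminant_smul]
  have e : (denom γ τ ^ (4 : ℤ) * E₄ τ) ^ 3 = denom γ τ ^ (12 : ℤ) * E₄ τ ^ 3 := by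
    rw [mul_pow, ← zpow_natCast (denom γ τ ^ (4 : ℤ)) 3, ← zpow_mul]
    norm_num
  rw [e, mul_div_mul_left _ _ (zpow_ne_zero _ hd)]

/-- Quotients of holomorphic functions on `ℍ` with nowhere vanishing denominator. -/
theorem mdiff_div {f g : ℍ → ℂ} (hf : MDiff f) (hg : MDiff g) (h0 : ∀ τ, g τ ≠ 0) :
    MDiff (fun τ => f τ / g τ) := by
  rw [UpperHalfPlane.mdifferentiable_iff] at hf hg ⊢
  have e : (fun τ => f τ / g τ) ∘ ofComplex = fun z => (f ∘ ofComplex) z / (g ∘ ofComplex) z :=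
    rfl
  rw [e]
  exact hf.div hg fun z _ => h0 _

theorem mdiff_E₄_cube : MDiff (fun τ : ℍ => E₄ τ ^ 3) := by
  have := holo (E₄.pow 3)
  rwa [ModularForm.coe_pow] at this

theorem mdiff_discriminant : MDiff (ModularForm.discriminant : ℍ → ℂ) := holo CuspForm.discriminant

theorem mdiff_jA : MDiff jA :=
  mdiff_div mdiff_E₄_cube mdiff_discriminant discriminant_ne_zero

/-- The fibres of `jA` are the `SL(2,ℤ)`-orbits. -/
theorem jA_eq_iff (z0 z1 : ℍ) : jA z0 = jA z1 ↔ ∃ g : SL(2, ℤ), g • z0 = z1 := by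
  constructor
  · intro h
    apply j_injective
    have h0 := discriminant_ne_zero z0
    have h1 := discriminant_ne_zero z1
    unfold jA at h
    field_simp at h
    linear_combination h
  · rintro ⟨g, rfl⟩
    exact (jA_smul g z0).symm

/-- `jA` is surjective. -/
theorem jA_surjective : Function.Surjective jA := by
  intro a
  by_contra hne
  push Not at hne
  set h : ℍ → ℂ := fun τ => E₄ τ ^ 3 - a * ModularForm.discriminant τ with hh
  have hh0 : ∀ τ, h τ ≠ 0 := by
    intro τ h0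
    apply hne τ
    have hΔ := discriminant_ne_zero τ
    unfold jA
    rw [div_eq_iff hΔ]
    simp only [hh] at h0
    linear_combination h0
  have hmd : MDiff h := mdiff_E₄_cube.sub (mdiff_discriminant.const_smul a)
  have hlim : Tendsto h atImInfty (𝓝 1) := by
    have := (tendsto_E₄.pow 3).sub (tendsto_discriminant.const_mul a)
    simpa using this
  set F : ℍ → ℂ := fun τ => 1 / h τ with hF
  have hFmd : MDiff F := mdiff_div (f := fun _ => (1 : ℂ)) mdifferentiable_const hmd hh0
  have hFb : IsBoundedAtImInfty F := by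
    have : Tendsto F atImInfty (𝓝 (1 / 1)) := tendsto_const_nhds.div hlim one_ne_zero
    exact this.isBigO_one ℝ
  have hFinv : ∀ γ : SL(2, ℤ), F ∣[(-12 : ℤ)] γ = F := by
    intro γ
    funext τ
    rw [SL_slash_apply]
    have hd : denom γ τ ≠ 0 := denom_ne_zero γ τ
    have h4 : E₄ (γ • τ) = denom γ τ ^ (4 : ℤ) * E₄ τ := levelOne_smul_apply E₄ γ τ
    have e : (denom γ τ ^ (4 : ℤ) * E₄ τ) ^ 3 = denom γ τ ^ (12 : ℤ) * E₄ τ ^ 3 := by
      rw [mul_pow, ← zpow_natCast (denom γ τ ^ (4 : ℤ)) 3, ← zpow_mul]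
      norm_num
    have hhγ : h (γ • τ) = denom γ τ ^ (12 : ℤ) * h τ := by
      simp only [hh]
      rw [h4, e, discriminant_smul]
      ring
    simp only [hF]
    rw [hhγ, neg_neg]
    field_simp [zpow_ne_zero (12 : ℤ) hd, hh0 τ]
  have hF0 := lweight_eq_zero_of_neg (by norm_num : (-12 : ℤ) < 0) F hFmd hFinv hFb
  have := congrFun hF0 UpperHalfPlane.I
  simp only [hF, Pi.zero_apply, one_div, inv_eq_zero] at this
  exact hh0 _ this

/-- `jA` has a simple pole at `i∞` with leading coefficient `1`. -/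
theorem tendsto_jA_mul_q :
    Tendsto (fun τ : ℍ => jA τ * cexp (2 * π * I * τ)) atImInfty (𝓝 1) := by
  have h1 := (tendsto_E₄.pow 3).div lweight_tendsto_discriminant one_ne_zero
  simp only [one_pow, div_one] at h1
  refine h1.congr fun τ => ?_
  unfold jA
  have hΔ := discriminant_ne_zero τ
  have he : cexp (-(2 * π * I * τ)) = (cexp (2 * π * I * τ))⁻¹ := Complex.exp_neg _
  change E₄ τ ^ 3 / (ModularForm.discriminant τ * cexp (-(2 * π * I * τ))) = _
  rw [he]
  field_simp [Complex.exp_ne_zero]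

/-! ### Invariant functions with a pole of finite order at `i∞` are polynomials in `jA` -/

/-- Elements of `monoSpan (12 m)` are of the form `P(jA) · Δ ^ m` with `deg P ≤ m`. -/
theorem monoSpan_eq_poly_jA (m : ℕ) {F : ℍ → ℂ} (hF : F ∈ monoSpan (12 * (m : ℤ))) :
    ∃ P : Polynomial ℂ, P.natDegree ≤ m ∧
      ∀ τ, F τ = P.eval (jA τ) * ModularForm.discriminant τ ^ m := by
  induction hF using Submodule.span_induction with
  | mem F hF =>
    obtain ⟨a, b, hab, rfl⟩ := hF
    obtain ⟨a', rfl⟩ : 3 ∣ a := by omega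
    obtain ⟨b', rfl⟩ : 2 ∣ b := by omega
    have hm : a' + b' = m := by
      push_cast at hab
      omega
    refine ⟨Polynomial.X ^ a' * (Polynomial.X - Polynomial.C 1728) ^ b', ?_, fun τ => ?_⟩
    · calc (Polynomial.X ^ a' * (Polynomial.X - Polynomial.C (1728 : ℂ)) ^ b').natDegree
          ≤ (Polynomial.X ^ a' : Polynomial ℂ).natDegree
            + ((Polynomial.X - Polynomial.C (1728 : ℂ)) ^ b').natDegree :=
            Polynomial.natDegree_mul_le
        _ ≤ a' + b' := by
            refine Nat.add_le_add ?_ ?_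
            · simp
            · refine Polynomial.natDegree_pow_le.trans ?_
              simp
        _ = m := hm
    · simp only [Polynomial.eval_mul, Polynomial.eval_pow, Polynomial.eval_X, Polynomial.eval_sub,
        Polynomial.eval_C]
      rw [← hm, pow_mul, pow_mul, ← jA_mul_discriminant, ← jA_sub_mul_discriminant, mul_pow,
        mul_pow, pow_add]
      ring
  | zero => exact ⟨0, by simp, fun τ => by simp⟩
  | add F G _ _ hF hG =>
    obtain ⟨P, hP, hPF⟩ := hF
    obtain ⟨Q, hQ, hQG⟩ := hG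
    refine ⟨P + Q, (Polynomial.natDegree_add_le _ _).trans (max_le hP hQ), fun τ => ?_⟩
    rw [Pi.add_apply, hPF, hQG, Polynomial.eval_add]
    ring
  | smul c F _ hF =>
    obtain ⟨P, hP, hPF⟩ := hF
    refine ⟨Polynomial.C c * P, (Polynomial.natDegree_C_mul_le _ _).trans hP, fun τ => ?_⟩
    rw [Pi.smul_apply, hPF, Polynomial.eval_mul, Polynomial.eval_C, smul_eq_mul]
    ring

/-- A holomorphic `SL(2,ℤ)`-invariant function `u` on `ℍ` such that `u · Δ ^ m` is bounded at
`i∞` is a polynomial of degree `≤ m` in `jA`. -/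
theorem exists_polynomial_of_invariant {u : ℍ → ℂ} (hu : MDiff u)
    (hinv : ∀ (γ : SL(2, ℤ)) (τ : ℍ), u (γ • τ) = u τ) (m : ℕ)
    (hb : IsBoundedAtImInfty (fun τ => u τ * ModularForm.discriminant τ ^ m)) :
    ∃ P : Polynomial ℂ, P.natDegree ≤ m ∧ ∀ τ, u τ = P.eval (jA τ) := by
  have hslash : ∀ γ : SL(2, ℤ),
      (fun τ => u τ * ModularForm.discriminant τ ^ m) ∣[12 * (m : ℤ)] γ
        = fun τ => u τ * ModularForm.discriminant τ ^ m := by
    intro γ
    funext τ
    rw [SL_slash_apply, hinv, discriminant_smul]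
    have hd : denom γ τ ≠ 0 := denom_ne_zero γ τ
    have e : (denom γ τ ^ (12 : ℤ) * ModularForm.discriminant τ) ^ m
        = denom γ τ ^ (12 * (m : ℤ)) * ModularForm.discriminant τ ^ m := by
      rw [mul_pow, ← zpow_natCast (denom γ τ ^ (12 : ℤ)) m, ← zpow_mul]
    rw [e, zpow_neg]
    field_simp [zpow_ne_zero (12 * (m : ℤ)) hd]
  let G : ModularForm 𝒮ℒ (12 * (m : ℤ)) :=
    { toFun := fun τ => u τ * ModularForm.discriminant τ ^ m
      slash_action_eq' := by
        rintro _ ⟨γ, rfl⟩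
        have := hslash γ
        rwa [SL_slash] at this
      holo' := hu.mul (mdiff_discriminant.pow m)
      bdd_at_cusps' := by
        intro c hc
        rw [OnePoint.isBoundedAt_iff_forall_SL2Z hc]
        intro γ _
        rw [hslash γ]
        exact hb }
  obtain ⟨P, hP, hPG⟩ := monoSpan_eq_poly_jA m (levelOne_mem_monoSpan G)
  refine ⟨P, hP, fun τ => ?_⟩
  have h1 : u τ * ModularForm.discriminant τ ^ m
      = P.eval (jA τ) * ModularForm.discriminant τ ^ m := hPG τ
  exact mul_right_cancel₀ (pow_ne_zero m (discriminant_ne_zero τ)) h1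

/-! ### Orders of vanishing -/

theorem analyticAt_comp_ofComplex {f : ℍ → ℂ} (hf : MDiff f) (z : ℍ) :
    AnalyticAt ℂ (f ∘ ofComplex) (z : ℂ) :=
  DifferentiableOn.analyticAt (UpperHalfPlane.mdifferentiable_iff.mp hf)
    (isOpen_upperHalfPlaneSet.mem_nhds z.im_pos)

/-- `hForm z0` has a zero of order exactly one at each of its zeros. -/
theorem analyticOrderAt_hForm (z0 z : ℍ) (hz : hForm z0 z = 0) :
    analyticOrderAt ((hForm z0 : ℍ → ℂ) ∘ ofComplex) (z : ℂ) = 1 := by
  have han := analyticAt_comp_ofComplex (holo (hForm z0)) z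
  refine han.analyticOrderAt_eq_one_of_zero_deriv_ne_zero ?_ ?_
  · simpa using hz
  · have h1 := hForm_deriv_ne_zero z0 z hz
    intro h0
    apply h1
    change (2 * π * I)⁻¹ * deriv ((hForm z0 : ℍ → ℂ) ∘ ofComplex) (z : ℂ) = 0
    rw [h0, mul_zero]

theorem analyticOrderAt_E₆ {z : ℍ} (hz : E₆ z = 0) :
    analyticOrderAt ((E₆ : ℍ → ℂ) ∘ ofComplex) (z : ℂ) = 1 := by
  have h := analyticOrderAt_hForm z z (hForm_self z)
  rwa [hForm_coe_of_E₆ hz] at h

theorem analyticOrderAt_E₄ {z : ℍ} (hz : E₄ z = 0) :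
    analyticOrderAt ((E₄ : ℍ → ℂ) ∘ ofComplex) (z : ℂ) = 1 := by
  have h := analyticOrderAt_hForm z z (hForm_self z)
  rwa [hForm_coe_of_E₄ hz] at h

theorem analyticOrderAt_discriminant (z : ℍ) :
    analyticOrderAt ((ModularForm.discriminant : ℍ → ℂ) ∘ ofComplex) (z : ℂ) = 0 := by
  rw [analyticOrderAt_eq_zero]
  right
  simpa using discriminant_ne_zero z

/-- The ramification index of `jA` at `z0`: `2` on the orbit of `i`, `3` on the orbit of `ρ`,
and `1` elsewhere. -/
noncomputable def ramIdx (z0 : ℍ) : ℕ := if E₆ z0 = 0 then 2 else if E₄ z0 = 0 then 3 else 1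

theorem ramIdx_pos (z0 : ℍ) : 0 < ramIdx z0 := by
  unfold ramIdx
  split_ifs <;> norm_num

/-- `jA - jA z0` vanishes at `z0` to order exactly `ramIdx z0`. -/
theorem analyticOrderAt_jA_sub (z0 : ℍ) :
    analyticOrderAt (fun w : ℂ => jA (ofComplex w) - jA z0) (z0 : ℂ) = (ramIdx z0 : ℕ∞) := by
  have hΔan := analyticAt_comp_ofComplex mdiff_discriminant z0
  have hjan : AnalyticAt ℂ (fun w : ℂ => jA (ofComplex w) - jA z0) (z0 : ℂ) :=
    (analyticAt_comp_ofComplex mdiff_jA z0).sub analyticAt_const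
  have hmul := analyticOrderAt_mul hjan hΔan
  rw [analyticOrderAt_discriminant, add_zero] at hmul
  rw [← hmul]
  by_cases h6 : E₆ z0 = 0
  · -- `(jA - 1728) Δ = E₆²`
    have hj0 : jA z0 = 1728 := by
      have := jA_sub_mul_discriminant z0
      rw [h6] at this
      have h3 : (jA z0 - 1728) * ModularForm.discriminant z0 = 0 := by
        rw [this]
        ring
      have h2 : jA z0 - 1728 = 0 := by
        rcases mul_eq_zero.mp h3 with h | h
        · exact h
        · exact absurd h (discriminant_ne_zero z0)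
      linear_combination h2
    have e : (fun w : ℂ => jA (ofComplex w) - jA z0)
        * ((ModularForm.discriminant : ℍ → ℂ) ∘ ofComplex) = ((E₆ : ℍ → ℂ) ∘ ofComplex) ^ 2 := by
      funext w
      simp only [Pi.mul_apply, comp_apply, Pi.pow_apply]
      rw [hj0, jA_sub_mul_discriminant]
    rw [e, analyticOrderAt_pow (analyticAt_comp_ofComplex (holo E₆) z0), analyticOrderAt_E₆ h6]
    simp [ramIdx, h6]
  by_cases h4 : E₄ z0 = 0
  · have hj0 : jA z0 = 0 := by
      unfold jA
      rw [h4]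
      simp
    have e : (fun w : ℂ => jA (ofComplex w) - jA z0)
        * ((ModularForm.discriminant : ℍ → ℂ) ∘ ofComplex) = ((E₄ : ℍ → ℂ) ∘ ofComplex) ^ 3 := by
      funext w
      simp only [Pi.mul_apply, comp_apply, Pi.pow_apply]
      rw [hj0, sub_zero, jA_mul_discriminant]
    rw [e, analyticOrderAt_pow (analyticAt_comp_ofComplex (holo E₄) z0), analyticOrderAt_E₄ h4]
    simp [ramIdx, h6, h4]
  · have e : (fun w : ℂ => jA (ofComplex w) - jA z0)
        * ((ModularForm.discriminant : ℍ → ℂ) ∘ ofComplex)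
        = (fun _ : ℂ => (ModularForm.discriminant z0)⁻¹) * ((hForm z0 : ℍ → ℂ) ∘ ofComplex) := by
      funext w
      simp only [Pi.mul_apply, comp_apply]
      rw [hForm_apply_of_ne h6 h4, sub_mul, jA_mul_discriminant]
      unfold jA
      field_simp [discriminant_ne_zero z0]
    have hc : AnalyticAt ℂ (fun _ : ℂ => (ModularForm.discriminant z0)⁻¹) (z0 : ℂ) :=
      analyticAt_const
    have hc0 : analyticOrderAt (fun _ : ℂ => (ModularForm.discriminant z0)⁻¹) (z0 : ℂ) = 0 := by
      rw [analyticOrderAt_eq_zero]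
      right
      exact inv_ne_zero (discriminant_ne_zero z0)
    rw [e, analyticOrderAt_mul hc (analyticAt_comp_ofComplex (holo (hForm z0)) z0), hc0, zero_add,
      analyticOrderAt_hForm z0 z0 (hForm_self z0)]
    simp [ramIdx, h6, h4]

/-! ### Elliptic points and stabilisers -/

theorem exists_smul_I_of_E₆ {z0 : ℍ} (h0 : E₆ z0 = 0) :
    ∃ g : SL(2, ℤ), g • UpperHalfPlane.I = z0 := by
  apply (hForm_eq_zero_iff UpperHalfPlane.I z0).mp
  rw [congrFun (hForm_coe_of_E₆ E₆_I) z0]
  exact h0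

theorem exists_smul_ρ_of_E₄ {z0 : ℍ} (h0 : E₄ z0 = 0) : ∃ g : SL(2, ℤ), g • ρ = z0 := by
  apply (hForm_eq_zero_iff ρ z0).mp
  rw [congrFun (hForm_coe_of_E₄ E₄_ρ) z0]
  exact h0

open scoped Modular in
/-- Away from the orbits of `i` and `ρ` the stabiliser in `SL(2,ℤ)` is `{±1}`. -/
theorem stabilizer_of_generic {z0 : ℍ} (h4 : E₄ z0 ≠ 0) (h6 : E₆ z0 ≠ 0) {g : SL(2, ℤ)}
    (hg : g • z0 = z0) : g = 1 ∨ g = -1 := by
  obtain ⟨γ, hγ⟩ := ModularGroup.exists_smul_mem_fd z0
  have hfix : (γ * g * γ⁻¹) • (γ • z0) = γ • z0 := by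
    rw [← mul_smul, inv_mul_cancel_right, mul_smul, hg]
  have h4' : E₄ (γ • z0) ≠ 0 := fun h => h4 ((levelOne_smul_eq_zero_iff E₄ γ z0).mp h)
  have h6' : E₆ (γ • z0) ≠ 0 := fun h => h6 ((levelOne_smul_eq_zero_iff E₆ γ z0).mp h)
  have hI : γ • z0 ≠ UpperHalfPlane.I := fun h => h6' (h ▸ E₆_I)
  have hρ : γ • z0 ≠ ρ := fun h => h4' (h ▸ E₄_ρ)
  have hρ' : γ • z0 ≠ (1 : ℝ) +ᵥ ρ := by
    intro h
    apply h4'
    rw [h, ← modular_T_smul, levelOne_smul_eq_zero_iff]
    exact E₄_ρ
  rcases ModularGroup.stabilizer_of_ne hγ hfix hI hρ hρ' with h | h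
  · left
    have : g = γ⁻¹ * (γ * g * γ⁻¹) * γ := by group
    rw [this, h]
    group
  · right
    have : g = γ⁻¹ * (γ * g * γ⁻¹) * γ := by group
    rw [this, h]
    simp

end Fermat.Agent.S24
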