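import Mathlib
import Fermat.Agent.S24.Defs
import Fermat.Agent.S24.JAnalytic
import Fermat.Agent.S24.BridgeField
import Fermat.Prelude.Thm_ModularCurve_coeff_jqModC_pow_self
import Fermat.Prelude.Thm_ModularCurve_coeff_jqModC_pow_of_lt

/-!
# Project S24: the bridge between the formal function field and functions on `ℍ`

`RN N = ℚ̄[j(q^d) : d ∣ N] ⊂ ℚ̄((q))`, its fraction field is `modularFunctionFieldBar N`, and
`ev N : RN N →+* (ℍ → ℂ)` is the injective ring hom with `ev (j(q^d)) = (τ ↦ jA (d τ))`.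
-/

set_option autoImplicit false

noncomputable section

namespace Fermat.Agent.S24

open UpperHalfPlane ModularCurve Filter Topology
open scoped Manifold

/-- The `ℚ̄`-algebra generated by the `j(q^d)`, `d ∣ N`. -/
def RN (N : ℕ) : Subalgebra (AlgebraicClosure ℚ) (LaurentSeries (AlgebraicClosure ℚ)) :=
  Algebra.adjoin (AlgebraicClosure ℚ) {x | ∃ (d : ℕ) (_ : NeZero d), d ∣ N ∧ x = Jd d}

theorem RN_eq_jAlg (N : ℕ) : RN N = S24B.jAlg N := rfl

theorem Jd_mem_RN {N d : ℕ} [NeZero d] (hd : d ∣ N) : Jd d ∈ RN N :=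
  Algebra.subset_adjoin ⟨d, ‹_›, hd, rfl⟩

theorem RN_le_toSubalgebra (N : ℕ) [NeZero N] :
    RN N ≤ (modularFunctionFieldBar N).toSubalgebra := S24B.jAlg_le N

theorem RN_le (N : ℕ) [NeZero N] :
    ∀ r ∈ RN N, r ∈ modularFunctionFieldBar N := fun _ hr => RN_le_toSubalgebra N hr

instance instAlgebraRN (N : ℕ) [NeZero N] : Algebra (RN N) (modularFunctionFieldBar N) :=
  (Subalgebra.inclusion (RN_le_toSubalgebra N)).toAlgebra

@[simp]
theorem coe_algebraMap_RN (N : ℕ) [NeZero N] (r : RN N) :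
    ((algebraMap (RN N) (modularFunctionFieldBar N) r : modularFunctionFieldBar N) :
      LaurentSeries (AlgebraicClosure ℚ)) = r := rfl

theorem algebraMap_RN_eq (N : ℕ) [NeZero N] (r : RN N) :
    algebraMap (RN N) (modularFunctionFieldBar N) r = ⟨r, RN_le N r r.2⟩ := rfl

instance instIsScalarTowerRN (N : ℕ) [NeZero N] :
    IsScalarTower (AlgebraicClosure ℚ) (RN N) (modularFunctionFieldBar N) :=
  IsScalarTower.of_algebraMap_eq fun _ => rfl

instance instFaithfulSMulRN (N : ℕ) [NeZero N] :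
    FaithfulSMul (RN N) (modularFunctionFieldBar N) :=
  Subalgebra.inclusion.faithfulSMul (RN_le_toSubalgebra N)

/-- Every element of the function field is a quotient of two elements of `RN N`. -/
theorem exists_div_RN (N : ℕ) [NeZero N] (f : modularFunctionFieldBar N) :
    ∃ r s : RN N, s ≠ 0 ∧ f = algebraMap (RN N) (modularFunctionFieldBar N) r
      / algebraMap (RN N) (modularFunctionFieldBar N) s := by
  obtain ⟨r, hr, s, hs, hs0, h⟩ := S24B.exists_div_of_mem N f.2
  refine ⟨⟨r, hr⟩, ⟨s, hs⟩, fun h0 => hs0 (congrArg Subtype.val h0), ?_⟩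
  apply Subtype.ext
  rw [h]
  rfl

instance instIsFractionRingRN (N : ℕ) [NeZero N] :
    IsFractionRing (RN N) (modularFunctionFieldBar N) :=
  IsFractionRing.of_field _ _ fun f => by
    obtain ⟨r, s, _, h⟩ := exists_div_RN N f
    exact ⟨r, s, h⟩

/-- The bridge: elements of `RN N` as holomorphic functions on the upper half plane. -/
def ev (N : ℕ) : RN N →+* (ℍ → ℂ) := S24B.bridge iotaK N

/-- `coeffMap iotaK r ∈ ℂ((q))` is the Laurent `q`-expansion of `ev N r`. -/
theorem ev_isLaurentOf (N : ℕ) (r : RN N) :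
    S24B.IsLaurentOf (coeffMap iotaK (r : LaurentSeries (AlgebraicClosure ℚ))) (ev N r) :=
  S24B.bridge_spec iotaK N r

theorem ev_eq_of_isLaurentOf {N : ℕ} (r : RN N) {f : ℍ → ℂ}
    (hf : S24B.IsLaurentOf (coeffMap iotaK (r : LaurentSeries (AlgebraicClosure ℚ))) f) :
    ev N r = f :=
  S24B.bridge_eq_of_isLaurentOf iotaK r hf

theorem ev_mdiff (N : ℕ) (r : RN N) : MDiff (ev N r) := S24B.bridge_mdiff iotaK N r

theorem ev_injective (N : ℕ) : Function.Injective (ev N) := S24B.bridge_injective iotaK N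

theorem ev_algebraMap (N : ℕ) (c : AlgebraicClosure ℚ) :
    ev N (algebraMap (AlgebraicClosure ℚ) (RN N) c) = fun _ => iotaK c :=
  S24B.bridge_algebraMap iotaK N c

theorem ev_Jd {N d : ℕ} [NeZero d] (hd : d ∣ N) :
    ev N ⟨Jd d, Jd_mem_RN hd⟩ = fun τ => jA (scaleH d τ) :=
  S24B.bridge_gen iotaK hd (D := scaleH d) (coe_scaleH d)

/-- All `ev N r` are `1`-periodic. -/
theorem ev_vadd (N : ℕ) (r : RN N) (τ : ℍ) : ev N r ((1 : ℝ) +ᵥ τ) = ev N r τ :=
  S24B.bridge_vadd iotaK N r τ

/-- All `ev N r` are meromorphic at `i∞`. -/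
theorem ev_bounded (N : ℕ) (r : RN N) :
    ∃ m : ℕ, IsBoundedAtImInfty (fun τ => ev N r τ * ModularForm.discriminant τ ^ m) := by
  obtain ⟨m, h, -⟩ := ev_isLaurentOf N r
  refine ⟨m, ?_⟩
  have h2 : S24B.IsQHol ((S24B.qFun ^ m * ev N r) * S24B.etaFun ^ (24 * m)) :=
    h.mul (S24B.etaFun_isQHol.pow _)
  have e : (fun τ => ev N r τ * ModularForm.discriminant τ ^ m)
      = (S24B.qFun ^ m * ev N r) * S24B.etaFun ^ (24 * m) := by
    funext τ
    simp only [Pi.mul_apply, Pi.pow_apply, S24B.discriminant_eq_qFun_mul, mul_pow, pow_mul]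
    ring
  rw [e]
  exact h2.bdd

/-- Extension of an injective ring hom on `RN N` to the function field. -/
theorem exists_lift (N : ℕ) [NeZero N] {L : Type} [Field L] (θ : RN N →+* L)
    (hθ : Function.Injective θ) :
    ∃ σ : modularFunctionFieldBar N →+* L, ∀ r : RN N, σ ⟨r, RN_le N r r.2⟩ = θ r :=
  ⟨IsFractionRing.lift hθ, fun r => IsFractionRing.lift_algebraMap hθ r⟩

/-- GRAPH: `ℂ`-linear relations between the functions `ev N r` are the same as `ℂ`-linear
relations between the Laurent series `coeffMap iotaK r`. -/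
theorem ev_isLaurentOf_sum (N : ℕ) {ι : Type*} (s : Finset ι) (c : ι → ℂ) (r : ι → RN N) :
    S24B.IsLaurentOf
      (∑ i ∈ s, HahnSeries.C (c i) * coeffMap iotaK (r i : LaurentSeries (AlgebraicClosure ℚ)))
      (∑ i ∈ s, (fun _ : ℍ => c i) * ev N (r i)) := by
  classical
  induction s using Finset.induction_on with
  | empty => simpa using S24B.IsLaurentOf.zero
  | insert a s ha ih =>
    rw [Finset.sum_insert ha, Finset.sum_insert ha]
    exact ((S24B.IsLaurentOf.const (c a)).mul (ev_isLaurentOf N (r a))).add ih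

theorem ev_sum_eq_zero_iff (N : ℕ) {ι : Type*} (s : Finset ι) (c : ι → ℂ) (r : ι → RN N) :
    (∑ i ∈ s, (fun _ : ℍ => c i) * ev N (r i)) = 0 ↔
      ∑ i ∈ s, HahnSeries.C (c i) * coeffMap iotaK (r i : LaurentSeries (AlgebraicClosure ℚ))
        = 0 :=
  (ev_isLaurentOf_sum N s c r).eq_zero_iff.symm

/-! ### Transcendence of `j` -/

theorem Jd_one_eq : Jd 1 = jqModC (AlgebraicClosure ℚ) := by
  rw [Jd, qExpand_one_apply, ← jqModC_rat]
  exact map_jqModC _

theorem aeval_jqModC_ne_zero {K : Type*} [Field K] {p : Polynomial K} (hp : p ≠ 0) :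
    Polynomial.aeval (jqModC K) p ≠ 0 := by
  intro h
  have hc : ∀ (c : K) (y : LaurentSeries K) (m : ℤ),
      (algebraMap K (LaurentSeries K) c * y).coeff m = c * y.coeff m := by
    intro c y m
    rw [algebraMap_laurentSeries_eq_single, HahnSeries.coeff_single_mul, sub_zero]
  have h1 : (Polynomial.aeval (jqModC K) p).coeff (-(p.natDegree : ℤ)) = p.leadingCoeff := by
    rw [Polynomial.aeval_def, Polynomial.eval₂_eq_sum_range, HahnSeries.coeff_sum,
      Finset.sum_range_succ]
    have hlt : ∀ k ∈ Finset.range p.natDegree,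
        (algebraMap K (LaurentSeries K) (p.coeff k) * jqModC K ^ k).coeff (-(p.natDegree : ℤ))
          = 0 := by
      intro k hk
      rw [hc, coeff_jqModC_pow_of_lt K (by
        have := Finset.mem_range.mp hk
        omega), mul_zero]
    rw [Finset.sum_eq_zero hlt, zero_add, hc, coeff_jqModC_pow_self, mul_one]
    rfl
  rw [h, HahnSeries.coeff_zero] at h1
  exact hp (Polynomial.leadingCoeff_eq_zero.mp h1.symm)

theorem transcendental_jF (N : ℕ) [NeZero N] : Transcendental (AlgebraicClosure ℚ) (jF N) := by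
  have h1 : Transcendental (AlgebraicClosure ℚ) (Jd 1) := by
    rw [Jd_one_eq]
    intro ⟨p, hp, hp0⟩
    exact aeval_jqModC_ne_zero hp hp0
  intro h
  apply h1
  have := h.algebraMap (A := LaurentSeries (AlgebraicClosure ℚ))
  exact this

end Fermat.Agent.S24
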