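import Fermat.Agent.S24.JAnalytic
import Fermat.Agent.S23.Scale
import Fermat.Agent.ES.Defs

/-!
# S24: the functions `j(dτ)` and their conjugates (analytic side)

* `jS d τ = jA (d τ)`; it is holomorphic and `Γ₀(N)`-invariant for `d ∣ N`;
* growth of all `SL(2,ℤ)`-translates at `i∞`;
* the stabiliser of `jS N` in `SL(2,ℤ)` is exactly `Γ₀(N)`;
* `ModFun N`: holomorphic `Γ₀(N)`-invariant functions of moderate growth at all cusps; the
  elementary symmetric functions of the conjugates of such a function are polynomials in `jA`.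
-/

set_option autoImplicit false

namespace Fermat.Agent.S24

open UpperHalfPlane hiding I
open Real Complex Filter Function
open ModularForm EisensteinSeries SlashInvariantForm SlashInvariantFormClass ModularFormClass
open scoped Manifold MatrixGroups ModularForm Topology
open Fermat.Agent.ES

noncomputable section

/-- The function `τ ↦ j(dτ)`. -/
def jS (d : ℕ) (τ : ℍ) : ℂ := jA (heckeDiagMatrix d • τ)

theorem mdiff_jS (d : ℕ) : MDiff (jS d) :=
  mdiff_jA.comp (UpperHalfPlane.mdifferentiable_smul (det_heckeDiagMatrix_pos d))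

theorem jS_one (τ : ℍ) : jS 1 τ = jA τ := by
  unfold jS
  congr 1
  apply UpperHalfPlane.ext
  rw [coe_heckeDiagMatrix_smul one_ne_zero]
  simp

/-- `jS d` is invariant under `Γ₀(d)`. -/
theorem jS_smul_of_mem_Gamma0 (d : ℕ) [NeZero d] {γ : SL(2, ℤ)}
    (hγ : γ ∈ CongruenceSubgroup.Gamma0 d) (τ : ℍ) : jS d (γ • τ) = jS d τ := by
  have h1 := S23.Scale.Gamma0_le_conj d (Subgroup.mem_map_of_mem _ hγ)
  rw [Subgroup.mem_pointwise_smul_iff_inv_smul_mem, ← ConjAct.toConjAct_inv, inv_inv,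
    ConjAct.toConjAct_smul] at h1
  obtain ⟨γ', hγ'⟩ := h1
  have h2 : heckeDiagMatrix d * (Matrix.SpecialLinearGroup.mapGL ℝ γ : GL (Fin 2) ℝ) =
      (Matrix.SpecialLinearGroup.mapGL ℝ γ' : GL (Fin 2) ℝ) * heckeDiagMatrix d := by
    have h3 : (Matrix.SpecialLinearGroup.mapGL ℝ γ' : GL (Fin 2) ℝ) =
        heckeDiagMatrix d * (Matrix.SpecialLinearGroup.mapGL ℝ γ : GL (Fin 2) ℝ) *
          (heckeDiagMatrix d)⁻¹ := hγ'
    rw [h3]
    group
  unfold jS
  have h4 : heckeDiagMatrix d • (γ • τ) = γ' • (heckeDiagMatrix d • τ) := by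
    change heckeDiagMatrix d • ((Matrix.SpecialLinearGroup.mapGL ℝ γ : GL (Fin 2) ℝ) • τ) =
      (Matrix.SpecialLinearGroup.mapGL ℝ γ' : GL (Fin 2) ℝ) • (heckeDiagMatrix d • τ)
    rw [← mul_smul, ← mul_smul, h2]
  rw [h4, jA_smul]

theorem Gamma0_le_of_dvd {d N : ℕ} (hd : d ∣ N) :
    CongruenceSubgroup.Gamma0 N ≤ CongruenceSubgroup.Gamma0 d := by
  intro γ hγ
  rw [CongruenceSubgroup.Gamma0_mem] at hγ ⊢
  have h1 : (N : ℤ) ∣ γ 1 0 := (ZMod.intCast_zmod_eq_zero_iff_dvd _ _).mp hγ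
  exact (ZMod.intCast_zmod_eq_zero_iff_dvd _ _).mpr
    (dvd_trans (Int.natCast_dvd_natCast.mpr hd) h1)

theorem jS_smul_of_dvd {d N : ℕ} [NeZero N] (hd : d ∣ N) {γ : SL(2, ℤ)}
    (hγ : γ ∈ CongruenceSubgroup.Gamma0 N) (τ : ℍ) : jS d (γ • τ) = jS d τ := by
  have : NeZero d := ⟨fun h => NeZero.ne N (by rw [h] at hd; exact Nat.eq_zero_of_zero_dvd hd)⟩
  exact jS_smul_of_mem_Gamma0 d (Gamma0_le_of_dvd hd hγ) τ

/-! ### Growth at `i∞` -/

theorem norm_exp_two_pi_I_mul (τ : ℍ) :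
    ‖cexp (2 * π * I * τ)‖ = Real.exp (-(2 * π * τ.im)) := by
  rw [Complex.norm_exp]
  congr 1
  have : (2 * π * I * (τ : ℂ)).re = -(2 * π * (τ : ℂ).im) := by
    simp [Complex.mul_re, Complex.mul_im]
  rw [this, UpperHalfPlane.coe_im]

/-- upper and lower exponential bounds for `jA` near `i∞` -/
theorem exists_jA_bounds :
    ∃ A : ℝ, ∀ τ : ℍ, A ≤ τ.im →
      ‖jA τ‖ ≤ 2 * Real.exp (2 * π * τ.im) ∧ Real.exp (2 * π * τ.im) ≤ 2 * ‖jA τ‖ := by
  have h1 : ∀ᶠ τ : ℍ in atImInfty, ‖jA τ * cexp (2 * π * I * τ) - 1‖ < 1 / 2 := by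
    have := tendsto_jA_mul_q
    rw [Metric.tendsto_nhds] at this
    have h2 := this (1 / 2) (by norm_num)
    simpa [dist_eq_norm] using h2
  obtain ⟨A, hA⟩ := (UpperHalfPlane.atImInfty_mem _).mp h1
  refine ⟨A, fun τ hτ => ?_⟩
  have h3 : ‖jA τ * cexp (2 * π * I * τ) - 1‖ < 1 / 2 := hA τ hτ
  have h4 : ‖jA τ * cexp (2 * π * I * τ)‖ ≤ 3 / 2 := by
    have := norm_sub_norm_le (jA τ * cexp (2 * π * I * τ)) 1
    rw [norm_one] at this
    linarith
  have h5 : 1 / 2 ≤ ‖jA τ * cexp (2 * π * I * τ)‖ := by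
    have := norm_sub_norm_le (1 : ℂ) (jA τ * cexp (2 * π * I * τ))
    rw [norm_one, norm_sub_rev] at this
    linarith
  rw [norm_mul, norm_exp_two_pi_I_mul] at h4 h5
  have he : Real.exp (-(2 * π * τ.im)) * Real.exp (2 * π * τ.im) = 1 := by
    rw [← Real.exp_add]; simp
  have hpos := Real.exp_pos (2 * π * τ.im)
  have hpos' := Real.exp_pos (-(2 * π * τ.im))
  constructor
  · have : ‖jA τ‖ = ‖jA τ‖ * Real.exp (-(2 * π * τ.im)) * Real.exp (2 * π * τ.im) := by
      rw [mul_assoc, he, mul_one]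
    rw [this]
    nlinarith
  · have : ‖jA τ‖ = ‖jA τ‖ * Real.exp (-(2 * π * τ.im)) * Real.exp (2 * π * τ.im) := by
      rw [mul_assoc, he, mul_one]
    rw [this]
    nlinarith

/-- Hermite form of the translates: `jS d (γ • τ) = jA ((e τ + B) / D)` with `e D = d`. -/
theorem exists_jS_smul_eq (d : ℕ) [NeZero d] (γ : SL(2, ℤ)) :
    ∃ (e B D : ℤ), 0 < e ∧ 0 < D ∧ e * D = d ∧ (D = 1 → (d : ℤ) ∣ γ 1 0) ∧
      ∃ had : ((e : ℝ) * (D : ℝ)) ≠ 0, ∀ τ : ℍ,
        jS d (γ • τ) = jA (upperTriangularGL (e : ℝ) (B : ℝ) (D : ℝ) had • τ) := by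
  obtain ⟨γ', e, B, D, he, hD, heD, hD1, had, hmat⟩ := S23.Scale.exists_hermite d γ
  refine ⟨e, B, D, he, hD, heD, hD1, had, fun τ => ?_⟩
  unfold jS
  have h4 : heckeDiagMatrix d • (γ • τ) =
      γ' • (upperTriangularGL (e : ℝ) (B : ℝ) (D : ℝ) had • τ) := by
    change heckeDiagMatrix d • ((Matrix.SpecialLinearGroup.mapGL ℝ γ : GL (Fin 2) ℝ) • τ) =
      (Matrix.SpecialLinearGroup.mapGL ℝ γ' : GL (Fin 2) ℝ) •
        (upperTriangularGL (e : ℝ) (B : ℝ) (D : ℝ) had • τ)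
    rw [← mul_smul, ← mul_smul, hmat]
  rw [h4, jA_smul]

/-- Every `SL(2,ℤ)`-translate of `jS d` has a pole of order at most `d` (in `q`) at `i∞`. -/
theorem isBoundedAtImInfty_jS_smul (d : ℕ) [NeZero d] (γ : SL(2, ℤ)) :
    IsBoundedAtImInfty (fun τ => jS d (γ • τ) * ModularForm.discriminant τ ^ d) := by
  obtain ⟨e, B, D, he, hD, heD, -, had, hτ⟩ := exists_jS_smul_eq d γ
  obtain ⟨A, hA⟩ := exists_jA_bounds
  obtain ⟨C₁, C₂, A', hC₁, hC₂, hb⟩ := S23.Scale.exists_discriminant_bounds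
  have heR : (0 : ℝ) < e := by exact_mod_cast he
  have hDR : (0 : ℝ) < D := by exact_mod_cast hD
  have hdR : (d : ℝ) = e * D := by exact_mod_cast heD.symm
  have hD1 : (1 : ℝ) ≤ D := by
    have : (1 : ℤ) ≤ D := by omega
    exact_mod_cast this
  rw [UpperHalfPlane.isBoundedAtImInfty_iff]
  refine ⟨2 * C₂ ^ d, max (A * D / e) A', fun τ hτ' => ?_⟩
  have h1 : A * D / e ≤ τ.im := (le_max_left _ _).trans hτ'
  have h2 : A' ≤ τ.im := (le_max_right _ _).trans hτ'
  have h3 := (hA (upperTriangularGL (e : ℝ) (B : ℝ) (D : ℝ) had • τ) (by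
    rw [S23.Scale.im_upperTriangularGL_smul heR hDR, le_div_iff₀ hDR]
    rw [div_le_iff₀ heR] at h1
    linarith)).1
  rw [S23.Scale.im_upperTriangularGL_smul heR hDR] at h3
  have h4 := (hb τ h2).2
  rw [hτ τ, norm_mul, norm_pow]
  have h5 : ‖ModularForm.discriminant τ‖ ^ d ≤ (C₂ * Real.exp (-2 * π * τ.im)) ^ d :=
    pow_le_pow_left₀ (norm_nonneg _) h4 d
  have h6 : (C₂ * Real.exp (-2 * π * τ.im)) ^ d = C₂ ^ d * Real.exp (-2 * π * τ.im * d) := by
    rw [mul_pow, ← Real.exp_nat_mul]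
    congr 2
    ring
  have him := τ.im_pos
  have h7 : Real.exp (2 * π * (e * τ.im / D)) * Real.exp (-2 * π * τ.im * d) ≤ 1 := by
    rw [← Real.exp_add, Real.exp_le_one_iff, hdR]
    have h8 : e * τ.im / D ≤ e * τ.im * D := by
      rw [div_le_iff₀ hDR]
      have h9 : 0 ≤ e * τ.im := by positivity
      have hDD : 1 ≤ (D : ℝ) * D := by nlinarith
      have h10 := mul_le_mul_of_nonneg_left hDD h9
      linarith
    have : 2 * π * (e * τ.im / D) ≤ 2 * π * (e * τ.im * D) :=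
      mul_le_mul_of_nonneg_left h8 (by positivity)
    linarith
  calc ‖jA (upperTriangularGL (e : ℝ) (B : ℝ) (D : ℝ) had • τ)‖ * ‖ModularForm.discriminant τ‖ ^ d
      ≤ (2 * Real.exp (2 * π * (e * τ.im / D))) * (C₂ ^ d * Real.exp (-2 * π * τ.im * d)) := by
        refine mul_le_mul h3 (h5.trans h6.le) (by positivity) (by positivity)
    _ = 2 * C₂ ^ d * (Real.exp (2 * π * (e * τ.im / D)) * Real.exp (-2 * π * τ.im * d)) := by
        ring
    _ ≤ 2 * C₂ ^ d * 1 := by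
        refine mul_le_mul_of_nonneg_left h7 (by positivity)
    _ = 2 * C₂ ^ d := mul_one _

/-- The stabiliser of `jS N` in `SL(2,ℤ)` is contained in `Γ₀(N)`. -/
theorem mem_Gamma0_of_jS_smul (N : ℕ) [NeZero N] (γ : SL(2, ℤ))
    (h : ∀ τ : ℍ, jS N (γ • τ) = jS N τ) : γ ∈ CongruenceSubgroup.Gamma0 N := by
  obtain ⟨e, B, D, he, hD, heD, hD1, had, hτ⟩ := exists_jS_smul_eq N γ
  obtain ⟨A, hA⟩ := exists_jA_bounds
  have hN : N ≠ 0 := NeZero.ne N
  have heR : (0 : ℝ) < e := by exact_mod_cast he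
  have hDR : (0 : ℝ) < D := by exact_mod_cast hD
  have hNR : (N : ℝ) = e * D := by exact_mod_cast heD.symm
  have hNpos : (0 : ℝ) < N := by rw [hNR]; exact mul_pos heR hDR
  rw [CongruenceSubgroup.Gamma0_mem]
  refine (ZMod.intCast_zmod_eq_zero_iff_dvd _ _).mpr (hD1 ?_)
  by_contra hne
  have hD2 : (2 : ℝ) ≤ D := by
    have : (2 : ℤ) ≤ D := by omega
    exact_mod_cast this
  obtain ⟨δ, hδ⟩ : ∃ δ : ℝ, δ = N - e / D := ⟨_, rfl⟩
  have hδpos : 0 < δ := by
    rw [hδ, hNR]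
    have : (e : ℝ) / D < e * D := by
      rw [div_lt_iff₀ hDR]
      nlinarith
    linarith
  have key : ∀ y : ℝ, 0 < y → A * D / e ≤ y → A / N ≤ y →
      Real.exp (2 * π * δ * y) ≤ 4 := by
    intro y hy hy1 hy2
    let τ : ℍ := ⟨⟨0, y⟩, hy⟩
    have him : τ.im = y := rfl
    have h1 := (hA (upperTriangularGL (e : ℝ) (B : ℝ) (D : ℝ) had • τ) (by
      rw [S23.Scale.im_upperTriangularGL_smul heR hDR, him, le_div_iff₀ hDR]
      rw [div_le_iff₀ heR] at hy1
      linarith)).1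
    have h2 := (hA (heckeDiagMatrix N • τ) (by
      rw [S23.Scale.im_heckeDiagMatrix_smul hN, him]
      rw [div_le_iff₀ hNpos] at hy2
      linarith)).2
    rw [S23.Scale.im_upperTriangularGL_smul heR hDR, him, ← hτ τ, h τ] at h1
    rw [S23.Scale.im_heckeDiagMatrix_smul hN, him] at h2
    have h3 : Real.exp (2 * π * (N * y)) ≤ 4 * Real.exp (2 * π * (e * y / D)) := by
      have : ‖jS N τ‖ = ‖jA (heckeDiagMatrix N • τ)‖ := rfl
      rw [this] at h1
      linarith
    have h4 : Real.exp (2 * π * δ * y) =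
        Real.exp (2 * π * (N * y)) * Real.exp (-(2 * π * (e * y / D))) := by
      rw [← Real.exp_add, hδ]
      congr 1
      field_simp
      ring
    rw [h4]
    calc Real.exp (2 * π * (N * y)) * Real.exp (-(2 * π * (e * y / D)))
        ≤ 4 * Real.exp (2 * π * (e * y / D)) * Real.exp (-(2 * π * (e * y / D))) :=
          mul_le_mul_of_nonneg_right h3 (Real.exp_pos _).le
      _ = 4 := by
          rw [mul_assoc, ← Real.exp_add]
          simp
  have hπ : 0 < 2 * π * δ := by positivity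
  obtain ⟨y, hy⟩ : ∃ y : ℝ, y = max (max 1 (A * D / e)) (max (A / N) (4 / (2 * π * δ))) :=
    ⟨_, rfl⟩
  have hy0 : 0 < y := by
    rw [hy]
    exact lt_of_lt_of_le one_pos ((le_max_left _ _).trans (le_max_left _ _))
  have hy1 : A * D / e ≤ y := by
    rw [hy]
    exact (le_max_right _ _).trans (le_max_left _ _)
  have hy2 : A / N ≤ y := by
    rw [hy]
    exact (le_max_left _ _).trans (le_max_right _ _)
  have hy3 : 4 / (2 * π * δ) ≤ y := by
    rw [hy]
    exact (le_max_right _ _).trans (le_max_right _ _)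
  have h5 := key y hy0 hy1 hy2
  have h6 : 2 * π * δ * y + 1 ≤ Real.exp (2 * π * δ * y) := Real.add_one_le_exp _
  rw [div_le_iff₀ hπ] at hy3
  linarith

/-- The stabiliser of `jS N` in `SL(2,ℤ)` is exactly `Γ₀(N)`. -/
theorem jS_smul_iff (N : ℕ) [NeZero N] (γ : SL(2, ℤ)) :
    (∀ τ : ℍ, jS N (γ • τ) = jS N τ) ↔ γ ∈ CongruenceSubgroup.Gamma0 N :=
  ⟨mem_Gamma0_of_jS_smul N γ, fun h τ => jS_smul_of_mem_Gamma0 N h τ⟩

/-! ### Modular functions of level `Γ₀(N)` -/

theorem isBoundedAtImInfty_discriminant_pow (m : ℕ) :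
    IsBoundedAtImInfty (fun τ : ℍ => ModularForm.discriminant τ ^ m) := by
  have h : IsBoundedAtImInfty (fun τ : ℍ => ModularForm.discriminant τ) :=
    IsZeroAtImInfty.isBoundedAtImInfty tendsto_discriminant
  induction m with
  | zero =>
    simp only [pow_zero]
    exact Filter.const_boundedAtFilter atImInfty (1 : ℂ)
  | succ m ih =>
    have := ih.mul h
    refine this.congr' (Eventually.of_forall fun τ => ?_) (Eventually.of_forall fun τ => rfl)
    simp [pow_succ]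

theorem isBoundedAtImInfty_mul_discriminant_mono {u : ℍ → ℂ} {m m' : ℕ} (hm : m ≤ m')
    (h : IsBoundedAtImInfty (fun τ => u τ * ModularForm.discriminant τ ^ m)) :
    IsBoundedAtImInfty (fun τ => u τ * ModularForm.discriminant τ ^ m') := by
  have := h.mul (isBoundedAtImInfty_discriminant_pow (m' - m))
  refine this.congr' (Eventually.of_forall fun τ => ?_) (Eventually.of_forall fun τ => rfl)
  simp only [Pi.mul_apply]
  rw [mul_assoc, ← pow_add, Nat.add_sub_cancel' hm]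

/-- Holomorphic `Γ₀(N)`-invariant functions on `ℍ` with at most poles at all cusps. -/
structure ModFun (N : ℕ) (h : ℍ → ℂ) : Prop where
  mdiff : MDiff h
  inv : ∀ γ ∈ CongruenceSubgroup.Gamma0 N, ∀ τ : ℍ, h (γ • τ) = h τ
  growth : ∀ γ : SL(2, ℤ), ∃ m : ℕ,
    IsBoundedAtImInfty (fun τ => h (γ • τ) * ModularForm.discriminant τ ^ m)

namespace ModFun

variable {N : ℕ}

theorem const (N : ℕ) (c : ℂ) : ModFun N (fun _ => c) where
  mdiff := mdifferentiable_const
  inv := fun _ _ _ => rfl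
  growth := fun _ => ⟨0, by
    simp only [pow_zero, mul_one]
    exact Filter.const_boundedAtFilter atImInfty c⟩

theorem add {h₁ h₂ : ℍ → ℂ} (H₁ : ModFun N h₁) (H₂ : ModFun N h₂) :
    ModFun N (fun τ => h₁ τ + h₂ τ) where
  mdiff := H₁.mdiff.add H₂.mdiff
  inv := fun γ hγ τ => by rw [H₁.inv γ hγ, H₂.inv γ hγ]
  growth := fun γ => by
    obtain ⟨m₁, hm₁⟩ := H₁.growth γ
    obtain ⟨m₂, hm₂⟩ := H₂.growth γ
    refine ⟨m₁ + m₂, ?_⟩
    have h1 := isBoundedAtImInfty_mul_discriminant_mono (Nat.le_add_right m₁ m₂) hm₁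
    have h2 := isBoundedAtImInfty_mul_discriminant_mono (Nat.le_add_left m₂ m₁) hm₂
    refine (h1.add h2).congr' (Eventually.of_forall fun τ => ?_) (Eventually.of_forall fun τ => rfl)
    simp only [Pi.add_apply]
    ring

theorem mul {h₁ h₂ : ℍ → ℂ} (H₁ : ModFun N h₁) (H₂ : ModFun N h₂) :
    ModFun N (fun τ => h₁ τ * h₂ τ) where
  mdiff := H₁.mdiff.mul H₂.mdiff
  inv := fun γ hγ τ => by rw [H₁.inv γ hγ, H₂.inv γ hγ]
  growth := fun γ => by
    obtain ⟨m₁, hm₁⟩ := H₁.growth γ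
    obtain ⟨m₂, hm₂⟩ := H₂.growth γ
    refine ⟨m₁ + m₂, ?_⟩
    refine (hm₁.mul hm₂).congr' (Eventually.of_forall fun τ => ?_) (Eventually.of_forall fun τ => rfl)
    simp only [Pi.mul_apply]
    ring

theorem smul {h : ℍ → ℂ} (c : ℂ) (H : ModFun N h) : ModFun N (fun τ => c * h τ) :=
  (const N c).mul H

theorem neg {h : ℍ → ℂ} (H : ModFun N h) : ModFun N (fun τ => -h τ) := by
  have := H.smul (-1)
  simpa using this

theorem sub {h₁ h₂ : ℍ → ℂ} (H₁ : ModFun N h₁) (H₂ : ModFun N h₂) :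
    ModFun N (fun τ => h₁ τ - h₂ τ) := by
  have := H₁.add H₂.neg
  simpa [sub_eq_add_neg] using this

theorem pow {h : ℍ → ℂ} (H : ModFun N h) (n : ℕ) : ModFun N (fun τ => h τ ^ n) := by
  induction n with
  | zero => simpa using const N 1
  | succ n ih =>
    have := ih.mul H
    simpa [pow_succ] using this

theorem jS [NeZero N] {d : ℕ} (hd : d ∣ N) : ModFun N (jS d) where
  mdiff := mdiff_jS d
  inv := fun _ hγ τ => jS_smul_of_dvd hd hγ τ
  growth := fun γ => by
    have : NeZero d := ⟨fun h => NeZero.ne N (by rw [h] at hd; exact Nat.eq_zero_of_zero_dvd hd)⟩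
    exact ⟨d, isBoundedAtImInfty_jS_smul d γ⟩

theorem jA [NeZero N] : ModFun N jA := by
  have h := jS (N := N) (one_dvd N)
  have e : S24.jS 1 = S24.jA := funext jS_one
  rwa [e] at h

/-- The set of modular functions as a subalgebra of all functions. -/
def subalgebra (N : ℕ) : Subalgebra ℂ (ℍ → ℂ) where
  carrier := {h | ModFun N h}
  mul_mem' := fun H₁ H₂ => H₁.mul H₂
  add_mem' := fun H₁ H₂ => H₁.add H₂
  algebraMap_mem' := fun c => const N c

theorem mem_subalgebra {h : ℍ → ℂ} : h ∈ subalgebra N ↔ ModFun N h := Iff.rfl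

/-- A modular function as a weight-`0` slash-invariant form. -/
def toSIF {h : ℍ → ℂ} (H : ModFun N h) : SlashInvariantForm (CongruenceSubgroup.Gamma0 N) 0 where
  toFun := h
  slash_action_eq' := by
    rintro _ ⟨γ, hγ, rfl⟩
    funext τ
    have h1 : (h ∣[(0 : ℤ)] (Matrix.SpecialLinearGroup.mapGL ℝ γ : GL (Fin 2) ℝ)) τ =
        (h ∣[(0 : ℤ)] γ) τ := rfl
    rw [h1, ModularForm.SL_slash_apply, H.inv γ hγ τ]
    simp

@[simp] theorem coe_toSIF {h : ℍ → ℂ} (H : ModFun N h) : (⇑H.toSIF : ℍ → ℂ) = h := rfl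

end ModFun

/-! ### Conjugates -/

theorem exists_mk_toSL {N : ℕ} (x : X N) :
    ∃ γ : SL(2, ℤ), (QuotientGroup.mk (toSL γ) : X N) = x := by
  induction x using Quotient.inductionOn with
  | h r => exact ⟨toSL.symm r, by rw [MulEquiv.apply_symm_apply]⟩

namespace ModFun

variable {N : ℕ} {h : ℍ → ℂ}

theorem cj_mk_toSL (H : ModFun N h) (γ : SL(2, ℤ)) (τ : ℍ) :
    cj H.toSIF (QuotientGroup.mk (toSL γ) : X N) τ = h (γ⁻¹ • τ) := by
  rw [cj_toSL, ModularForm.SL_slash_apply]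
  simp

theorem cj_x0 (H : ModFun N h) : cj H.toSIF (x0 N) = h := ES.cj_x0 H.toSIF

theorem mdiff_smul_SL (H : ModFun N h) (γ : SL(2, ℤ)) : MDiff (fun τ : ℍ => h (γ • τ)) := by
  have h1 : MDiff (fun τ : ℍ => (Matrix.SpecialLinearGroup.mapGL ℝ γ : GL (Fin 2) ℝ) • τ) :=
    UpperHalfPlane.mdifferentiable_smul (by
      rw [Matrix.SpecialLinearGroup.det_mapGL]; exact one_pos)
  exact H.mdiff.comp h1

theorem mdiff_cj (H : ModFun N h) (x : X N) : MDiff (cj H.toSIF x) := by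
  obtain ⟨γ, rfl⟩ := exists_mk_toSL x
  have : cj H.toSIF (QuotientGroup.mk (toSL γ) : X N) = fun τ : ℍ => h (γ⁻¹ • τ) :=
    funext fun τ => H.cj_mk_toSL γ τ
  rw [this]
  exact H.mdiff_smul_SL γ⁻¹

theorem growth_cj (H : ModFun N h) (x : X N) : ∃ m : ℕ,
    IsBoundedAtImInfty (fun τ => cj H.toSIF x τ * ModularForm.discriminant τ ^ m) := by
  obtain ⟨γ, rfl⟩ := exists_mk_toSL x
  obtain ⟨m, hm⟩ := H.growth γ⁻¹
  refine ⟨m, ?_⟩
  have : (fun τ => cj H.toSIF (QuotientGroup.mk (toSL γ) : X N) τ *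
      ModularForm.discriminant τ ^ m) =
      fun τ : ℍ => h (γ⁻¹ • τ) * ModularForm.discriminant τ ^ m :=
    funext fun τ => by rw [H.cj_mk_toSL γ τ]
  rw [this]
  exact hm

/-- translating a conjugate permutes the conjugates -/
theorem cj_smul (H : ModFun N h) (γ : SL(2, ℤ)) (x : X N) (τ : ℍ) :
    cj H.toSIF x (γ • τ) = cj H.toSIF (γ⁻¹ • x) τ := by
  have h1 := congrFun (ES.cj_slash H.toSIF γ x) τ
  rw [ModularForm.SL_slash_apply] at h1
  simpa using h1

variable [NeZero N]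

/-- the elementary symmetric functions of the conjugates are `SL(2,ℤ)`-invariant -/
theorem es_smul (H : ModFun N h) (r : ℕ) (γ : SL(2, ℤ)) (τ : ℍ) :
    S23.es (cj H.toSIF) r (γ • τ) = S23.es (cj H.toSIF) r τ := by
  have h1 := S23.es_slash H.toSIF r
    (h := (Matrix.SpecialLinearGroup.mapGL ℝ γ : GL (Fin 2) ℝ)) ⟨γ, rfl⟩
  have h2 := congrFun h1 τ
  have h3 : (S23.es (quotientFunc H.toSIF : S23.Q0 N → ℍ → ℂ) r ∣[(r : ℤ) * 0]
      (Matrix.SpecialLinearGroup.mapGL ℝ γ : GL (Fin 2) ℝ)) τ =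
      (S23.es (quotientFunc H.toSIF : S23.Q0 N → ℍ → ℂ) r ∣[(r : ℤ) * 0] γ) τ := rfl
  rw [h3, ModularForm.SL_slash_apply] at h2
  simpa using h2

theorem mdiff_es (H : ModFun N h) (r : ℕ) : MDiff (S23.es (cj H.toSIF) r) := by
  unfold S23.es
  exact MDifferentiable.sum fun S _ => MDifferentiable.prod fun q _ => H.mdiff_cj q

theorem growth_es (H : ModFun N h) (r : ℕ) : ∃ m : ℕ,
    IsBoundedAtImInfty (fun τ => S23.es (cj H.toSIF) r τ * ModularForm.discriminant τ ^ m) := by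
  classical
  choose m hm using H.growth_cj
  refine ⟨∑ x : X N, m x, ?_⟩
  have key : ∀ S : Finset (X N), IsBoundedAtImInfty
      (fun τ => (∏ q ∈ S, cj H.toSIF q τ) * ModularForm.discriminant τ ^ (∑ q ∈ S, m q)) := by
    intro S
    induction S using Finset.induction_on with
    | empty =>
      simp only [Finset.prod_empty, Finset.sum_empty, pow_zero, mul_one]
      exact Filter.const_boundedAtFilter atImInfty (1 : ℂ)
    | insert a S ha ih =>
      refine ((hm a).mul ih).congr' (Eventually.of_forall fun τ => ?_)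
        (Eventually.of_forall fun τ => rfl)
      simp only [Pi.mul_apply]
      rw [Finset.prod_insert ha, Finset.sum_insert ha, pow_add]
      ring
  have h2 : IsBoundedAtImInfty (∑ S ∈ (Finset.univ : Finset (X N)).powersetCard r,
      fun τ => (∏ q ∈ S, cj H.toSIF q τ) * ModularForm.discriminant τ ^ (∑ x : X N, m x)) := by
    refine S23.bdd_finset_sum _ fun S _ => ?_
    exact isBoundedAtImInfty_mul_discriminant_mono
      (Finset.sum_le_sum_of_subset (Finset.subset_univ S)) (key S)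
  refine h2.congr' (Eventually.of_forall fun τ => ?_) (Eventually.of_forall fun τ => rfl)
  change _ = S23.es (cj H.toSIF) r τ * _
  rw [Finset.sum_apply, S23.es_apply, Finset.sum_mul]

/-- the elementary symmetric functions of the conjugates are polynomials in `jA` -/
theorem exists_es_eq (H : ModFun N h) (r : ℕ) :
    ∃ P : Polynomial ℂ, ∀ τ : ℍ, S23.es (cj H.toSIF) r τ = P.eval (S24.jA τ) := by
  obtain ⟨m, hm⟩ := H.growth_es r
  obtain ⟨P, -, hP⟩ := exists_polynomial_of_invariant (H.mdiff_es r) (H.es_smul r) m hm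
  exact ⟨P, hP⟩

/-- The characteristic polynomial of the conjugates has coefficients in `ℂ[jA]`. -/
theorem exists_charpoly (H : ModFun N h) :
    ∃ P : Polynomial (Polynomial ℂ), P.Monic ∧ P.natDegree = Fintype.card (X N) ∧
      ∀ τ : ℍ, P.map (Polynomial.evalRingHom (S24.jA τ)) =
        ∏ x : X N, (Polynomial.X - Polynomial.C (cj H.toSIF x τ)) := by
  classical
  choose Q hQ using H.exists_es_eq
  set μ := Fintype.card (X N) with hμ
  have hcoeff : ∀ (τ : ℍ) (i : ℕ), i ≤ μ →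
      (∏ x : X N, (Polynomial.X - Polynomial.C (cj H.toSIF x τ))).coeff i =
        (-1 : ℂ) ^ (μ - i) * (Q (μ - i)).eval (S24.jA τ) := by
    intro τ i hi
    have hcard : ((Finset.univ : Finset (X N)).val.map fun q => cj H.toSIF q τ).card = μ := by
      simp [hμ]
    have h1 := Multiset.prod_X_sub_C_coeff
      ((Finset.univ : Finset (X N)).val.map fun q => cj H.toSIF q τ) (k := i)
      (by rw [hcard]; exact hi)
    rw [hcard, Multiset.map_map, Finset.esymm_map_val] at h1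
    rw [← hQ, S23.es_apply]
    exact h1
  have hdeg : ∀ τ : ℍ,
      (∏ x : X N, (Polynomial.X - Polynomial.C (cj H.toSIF x τ))).natDegree = μ := by
    intro τ
    rw [Polynomial.natDegree_prod_of_monic _ _ fun x _ => Polynomial.monic_X_sub_C _]
    simp [hμ]
  have hmonic : ∀ τ : ℍ,
      (∏ x : X N, (Polynomial.X - Polynomial.C (cj H.toSIF x τ))).Monic := fun τ =>
    Polynomial.monic_prod_of_monic _ _ fun x _ => Polynomial.monic_X_sub_C _
  let R : Polynomial (Polynomial ℂ) :=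
    ∑ i ∈ Finset.range μ, Polynomial.C (Polynomial.C ((-1 : ℂ) ^ (μ - i)) * Q (μ - i)) *
      Polynomial.X ^ i
  have hR : R.degree < (μ : WithBot ℕ) := by
    refine (Polynomial.degree_sum_le _ _).trans_lt ?_
    refine (Finset.sup_lt_iff (WithBot.bot_lt_coe μ)).mpr ?_
    intro i hi
    refine (Polynomial.degree_C_mul_X_pow_le _ _).trans_lt ?_
    exact WithBot.coe_lt_coe.mpr (Finset.mem_range.mp hi)
  have hRcoeff : ∀ i, i < μ → R.coeff i = Polynomial.C ((-1 : ℂ) ^ (μ - i)) * Q (μ - i) := by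
    intro i hi
    simp only [R, Polynomial.finsetSum_coeff, Polynomial.coeff_C_mul_X_pow]
    rw [Finset.sum_eq_single i]
    · simp
    · intro b _ hb
      rw [if_neg (fun h => hb h.symm)]
    · intro hi'
      exact absurd (Finset.mem_range.mpr hi) hi'
  have hRcoeff' : ∀ i, μ ≤ i → R.coeff i = 0 := fun i hi =>
    Polynomial.coeff_eq_zero_of_degree_lt (hR.trans_le (by exact_mod_cast hi))
  have hmon : (Polynomial.X ^ μ + R).Monic := Polynomial.monic_X_pow_add hR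
  have hnat : (Polynomial.X ^ μ + R).natDegree = μ := by
    rw [Polynomial.natDegree_add_eq_left_of_degree_lt, Polynomial.natDegree_X_pow]
    rw [Polynomial.degree_X_pow]
    exact hR
  refine ⟨Polynomial.X ^ μ + R, hmon, hnat, fun τ => ?_⟩
  ext i
  rw [Polynomial.coeff_map, Polynomial.coeff_add, Polynomial.coeff_X_pow]
  rcases lt_trichotomy i μ with hi | hi | hi
  · rw [if_neg hi.ne, zero_add, hRcoeff i hi, hcoeff τ i hi.le]
    simp
  · rw [if_pos hi, hRcoeff' i hi.ge, add_zero]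
    have := (hmonic τ).coeff_natDegree
    rw [hdeg τ] at this
    rw [hi, this]
    simp
  · rw [if_neg hi.ne', zero_add, hRcoeff' i hi.le]
    rw [Polynomial.coeff_eq_zero_of_natDegree_lt (by rw [hdeg τ]; exact hi)]
    simp

end ModFun

theorem mk_toSL_eq_iff {N : ℕ} (γ₁ γ₂ : SL(2, ℤ)) :
    (QuotientGroup.mk (toSL γ₁) : X N) = QuotientGroup.mk (toSL γ₂) ↔
      γ₁⁻¹ * γ₂ ∈ CongruenceSubgroup.Gamma0 N := by
  rw [QuotientGroup.eq, Subgroup.mem_subgroupOf]
  have : (((toSL γ₁)⁻¹ * toSL γ₂ : 𝒮ℒ) : GL (Fin 2) ℝ) =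
      Matrix.SpecialLinearGroup.mapGL ℝ (γ₁⁻¹ * γ₂) := by
    simp [map_mul, map_inv]
  rw [this]
  constructor
  · rintro ⟨c, hc, hcab⟩
    rwa [← Matrix.SpecialLinearGroup.mapGL_injective hcab]
  · intro h
    exact ⟨_, h, rfl⟩

/-- The conjugates of `jS N` are pairwise distinct. -/
theorem cj_jS_injective (N : ℕ) [NeZero N] (H : ModFun N (jS N)) :
    Function.Injective (cj H.toSIF : X N → ℍ → ℂ) := by
  intro x y hxy
  obtain ⟨γ₁, rfl⟩ := exists_mk_toSL x
  obtain ⟨γ₂, rfl⟩ := exists_mk_toSL y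
  rw [mk_toSL_eq_iff]
  apply mem_Gamma0_of_jS_smul
  intro τ
  have h1 := congrFun hxy (γ₂ • τ)
  rw [H.cj_mk_toSL, H.cj_mk_toSL] at h1
  rw [mul_smul, h1, inv_smul_smul]

end

end Fermat.Agent.S24
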