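import Fermat.Agent.S24.Defs
import Fermat.Agent.S24.JLevel

/-!
# S24 [CJ]: conjugates of modular functions of level `Γ₀(N)`

`rep x` is a representative in `SL(2,ℤ)` of the coset `x : X N`, and
`conjF x u = u ∘ (rep x)⁻¹`.  For `u` a modular function (`ModFun N u`) this does not depend on
the representative; we collect: holomorphy, the action of `SL(2,ℤ)`, periodicity, growth at `i∞`,
distinctness of the conjugates of `j(Nτ)`, and the characteristic polynomial over `ℂ[jA]`.
-/

set_option autoImplicit false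

namespace Fermat.Agent.S24

open UpperHalfPlane hiding I
open Real Complex Filter Function
open ModularForm EisensteinSeries SlashInvariantForm SlashInvariantFormClass ModularFormClass
open scoped Manifold MatrixGroups ModularForm Topology
open Fermat.Agent.ES

noncomputable section

/-- `heckeDiagMatrix d • τ = d τ`. -/
theorem heckeDiagMatrix_smul_eq_scaleH (d : ℕ) [NeZero d] (τ : ℍ) :
    heckeDiagMatrix d • τ = scaleH d τ := by
  apply UpperHalfPlane.ext
  rw [coe_heckeDiagMatrix_smul (NeZero.ne d), coe_scaleH]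

theorem jS_eq_scaleH (d : ℕ) [NeZero d] (τ : ℍ) : jS d τ = jA (scaleH d τ) := by
  unfold jS
  rw [heckeDiagMatrix_smul_eq_scaleH]

/-- A representative in `SL(2,ℤ)` of a coset. -/
def rep {N : ℕ} (x : X N) : SL(2, ℤ) := Classical.choose (exists_mk_toSL x)

theorem mk_rep {N : ℕ} (x : X N) : (QuotientGroup.mk (toSL (rep x)) : X N) = x :=
  Classical.choose_spec (exists_mk_toSL x)

/-- The conjugate `u ∘ (rep x)⁻¹` of a function. -/
def conjF {N : ℕ} (x : X N) (u : ℍ → ℂ) : ℍ → ℂ := fun τ => u ((rep x)⁻¹ • τ)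

theorem conjF_apply {N : ℕ} (x : X N) (u : ℍ → ℂ) (τ : ℍ) :
    conjF x u τ = u ((rep x)⁻¹ • τ) := rfl

theorem conjF_add {N : ℕ} (x : X N) (u v : ℍ → ℂ) : conjF x (u + v) = conjF x u + conjF x v := rfl

theorem conjF_mul {N : ℕ} (x : X N) (u v : ℍ → ℂ) : conjF x (u * v) = conjF x u * conjF x v := rfl

theorem conjF_const {N : ℕ} (x : X N) (c : ℂ) : conjF x (fun _ => c) = fun _ => c := rfl

theorem conjF_one {N : ℕ} (x : X N) : conjF x (1 : ℍ → ℂ) = 1 := rfl

theorem conjF_zero {N : ℕ} (x : X N) : conjF x (0 : ℍ → ℂ) = 0 := rfl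

/-- `conjF x` as a ring homomorphism. -/
def conjFHom {N : ℕ} (x : X N) : (ℍ → ℂ) →+* (ℍ → ℂ) where
  toFun := conjF x
  map_one' := rfl
  map_mul' := fun _ _ => rfl
  map_zero' := rfl
  map_add' := fun _ _ => rfl

@[simp] theorem conjFHom_apply {N : ℕ} (x : X N) (u : ℍ → ℂ) : conjFHom x u = conjF x u := rfl

/-- `jA` is its own conjugate. -/
theorem conjF_jA {N : ℕ} (x : X N) : conjF x jA = jA :=
  funext fun τ => jA_smul _ τ

namespace ModFun

variable {N : ℕ} {u : ℍ → ℂ}

theorem conjF_eq_cj (H : ModFun N u) (x : X N) : conjF x u = cj H.toSIF x := by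
  funext τ
  conv_rhs => rw [← mk_rep x]
  rw [H.cj_mk_toSL]
  rfl

/-- independence of the representative -/
theorem conjF_eq_of_mk (H : ModFun N u) (γ : SL(2, ℤ)) (τ : ℍ) :
    conjF (QuotientGroup.mk (toSL γ) : X N) u τ = u (γ⁻¹ • τ) := by
  rw [H.conjF_eq_cj, H.cj_mk_toSL]

theorem conjF_x0 (H : ModFun N u) : conjF (x0 N) u = u := by
  rw [H.conjF_eq_cj, H.cj_x0]

theorem mdiff_conjF (H : ModFun N u) (x : X N) : MDiff (conjF x u) := by
  rw [H.conjF_eq_cj]
  exact H.mdiff_cj x

theorem conjF_bounded (H : ModFun N u) (x : X N) : ∃ m : ℕ,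
    IsBoundedAtImInfty (fun τ => conjF x u τ * ModularForm.discriminant τ ^ m) := by
  rw [H.conjF_eq_cj]
  exact H.growth_cj x

/-- the action of `SL(2,ℤ)` permutes the conjugates -/
theorem conjF_smul (H : ModFun N u) (γ : SL(2, ℤ)) (x : X N) (τ : ℍ) :
    conjF (γ • x) u τ = conjF x u (γ⁻¹ • τ) := by
  rw [H.conjF_eq_cj, H.conjF_eq_cj, H.cj_smul, inv_inv]

theorem conjF_smul' (H : ModFun N u) (γ : SL(2, ℤ)) (x : X N) (τ : ℍ) :
    conjF x u (γ • τ) = conjF (γ⁻¹ • x) u τ := by
  rw [H.conjF_smul, inv_inv]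

/-- a conjugate is invariant under the stabiliser of its coset -/
theorem conjF_smul_of_fixed (H : ModFun N u) {γ : SL(2, ℤ)} {x : X N} (hx : γ • x = x) (τ : ℍ) :
    conjF x u (γ • τ) = conjF x u τ := by
  rw [H.conjF_smul']
  have : γ⁻¹ • x = x := by
    conv_lhs => rw [← hx]
    rw [inv_smul_smul]
  rw [this]

/-- the conjugates are modular functions for the principal congruence subgroup; in particular
they are invariant under `τ ↦ τ + N`. -/
theorem conjF_T_pow_smul (H : ModFun N u) (x : X N) (τ : ℍ) :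
    conjF x u ((ModularGroup.T ^ (N : ℤ)) • τ) = conjF x u τ := by
  have hmem : (rep x)⁻¹ * ModularGroup.T ^ (N : ℤ) * rep x ∈ CongruenceSubgroup.Gamma0 N := by
    rw [CongruenceSubgroup.Gamma0_mem]
    have hdet : (rep x) 0 0 * (rep x) 1 1 - (rep x) 0 1 * (rep x) 1 0 = 1 := by
      have := (rep x).det_coe
      rwa [Matrix.det_fin_two] at this
    have h1 : ((rep x)⁻¹ * ModularGroup.T ^ (N : ℤ) * rep x) 1 0 =
        -((rep x) 1 0 * (rep x) 1 0 * N) := by
      simp only [Matrix.SpecialLinearGroup.coe_mul, ModularGroup.coe_T_zpow,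
        Matrix.SpecialLinearGroup.coe_inv, Matrix.adjugate_fin_two, Matrix.mul_apply,
        Fin.sum_univ_two, Matrix.of_apply, Matrix.cons_val_zero, Matrix.cons_val_one]
      simp
      ring
    rw [h1]
    push_cast
    simp
  rw [conjF_apply, conjF_apply]
  have h2 : (rep x)⁻¹ • (ModularGroup.T ^ (N : ℤ)) • τ =
      ((rep x)⁻¹ * ModularGroup.T ^ (N : ℤ) * rep x) • ((rep x)⁻¹ • τ) := by
    rw [← mul_smul, ← mul_smul]
    congr 1
    group
  rw [h2, H.inv _ hmem]

theorem conjF_vadd (H : ModFun N u) (x : X N) (τ : ℍ) :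
    conjF x u (((N : ℤ) : ℝ) +ᵥ τ) = conjF x u τ := by
  rw [← UpperHalfPlane.modular_T_zpow_smul]
  exact H.conjF_T_pow_smul x τ

theorem conjF_periodic (H : ModFun N u) (x : X N) :
    Function.Periodic (conjF x u ∘ ofComplex) ((N : ℝ) : ℂ) := by
  intro w
  by_cases hw : 0 < w.im
  · have hw1 : 0 < (w + ((N : ℝ) : ℂ)).im := by simpa using hw
    rw [Function.comp_apply, Function.comp_apply, ofComplex_apply_of_im_pos hw1,
      ofComplex_apply_of_im_pos hw]
    have e : (⟨w + ((N : ℝ) : ℂ), hw1⟩ : ℍ) = (((N : ℤ) : ℝ)) +ᵥ (⟨w, hw⟩ : ℍ) := by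
      ext
      simp [add_comm]
    rw [e, H.conjF_vadd]
  · have hw' : w.im ≤ 0 := not_lt.mp hw
    have hw1 : (w + ((N : ℝ) : ℂ)).im ≤ 0 := by simpa using hw'
    rw [Function.comp_apply, Function.comp_apply, ofComplex_apply_of_im_nonpos hw1,
      ofComplex_apply_of_im_nonpos hw']

/-- The image of a subalgebra generated by modular functions consists of modular functions. -/
theorem of_adjoin {K A : Type} [Field K] [CommRing A] [Algebra K A] (S : Set A)
    (e : Algebra.adjoin K S →+* (ℍ → ℂ))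
    (hc : ∀ c : K, ModFun N (e (algebraMap K (Algebra.adjoin K S) c)))
    (hS : ∀ (s : A) (hs : s ∈ S), ModFun N (e ⟨s, Algebra.subset_adjoin hs⟩))
    (r : Algebra.adjoin K S) : ModFun N (e r) := by
  obtain ⟨r, hr⟩ := r
  induction hr using Algebra.adjoin_induction with
  | mem s hs => exact hS s hs
  | algebraMap c => exact hc c
  | add a b ha hb iha ihb =>
    have : e ⟨a + b, add_mem ha hb⟩ = e ⟨a, ha⟩ + e ⟨b, hb⟩ := by
      rw [← map_add]; rfl
    rw [this]
    exact iha.add ihb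
  | mul a b ha hb iha ihb =>
    have : e ⟨a * b, mul_mem ha hb⟩ = e ⟨a, ha⟩ * e ⟨b, hb⟩ := by
      rw [← map_mul]; rfl
    rw [this]
    exact iha.mul ihb

variable [NeZero N]

/-- The characteristic polynomial of the conjugates has coefficients in `ℂ[jA]`. -/
theorem exists_charpoly_conjF (H : ModFun N u) :
    ∃ P : Polynomial (Polynomial ℂ), P.Monic ∧ P.natDegree = Fintype.card (X N) ∧
      ∀ τ : ℍ, P.map (Polynomial.evalRingHom (S24.jA τ)) =
        ∏ x : X N, (Polynomial.X - Polynomial.C (conjF x u τ)) := by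
  obtain ⟨P, hP1, hP2, hP3⟩ := H.exists_charpoly
  refine ⟨P, hP1, hP2, fun τ => ?_⟩
  rw [hP3 τ]
  refine Finset.prod_congr rfl fun x _ => ?_
  rw [H.conjF_eq_cj]

/-- Every modular function of level `N` satisfies a monic equation of degree `|X N|` over
`ℂ[jA]`. -/
theorem exists_monic_relation (H : ModFun N u) :
    ∃ P : Polynomial (Polynomial ℂ), P.Monic ∧ P.natDegree = Fintype.card (X N) ∧
      ∀ τ : ℍ, (P.map (Polynomial.evalRingHom (S24.jA τ))).eval (u τ) = 0 := by
  obtain ⟨P, hP1, hP2, hP3⟩ := H.exists_charpoly_conjF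
  refine ⟨P, hP1, hP2, fun τ => ?_⟩
  rw [hP3 τ, Polynomial.eval_prod]
  refine Finset.prod_eq_zero (Finset.mem_univ (x0 N)) ?_
  rw [H.conjF_x0]
  simp

end ModFun

/-- The conjugates of `j(Nτ)` are pairwise distinct. -/
theorem conjF_jS_injective (N : ℕ) [NeZero N] :
    Function.Injective (fun x : X N => conjF x (jS N)) := by
  intro x y hxy
  have H : ModFun N (jS N) := ModFun.jS (dvd_refl N)
  apply cj_jS_injective N H
  simp only at hxy
  rw [← H.conjF_eq_cj, ← H.conjF_eq_cj]
  exact hxy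

end

end Fermat.Agent.S24
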