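import Mathlib
import Fermat.Agent.S24.Defs

set_option autoImplicit false

/-!
# The field of germs of meromorphic functions at a point of `ℂ`

`MGerm x` is the field of germs at `x` (along the punctured neighbourhood filter) of
functions `ℂ → ℂ` meromorphic at `x`.  It carries the discrete valuation "order at `x`"
(`MGerm.w`, `MGerm.val`) and the `ℂ`-derivation `d/dz` (`MGerm.d`, `MGerm.dDeriv`).
`mgermVDF ι z0` packages it as a valued differential field over `K` (for `ι : K →+* ℂ`).
-/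

namespace Fermat.Agent.S24

open Filter Topology
open scoped WithZero

noncomputable section

/-- The subring of germs (along `𝓝[≠] x`) of meromorphic functions. -/
def mgermSubring (x : ℂ) : Subring (Germ (𝓝[≠] x) ℂ) where
  carrier := {g | ∃ f : ℂ → ℂ, MeromorphicAt f x ∧ (f : Germ (𝓝[≠] x) ℂ) = g}
  mul_mem' := by
    rintro _ _ ⟨f, hf, rfl⟩ ⟨g, hg, rfl⟩
    exact ⟨f * g, hf.mul hg, rfl⟩
  one_mem' := ⟨fun _ => 1, MeromorphicAt.const 1 x, rfl⟩
  add_mem' := by
    rintro _ _ ⟨f, hf, rfl⟩ ⟨g, hg, rfl⟩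
    exact ⟨f + g, hf.add hg, rfl⟩
  zero_mem' := ⟨fun _ => 0, MeromorphicAt.const 0 x, rfl⟩
  neg_mem' := by
    rintro _ ⟨f, hf, rfl⟩
    exact ⟨-f, hf.neg, rfl⟩

/-- The field of germs of meromorphic functions at `x`. -/
abbrev MGerm (x : ℂ) : Type := mgermSubring x

namespace MGerm

variable {x : ℂ}

/-- The germ of a meromorphic function. -/
def of (f : ℂ → ℂ) (hf : MeromorphicAt f x) : MGerm x := ⟨(f : Germ (𝓝[≠] x) ℂ), f, hf, rfl⟩

theorem exists_rep (g : MGerm x) : ∃ (f : ℂ → ℂ) (hf : MeromorphicAt f x), g = of f hf := by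
  obtain ⟨g, f, hf, rfl⟩ := g
  exact ⟨f, hf, rfl⟩

theorem of_eq_iff {f g : ℂ → ℂ} (hf : MeromorphicAt f x) (hg : MeromorphicAt g x) :
    of f hf = of g hg ↔ f =ᶠ[𝓝[≠] x] g := by
  constructor
  · intro h
    have := congrArg Subtype.val h
    exact Germ.coe_eq.mp this
  · intro h
    exact Subtype.ext (Germ.coe_eq.mpr h)

theorem of_congr {f g : ℂ → ℂ} (hf : MeromorphicAt f x) (h : f =ᶠ[𝓝[≠] x] g) :
    of f hf = of g (hf.congr h) := (of_eq_iff hf (hf.congr h)).mpr h

theorem of_add {f g : ℂ → ℂ} (hf : MeromorphicAt f x) (hg : MeromorphicAt g x) :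
    of f hf + of g hg = of (f + g) (hf.add hg) := rfl

theorem of_mul {f g : ℂ → ℂ} (hf : MeromorphicAt f x) (hg : MeromorphicAt g x) :
    of f hf * of g hg = of (f * g) (hf.mul hg) := rfl

theorem of_neg {f : ℂ → ℂ} (hf : MeromorphicAt f x) : -of f hf = of (-f) hf.neg := rfl

theorem of_sub {f g : ℂ → ℂ} (hf : MeromorphicAt f x) (hg : MeromorphicAt g x) :
    of f hf - of g hg = of (f - g) (hf.sub hg) := by
  rw [sub_eq_add_neg, of_neg, of_add]
  exact (of_eq_iff _ _).mpr (Eventually.of_forall fun z => by simp [sub_eq_add_neg])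

theorem of_zero : of (fun _ => (0 : ℂ)) (MeromorphicAt.const 0 x) = 0 := rfl

theorem of_one : of (fun _ => (1 : ℂ)) (MeromorphicAt.const 1 x) = 1 := rfl

theorem of_eq_zero_iff {f : ℂ → ℂ} (hf : MeromorphicAt f x) :
    of f hf = 0 ↔ ∀ᶠ z in 𝓝[≠] x, f z = 0 := by
  rw [← of_zero, of_eq_iff]
  rfl

theorem of_eq_zero_iff_order {f : ℂ → ℂ} (hf : MeromorphicAt f x) :
    of f hf = 0 ↔ meromorphicOrderAt f x = ⊤ := by
  rw [of_eq_zero_iff, meromorphicOrderAt_eq_top_iff]

theorem of_ne_zero_iff {f : ℂ → ℂ} (hf : MeromorphicAt f x) :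
    of f hf ≠ 0 ↔ ∀ᶠ z in 𝓝[≠] x, f z ≠ 0 := by
  rw [Ne, of_eq_zero_iff_order, ← Ne, meromorphicOrderAt_ne_top_iff_eventually_ne_zero hf]

instance : Inv (MGerm x) where
  inv g := ⟨(g.1)⁻¹, by
    obtain ⟨g, f, hf, rfl⟩ := g
    exact ⟨f⁻¹, hf.inv, rfl⟩⟩

theorem of_inv {f : ℂ → ℂ} (hf : MeromorphicAt f x) : (of f hf)⁻¹ = of f⁻¹ hf.inv := rfl

instance : Field (MGerm x) where
  __ := (inferInstance : CommRing (MGerm x))
  inv := Inv.inv
  exists_pair_ne := by
    refine ⟨0, 1, fun h => ?_⟩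
    rw [← of_zero, ← of_one, of_eq_iff] at h
    obtain ⟨z, hz⟩ := h.exists
    exact zero_ne_one hz
  mul_inv_cancel := by
    intro g hg
    obtain ⟨f, hf, rfl⟩ := exists_rep g
    rw [of_inv, of_mul, ← of_one, of_eq_iff]
    filter_upwards [(of_ne_zero_iff hf).mp hg] with z hz
    simp [hz]
  inv_zero := by
    rw [← of_zero, of_inv, of_eq_iff]
    exact Eventually.of_forall fun z => by simp
  nnqsmul := _
  nnqsmul_def := fun _ _ => rfl
  qsmul := _
  qsmul_def := fun _ _ => rfl

theorem of_div {f g : ℂ → ℂ} (hf : MeromorphicAt f x) (hg : MeromorphicAt g x) :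
    of f hf / of g hg = of (f / g) (hf.div hg) := by
  rw [div_eq_mul_inv, of_inv, of_mul]
  exact (of_eq_iff _ _).mpr (Eventually.of_forall fun z => by simp [div_eq_mul_inv])

theorem of_pow {f : ℂ → ℂ} (hf : MeromorphicAt f x) (n : ℕ) :
    of f hf ^ n = of (f ^ n) (hf.pow n) := by
  induction n with
  | zero =>
    rw [pow_zero, ← of_one]
    exact (of_eq_iff _ _).mpr (Eventually.of_forall fun z => by simp)
  | succ n ih =>
    rw [pow_succ, ih, of_mul]
    exact (of_eq_iff _ _).mpr (Eventually.of_forall fun z => by simp [pow_succ])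

/-- Constant germs. -/
def constHom (x : ℂ) : ℂ →+* MGerm x where
  toFun c := of (fun _ => c) (MeromorphicAt.const c x)
  map_one' := rfl
  map_mul' a b := by
    rw [of_mul]
    exact (of_eq_iff _ _).mpr (Eventually.of_forall fun z => by simp)
  map_zero' := rfl
  map_add' a b := by
    rw [of_add]
    exact (of_eq_iff _ _).mpr (Eventually.of_forall fun z => by simp)

instance : Algebra ℂ (MGerm x) := (constHom x).toAlgebra

theorem of_const (c : ℂ) :
    of (fun _ => c) (MeromorphicAt.const c x) = algebraMap ℂ (MGerm x) c := rfl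

theorem algebraMap_eq (c : ℂ) :
    algebraMap ℂ (MGerm x) c = of (fun _ => c) (MeromorphicAt.const c x) := rfl

/-! ### The order function -/

/-- The order at `x` of a meromorphic germ (`0` for the zero germ). -/
def w (g : MGerm x) : ℤ := (meromorphicOrderAt (Classical.choose (exists_rep g)) x).untop₀

theorem w_of {f : ℂ → ℂ} (hf : MeromorphicAt f x) :
    w (of f hf) = (meromorphicOrderAt f x).untop₀ := by
  obtain ⟨hf', h⟩ := Classical.choose_spec (exists_rep (of f hf))
  rw [of_eq_iff] at h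
  rw [w, meromorphicOrderAt_congr h]

theorem coe_w_of {f : ℂ → ℂ} (hf : MeromorphicAt f x) (h0 : of f hf ≠ 0) :
    ((w (of f hf) : ℤ) : WithTop ℤ) = meromorphicOrderAt f x := by
  rw [w_of, WithTop.coe_untop₀_of_ne_top]
  rwa [Ne, ← of_eq_zero_iff_order hf]

@[simp] theorem w_zero : w (0 : MGerm x) = 0 := by
  rw [← of_zero, w_of, (of_eq_zero_iff_order _).mp of_zero]
  rfl

theorem w_mul {g h : MGerm x} (hg : g ≠ 0) (hh : h ≠ 0) : w (g * h) = w g + w h := by
  obtain ⟨f, hf, rfl⟩ := exists_rep g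
  obtain ⟨f', hf', rfl⟩ := exists_rep h
  have h1 := coe_w_of hf hg
  have h2 := coe_w_of hf' hh
  have h3 := coe_w_of (hf.mul hf') (by
    show of f hf * of f' hf' ≠ 0
    exact mul_ne_zero hg hh)
  rw [meromorphicOrderAt_mul hf hf', ← h1, ← h2, ← WithTop.coe_add] at h3
  rw [of_mul]
  exact_mod_cast h3

theorem w_algebraMap (c : ℂ) : w (algebraMap ℂ (MGerm x) c) = 0 := by
  classical
  rw [algebraMap_eq, w_of, meromorphicOrderAt_const]
  split_ifs <;> rfl

@[simp] theorem w_one : w (1 : MGerm x) = 0 := by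
  rw [← map_one (algebraMap ℂ (MGerm x)), w_algebraMap]

theorem w_inv (g : MGerm x) : w g⁻¹ = -w g := by
  rcases eq_or_ne g 0 with rfl | hg
  · simp
  have h := w_mul hg (inv_ne_zero hg)
  rw [mul_inv_cancel₀ hg, w_one] at h
  omega

theorem w_div {g h : MGerm x} (hg : g ≠ 0) (hh : h ≠ 0) : w (g / h) = w g - w h := by
  rw [div_eq_mul_inv, w_mul hg (inv_ne_zero hh), w_inv]
  ring

theorem w_neg (g : MGerm x) : w (-g) = w g := by
  obtain ⟨f, hf, rfl⟩ := exists_rep g
  rw [of_neg, w_of, w_of, ← meromorphicOrderAt_neg]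

theorem w_pow (g : MGerm x) (n : ℕ) : w (g ^ n) = n * w g := by
  rcases eq_or_ne g 0 with rfl | hg
  · rcases n with _ | n
    · simp
    · simp
  induction n with
  | zero => simp
  | succ n ih =>
    rw [pow_succ, w_mul (pow_ne_zero n hg) hg, ih]
    push_cast
    ring

theorem w_add {g h : MGerm x} (hgh : g + h ≠ 0) (hg : g ≠ 0) (hh : h ≠ 0) :
    min (w g) (w h) ≤ w (g + h) := by
  obtain ⟨f, hf, rfl⟩ := exists_rep g
  obtain ⟨f', hf', rfl⟩ := exists_rep h
  have h1 := coe_w_of hf hg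
  have h2 := coe_w_of hf' hh
  have h3 := coe_w_of (hf.add hf') (by
    show of f hf + of f' hf' ≠ 0
    exact hgh)
  have h4 := meromorphicOrderAt_add hf hf'
  rw [← h1, ← h2, ← h3] at h4
  rw [of_add]
  rcases min_le_iff.mp h4 with h5 | h5
  · exact min_le_of_left_le (by exact_mod_cast h5)
  · exact min_le_of_right_le (by exact_mod_cast h5)

theorem w_add_eq_left {g h : MGerm x} (hg : g ≠ 0) (hh : h ≠ 0) (hlt : w g < w h) :
    w (g + h) = w g := by
  obtain ⟨f, hf, rfl⟩ := exists_rep g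
  obtain ⟨f', hf', rfl⟩ := exists_rep h
  have h1 := coe_w_of hf hg
  have h2 := coe_w_of hf' hh
  have h4 := meromorphicOrderAt_add_eq_left_of_lt (f₁ := f) hf'
    (by rw [← h1, ← h2]; exact_mod_cast hlt)
  rw [of_add, w_of, h4, ← h1]
  rfl

theorem add_ne_zero_of_w_lt {g h : MGerm x} (hg : g ≠ 0) (hlt : w g < w h) :
    g + h ≠ 0 := by
  intro h0
  have : h = -g := by rw [← add_eq_zero_iff_eq_neg']; exact h0
  rw [this, w_neg] at hlt
  exact lt_irrefl _ hlt

/-! ### The valuation -/

open Classical in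
/-- The valuation attached to the order function. -/
def val (x : ℂ) : Valuation (MGerm x) ℤᵐ⁰ where
  toFun g := if g = 0 then 0 else WithZero.exp (-(w g))
  map_zero' := by simp
  map_one' := by simp
  map_mul' g h := by
    by_cases hg : g = 0
    · simp [hg]
    by_cases hh : h = 0
    · simp [hh]
    rw [if_neg hg, if_neg hh, if_neg (mul_ne_zero hg hh), w_mul hg hh, ← WithZero.exp_add]
    congr 1
    ring
  map_add_le_max' g h := by
    by_cases hg : g = 0
    · simp [hg]
    by_cases hh : h = 0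
    · simp [hh]
    by_cases hgh : g + h = 0
    · simp [hgh]
    rw [if_neg hg, if_neg hh, if_neg hgh]
    rcases min_le_iff.mp (w_add hgh hg hh) with h1 | h1
    · exact le_max_of_le_left (WithZero.exp_le_exp.mpr (by omega))
    · exact le_max_of_le_right (WithZero.exp_le_exp.mpr (by omega))

open Classical in
theorem val_apply_of_ne_zero {g : MGerm x} (hg : g ≠ 0) :
    val x g = WithZero.exp (-(w g)) := by
  show (if g = 0 then 0 else WithZero.exp (-(w g))) = _
  rw [if_neg hg]

theorem w_eq_neg_log_val (g : MGerm x) : w g = -(WithZero.log (val x g)) := by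
  rcases eq_or_ne g 0 with rfl | hg
  · simp
  · rw [val_apply_of_ne_zero hg]
    simp

theorem val_le_one_iff {g : MGerm x} (hg : g ≠ 0) : val x g ≤ 1 ↔ 0 ≤ w g := by
  rw [val_apply_of_ne_zero hg, ← WithZero.exp_zero, WithZero.exp_le_exp]
  omega

/-! ### The derivation `d/dz` -/

/-- The derivative of a meromorphic germ. -/
def d (g : MGerm x) : MGerm x :=
  of (_root_.deriv (Classical.choose (exists_rep g)))
    (Classical.choose (Classical.choose_spec (exists_rep g))).deriv

theorem d_of {f : ℂ → ℂ} (hf : MeromorphicAt f x) :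
    d (of f hf) = of (_root_.deriv f) hf.deriv := by
  obtain ⟨hf', h⟩ := Classical.choose_spec (exists_rep (of f hf))
  rw [of_eq_iff] at h
  exact (of_eq_iff _ _).mpr h.nhdsNE_deriv.symm

theorem d_add (g h : MGerm x) : d (g + h) = d g + d h := by
  obtain ⟨f, hf, rfl⟩ := exists_rep g
  obtain ⟨f', hf', rfl⟩ := exists_rep h
  rw [of_add, d_of, d_of, d_of, of_add, of_eq_iff]
  filter_upwards [hf.eventually_analyticAt, hf'.eventually_analyticAt] with z hz hz'
  exact deriv_add hz.differentiableAt hz'.differentiableAt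

theorem d_mul (g h : MGerm x) :
    d (g * h) = g * d h + h * d g := by
  obtain ⟨f, hf, rfl⟩ := exists_rep g
  obtain ⟨f', hf', rfl⟩ := exists_rep h
  rw [of_mul, d_of, d_of, d_of, of_mul, of_mul, of_add, of_eq_iff]
  filter_upwards [hf.eventually_analyticAt, hf'.eventually_analyticAt] with z hz hz'
  rw [deriv_mul hz.differentiableAt hz'.differentiableAt]
  simp only [Pi.add_apply, Pi.mul_apply]
  ring

theorem d_algebraMap (c : ℂ) : d (algebraMap ℂ (MGerm x) c) = 0 := by
  rw [algebraMap_eq, d_of, ← of_zero, of_eq_iff]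
  exact Eventually.of_forall fun z => by simp

/-- `d/dz` as a `ℂ`-derivation of the field of meromorphic germs. -/
def dDeriv (x : ℂ) : Derivation ℂ (MGerm x) (MGerm x) :=
  Derivation.mk'
    { toFun := d
      map_add' := d_add
      map_smul' := fun c g => by
        rw [Algebra.smul_def, d_mul, d_algebraMap, RingHom.id_apply,
          Algebra.smul_def]
        ring }
    (fun g h => by
      show d (g * h) = g • d h + h • d g
      rw [d_mul]
      rfl)

theorem dDeriv_apply (g : MGerm x) : dDeriv x g = d g := rfl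

theorem dDeriv_of {f : ℂ → ℂ} (hf : MeromorphicAt f x) :
    dDeriv x (of f hf) = of (_root_.deriv f) hf.deriv := d_of hf

/-- If the order of `g` is nonzero, differentiating lowers the order by exactly one. -/
theorem w_d {g : MGerm x} (h : w g ≠ 0) :
    d g ≠ 0 ∧ w (d g) = w g - 1 := by
  have hg : g ≠ 0 := by
    rintro rfl
    simp at h
  obtain ⟨f, hf, rfl⟩ := exists_rep g
  have h1 := coe_w_of hf hg
  have h2 := meromorphicOrderAt_deriv_eq_sub_one (f := f) (x := x) (n := w (of f hf))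
    (by exact_mod_cast h) h1.symm
  have h3 : of (_root_.deriv f) hf.deriv ≠ 0 := by
    rw [Ne, of_eq_zero_iff_order, h2]
    exact WithTop.coe_ne_top
  refine ⟨by rw [d_of]; exact h3, ?_⟩
  rw [d_of, w_of, h2]
  rfl

/-- Differentiating a germ which is regular at `x` gives a germ which is regular at `x`. -/
theorem w_d_nonneg {g : MGerm x} (h : 0 ≤ w g) : 0 ≤ w (d g) := by
  rcases eq_or_ne g 0 with rfl | hg
  · rw [← dDeriv_apply, map_zero, w_zero]
  obtain ⟨f, hf, rfl⟩ := exists_rep g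
  have h1 := coe_w_of hf hg
  have h2 : (0 : WithTop ℤ) ≤ meromorphicOrderAt f x := by
    rw [← h1]
    exact_mod_cast h
  obtain ⟨F, hF, hfF⟩ := (hf.meromorphicOrderAt_nonneg_iff).mp h2
  rw [d_of, w_of, meromorphicOrderAt_congr hfF.nhdsNE_deriv]
  have h3 := hF.deriv.meromorphicOrderAt_nonneg
  cases h4 : meromorphicOrderAt (_root_.deriv F) x with
  | top => rfl
  | coe n =>
    rw [h4] at h3
    exact_mod_cast h3

/-! ### Analytic germs, the coordinate germ, values -/

theorem w_of_analyticAt {f : ℂ → ℂ} (hf : AnalyticAt ℂ f x) :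
    w (of f hf.meromorphicAt) = analyticOrderNatAt f x := by
  rw [w_of, hf.meromorphicOrderAt_eq]
  cases h : analyticOrderAt f x with
  | top => simp [analyticOrderNatAt, h]
  | coe n => simp [analyticOrderNatAt, h]

theorem of_ne_zero_of_analyticAt {f : ℂ → ℂ} (hf : AnalyticAt ℂ f x)
    (h : analyticOrderAt f x ≠ ⊤) : of f hf.meromorphicAt ≠ 0 := by
  rw [Ne, of_eq_zero_iff_order, hf.meromorphicOrderAt_eq]
  cases h' : analyticOrderAt f x with
  | top => exact absurd h' h
  | coe n => simp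

/-- The germ of the coordinate function `z ↦ z - x`. -/
def coord (x : ℂ) : MGerm x := of (fun z => z - x) (by fun_prop)

theorem w_coord : w (coord x) = 1 := by
  have h : meromorphicOrderAt (fun z : ℂ => z - x) x = 1 := by
    have := meromorphicOrderAt_id_sub_const (𝕜 := ℂ) (x := x)
    exact this
  rw [coord, w_of, h]
  rfl

theorem coord_ne_zero : coord x ≠ 0 := by
  intro h
  have := w_coord (x := x)
  rw [h, w_zero] at this
  exact zero_ne_one this

/-- A germ which is regular at `x` has a value there. -/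
theorem exists_sub_algebraMap_w_pos {g : MGerm x} (h : 0 ≤ w g) :
    ∃ c : ℂ, g = algebraMap ℂ (MGerm x) c ∨ 0 < w (g - algebraMap ℂ (MGerm x) c) := by
  rcases eq_or_ne g 0 with rfl | hg
  · exact ⟨0, Or.inl (by simp)⟩
  obtain ⟨f, hf, rfl⟩ := exists_rep g
  have h1 := coe_w_of hf hg
  have h2 : (0 : WithTop ℤ) ≤ meromorphicOrderAt f x := by
    rw [← h1]
    exact_mod_cast h
  obtain ⟨F, hF, hfF⟩ := (hf.meromorphicOrderAt_nonneg_iff).mp h2
  refine ⟨F x, ?_⟩
  have hFc : AnalyticAt ℂ (fun z => F z - F x) x := hF.sub analyticAt_const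
  have hmk : of f hf - algebraMap ℂ (MGerm x) (F x) = of (fun z => F z - F x) hFc.meromorphicAt := by
    rw [algebraMap_eq, of_sub, of_eq_iff]
    filter_upwards [hfF] with z hz
    simp [hz]
  by_cases htop : analyticOrderAt (fun z => F z - F x) x = ⊤
  · left
    rw [← sub_eq_zero, hmk, of_eq_zero_iff_order, hFc.meromorphicOrderAt_eq, htop]
    rfl
  · right
    rw [hmk, w_of_analyticAt hFc]
    have h0 : analyticOrderAt (fun z => F z - F x) x ≠ 0 := by
      rw [analyticOrderAt_ne_zero]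
      exact ⟨hFc, by simp⟩
    have : analyticOrderNatAt (fun z => F z - F x) x ≠ 0 := by
      intro h3
      apply h0
      rw [← ENat.coe_toNat htop]
      exact_mod_cast h3
    exact_mod_cast Nat.pos_of_ne_zero this

/-! ### Change of variable, the rotation lemma -/

/-- Orders are invariant under composition with a local biholomorphism. -/
theorem w_comp {z1 : ℂ} {φ : ℂ → ℂ} (hφ : AnalyticAt ℂ φ z1) (hφ' : _root_.deriv φ z1 ≠ 0)
    {f : ℂ → ℂ} (hf : MeromorphicAt f (φ z1)) :
    w (of (f ∘ φ) (hf.comp_analyticAt hφ)) = w (of f hf) := by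
  rw [w_of, w_of, meromorphicOrderAt_comp_of_deriv_ne_zero hφ hφ']

theorem of_comp_ne_zero {z1 : ℂ} {φ : ℂ → ℂ} (hφ : AnalyticAt ℂ φ z1)
    (hφ' : _root_.deriv φ z1 ≠ 0) {f : ℂ → ℂ} (hf : MeromorphicAt f (φ z1))
    (h0 : of f hf ≠ 0) : of (f ∘ φ) (hf.comp_analyticAt hφ) ≠ 0 := by
  rw [Ne, of_eq_zero_iff_order] at h0 ⊢
  rwa [meromorphicOrderAt_comp_of_deriv_ne_zero hφ hφ']

/-- **Rotation lemma.** If a meromorphic germ `f` at `x` is invariant under a local
biholomorphism `φ` fixing `x`, then `φ'(x) ^ (ord f) = 1`. -/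
theorem rotation {φ : ℂ → ℂ} (hφ : AnalyticAt ℂ φ x) (hφx : φ x = x)
    (hφ' : _root_.deriv φ x ≠ 0) {f : ℂ → ℂ} (hf : MeromorphicAt f x) (h0 : of f hf ≠ 0)
    (hinv : f ∘ φ =ᶠ[𝓝[≠] x] f) : _root_.deriv φ x ^ (w (of f hf)) = 1 := by
  set n := w (of f hf) with hn
  have h1 : meromorphicOrderAt f x = (n : WithTop ℤ) := (coe_w_of hf h0).symm
  obtain ⟨g, hg, hgx, hfg⟩ := (meromorphicOrderAt_eq_int_iff hf).mp h1
  -- `φ` maps punctured neighbourhoods to punctured neighbourhoods
  have hnc : ¬ EventuallyConst φ (𝓝 x) := by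
    intro hc
    have h2 : analyticOrderAt (fun z => φ z - φ x) x = 1 :=
      hφ.analyticOrderAt_sub_eq_one_of_deriv_ne_zero hφ'
    rw [eventuallyConst_iff_analyticOrderAt_sub_eq_top, h2] at hc
    exact ENat.one_ne_top hc
  have hmap : Tendsto φ (𝓝[≠] x) (𝓝[≠] x) := by
    have := hφ.map_nhdsNE hnc
    rwa [hφx] at this
  have hfg' : ∀ᶠ z in 𝓝[≠] x, f (φ z) = (φ z - x) ^ n • g (φ z) := hmap.eventually hfg
  -- the key identity on a punctured neighbourhood
  have hkey : ∀ᶠ z in 𝓝[≠] x, g z = dslope φ x z ^ n * g (φ z) := by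
    filter_upwards [hfg, hfg', hinv, self_mem_nhdsWithin] with z hz1 hz2 hz3 hz4
    have hzx : z - x ≠ 0 := sub_ne_zero.mpr hz4
    have hsl : dslope φ x z = (φ z - x) / (z - x) := by
      rw [dslope_of_ne _ hz4, slope_def_field, hφx]
    have e1 : (z - x) ^ n * g z = (φ z - x) ^ n * g (φ z) := by
      have := hz3
      simp only [Function.comp_apply] at this
      rw [hz1, hz2] at this
      simpa [smul_eq_mul] using this.symm
    rw [hsl, div_zpow, div_mul_eq_mul_div, eq_div_iff (zpow_ne_zero n hzx), mul_comm]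
    exact e1
  -- pass to the limit
  have hcont1 : ContinuousAt g x := hg.continuousAt
  have hds : ContinuousAt (dslope φ x) x := continuousAt_dslope_same.mpr hφ.differentiableAt
  have hds0 : dslope φ x x ≠ 0 := by rwa [dslope_same]
  have hcont2 : ContinuousAt (fun z => dslope φ x z ^ n * g (φ z)) x := by
    refine ContinuousAt.mul (hds.zpow₀ n (Or.inl hds0)) ?_
    have : ContinuousAt g (φ x) := by rw [hφx]; exact hcont1
    exact ContinuousAt.comp (f := φ) (g := g) this hφ.continuousAt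
  have hlim1 : Tendsto g (𝓝[≠] x) (𝓝 (g x)) := hcont1.tendsto.mono_left nhdsWithin_le_nhds
  have hlim2 : Tendsto g (𝓝[≠] x) (𝓝 (dslope φ x x ^ n * g (φ x))) :=
    (hcont2.tendsto.mono_left nhdsWithin_le_nhds).congr' (hkey.mono fun z hz => hz.symm)
  have heq := tendsto_nhds_unique hlim1 hlim2
  rw [dslope_same, hφx] at heq
  have : (_root_.deriv φ x ^ n - 1) * g x = 0 := by
    rw [sub_mul, one_mul, ← heq, sub_self]
  rcases mul_eq_zero.mp this with h | h
  · exact sub_eq_zero.mp h
  · exact absurd h hgx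

end MGerm

/-! ### The valued differential field of meromorphic germs -/

/-- The field of meromorphic germs at `z0` as a valued differential field over `K`, for a ring
homomorphism `ι : K →+* ℂ`. -/
def mgermVDF {K : Type} [Field K] (ι : K →+* ℂ) (z0 : ℂ) : VDF K where
  L := MGerm z0
  instField := inferInstance
  instAlg := ((algebraMap ℂ (MGerm z0)).comp ι).toAlgebra
  w := MGerm.w
  w_mul := fun _ _ hu hv => MGerm.w_mul hu hv
  w_add := fun _ _ hu hv huv => MGerm.w_add huv hu hv
  w_alg := fun c _ => MGerm.w_algebraMap (ι c)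
  d := MGerm.d
  d_add := MGerm.d_add
  d_mul := MGerm.d_mul
  d_alg := fun c => MGerm.d_algebraMap (ι c)
  w_d := fun _ _ hw => MGerm.w_d hw

@[simp] theorem mgermVDF_L {K : Type} [Field K] (ι : K →+* ℂ) (z0 : ℂ) :
    (mgermVDF ι z0).L = MGerm z0 := rfl

theorem mgermVDF_w {K : Type} [Field K] (ι : K →+* ℂ) (z0 : ℂ) (g : MGerm z0) :
    (mgermVDF ι z0).w g = MGerm.w g := rfl

theorem mgermVDF_d {K : Type} [Field K] (ι : K →+* ℂ) (z0 : ℂ) (g : MGerm z0) :
    (mgermVDF ι z0).d g = MGerm.d g := rfl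

theorem mgermVDF_algebraMap {K : Type} [Field K] (ι : K →+* ℂ) (z0 : ℂ) (c : K) :
    algebraMap K (mgermVDF ι z0).L c
      = MGerm.of (fun _ => ι c) (MeromorphicAt.const (ι c) z0) := rfl

end

end Fermat.Agent.S24
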