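import Fermat.Agent.S24.CuspFn
import Fermat.Agent.S24.MGerm
import Fermat.Agent.S24.Conj
import Fermat.Agent.S24.Bridge

/-!
# S24 [LocalCusp]: the local datum at the cusp

The conjugate embeddings of the function field at the point `∞` of the `j`-line: the local field
is the field of meromorphic germs at `s = 0`, `s = exp(2πiτ/N)`, the embedding attached to a coset
`x` is `f ↦ germ of (conjugate of f) (τ(s))`, and the local monodromy is the action of `T`.

The construction is done for an abstract input `CuspInput N R X` (a ring `R` with fraction field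
`F`, and ring homs `c x : R →+* (ℍ → ℂ)`), and then instantiated with `R = RN N`,
`c x r = conjF x (ev N r)`.
-/

set_option autoImplicit false

namespace Fermat.Agent.S24

open UpperHalfPlane hiding I
open Complex Filter Function
open scoped Manifold MatrixGroups Topology

noncomputable section

/-- Abstract input for the cusp datum: conjugate evaluation maps `c x : R →+* (ℍ → ℂ)`. -/
structure CuspInput (N : ℕ) (R X : Type) [CommRing R] [Algebra (AlgebraicClosure ℚ) R]
    [MulAction SL(2, ℤ) X] where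
  /-- the conjugate evaluations -/
  c : X → R →+* (ℍ → ℂ)
  c_alg : ∀ x (a : AlgebraicClosure ℚ),
    c x (algebraMap (AlgebraicClosure ℚ) R a) = fun _ => iotaK a
  c_mdiff : ∀ x r, MDiff (c x r)
  c_smul : ∀ (γ : SL(2, ℤ)) x r τ, c (γ • x) r τ = c x r (γ⁻¹ • τ)
  c_per : ∀ x r (τ : ℍ), c x r ((N : ℝ) +ᵥ τ) = c x r τ
  c_bdd : ∀ x r, ∃ m : ℕ,
    IsBoundedAtImInfty (fun τ => c x r τ * ModularForm.discriminant τ ^ m)
  c_zero : ∀ x r, c x r = 0 → r = 0
  /-- the element `j` -/
  jR : R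
  c_j : ∀ x, c x jR = jA
  c_sep : ∀ x y, (∀ r, c x r = c y r) → x = y

theorem cusp_toPerm_pow_apply {G X : Type} [Group G] [MulAction G X] (g : G) (n : ℕ) (x : X) :
    ((MulAction.toPerm g : Equiv.Perm X) ^ n) x = g ^ n • x := by
  induction n generalizing x with
  | zero => simp
  | succ n ih => rw [pow_succ', Equiv.Perm.mul_apply, ih, MulAction.toPerm_apply, pow_succ', mul_smul]

theorem cusp_of_congr {f g : ℂ → ℂ} (hf : MeromorphicAt f 0) (hg : MeromorphicAt g 0)
    (h : f = g) : MGerm.of f hf = MGerm.of g hg := by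
  subst h
  rfl

namespace CuspInput

variable {N : ℕ} [NeZero N] {R X : Type} [CommRing R] [Algebra (AlgebraicClosure ℚ) R]
  [MulAction SL(2, ℤ) X] (P : CuspInput N R X)

theorem mer (x : X) (r : R) : MeromorphicAt (cuspPull N (P.c x r)) 0 := by
  obtain ⟨m, hm⟩ := P.c_bdd x r
  exact cuspPull_meromorphicAt (P.c_mdiff x r) (P.c_per x r) hm

/-- The local embedding at the cusp, on `R`. -/
def θ (x : X) : R →+* MGerm (0 : ℂ) where
  toFun r := MGerm.of (cuspPull N (P.c x r)) (P.mer x r)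
  map_one' := by
    rw [← MGerm.of_one]
    exact cusp_of_congr _ _ (by rw [map_one]; rfl)
  map_mul' r s := by
    rw [MGerm.of_mul]
    exact cusp_of_congr _ _ (by rw [map_mul]; rfl)
  map_zero' := by
    rw [← MGerm.of_zero]
    exact cusp_of_congr _ _ (by rw [map_zero]; rfl)
  map_add' r s := by
    rw [MGerm.of_add]
    exact cusp_of_congr _ _ (by rw [map_add]; rfl)

theorem θ_apply (x : X) (r : R) : P.θ x r = MGerm.of (cuspPull N (P.c x r)) (P.mer x r) := rfl

theorem θ_injective (x : X) : Function.Injective (P.θ x) := by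
  rw [injective_iff_map_eq_zero]
  intro r hr
  have h1 : ∀ᶠ z in 𝓝[≠] (0 : ℂ), cuspPull N (P.c x r) z = 0 := (MGerm.of_eq_zero_iff (P.mer x r)).mp hr
  have h2 : P.c x r = 0 :=
    cuspPull_eq_of_eventuallyEq (N := N) (P.c_mdiff x r) (mdifferentiable_const (c := (0 : ℂ))) h1
  exact P.c_zero x r h2

theorem θ_eq_iff (x y : X) (r : R) : P.θ x r = P.θ y r ↔ P.c x r = P.c y r := by
  constructor
  · intro h
    rw [θ_apply, θ_apply, MGerm.of_eq_iff] at h
    exact cuspPull_eq_of_eventuallyEq (P.c_mdiff x r) (P.c_mdiff y r) h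
  · intro h
    rw [θ_apply, θ_apply]
    exact cusp_of_congr _ _ (by rw [h])

omit [NeZero N] in
theorem c_div_smul (γ : SL(2, ℤ)) (x : X) (r s : R) :
    P.c (γ • x) r / P.c (γ • x) s = fun τ => (P.c x r / P.c x s) (γ⁻¹ • τ) := by
  funext τ
  simp only [Pi.div_apply, P.c_smul]

omit [NeZero N] in
theorem c_div_per (x : X) (r s : R) (τ : ℍ) :
    (P.c x r / P.c x s) ((N : ℝ) +ᵥ τ) = (P.c x r / P.c x s) τ := by
  simp only [Pi.div_apply, P.c_per]

theorem mer_div (x : X) (r s : R) : MeromorphicAt (cuspPull N (P.c x r / P.c x s)) 0 :=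
  (P.mer x r).div (P.mer x s)

variable {F : Type} [Field F] [Algebra R F] [IsFractionRing R F]

/-- The local embedding at the cusp, on the fraction field. -/
def σ' (x : X) : F →+* MGerm (0 : ℂ) := IsFractionRing.lift (P.θ_injective x)

theorem σ'_algebraMap (x : X) (r : R) : P.σ' x (algebraMap R F r) = P.θ x r :=
  IsFractionRing.lift_algebraMap (P.θ_injective x) r

theorem σ'_div (x : X) (r s : R) :
    P.σ' x (algebraMap R F r / algebraMap R F s) =
      MGerm.of (cuspPull N (P.c x r / P.c x s)) (P.mer_div x r s) := by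
  rw [map_div₀, σ'_algebraMap, σ'_algebraMap, θ_apply, θ_apply, MGerm.of_div]
  rfl

theorem σ'_j (x : X) :
    P.σ' x (algebraMap R F P.jR) = MGerm.of (cuspPull N jA) cuspPull_jA_meromorphicAt := by
  rw [σ'_algebraMap, θ_apply]
  exact cusp_of_congr _ _ (by rw [P.c_j])

theorem w_σ'_j_inv (x : X) : MGerm.w (P.σ' x (algebraMap R F P.jR)⁻¹) = (N : ℤ) := by
  rw [map_inv₀, MGerm.w_inv, σ'_j, MGerm.w_of, meromorphicOrderAt_cuspPull_jA]
  simp

theorem σ'_injective : Function.Injective (fun x : X => (P.σ' x : F →+* MGerm (0 : ℂ))) := by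
  intro x y hxy
  refine P.c_sep x y fun r => ?_
  rw [← P.θ_eq_iff, ← σ'_algebraMap (F := F), ← σ'_algebraMap (F := F)]
  exact congrArg (fun φ : F →+* MGerm (0 : ℂ) => φ (algebraMap R F r)) hxy

/-- the monodromy `T` does not change orders -/
theorem w_σ'_T (x : X) (f : F) :
    MGerm.w (P.σ' (ModularGroup.T • x) f) = MGerm.w (P.σ' x f) := by
  obtain ⟨r, s, -, rfl⟩ := IsFractionRing.div_surjective R f
  rw [σ'_div, σ'_div, MGerm.w_of, MGerm.w_of]
  congr 1
  have hQper : ∀ τ : ℍ, (P.c x r / P.c x s) ((N : ℝ) +ᵥ τ) = (P.c x r / P.c x s) τ :=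
    P.c_div_per x r s
  have h1 : P.c (ModularGroup.T • x) r / P.c (ModularGroup.T • x) s =
      fun τ => (P.c x r / P.c x s) ((((-1 : ℤ) : ℤ) : ℝ) +ᵥ τ) := by
    rw [P.c_div_smul]
    funext τ
    rw [← UpperHalfPlane.modular_T_zpow_smul]
    simp
  have h2 := cuspPull_vadd hQper (-1)
  rw [h1, meromorphicOrderAt_congr h2]
  exact cusp_meromorphicOrderAt_comp_const_mul (Complex.exp_ne_zero _)

/-- orders are divisible by `N / (width of the cusp)` -/
theorem dvd_w_σ' (x : X) {f : F} (hf : f ≠ 0) :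
    (N : ℤ) ∣ (Function.minimalPeriod (MulAction.toPerm ModularGroup.T : Equiv.Perm X) x : ℤ) *
      MGerm.w (P.σ' x f) := by
  have hne : P.σ' x f ≠ 0 := (map_ne_zero (P.σ' x)).mpr hf
  obtain ⟨r, s, -, rfl⟩ := IsFractionRing.div_surjective R f
  rw [σ'_div] at hne ⊢
  set h := Function.minimalPeriod (MulAction.toPerm ModularGroup.T : Equiv.Perm X) x with hh
  set Q : ℍ → ℂ := P.c x r / P.c x s with hQ
  have hG : MeromorphicAt (cuspPull N Q) 0 := P.mer_div x r s
  have hQper : ∀ τ : ℍ, Q ((N : ℝ) +ᵥ τ) = Q τ := P.c_div_per x r s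
  -- `T ^ h` fixes `x`
  have hfix : ModularGroup.T ^ h • x = x := by
    have hp := Function.isPeriodicPt_minimalPeriod
      (MulAction.toPerm ModularGroup.T : Equiv.Perm X) x
    rw [Function.IsPeriodicPt, Function.IsFixedPt, ← hh, Equiv.Perm.iterate_eq_pow] at hp
    rw [← cusp_toPerm_pow_apply]
    exact hp
  -- hence `Q` is invariant under `τ ↦ τ - h`
  have hQinv : (fun τ : ℍ => Q (((-(h : ℤ) : ℤ) : ℝ) +ᵥ τ)) = Q := by
    have h1 := P.c_div_smul (ModularGroup.T ^ h) x r s
    rw [hfix] at h1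
    rw [hQ]
    conv_rhs => rw [h1]
    funext τ
    rw [← UpperHalfPlane.modular_T_zpow_smul, zpow_neg, zpow_natCast]
  have h2 := cuspPull_vadd hQper (-(h : ℤ))
  rw [hQinv] at h2
  -- the rotation lemma
  have hc : cexp (2 * Real.pi * I * ((-(h : ℤ) : ℤ) : ℂ) / N) ≠ 0 := Complex.exp_ne_zero _
  have hn : meromorphicOrderAt (cuspPull N Q) 0 = ((MGerm.w (MGerm.of (cuspPull N Q) hG) : ℤ) :
      WithTop ℤ) := (MGerm.coe_w_of hG hne).symm
  have hrot := cusp_rot_zpow_order_eq_one hc hG hn h2.symm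
  set n : ℤ := MGerm.w (MGerm.of (cuspPull N Q) hG) with hn'
  rw [← Complex.exp_int_mul, Complex.exp_eq_one_iff] at hrot
  obtain ⟨m, hm⟩ := hrot
  have hN0 : (N : ℂ) ≠ 0 := Nat.cast_ne_zero.mpr (NeZero.ne N)
  have hpi : (2 * (Real.pi : ℂ) * I) ≠ 0 := Complex.two_pi_I_ne_zero
  have key : ((-(n * h) : ℤ) : ℂ) = ((m * N : ℤ) : ℂ) := by
    have e1 : (n : ℂ) * (2 * Real.pi * I * ((-(h : ℤ) : ℤ) : ℂ) / N) * N =
        ((-(n * h) : ℤ) : ℂ) * (2 * Real.pi * I) := by
      push_cast
      field_simp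
    have e2 : (m : ℂ) * (2 * Real.pi * I) * N = ((m * N : ℤ) : ℂ) * (2 * Real.pi * I) := by
      push_cast
      ring
    have e3 : ((-(n * h) : ℤ) : ℂ) * (2 * Real.pi * I) = ((m * N : ℤ) : ℂ) * (2 * Real.pi * I) := by
      rw [← e1, ← e2, hm]
    exact mul_right_cancel₀ hpi e3
  have key' : -(n * h) = m * N := by exact_mod_cast key
  exact ⟨-m, by linarith⟩

variable [Algebra (AlgebraicClosure ℚ) F] [IsScalarTower (AlgebraicClosure ℚ) R F]

theorem σ'_algebraMap_base (x : X) (a : AlgebraicClosure ℚ) :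
    P.σ' x (algebraMap (AlgebraicClosure ℚ) F a) =
      MGerm.of (fun _ => iotaK a) (MeromorphicAt.const (iotaK a) 0) := by
  rw [IsScalarTower.algebraMap_apply (AlgebraicClosure ℚ) R F, σ'_algebraMap, θ_apply]
  exact cusp_of_congr _ _ (by rw [P.c_alg]; rfl)

/-- **The local datum at the cusp**, from an abstract input. -/
def datum (j : F) (hj : algebraMap R F P.jR = j) :
    LocalDatum (AlgebraicClosure ℚ) F j X none where
  V := mgermVDF iotaK 0
  σ x :=
    { toRingHom := (P.σ' x : F →+* MGerm (0 : ℂ))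
      commutes' := fun a => P.σ'_algebraMap_base x a }
  E := N
  E_pos := NeZero.pos N
  w_zc := fun x => by
    subst hj
    exact P.w_σ'_j_inv x
  σ_j := fun x y => by
    subst hj
    exact (P.σ'_j x).trans (P.σ'_j y).symm
  σ_inj := fun x y hxy => by
    apply P.σ'_injective (F := F)
    exact congrArg (fun φ : F →ₐ[AlgebraicClosure ℚ] (mgermVDF iotaK 0).L => φ.toRingHom) hxy
  π := MulAction.toPerm ModularGroup.T
  w_π := fun x f => P.w_σ'_T x f
  dvd := fun x f hf => P.dvd_w_σ' x hf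

theorem datum_π (j : F) (hj : algebraMap R F P.jR = j) :
    (P.datum j hj).π = MulAction.toPerm ModularGroup.T := rfl

theorem datum_E (j : F) (hj : algebraMap R F P.jR = j) : (P.datum j hj).E = N := rfl

theorem datum_V (j : F) (hj : algebraMap R F P.jR = j) :
    (P.datum j hj).V = mgermVDF iotaK 0 := rfl

end CuspInput

/-! ### The concrete datum -/

/-- every `ev N r` is a modular function of level `N` -/
theorem cusp_modFun_ev (N : ℕ) [NeZero N] (r : RN N) : ModFun N (ev N r) := by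
  refine ModFun.of_adjoin (N := N) (K := AlgebraicClosure ℚ)
    {x | ∃ (d : ℕ) (_ : NeZero d), d ∣ N ∧ x = Jd d} (ev N) (fun c => ?_) (fun s hs => ?_) r
  · have h := ev_algebraMap N c
    have h' : ModFun N (ev N (algebraMap (AlgebraicClosure ℚ) (RN N) c)) := by
      rw [h]
      exact ModFun.const N (iotaK c)
    exact h'
  · obtain ⟨d, hd0, hdN, rfl⟩ := hs
    have h := ev_Jd (N := N) hdN
    have e : (fun τ => jA (scaleH d τ)) = jS d := funext fun τ => (jS_eq_scaleH d τ).symm
    rw [e] at h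
    have h' : ModFun N (ev N ⟨Jd d, Jd_mem_RN hdN⟩) := by
      rw [h]
      exact ModFun.jS hdN
    exact h'

/-- The concrete input: `c x r = conjF x (ev N r)`. -/
def cuspInput (N : ℕ) [NeZero N] : CuspInput N (RN N) (Fermat.Agent.ES.X N) where
  c x := (conjFHom x).comp (ev N)
  c_alg x a := by
    change conjF x (ev N (algebraMap (AlgebraicClosure ℚ) (RN N) a)) = _
    rw [ev_algebraMap]
    rfl
  c_mdiff x r := (cusp_modFun_ev N r).mdiff_conjF x
  c_smul γ x r τ := (cusp_modFun_ev N r).conjF_smul γ x τ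
  c_per x r τ := by
    have h := (cusp_modFun_ev N r).conjF_vadd x τ
    simpa using h
  c_bdd x r := (cusp_modFun_ev N r).conjF_bounded x
  c_zero x r h := by
    apply ev_injective N
    rw [map_zero]
    funext τ
    have h1 := congrFun h ((rep x) • τ)
    change ev N r ((rep x)⁻¹ • (rep x) • τ) = 0 at h1
    rwa [inv_smul_smul] at h1
  jR := ⟨Jd 1, Jd_mem_RN (one_dvd N)⟩
  c_j x := by
    change conjF x (ev N ⟨Jd 1, Jd_mem_RN (one_dvd N)⟩) = jA
    rw [ev_Jd (one_dvd N)]
    have e : (fun τ => jA (scaleH 1 τ)) = jA := by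
      funext τ
      congr 1
      apply UpperHalfPlane.ext
      simp
    rw [e, conjF_jA]
  c_sep x y h := by
    apply conjF_jS_injective N
    have h1 := h ⟨Jd N, Jd_mem_RN (dvd_refl N)⟩
    change conjF x (ev N ⟨Jd N, Jd_mem_RN (dvd_refl N)⟩) =
      conjF y (ev N ⟨Jd N, Jd_mem_RN (dvd_refl N)⟩) at h1
    rw [ev_Jd (dvd_refl N)] at h1
    have e : (fun τ => jA (scaleH N τ)) = jS N := funext fun τ => (jS_eq_scaleH N τ).symm
    rw [e] at h1
    exact h1

/-- **The local datum at the cusp `∞` of the `j`-line.** -/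
def cuspDatum (N : ℕ) [NeZero N] :
    LocalDatum (AlgebraicClosure ℚ) (ModularCurve.modularFunctionFieldBar N) (jF N)
      (Fermat.Agent.ES.X N) none :=
  (cuspInput N).datum (jF N) rfl

theorem cuspDatum_π (N : ℕ) [NeZero N] :
    (cuspDatum N).π = MulAction.toPerm ModularGroup.T := rfl

theorem cuspDatum_E (N : ℕ) [NeZero N] : (cuspDatum N).E = N := rfl

theorem cuspDatum_V (N : ℕ) [NeZero N] : (cuspDatum N).V = mgermVDF iotaK 0 := rfl

end

end Fermat.Agent.S24

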