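import Mathlib
import Fermat.Agent.S24.BridgeGraph

/-!
# Polynomial relations transfer along `IsLaurentOf`
-/

set_option autoImplicit false

noncomputable section

namespace Fermat.Agent.S24B

open UpperHalfPlane Polynomial

namespace IsLaurentOf

variable {s sJ : LaurentSeries ℂ} {f fJ : ℍ → ℂ}

theorem pow (hf : IsLaurentOf s f) (n : ℕ) : IsLaurentOf (s ^ n) (f ^ n) := by
  induction n with
  | zero => simpa using IsLaurentOf.one
  | succ n ih => simpa [pow_succ] using ih.mul hf

theorem sum {ι : Type*} (t : Finset ι) {S : ι → LaurentSeries ℂ} {F : ι → ℍ → ℂ}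
    (h : ∀ i ∈ t, IsLaurentOf (S i) (F i)) : IsLaurentOf (∑ i ∈ t, S i) (∑ i ∈ t, F i) := by
  classical
  induction t using Finset.induction_on with
  | empty => simpa using IsLaurentOf.zero
  | insert a t ha ih =>
    rw [Finset.sum_insert ha, Finset.sum_insert ha]
    exact (h a (Finset.mem_insert_self a t)).add
      (ih fun i hi => h i (Finset.mem_insert_of_mem hi))

/-- Univariate polynomials with complex coefficients. -/
theorem polynomial (hJ : IsLaurentOf sJ fJ) (p : ℂ[X]) :
    IsLaurentOf (p.eval₂ HahnSeries.C sJ) (fun τ => p.eval (fJ τ)) := by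
  induction p using Polynomial.induction_on' with
  | add p q hp hq =>
    have h2 : (fun τ => (p + q).eval (fJ τ))
        = (fun τ => p.eval (fJ τ)) + fun τ => q.eval (fJ τ) := by
      funext τ
      simp
    rw [Polynomial.eval₂_add, h2]
    exact hp.add hq
  | monomial n a =>
    have h1 : (monomial n a).eval₂ HahnSeries.C sJ = HahnSeries.C a * sJ ^ n := by
      simp [Polynomial.eval₂_monomial]
    have h2 : (fun τ => (monomial n a).eval (fJ τ)) = (fun _ : ℍ => a) * fJ ^ n := by
      funext τ
      simp
    rw [h1, h2]
    exact (IsLaurentOf.const a).mul (hJ.pow n)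

/-- Bivariate polynomials: the graph transfer used for the degree bound. -/
theorem bivariate (hJ : IsLaurentOf sJ fJ) (hf : IsLaurentOf s f) (P : ℂ[X][X]) :
    IsLaurentOf (P.eval₂ (Polynomial.eval₂RingHom HahnSeries.C sJ) s)
      (fun τ => (P.map (Polynomial.evalRingHom (fJ τ))).eval (f τ)) := by
  induction P using Polynomial.induction_on' with
  | add p q hp hq =>
    have h2 : (fun τ => ((p + q).map (Polynomial.evalRingHom (fJ τ))).eval (f τ))
        = (fun τ => (p.map (Polynomial.evalRingHom (fJ τ))).eval (f τ))
          + fun τ => (q.map (Polynomial.evalRingHom (fJ τ))).eval (f τ) := by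
      funext τ
      simp
    rw [Polynomial.eval₂_add, h2]
    exact hp.add hq
  | monomial n a =>
    have h1 : (monomial n a).eval₂ (Polynomial.eval₂RingHom HahnSeries.C sJ) s
        = a.eval₂ HahnSeries.C sJ * s ^ n := by
      simp [Polynomial.eval₂_monomial]
    have h2 : (fun τ => ((monomial n a).map (Polynomial.evalRingHom (fJ τ))).eval (f τ))
        = (fun τ => a.eval (fJ τ)) * f ^ n := by
      funext τ
      simp
    rw [h1, h2]
    exact (hJ.polynomial a).mul (hf.pow n)

end IsLaurentOf

end Fermat.Agent.S24B
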