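import Mathlib

/-!
# S24 [DegBound]: the abstract algebra step

Let `F / K` be a field extension (characteristic `0`), `j ∈ F`, and `R ⊆ F` a finitely generated
`K`-subalgebra containing `j` whose fraction field is `F`.  If every element of `R` is a root of a
nonzero polynomial of degree `≤ μ` over `K(j)`, then `[F : K(j)] ≤ μ`.
-/

set_option autoImplicit false

namespace Fermat.Agent.S24

open IntermediateField Polynomial

section

variable {K F : Type} [Field K] [Field F] [Algebra K F]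

/-- elements of `F` of the form `r / q(j)` with `r ∈ R` -/
def degAlgSub (j : F) (R : Subalgebra K F) (hj : j ∈ R) : Subalgebra K⟮j⟯ F where
  carrier := {θ | ∃ q : K[X], aeval j q ≠ 0 ∧ θ * aeval j q ∈ R}
  mul_mem' := by
    rintro a b ⟨q₁, hq₁, h₁⟩ ⟨q₂, hq₂, h₂⟩
    refine ⟨q₁ * q₂, ?_, ?_⟩
    · rw [map_mul]; exact mul_ne_zero hq₁ hq₂
    · rw [map_mul]
      have : a * b * (aeval j q₁ * aeval j q₂) = (a * aeval j q₁) * (b * aeval j q₂) := by ring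
      rw [this]
      exact R.mul_mem h₁ h₂
  add_mem' := by
    rintro a b ⟨q₁, hq₁, h₁⟩ ⟨q₂, hq₂, h₂⟩
    refine ⟨q₁ * q₂, ?_, ?_⟩
    · rw [map_mul]; exact mul_ne_zero hq₁ hq₂
    · rw [map_mul]
      have : (a + b) * (aeval j q₁ * aeval j q₂) =
          (a * aeval j q₁) * aeval j q₂ + (b * aeval j q₂) * aeval j q₁ := by ring
      rw [this]
      have hq : ∀ q : K[X], aeval j q ∈ R := fun q => by
        have := (aeval (⟨j, hj⟩ : R) q).2
        have e : aeval j q = ((aeval (⟨j, hj⟩ : R) q : R) : F) :=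
          Polynomial.aeval_algHom_apply R.val (⟨j, hj⟩ : R) q
        rw [e]
        exact this
      exact R.add_mem (R.mul_mem h₁ (hq q₂)) (R.mul_mem h₂ (hq q₁))
  algebraMap_mem' := by
    rintro ⟨c, hc⟩
    have hq : ∀ q : K[X], aeval j q ∈ R := fun q => by
      have := (aeval (⟨j, hj⟩ : R) q).2
      have e : aeval j q = ((aeval (⟨j, hj⟩ : R) q : R) : F) :=
        Polynomial.aeval_algHom_apply R.val (⟨j, hj⟩ : R) q
      rw [e]
      exact this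
    obtain ⟨p, s, hps⟩ := (mem_adjoin_simple_iff K c).mp hc
    change c ∈ {θ | ∃ q : K[X], aeval j q ≠ 0 ∧ θ * aeval j q ∈ R}
    by_cases hs : aeval j s = 0
    · refine ⟨1, by simp, ?_⟩
      rw [hps, hs, div_zero, zero_mul]
      exact R.zero_mem
    · refine ⟨s, hs, ?_⟩
      rw [hps, div_mul_cancel₀ _ hs]
      exact hq p

theorem mem_degAlgSub {j : F} {R : Subalgebra K F} {hj : j ∈ R} {θ : F} :
    θ ∈ degAlgSub j R hj ↔ ∃ q : K[X], aeval j q ≠ 0 ∧ θ * aeval j q ∈ R := Iff.rfl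

/-- The abstract degree bound (core form). -/
theorem degbound_core [CharZero K] (j : F) (R : Subalgebra K F) (hj : j ∈ R)
    (hR : ∀ f : F, ∃ r₁ ∈ R, ∃ r₂ ∈ R, r₂ ≠ 0 ∧ f = r₁ / r₂) (μ : ℕ)
    (hμ : ∀ r ∈ R, ∃ Q : Polynomial K⟮j⟯, Q ≠ 0 ∧ Q.natDegree ≤ μ ∧ aeval r Q = 0) :
    FiniteDimensional K⟮j⟯ F ∧ Module.finrank K⟮j⟯ F ≤ μ := by
  have halg : ∀ r ∈ R, IsAlgebraic K⟮j⟯ r := fun r hr => by
    obtain ⟨Q, hQ0, -, hQ⟩ := hμ r hr
    exact ⟨Q, hQ0, hQ⟩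
  have hint : ∀ r ∈ R, IsIntegral K⟮j⟯ r := fun r hr => (halg r hr).isIntegral
  have hFalg : Algebra.IsAlgebraic K⟮j⟯ F := ⟨fun f => by
    obtain ⟨r₁, hr₁, r₂, hr₂, -, rfl⟩ := hR f
    rw [div_eq_mul_inv]
    exact (halg r₁ hr₁).mul (halg r₂ hr₂).inv⟩
  -- every element is `r / q(j)`
  have hT : ∀ f : F, f ∈ degAlgSub j R hj := by
    intro f
    obtain ⟨r₁, hr₁, r₂, hr₂, -, rfl⟩ := hR f
    have h1 : r₁ ∈ degAlgSub j R hj := ⟨1, by simp, by simpa using hr₁⟩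
    have h2 : r₂ ∈ degAlgSub j R hj := ⟨1, by simp, by simpa using hr₂⟩
    have h3 : r₂⁻¹ ∈ degAlgSub j R hj :=
      (degAlgSub j R hj).inv_mem_of_algebraic (x := ⟨r₂, h2⟩) (halg r₂ hr₂)
    rw [div_eq_mul_inv]
    exact (degAlgSub j R hj).mul_mem h1 h3
  -- the degree of every element is at most `μ`
  have hdeg : ∀ θ : F, (minpoly K⟮j⟯ θ).natDegree ≤ μ := by
    intro θ
    obtain ⟨q, hq0, hqR⟩ := hT θ
    obtain ⟨r, hr⟩ : ∃ r : F, r = θ * aeval j q := ⟨_, rfl⟩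
    rw [← hr] at hqR
    have hcmem : aeval j q ∈ K⟮j⟯ := by
      rw [mem_adjoin_simple_iff]
      exact ⟨q, 1, by simp⟩
    have hθr : θ ∈ K⟮j⟯⟮r⟯ := by
      have h1 : θ = r * (algebraMap K⟮j⟯ F (⟨aeval j q, hcmem⟩ : K⟮j⟯))⁻¹ := by
        rw [hr]
        change θ = θ * aeval j q * (aeval j q)⁻¹
        rw [mul_assoc, mul_inv_cancel₀ hq0, mul_one]
      rw [h1]
      exact mul_mem (mem_adjoin_simple_self _ r) (inv_mem (IntermediateField.algebraMap_mem _ _))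
    have hrθ : r ∈ K⟮j⟯⟮θ⟯ := by
      have h1 : r = θ * algebraMap K⟮j⟯ F (⟨aeval j q, hcmem⟩ : K⟮j⟯) := hr
      rw [h1]
      exact mul_mem (mem_adjoin_simple_self _ θ) (IntermediateField.algebraMap_mem _ _)
    have heq : K⟮j⟯⟮θ⟯ = K⟮j⟯⟮r⟯ :=
      le_antisymm (adjoin_simple_le_iff.mpr hθr) (adjoin_simple_le_iff.mpr hrθ)
    have hθint : IsIntegral K⟮j⟯ θ := (hFalg.isAlgebraic θ).isIntegral
    obtain ⟨Q, hQ0, hQdeg, hQ⟩ := hμ r hqR
    rw [← adjoin.finrank hθint, heq, adjoin.finrank (hint r hqR)]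
    exact (natDegree_le_of_dvd (minpoly.dvd K⟮j⟯ r hQ) hQ0).trans hQdeg
  -- finite subextensions have degree at most `μ`
  have key : ∀ L : IntermediateField K⟮j⟯ F, FiniteDimensional K⟮j⟯ L →
      Module.finrank K⟮j⟯ L ≤ μ := by
    intro L hL
    obtain ⟨θ, hθ⟩ := Field.exists_primitive_element K⟮j⟯ L
    have hθint : IsIntegral K⟮j⟯ θ := (Algebra.IsIntegral.isIntegral θ)
    have h1 : Module.finrank K⟮j⟯ L = (minpoly K⟮j⟯ θ).natDegree := by
      rw [← adjoin.finrank hθint, hθ, finrank_top']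
    rw [h1, IntermediateField.minpoly_eq]
    exact hdeg (θ : F)
  have hfd : FiniteDimensional K⟮j⟯ F := by
    by_contra hnfd
    obtain ⟨L, hL, hlt⟩ := exists_lt_finrank_of_infinite_dimensional hnfd μ
    exact absurd (key L hL) (not_le.mpr hlt)
  refine ⟨hfd, ?_⟩
  rw [← finrank_top' (F := K⟮j⟯) (E := F)]
  exact key ⊤ inferInstance

/-- From a bivariate relation to a relation over `K(j)`. -/
theorem exists_root_of_bivariate (j : F) (hj : Transcendental K j) (r : F) (μ : ℕ)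
    (Q : Polynomial (Polynomial K)) (hQ0 : Q ≠ 0) (hQdeg : Q.natDegree ≤ μ)
    (hQ : (Q.map (aeval j : K[X] →ₐ[K] F).toRingHom).eval r = 0) :
    ∃ Q' : Polynomial K⟮j⟯, Q' ≠ 0 ∧ Q'.natDegree ≤ μ ∧ aeval r Q' = 0 := by
  have hmem : ∀ p : K[X], aeval j p ∈ K⟮j⟯ := fun p => by
    rw [mem_adjoin_simple_iff]
    exact ⟨p, 1, by simp⟩
  let φ : K[X] →+* K⟮j⟯ := ((aeval j : K[X] →ₐ[K] F).toRingHom).codRestrict K⟮j⟯.toSubring hmem
  have hφ : Function.Injective φ := by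
    intro p₁ p₂ h
    have h' : aeval j p₁ = aeval j p₂ := congrArg (fun x : K⟮j⟯ => (x : F)) h
    exact (transcendental_iff_injective.mp hj) h'
  refine ⟨Q.map φ, ?_, ?_, ?_⟩
  · exact (Polynomial.map_ne_zero_iff hφ).mpr hQ0
  · exact natDegree_map_le.trans hQdeg
  · rw [aeval_def, eval₂_map]
    rw [eval_map] at hQ
    exact hQ

/-- The degree bound from bivariate relations over `K`. -/
theorem degbound_of_subalgebra [CharZero K] (j : F) (hj : Transcendental K j)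
    (R : Subalgebra K F) (hjR : j ∈ R)
    (hfrac : ∀ f : F, ∃ r ∈ R, ∃ s ∈ R, s ≠ 0 ∧ f = r / s) (μ : ℕ)
    (hR : ∀ r ∈ R, ∃ Q : K[X][X], Q ≠ 0 ∧ Q.natDegree ≤ μ ∧
      Q.eval₂ ((Polynomial.aeval j : K[X] →ₐ[K] F) : K[X] →+* F) r = 0) :
    FiniteDimensional K⟮j⟯ F ∧ Module.finrank K⟮j⟯ F ≤ μ := by
  refine degbound_core j R hjR hfrac μ fun r hr => ?_
  obtain ⟨Q, hQ0, hQdeg, hQ⟩ := hR r hr
  refine exists_root_of_bivariate j hj r μ Q hQ0 hQdeg ?_
  rw [eval_map]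
  exact hQ

/-- The degree bound from relations over `K(j)`. -/
theorem deg_le_of_forall_algebraic [CharZero K] (j : F) (R : Subalgebra K F) (hjR : j ∈ R)
    (hgen : IntermediateField.adjoin K (R : Set F) = ⊤) (μ : ℕ) (_hμ : 0 < μ)
    (hR : ∀ r ∈ R, ∃ p : Polynomial K⟮j⟯, p ≠ 0 ∧ p.natDegree ≤ μ ∧ Polynomial.aeval r p = 0) :
    FiniteDimensional K⟮j⟯ F ∧ Module.finrank K⟮j⟯ F ≤ μ := by
  refine degbound_core j R hjR (fun f => ?_) μ hR
  have hf : f ∈ IntermediateField.adjoin K (R : Set F) := by rw [hgen]; trivial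
  rw [mem_adjoin_iff_div, Algebra.adjoin_eq] at hf
  obtain ⟨r, hr, s, hs, rfl⟩ := hf
  by_cases hs0 : s = 0
  · exact ⟨0, R.zero_mem, 1, R.one_mem, one_ne_zero, by rw [hs0]; simp⟩
  · exact ⟨r, hr, s, hs, hs0, rfl⟩

end

end Fermat.Agent.S24
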