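import Mathlib
import Fermat.Prelude.Def_ModularCurve_LaurentCoeff

set_option autoImplicit false

/-!
# Project S24, module [LD]: formal linear disjointness

Laurent series with coefficients in a field `K ⊆ ℂ` (via `φ : K →+* ℂ`) which become
`ℂ`-linearly dependent after extending coefficients are already `K`-linearly dependent
(apply a `K`-linear functional `ℂ → K` coefficientwise).  Consequently an algebraic relation
`P(J, r) = 0` with complex coefficients descends to one with coefficients in `K`.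
-/

namespace Fermat.Agent.S24

open ModularCurve Polynomial

noncomputable section

/-- A `K`-linear functional on `ℂ` (`K` acting through `φ`) not vanishing at a given `c ≠ 0`. -/
theorem ld_exists_functional {K : Type*} [Field K] (φ : K →+* ℂ) {c : ℂ} (hc : c ≠ 0) :
    ∃ l : ℂ →+ K, (∀ (a : K) (z : ℂ), l (z * φ a) = l z * a) ∧ l c ≠ 0 := by
  let _ : Algebra K ℂ := φ.toAlgebra
  obtain ⟨f, hf⟩ : ∃ f : Module.Dual K ℂ, f c ≠ 0 := by
    by_contra h
    push Not at h
    exact hc ((Module.forall_dual_apply_eq_zero_iff K c).mp h)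
  refine ⟨f.toAddMonoidHom, fun a z => ?_, hf⟩
  have h1 : z * φ a = a • z := by
    rw [Algebra.smul_def, mul_comm]
    rfl
  rw [h1]
  show f (a • z) = f z * a
  rw [f.map_smul, smul_eq_mul, mul_comm]

/-- **Formal linear disjointness** (finite-sum form). -/
theorem ld_core {K : Type*} [Field K] (φ : K →+* ℂ) {ι : Type*} (s : Finset ι)
    (u : ι → LaurentSeries K) (c : ι → ℂ)
    (hc : ∑ i ∈ s, HahnSeries.C (c i) * coeffMap φ (u i) = 0) {i₀ : ι} (_hi₀ : i₀ ∈ s)
    (hne : c i₀ ≠ 0) : ∃ d : ι → K, d i₀ ≠ 0 ∧ ∑ i ∈ s, HahnSeries.C (d i) * u i = 0 := by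
  obtain ⟨l, hl, hl0⟩ := ld_exists_functional φ hne
  refine ⟨fun i => l (c i), hl0, ?_⟩
  ext n
  have h := congrArg (fun x : LaurentSeries ℂ => l (x.coeff n)) hc
  simp only [HahnSeries.coeff_zero, map_zero, HahnSeries.coeff_sum, map_sum,
    HahnSeries.C_mul_eq_smul, HahnSeries.coeff_smul, coeffMap_coeff, smul_eq_mul, hl] at h
  simp only [HahnSeries.coeff_zero, HahnSeries.coeff_sum, HahnSeries.C_mul_eq_smul,
    HahnSeries.coeff_smul, smul_eq_mul]
  exact h

/-- Expansion of a bivariate evaluation as a finite double sum. -/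
theorem ld_eval₂_expand {L S : Type*} [CommRing L] [CommRing S] (g : L →+* S) (x y : S)
    (P : L[X][X]) (M A : ℕ) (hM : P.natDegree < M) (hA : ∀ k, (P.coeff k).natDegree < A) :
    P.eval₂ (Polynomial.eval₂RingHom g x) y =
      ∑ p ∈ Finset.range A ×ˢ Finset.range M, g ((P.coeff p.2).coeff p.1) * (x ^ p.1 * y ^ p.2) := by
  rw [Polynomial.eval₂_eq_sum_range' _ hM, Finset.sum_product_right]
  refine Finset.sum_congr rfl fun k _ => ?_
  rw [Polynomial.coe_eval₂RingHom, Polynomial.eval₂_eq_sum_range' g (hA k), Finset.sum_mul]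
  refine Finset.sum_congr rfl fun a _ => ?_
  ring

/-- **Descent of algebraic relations**: a nontrivial relation `P(J, r) = 0` with complex
coefficients between (the images of) two Laurent series over `K` yields a nontrivial relation
with coefficients in `K`, of no larger degree in the second variable. -/
theorem ld_bivariate {K : Type*} [Field K] (φ : K →+* ℂ) (J r : LaurentSeries K) (P : ℂ[X][X])
    (hP : P ≠ 0)
    (h : P.eval₂ (Polynomial.eval₂RingHom HahnSeries.C (coeffMap φ J)) (coeffMap φ r) = 0) :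
    ∃ Q : K[X][X], Q ≠ 0 ∧ Q.natDegree ≤ P.natDegree ∧
      Q.eval₂ (Polynomial.eval₂RingHom HahnSeries.C J) r = 0 := by
  classical
  obtain ⟨k₀, hk₀⟩ : ∃ k, P.coeff k ≠ 0 := by
    by_contra h'
    push Not at h'
    exact hP (Polynomial.ext h')
  obtain ⟨a₀, ha₀⟩ : ∃ a, (P.coeff k₀).coeff a ≠ 0 := by
    by_contra h'
    push Not at h'
    exact hk₀ (Polynomial.ext h')
  set M := P.natDegree with hM
  obtain ⟨A, hA⟩ : ∃ A, ∀ k, (P.coeff k).natDegree < A := by
    refine ⟨(Finset.range (M + 1)).sup (fun k => (P.coeff k).natDegree) + 1, fun k => ?_⟩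
    by_cases hk : k ≤ M
    · exact Nat.lt_succ_of_le (Finset.le_sup (f := fun k => (P.coeff k).natDegree)
        (Finset.mem_range.mpr (by omega)))
    · rw [Polynomial.coeff_eq_zero_of_natDegree_lt (by omega)]
      simp
  have hk₀M : k₀ < M + 1 := Nat.lt_succ_of_le (Polynomial.le_natDegree_of_ne_zero hk₀)
  have ha₀A : a₀ < A := lt_of_le_of_lt (Polynomial.le_natDegree_of_ne_zero ha₀) (hA k₀)
  rw [ld_eval₂_expand _ _ _ P (M + 1) A (Nat.lt_succ_self _) hA] at h
  have h' : ∑ p ∈ Finset.range A ×ˢ Finset.range (M + 1),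
      HahnSeries.C ((P.coeff p.2).coeff p.1) * coeffMap φ (J ^ p.1 * r ^ p.2) = 0 := by
    rw [← h]
    refine Finset.sum_congr rfl fun p _ => ?_
    rw [map_mul, map_pow, map_pow]
  obtain ⟨d, hd0, hd⟩ := ld_core φ _ (fun p : ℕ × ℕ => J ^ p.1 * r ^ p.2)
    (fun p : ℕ × ℕ => (P.coeff p.2).coeff p.1) h' (i₀ := (a₀, k₀))
    (Finset.mem_product.mpr ⟨Finset.mem_range.mpr ha₀A, Finset.mem_range.mpr hk₀M⟩) ha₀
  refine ⟨∑ p ∈ Finset.range A ×ˢ Finset.range (M + 1),
    Polynomial.monomial p.2 (Polynomial.monomial p.1 (d p)), ?_, ?_, ?_⟩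
  · intro hQ
    have h1 := congrArg (fun Q : K[X][X] => (Q.coeff k₀).coeff a₀) hQ
    simp only [Polynomial.finsetSum_coeff, Polynomial.coeff_monomial, Polynomial.coeff_zero] at h1
    rw [Finset.sum_eq_single (a₀, k₀)] at h1
    · simp only [if_true] at h1
      rw [Polynomial.coeff_monomial, if_pos rfl] at h1
      exact hd0 h1
    · intro p _ hp
      by_cases h2 : p.2 = k₀
      · rw [if_pos h2, Polynomial.coeff_monomial, if_neg]
        intro h3
        exact hp (Prod.ext h3 h2)
      · rw [if_neg h2, Polynomial.coeff_zero]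
    · intro hmem
      exact absurd (Finset.mem_product.mpr
        ⟨Finset.mem_range.mpr ha₀A, Finset.mem_range.mpr hk₀M⟩) hmem
  · refine Polynomial.natDegree_sum_le_of_forall_le _ _ fun p hp => ?_
    refine (Polynomial.natDegree_monomial_le _).trans ?_
    have := Finset.mem_range.mp (Finset.mem_product.mp hp).2
    omega
  · rw [Polynomial.eval₂_finsetSum, ← hd]
    refine Finset.sum_congr rfl fun p _ => ?_
    rw [Polynomial.eval₂_monomial, Polynomial.coe_eval₂RingHom, Polynomial.eval₂_monomial]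
    ring

end

end Fermat.Agent.S24
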