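import Mathlib
import Fermat.Agent.S24.Defs
import Fermat.Agent.S24.Bridge
import Fermat.Agent.S24.BridgePoly
import Fermat.Agent.S24.Conj
import Fermat.Agent.S24.LinDisj
import Fermat.Agent.S24.DegAlg

set_option autoImplicit false

/-!
# Project S24, module [DegBound]: `[F : ℚ̄(j)] ≤ [SL(2,ℤ) : Γ₀(N)]`
-/

namespace Fermat.Agent.S24

open ModularCurve Polynomial IntermediateField UpperHalfPlane

noncomputable section

/-- Every `ev N r` is a modular function of level `N`. -/
theorem db_modFun (N : ℕ) [NeZero N] (r : RN N) : ModFun N (ev N r) := by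
  refine ModFun.of_adjoin (K := AlgebraicClosure ℚ) _ (ev N) ?_ ?_ r
  · intro c
    change ModFun N (ev N (algebraMap (AlgebraicClosure ℚ) (RN N) c))
    rw [ev_algebraMap]
    exact ModFun.const N _
  · rintro s ⟨d, hd, hdN, rfl⟩
    have := hd
    have h : ev N ⟨Jd d, Jd_mem_RN hdN⟩ = jS d := by
      rw [ev_Jd hdN]
      funext τ
      exact (jS_eq_scaleH d τ).symm
    exact h ▸ ModFun.jS hdN

/-- `coeffMap iotaK (Jd 1)` is the `q`-expansion of `jA`. -/
theorem db_isLaurentOf_jA (N : ℕ) [NeZero N] :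
    S24B.IsLaurentOf (coeffMap iotaK (Jd 1)) jA := by
  have h1 := ev_isLaurentOf N ⟨Jd 1, Jd_mem_RN (one_dvd N)⟩
  have h2 : ev N ⟨Jd 1, Jd_mem_RN (one_dvd N)⟩ = jA := by
    rw [ev_Jd (one_dvd N)]
    funext τ
    congr 1
    ext
    simp
  rwa [h2] at h1

/-- Every element of `RN N` satisfies a nontrivial polynomial relation over `ℚ̄[j]` of degree at
most `|X N|`. -/
theorem db_relation (N : ℕ) [NeZero N] (r : RN N) :
    ∃ Q : (AlgebraicClosure ℚ)[X][X], Q ≠ 0 ∧ Q.natDegree ≤ Fintype.card (ES.X N) ∧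
      Q.eval₂ (Polynomial.eval₂RingHom HahnSeries.C (Jd 1))
        (r : LaurentSeries (AlgebraicClosure ℚ)) = 0 := by
  obtain ⟨P, hP1, hP2, hP3⟩ := (db_modFun N r).exists_monic_relation
  have h := (((db_isLaurentOf_jA N).bivariate (ev_isLaurentOf N r) P).eq_zero_iff).mpr (funext hP3)
  obtain ⟨Q, hQ0, hQd, hQ⟩ := ld_bivariate iotaK (Jd 1) r P hP1.ne_zero h
  exact ⟨Q, hQ0, hQd.trans hP2.le, hQ⟩

/-- From a bivariate relation over `K[j]` to a univariate one over `K⟮j⟯`. -/
theorem db_poly_of_bivariate {K F : Type} [Field K] [Field F] [Algebra K F] (j : F)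
    (hj : Transcendental K j) (x : F) (Q : K[X][X]) (hQ : Q ≠ 0)
    (h : Q.eval₂ ((Polynomial.aeval j : K[X] →ₐ[K] F) : K[X] →+* F) x = 0) :
    ∃ p : Polynomial K⟮j⟯, p ≠ 0 ∧ p.natDegree ≤ Q.natDegree ∧ Polynomial.aeval x p = 0 := by
  set g : K[X] →+* K⟮j⟯ :=
    ((Polynomial.aeval (AdjoinSimple.gen K j) : K[X] →ₐ[K] K⟮j⟯) : K[X] →+* K⟮j⟯) with hg
  have hcomp : (algebraMap K⟮j⟯ F).comp g = ((Polynomial.aeval j : K[X] →ₐ[K] F) : K[X] →+* F) := by
    refine Polynomial.ringHom_ext (fun c => ?_) ?_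
    · simp [hg]
    · simp [hg]
  have hginj : Function.Injective g := by
    rw [injective_iff_map_eq_zero]
    intro q hq
    have h1 : (Polynomial.aeval j : K[X] →ₐ[K] F) q = 0 := by
      have := congrArg (algebraMap K⟮j⟯ F) hq
      rw [map_zero, ← RingHom.comp_apply, hcomp] at this
      exact this
    exact transcendental_iff.mp hj q h1
  refine ⟨Q.map g, ?_, Polynomial.natDegree_map_le, ?_⟩
  · intro h0
    apply hQ
    apply Polynomial.map_injective g hginj
    rw [h0, Polynomial.map_zero]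
  · rw [Polynomial.aeval_def, Polynomial.eval₂_map, hcomp]
    exact h

/-- The image of `RN N` in the function field. -/
def dbR (N : ℕ) [NeZero N] : Subalgebra (AlgebraicClosure ℚ) (modularFunctionFieldBar N) :=
  (RN N).comap (modularFunctionFieldBar N).val

theorem mem_dbR (N : ℕ) [NeZero N] (f : modularFunctionFieldBar N) :
    f ∈ dbR N ↔ (f : LaurentSeries (AlgebraicClosure ℚ)) ∈ RN N := Iff.rfl

theorem db_comp_val (N : ℕ) [NeZero N] :
    ((modularFunctionFieldBar N).val : modularFunctionFieldBar N →+*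
        LaurentSeries (AlgebraicClosure ℚ)).comp
      ((Polynomial.aeval (jF N) : (AlgebraicClosure ℚ)[X] →ₐ[AlgebraicClosure ℚ] _) :
        (AlgebraicClosure ℚ)[X] →+* modularFunctionFieldBar N)
      = Polynomial.eval₂RingHom HahnSeries.C (Jd 1) := by
  refine Polynomial.ringHom_ext (fun c => ?_) ?_
  · simp only [RingHom.comp_apply, RingHom.coe_coe, Polynomial.aeval_C,
      Polynomial.coe_eval₂RingHom, Polynomial.eval₂_C]
    show algebraMap (AlgebraicClosure ℚ) (LaurentSeries (AlgebraicClosure ℚ)) c = HahnSeries.C c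
    rw [algebraMap_laurentSeries_eq_single]
    rfl
  · simp only [RingHom.comp_apply, RingHom.coe_coe, Polynomial.aeval_X,
      Polynomial.coe_eval₂RingHom, Polynomial.eval₂_X]
    rfl

theorem db_exists_poly (N : ℕ) [NeZero N] (f : modularFunctionFieldBar N) (hf : f ∈ dbR N) :
    ∃ p : Polynomial (AlgebraicClosure ℚ)⟮jF N⟯, p ≠ 0 ∧ p.natDegree ≤ Fintype.card (ES.X N) ∧
      Polynomial.aeval f p = 0 := by
  obtain ⟨Q, hQ0, hQd, hQ⟩ := db_relation N ⟨f, hf⟩
  have h : Q.eval₂ ((Polynomial.aeval (jF N) : (AlgebraicClosure ℚ)[X] →ₐ[AlgebraicClosure ℚ] _) :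
      (AlgebraicClosure ℚ)[X] →+* modularFunctionFieldBar N) f = 0 := by
    apply Subtype.ext
    have h1 := Polynomial.hom_eval₂ Q
      ((Polynomial.aeval (jF N) : (AlgebraicClosure ℚ)[X] →ₐ[AlgebraicClosure ℚ] _) :
        (AlgebraicClosure ℚ)[X] →+* modularFunctionFieldBar N)
      ((modularFunctionFieldBar N).val : modularFunctionFieldBar N →+*
        LaurentSeries (AlgebraicClosure ℚ)) f
    rw [db_comp_val] at h1
    exact h1.trans hQ
  obtain ⟨p, hp0, hpd, hp⟩ := db_poly_of_bivariate (jF N) (transcendental_jF N) f Q hQ0 h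
  exact ⟨p, hp0, hpd.trans hQd, hp⟩

theorem db_main (N : ℕ) [NeZero N] :
    FiniteDimensional (AlgebraicClosure ℚ)⟮jF N⟯ (modularFunctionFieldBar N) ∧
      Module.finrank (AlgebraicClosure ℚ)⟮jF N⟯ (modularFunctionFieldBar N)
        ≤ Fintype.card (ES.X N) := by
  refine deg_le_of_forall_algebraic (jF N) (dbR N) (Jd_mem_RN (one_dvd N)) ?_ _
    (Fintype.card_pos_iff.mpr ⟨ES.x0 N⟩) (db_exists_poly N)
  rw [eq_top_iff]
  intro f _
  obtain ⟨r, s, -, hf⟩ := exists_div_RN N f
  rw [hf]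
  exact div_mem (IntermediateField.subset_adjoin _ _ r.2) (IntermediateField.subset_adjoin _ _ s.2)

/-- (DegBound) -/
theorem finiteDimensional_FF (N : ℕ) [NeZero N] :
    FiniteDimensional (AlgebraicClosure ℚ)⟮jF N⟯ (modularFunctionFieldBar N) :=
  (db_main N).1

theorem finrank_FF_le (N : ℕ) [NeZero N] :
    Module.finrank (AlgebraicClosure ℚ)⟮jF N⟯ (modularFunctionFieldBar N)
      ≤ Fintype.card (ES.X N) :=
  (db_main N).2

end

end Fermat.Agent.S24
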