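import Mathlib
import Fermat.Agent.S24.Defs
import Fermat.Agent.ES.XTransfer
import Fermat.Agent.ES.ParabolicBound

set_option autoImplicit false

/-!
# Project S24, module [CT]: orbit counting

* `fiber_count`: a `π`-invariant map `q : X → V` whose prescribed fibre sizes `e v` are bounded by
  the orbit sizes and add up to at least `card X` has the `π`-orbits as fibres.
* `orbCount_S`, `orbCount_ST`, `orbCount_T`: the numbers of orbits of `S`, `S * T`, `T` on
  `X N = SL(2, ℤ) / Γ₀(N)` (Burnside).
-/

namespace Fermat.Agent.S24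

open ModularCurve
open scoped MatrixGroups

noncomputable section

/-! ## Orbits of a permutation -/

theorem count_zpow_invariant {X V : Type*} (π : Equiv.Perm X) (q : X → V)
    (hq : ∀ x, q (π x) = q x) (k : ℤ) (x : X) : q ((π ^ k) x) = q x := by
  have hinv : ∀ x, q (π⁻¹ x) = q x := fun x => by
    have h := hq (π⁻¹ x)
    rw [← Equiv.Perm.mul_apply, mul_inv_cancel, Equiv.Perm.one_apply] at h
    exact h.symm
  induction k using Int.induction_on generalizing x with
  | zero => simp
  | succ n ih =>
    rw [zpow_add_one, Equiv.Perm.mul_apply, ih, hq]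
  | pred n ih =>
    rw [zpow_sub_one, Equiv.Perm.mul_apply, ih, hinv]

theorem count_orbit_invariant {X V : Type*} (π : Equiv.Perm X) (q : X → V)
    (hq : ∀ x, q (π x) = q x) {x y : X} (h : y ∈ MulAction.orbit (Subgroup.zpowers π) x) :
    q y = q x := by
  obtain ⟨⟨_, k, rfl⟩, rfl⟩ := h
  exact count_zpow_invariant π q hq k x

open Classical in
/-- The orbit of `x` under `π` has `minimalPeriod π x` elements. -/
theorem count_card_orbit {X : Type*} [Fintype X] (π : Equiv.Perm X) (x : X) :
    (Finset.univ.filter fun y => y ∈ MulAction.orbit (Subgroup.zpowers π) x).card =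
      Function.minimalPeriod π x := by
  have h := MulAction.minimalPeriod_eq_card (a := π) (b := x)
  have h2 : Function.minimalPeriod (fun y : X => π • y) x = Function.minimalPeriod π x := rfl
  rw [← h2, h, ← Set.toFinset_card]
  refine congrArg Finset.card ?_
  ext y
  simp

/-- **Fibre counting.** -/
theorem fiber_count {X V : Type*} [Fintype X] [DecidableEq V] (π : Equiv.Perm X) (q : X → V)
    (e : V → ℕ) (hq : ∀ x, q (π x) = q x) (he : ∀ x, e (q x) ≤ Function.minimalPeriod π x)
    (hsum : Fintype.card X ≤ ∑ v ∈ Finset.univ.image q, e v) :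
    (Finset.univ.image q).card = Nat.card (MulAction.orbitRel.Quotient (Subgroup.zpowers π) X) ∧
      (∀ x, e (q x) = Function.minimalPeriod π x) ∧
      ∀ x, (Finset.univ.filter fun y => q y = q x).card = e (q x) := by
  classical
  set O : X → Finset X := fun x =>
    Finset.univ.filter fun y => y ∈ MulAction.orbit (Subgroup.zpowers π) x with hO
  have hOcard : ∀ x, (O x).card = Function.minimalPeriod π x := fun x => count_card_orbit π x
  have hOsub : ∀ x, O x ⊆ Finset.univ.filter fun y => q y = q x := by
    intro x y hy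
    rw [hO, Finset.mem_filter] at hy
    rw [Finset.mem_filter]
    exact ⟨Finset.mem_univ _, count_orbit_invariant π q hq hy.2⟩
  have hfib : ∀ v ∈ Finset.univ.image q, e v ≤ (Finset.univ.filter fun y => q y = v).card := by
    intro v hv
    obtain ⟨x, -, rfl⟩ := Finset.mem_image.mp hv
    calc e (q x) ≤ Function.minimalPeriod π x := he x
      _ = (O x).card := (hOcard x).symm
      _ ≤ _ := Finset.card_le_card (hOsub x)
  have hcard : Fintype.card X =
      ∑ v ∈ Finset.univ.image q, (Finset.univ.filter fun y => q y = v).card := by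
    rw [← Finset.card_univ]
    exact Finset.card_eq_sum_card_image q Finset.univ
  have heq : ∀ v ∈ Finset.univ.image q, (Finset.univ.filter fun y => q y = v).card = e v := by
    by_contra h
    push Not at h
    obtain ⟨v, hv, hne⟩ := h
    have hlt := Finset.sum_lt_sum hfib ⟨v, hv, lt_of_le_of_ne (hfib v hv) (Ne.symm hne)⟩
    omega
  have heq' : ∀ x, (Finset.univ.filter fun y => q y = q x).card = e (q x) := fun x =>
    heq _ (Finset.mem_image_of_mem q (Finset.mem_univ x))
  have hper : ∀ x, e (q x) = Function.minimalPeriod π x := by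
    intro x
    refine le_antisymm (he x) ?_
    rw [← hOcard x, ← heq' x]
    exact Finset.card_le_card (hOsub x)
  have hOeq : ∀ x, O x = Finset.univ.filter fun y => q y = q x := by
    intro x
    exact Finset.eq_of_subset_of_card_le (hOsub x) (by rw [heq' x, hOcard x, hper x])
  refine ⟨?_, hper, heq'⟩
  -- the bijection orbits → image of `q`
  let f : MulAction.orbitRel.Quotient (Subgroup.zpowers π) X → (Finset.univ.image q : Finset V) :=
    Quotient.lift (fun x => ⟨q x, Finset.mem_image_of_mem q (Finset.mem_univ x)⟩)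
      (fun x y hxy => Subtype.ext (count_orbit_invariant π q hq (MulAction.orbitRel_apply.mp hxy)))
  have hf : Function.Bijective f := by
    constructor
    · intro a b
      induction a using Quotient.inductionOn with
      | h x =>
        induction b using Quotient.inductionOn with
        | h y =>
          intro hab
          have hxy : q x = q y := congrArg Subtype.val hab
          apply Quotient.sound
          apply MulAction.orbitRel_apply.mpr
          have : x ∈ O y := by
            rw [hOeq y, Finset.mem_filter]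
            exact ⟨Finset.mem_univ _, hxy⟩
          rw [hO, Finset.mem_filter] at this
          exact this.2
    · rintro ⟨v, hv⟩
      obtain ⟨x, -, rfl⟩ := Finset.mem_image.mp hv
      exact ⟨Quotient.mk _ x, rfl⟩
  rw [Nat.card_congr (Equiv.ofBijective f hf), Nat.card_eq_fintype_card, Fintype.card_coe]

/-- `fiber_count` with the orbit count written as `orbCount`. -/
theorem fiber_count_orbCount {X V : Type} [Fintype X] [DecidableEq V] (π : Equiv.Perm X)
    (q : X → V) (e : V → ℕ) (hq : ∀ x, q (π x) = q x)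
    (he : ∀ x, e (q x) ≤ Function.minimalPeriod π x)
    (hsum : Fintype.card X ≤ ∑ v ∈ Finset.univ.image q, e v) :
    (Finset.univ.image q).card = orbCount π ∧ (∀ x, e (q x) = Function.minimalPeriod π x) ∧
      ∀ x, (Finset.univ.filter fun y => q y = q x).card = e (q x) :=
  fiber_count π q e hq he hsum

/-! ## Orbits of a group element -/

/-- The orbits of the permutation `toPerm g` are the orbits of the cyclic group `⟨g⟩`. -/
theorem count_orbCount_toPerm {G X : Type} [Group G] [MulAction G X] (g : G) :
    orbCount (MulAction.toPerm g : Equiv.Perm X) =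
      Nat.card (MulAction.orbitRel.Quotient (Subgroup.zpowers g) X) := by
  unfold orbCount
  have key : ∀ (k : ℤ) (b : X), ((MulAction.toPerm g : Equiv.Perm X) ^ k) b = (g ^ k) • b := by
    intro k b
    rw [← MulAction.toPermHom_apply, ← map_zpow]
    rfl
  refine Nat.card_congr (Quotient.congr (Equiv.refl X) fun a b => ?_)
  change a ∈ MulAction.orbit _ b ↔ a ∈ MulAction.orbit _ b
  constructor
  · rintro ⟨⟨_, k, rfl⟩, rfl⟩
    exact ⟨⟨g ^ k, k, rfl⟩, (key k b).symm⟩
  · rintro ⟨⟨_, k, rfl⟩, rfl⟩
    exact ⟨⟨_, k, rfl⟩, key k b⟩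

/-- **Burnside** for a cyclic group generated by an element of order `n`. -/
theorem count_burnside {G X : Type} [Group G] [MulAction G X] [Finite X] (g : G) (n : ℕ)
    (hn : orderOf g = n) (hn0 : n ≠ 0) :
    n * Nat.card (MulAction.orbitRel.Quotient (Subgroup.zpowers g) X) =
      ∑ k ∈ Finset.range n, Nat.card (MulAction.fixedBy X (g ^ k)) := by
  classical
  have hfo : IsOfFinOrder g := orderOf_pos_iff.mp (by omega)
  have _ : Fintype X := Fintype.ofFinite X
  have _ : Fintype (Subgroup.zpowers g) := Fintype.ofEquiv _ (finEquivZPowers hfo)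
  have _ : Fintype (MulAction.orbitRel.Quotient (Subgroup.zpowers g) X) := Fintype.ofFinite _
  have hB := MulAction.sum_card_fixedBy_eq_card_orbits_mul_card_group (Subgroup.zpowers g) X
  rw [Fintype.card_eq_nat_card (α := Subgroup.zpowers g), Nat.card_zpowers, hn] at hB
  rw [Nat.card_eq_fintype_card, mul_comm]
  refine hB.symm.trans ?_
  rw [← (finEquivZPowers hfo).sum_comp]
  subst hn
  rw [← Fin.sum_univ_eq_sum_range (fun k => Nat.card (MulAction.fixedBy X (g ^ k)))]
  refine Finset.sum_congr rfl fun i _ => ?_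
  rw [Nat.card_eq_fintype_card]
  rfl

/-! ## The three orbit counts on `X N` -/

theorem count_neg_one_smul (N : ℕ) (x : ES.X N) : (-1 : SL(2, ℤ)) • x = x := by
  obtain ⟨y, rfl⟩ := (ES.xEquiv N).surjective x
  rw [← ES.xEquiv_smul, ES.pb_neg_one_smul _ (ES.pb_neg_one_mem_Gamma0 N)]

theorem count_fixedBy_neg (N : ℕ) (g : SL(2, ℤ)) :
    MulAction.fixedBy (ES.X N) (-g) = MulAction.fixedBy (ES.X N) g := by
  ext x
  rw [MulAction.mem_fixedBy, MulAction.mem_fixedBy, ← neg_one_mul, mul_smul, count_neg_one_smul]

theorem count_fixedBy_neg_one (N : ℕ) :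
    MulAction.fixedBy (ES.X N) (-1 : SL(2, ℤ)) = Set.univ := by
  ext x
  simp [MulAction.mem_fixedBy, count_neg_one_smul]

theorem count_orderOf_S : orderOf (ModularGroup.S : SL(2, ℤ)) = 4 := by
  have h2 : (ModularGroup.S : SL(2, ℤ)) ^ 2 = -1 := by rw [pow_two, ES.pb_S_mul_S]
  have hne : (-1 : SL(2, ℤ)) ≠ 1 := by
    intro h
    have := congrArg (fun g : SL(2, ℤ) => g 0 0) h
    simp at this
  refine orderOf_eq_prime_pow (p := 2) (n := 1) ?_ ?_
  · rw [pow_one, h2]; exact hne
  · show (ModularGroup.S : SL(2, ℤ)) ^ (2 * 2) = 1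
    rw [pow_mul, h2]; simp

theorem orbCount_S (N : ℕ) [NeZero N] :
    2 * orbCount (MulAction.toPerm ModularGroup.S : Equiv.Perm (ES.X N))
      = dedekindPsi N + nuTwo N := by
  have h2 : (ModularGroup.S : SL(2, ℤ)) ^ 2 = -1 := by rw [pow_two, ES.pb_S_mul_S]
  have h3 : (ModularGroup.S : SL(2, ℤ)) ^ 3 = -ModularGroup.S := by
    rw [pow_succ, h2, neg_one_mul]
  have hB := count_burnside (X := ES.X N) (ModularGroup.S : SL(2, ℤ)) 4 count_orderOf_S (by norm_num)
  rw [← count_orbCount_toPerm] at hB
  simp only [Finset.sum_range_succ, Finset.sum_range_zero, zero_add, pow_zero, pow_one, h2, h3,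
    count_fixedBy_neg, MulAction.fixedBy_one_eq_univ, Nat.card_univ,
    ES.card_X_eq, ES.card_fixedBy_S_eq] at hB
  omega

theorem count_orderOf_ST : orderOf (ModularGroup.S * ModularGroup.T : SL(2, ℤ)) = 6 := by
  have h3 : (ModularGroup.S * ModularGroup.T : SL(2, ℤ)) ^ 3 = -1 := by
    rw [pow_succ, pow_two, ES.pb_ST_cube]
  have hne : (-1 : SL(2, ℤ)) ≠ 1 := by
    intro h
    have := congrArg (fun g : SL(2, ℤ) => g 0 0) h
    simp at this
  have h2 : (ModularGroup.S * ModularGroup.T : SL(2, ℤ)) ^ 2 ≠ 1 := by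
    intro h
    have h' := congrArg (fun g : SL(2, ℤ) => (g : Matrix (Fin 2) (Fin 2) ℤ) 0 0) h
    simp only [pow_two, Matrix.SpecialLinearGroup.coe_mul, Matrix.SpecialLinearGroup.coe_one] at h'
    simp [ModularGroup.S, ModularGroup.T, Matrix.mul_apply, Fin.sum_univ_two] at h'
  rw [orderOf_eq_iff (by norm_num)]
  refine ⟨?_, fun m hm hm0 hm1 => ?_⟩
  · show (ModularGroup.S * ModularGroup.T : SL(2, ℤ)) ^ (3 * 2) = 1
    rw [pow_mul, h3]; simp
  · have hdvd : orderOf (ModularGroup.S * ModularGroup.T : SL(2, ℤ)) ∣ m := orderOf_dvd_of_pow_eq_one hm1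
    have h6 : orderOf (ModularGroup.S * ModularGroup.T : SL(2, ℤ)) ∣ 6 := by
      apply orderOf_dvd_of_pow_eq_one
      show (ModularGroup.S * ModularGroup.T : SL(2, ℤ)) ^ (3 * 2) = 1
      rw [pow_mul, h3]; simp
    have hn2 : ¬ orderOf (ModularGroup.S * ModularGroup.T : SL(2, ℤ)) ∣ 2 := fun h =>
      h2 (orderOf_dvd_iff_pow_eq_one.mp h)
    have hn3 : ¬ orderOf (ModularGroup.S * ModularGroup.T : SL(2, ℤ)) ∣ 3 := fun h => by
      have := orderOf_dvd_iff_pow_eq_one.mp h
      rw [h3] at this
      exact hne this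
    have hle : orderOf (ModularGroup.S * ModularGroup.T : SL(2, ℤ)) ≤ 6 := Nat.le_of_dvd (by norm_num) h6
    have hmle : orderOf (ModularGroup.S * ModularGroup.T : SL(2, ℤ)) ≤ m := Nat.le_of_dvd hm0 hdvd
    generalize orderOf (ModularGroup.S * ModularGroup.T : SL(2, ℤ)) = o at *
    interval_cases o <;> omega

theorem orbCount_ST (N : ℕ) [NeZero N] :
    3 * orbCount (MulAction.toPerm (ModularGroup.S * ModularGroup.T) : Equiv.Perm (ES.X N))
      = dedekindPsi N + 2 * nuThree N := by
  have h3 : (ModularGroup.S * ModularGroup.T : SL(2, ℤ)) ^ 3 = -1 := by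
    rw [pow_succ, pow_two, ES.pb_ST_cube]
  have h4 : (ModularGroup.S * ModularGroup.T : SL(2, ℤ)) ^ 4 =
      -(ModularGroup.S * ModularGroup.T) := by
    rw [pow_succ, h3, neg_one_mul]
  have h5 : (ModularGroup.S * ModularGroup.T : SL(2, ℤ)) ^ 5 =
      -(ModularGroup.S * ModularGroup.T) ^ 2 := by
    rw [pow_succ, h4, pow_two, neg_mul]
  -- fixed points of `g²` = fixed points of `g` (as `g³` acts trivially)
  have hfix2 : MulAction.fixedBy (ES.X N) ((ModularGroup.S * ModularGroup.T : SL(2, ℤ)) ^ 2) =
      MulAction.fixedBy (ES.X N) (ModularGroup.S * ModularGroup.T : SL(2, ℤ)) := by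
    ext x
    rw [MulAction.mem_fixedBy, MulAction.mem_fixedBy]
    have hx3 : ((ModularGroup.S * ModularGroup.T : SL(2, ℤ)) ^ 3) • x = x := by
      rw [h3, count_neg_one_smul]
    constructor
    · intro h
      have : ((ModularGroup.S * ModularGroup.T : SL(2, ℤ)) ^ 3) • x =
          (ModularGroup.S * ModularGroup.T : SL(2, ℤ)) • x := by
        rw [pow_succ', mul_smul, h]
      rw [← this, hx3]
    · intro h
      rw [pow_two, mul_smul, h, h]
  have hB := count_burnside (X := ES.X N) (ModularGroup.S * ModularGroup.T : SL(2, ℤ)) 6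
    count_orderOf_ST (by norm_num)
  rw [← count_orbCount_toPerm] at hB
  simp only [Finset.sum_range_succ, Finset.sum_range_zero, zero_add, pow_zero, pow_one, h3, h4, h5,
    count_fixedBy_neg, hfix2, MulAction.fixedBy_one_eq_univ, Nat.card_univ,
    ES.card_X_eq, ES.card_fixedBy_ST_eq] at hB
  omega

theorem orbCount_T (N : ℕ) [NeZero N] :
    orbCount (MulAction.toPerm ModularGroup.T : Equiv.Perm (ES.X N)) = cuspCount N := by
  rw [count_orbCount_toPerm, ES.card_orbits_T_eq]

end

end Fermat.Agent.S24
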