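import Mathlib
import Fermat.Prelude.Def_AlgebraicCurve_DivisorClassGroup

/-!
# S24 helper: Prelude places versus height-one primes of a Dedekind subring

Bridge lemmas between `AlgebraicCurve.Place K F` (a DVR of `F` containing `K`) and
`IsDedekindDomain.HeightOneSpectrum R` for a Dedekind domain `R` with fraction field `F`.
-/

set_option autoImplicit false

noncomputable section

namespace Fermat.Agent.S24

open IsDedekindDomain WithZero AlgebraicCurve

section bridge

variable {K F : Type*} [Field K] [Field F] [Algebra K F]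
variable {R : Type*} [CommRing R] [IsDedekindDomain R] [Algebra R F] [IsFractionRing R F]
  [Algebra K R] [IsScalarTower K R F]

/-- In `ℤᵐ⁰`, an element `< 1` is `≤ exp (-1)`. -/
theorem places_le_exp_neg_one_of_lt_one {x : ℤᵐ⁰} (hx : x < 1) : x ≤ exp (-1 : ℤ) := by
  rcases eq_or_ne x 0 with rfl | hx0
  · exact zero_le
  · rw [← WithZero.log_le_iff_le_exp hx0]
    have h1 : WithZero.log x < 0 := by
      rw [WithZero.log_lt_iff_lt_exp hx0]
      simpa using hx
    omega

/-- Units of the valuation subring of `w.valuation F` have valuation one. -/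
theorem places_valuation_unit (w : HeightOneSpectrum R)
    (u : ((w.valuation F).valuationSubring)ˣ) :
    w.valuation F ((u : (w.valuation F).valuationSubring) : F) = 1 := by
  have h1 : w.valuation F ((u : (w.valuation F).valuationSubring) : F) ≤ 1 :=
    (u : (w.valuation F).valuationSubring).2
  have h2 : w.valuation F (((u⁻¹ : ((w.valuation F).valuationSubring)ˣ) :
      (w.valuation F).valuationSubring) : F) ≤ 1 :=
    ((u⁻¹ : ((w.valuation F).valuationSubring)ˣ) : (w.valuation F).valuationSubring).2
  have h3 : ((u : (w.valuation F).valuationSubring) : F) *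
      (((u⁻¹ : ((w.valuation F).valuationSubring)ˣ) : (w.valuation F).valuationSubring) : F)
        = 1 := by
    exact congrArg (Subtype.val) (u.mul_inv)
  have h4 := congrArg (w.valuation F) h3
  rw [map_mul, map_one] at h4
  exact le_antisymm h1 (by
    by_contra hlt
    push Not at hlt
    have : w.valuation F ((u : (w.valuation F).valuationSubring) : F) *
      w.valuation F (((u⁻¹ : ((w.valuation F).valuationSubring)ˣ) :
        (w.valuation F).valuationSubring) : F) < 1 := by
      calc _ ≤ w.valuation F ((u : (w.valuation F).valuationSubring) : F) * 1 := by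
            gcongr
        _ < 1 := by simpa using hlt
    exact absurd h4 this.ne)

/-- Irreducible elements of the valuation subring of `w.valuation F` have valuation `exp (-1)`. -/
theorem places_valuation_irreducible (w : HeightOneSpectrum R)
    [IsDiscreteValuationRing ((w.valuation F).valuationSubring)]
    {π : (w.valuation F).valuationSubring} (hπ : Irreducible π) :
    w.valuation F (π : F) = exp (-1 : ℤ) := by
  have hle : w.valuation F (π : F) ≤ 1 := π.2
  have hne : w.valuation F (π : F) ≠ 1 := by
    intro h1
    apply hπ.not_isUnit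
    have hinv : w.valuation F ((π : F)⁻¹) ≤ 1 := by
      rw [map_inv₀, h1, inv_one]
    refine isUnit_iff_exists_inv.mpr ⟨⟨(π : F)⁻¹, hinv⟩, ?_⟩
    apply Subtype.ext
    have hπ0 : (π : F) ≠ 0 := by
      intro h0
      rw [h0, map_zero] at h1
      exact zero_ne_one h1
    simp [hπ0]
  have hlt : w.valuation F (π : F) < 1 := lt_of_le_of_ne hle hne
  refine le_antisymm (places_le_exp_neg_one_of_lt_one hlt) ?_
  obtain ⟨ϖ, hϖ⟩ := w.valuation_exists_uniformizer F
  have hϖmem : w.valuation F ϖ ≤ 1 := by
    rw [hϖ]
    exact (WithZero.exp_le_exp.mpr (by omega : (-1 : ℤ) ≤ 0)).trans_eq WithZero.exp_zero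
  have hnu : (⟨ϖ, hϖmem⟩ : (w.valuation F).valuationSubring) ∈
      IsLocalRing.maximalIdeal ((w.valuation F).valuationSubring) := by
    rw [IsLocalRing.mem_maximalIdeal, mem_nonunits_iff]
    intro hu
    have := places_valuation_unit w hu.unit
    rw [IsUnit.unit_spec] at this
    change w.valuation F ϖ = 1 at this
    rw [hϖ] at this
    have h2 := congrArg WithZero.log this
    simp at h2
  rw [hπ.maximalIdeal_eq, Ideal.mem_span_singleton'] at hnu
  obtain ⟨c, hc⟩ := hnu
  have hc' : (c : F) * (π : F) = ϖ := by
    have := congrArg Subtype.val hc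
    simpa using this
  calc exp (-1 : ℤ) = w.valuation F ϖ := hϖ.symm
    _ = w.valuation F (c : F) * w.valuation F (π : F) := by rw [← hc', map_mul]
    _ ≤ 1 * w.valuation F (π : F) := by
        gcongr
        exact c.2
    _ = w.valuation F (π : F) := one_mul _

/-- **(B1)** The order at the place attached to a height-one prime `w` is minus the logarithm of
the `w`-adic valuation. -/
theorem ord_ofHeightOneSpectrum (w : HeightOneSpectrum R) (f : F) :
    (Place.ofHeightOneSpectrum (K := K) w).ord f = -(WithZero.log (w.valuation F f)) := by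
  rcases eq_or_ne f 0 with rfl | hf
  · simp
  set v := Place.ofHeightOneSpectrum (K := K) (F := F) w with hv
  obtain ⟨π, hπ⟩ := IsDiscreteValuationRing.exists_irreducible v.toValuationSubring
  obtain ⟨u, hu⟩ := v.exists_unit_mul_zpow hf hπ
  have h1 : w.valuation F ((u : v.toValuationSubring) : F) = 1 := places_valuation_unit w u
  have h2 : w.valuation F (π : F) = exp (-1 : ℤ) := by
    have : IsDiscreteValuationRing ((w.valuation F).valuationSubring) :=
      inferInstanceAs (IsDiscreteValuationRing v.toValuationSubring)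
    exact places_valuation_irreducible w hπ
  have h3 : w.valuation F f = exp (-(v.ord f)) := by
    conv_lhs => rw [hu]
    rw [map_mul, h1, one_mul, map_zpow₀, h2, ← WithZero.exp_zsmul]
    congr 1
    simp
  rw [h3, WithZero.log_exp, neg_neg]

omit [IsDedekindDomain R] [IsFractionRing R F] in
/-- An element of `R` whose image is not in the maximal ideal of a valuation subring containing
`R` has its inverse in the valuation subring. -/
theorem places_inv_mem_of_not_mem (A : ValuationSubring F)
    (hR : ∀ r : R, algebraMap R F r ∈ A) {d : R}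
    (hd : (⟨algebraMap R F d, hR d⟩ : A) ∉ IsLocalRing.maximalIdeal A) :
    (algebraMap R F d)⁻¹ ∈ A := by
  rw [IsLocalRing.mem_maximalIdeal, mem_nonunits_iff, not_not] at hd
  obtain ⟨c, hc⟩ := hd.exists_right_inv
  have hc' : algebraMap R F d * (c : F) = 1 := congrArg Subtype.val hc
  have : (algebraMap R F d)⁻¹ = (c : F) := by
    rw [inv_eq_iff_eq_inv]
    exact eq_inv_of_mul_eq_one_left hc'
  rw [this]
  exact c.2

/-- **(B5)** A valuation subring `A ≠ ⊤` of `F` containing the Dedekind domain `R` (with
fraction field `F`) is the valuation ring of a height-one prime of `R`. -/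
theorem exists_valuationSubring_eq (A : ValuationSubring F) (hA : A ≠ ⊤)
    (hR : ∀ r : R, algebraMap R F r ∈ A) :
    ∃ w : HeightOneSpectrum R, (w.valuation F).valuationSubring = A := by
  let φ : R →+* A := (algebraMap R F).codRestrict A.toSubring hR
  let P : Ideal R := (IsLocalRing.maximalIdeal A).comap φ
  have hP : P.IsPrime := Ideal.comap_isPrime φ _
  have hmem : ∀ d : R, d ∉ P → (algebraMap R F d)⁻¹ ∈ A := fun d hd =>
    places_inv_mem_of_not_mem A hR hd
  have hP0 : P ≠ ⊥ := by
    intro h0
    apply hA
    refine top_unique ?_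
    intro x _
    obtain ⟨a, b, hb, rfl⟩ := IsFractionRing.div_surjective (A := R) x
    have hbP : b ∉ P := by
      rw [h0, Ideal.mem_bot]
      exact nonZeroDivisors.ne_zero hb
    rw [div_eq_mul_inv]
    exact A.mul_mem _ _ (hR a) (hmem b hbP)
  let w : HeightOneSpectrum R := ⟨P, hP, hP0⟩
  refine ⟨w, ?_⟩
  have hle : (w.valuation F).valuationSubring ≤ A := by
    intro x hx
    obtain ⟨n, d, hnd⟩ := w.exists_primeCompl_mul_eq_of_integer x hx
    have hd0 : algebraMap R F (d : R) ≠ 0 := by
      intro h0
      have h1 : (d : R) = 0 := (IsFractionRing.injective R F) (by rw [h0, map_zero])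
      exact d.2 (by rw [h1]; exact P.zero_mem)
    have hx' : x = algebraMap R F n * (algebraMap R F (d : R))⁻¹ := by
      rw [← hnd, mul_assoc, mul_inv_cancel₀ hd0, mul_one]
    rw [hx']
    exact A.mul_mem _ _ (hR n) (hmem d d.2)
  rw [← HeightOneSpectrum.valuationSubringAtPrime_eq_valuationSubring] at hle ⊢
  exact ValuationSubring.eq_of_le_of_ne_top _ hle hA

/-- **(B2)** A place whose valuation ring contains the Dedekind domain `R` (with fraction field
`F`) is the place of a height-one prime of `R`. -/
theorem exists_ofHeightOneSpectrum_eq (v : Place K F)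
    (hR : ∀ r : R, algebraMap R F r ∈ v.toValuationSubring) :
    ∃ w : HeightOneSpectrum R, Place.ofHeightOneSpectrum (K := K) w = v := by
  obtain ⟨w, hw⟩ := exists_valuationSubring_eq v.toValuationSubring v.ne_top' hR
  exact ⟨w, Place.ext (by rw [Place.ofHeightOneSpectrum_toValuationSubring, hw])⟩

/-- **(B5')** A valuation subring `A ≠ ⊤` of `F` containing `R` is the valuation ring of a
place (no need to check that it is a principal ideal ring). -/
theorem exists_place_toValuationSubring_eq (A : ValuationSubring F) (hA : A ≠ ⊤)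
    (hR : ∀ r : R, algebraMap R F r ∈ A) :
    ∃ w : HeightOneSpectrum R, (Place.ofHeightOneSpectrum (K := K) w).toValuationSubring = A := by
  obtain ⟨w, hw⟩ := exists_valuationSubring_eq A hA hR
  exact ⟨w, by rw [Place.ofHeightOneSpectrum_toValuationSubring, hw]⟩

/-- `Place.ofHeightOneSpectrum` is injective. -/
theorem ofHeightOneSpectrum_injective :
    Function.Injective (Place.ofHeightOneSpectrum (K := K) (F := F) (R := R)) := by
  intro w w' h
  have h1 : (w.valuation F).valuationSubring = (w'.valuation F).valuationSubring :=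
    congrArg Place.toValuationSubring h
  exact HeightOneSpectrum.eq_of_valuation_isEquiv_valuation
    ((Valuation.isEquiv_iff_valuationSubring _ _).mpr h1)

/-- `R` is contained in the valuation ring of the place of a height-one prime. -/
theorem algebraMap_mem_ofHeightOneSpectrum (w : HeightOneSpectrum R) (r : R) :
    algebraMap R F r ∈ (Place.ofHeightOneSpectrum (K := K) w).toValuationSubring := by
  rw [Place.ofHeightOneSpectrum_toValuationSubring, Valuation.mem_valuationSubring_iff]
  exact w.valuation_le_one r

/-- **(B2')** Places whose valuation ring contains `R` correspond bijectively to the height-one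
primes of `R`. -/
def placeEquivHeightOneSpectrum :
    HeightOneSpectrum R ≃
      {v : Place K F // ∀ r : R, algebraMap R F r ∈ v.toValuationSubring} :=
  Equiv.ofBijective
    (fun w => ⟨Place.ofHeightOneSpectrum (K := K) w, algebraMap_mem_ofHeightOneSpectrum w⟩)
    ⟨fun w w' h => ofHeightOneSpectrum_injective (congrArg Subtype.val h),
      fun v => by
        obtain ⟨w, hw⟩ := exists_ofHeightOneSpectrum_eq v.1 v.2
        exact ⟨w, Subtype.ext hw⟩⟩

@[simp]
theorem placeEquivHeightOneSpectrum_apply (w : HeightOneSpectrum R) :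
    ((placeEquivHeightOneSpectrum (K := K) (F := F) w :
      {v : Place K F // ∀ r : R, algebraMap R F r ∈ v.toValuationSubring}) : Place K F)
      = Place.ofHeightOneSpectrum (K := K) w := rfl

/-- Elements of valuation `< 1` lie in the maximal ideal of the valuation subring. -/
theorem places_mem_maximalIdeal_of_lt_one (w : HeightOneSpectrum R)
    (x : (w.valuation F).valuationSubring) (hx : w.valuation F (x : F) < 1) :
    x ∈ IsLocalRing.maximalIdeal ((w.valuation F).valuationSubring) := by
  rw [IsLocalRing.mem_maximalIdeal, mem_nonunits_iff]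
  intro hu
  have := places_valuation_unit w hu.unit
  rw [IsUnit.unit_spec] at this
  exact hx.ne this

/-- The ring homomorphism `R → O_v` for `v` the place of the height-one prime `w`. -/
def toPlaceRing (w : HeightOneSpectrum R) :
    R →+* (Place.ofHeightOneSpectrum (K := K) (F := F) w).toValuationSubring :=
  (algebraMap R F).codRestrict _ (algebraMap_mem_ofHeightOneSpectrum (K := K) w)

@[simp]
theorem coe_toPlaceRing (w : HeightOneSpectrum R) (r : R) :
    ((toPlaceRing (K := K) (F := F) w r :
      (Place.ofHeightOneSpectrum (K := K) (F := F) w).toValuationSubring) : F)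
      = algebraMap R F r := rfl

/-- The residue map `R → κ(v)` for `v` the place of the height-one prime `w`, as a `K`-algebra
homomorphism. -/
def toPlaceResidue (w : HeightOneSpectrum R) :
    R →ₐ[K] (Place.ofHeightOneSpectrum (K := K) (F := F) w).ResidueField :=
  { (IsLocalRing.residue _).comp (toPlaceRing (K := K) (F := F) w) with
    commutes' := fun a => by
      have h : toPlaceRing (K := K) (F := F) w (algebraMap K R a)
          = algebraMap K (Place.ofHeightOneSpectrum (K := K) (F := F) w).toValuationSubring a := by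
        apply Subtype.ext
        rw [coe_toPlaceRing, Place.coe_algebraMap, ← IsScalarTower.algebraMap_apply]
      show IsLocalRing.residue _ (toPlaceRing (K := K) (F := F) w (algebraMap K R a)) = _
      rw [h]
      rfl }

theorem toPlaceResidue_apply (w : HeightOneSpectrum R) (r : R) :
    toPlaceResidue (K := K) (F := F) w r
      = IsLocalRing.residue _ (toPlaceRing (K := K) (F := F) w r) := rfl

theorem toPlaceResidue_eq_zero_iff (w : HeightOneSpectrum R) (r : R) :
    toPlaceResidue (K := K) (F := F) w r = 0 ↔ r ∈ w.asIdeal := by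
  rw [toPlaceResidue_apply, IsLocalRing.residue_eq_zero_iff]
  constructor
  · intro h
    rw [← w.valuation_lt_one_iff_mem (K := F)]
    by_contra hlt
    have h1 : w.valuation F (algebraMap R F r) = 1 :=
      le_antisymm (w.valuation_le_one r) (not_lt.mp hlt)
    rw [IsLocalRing.mem_maximalIdeal, mem_nonunits_iff] at h
    apply h
    have hr0 : algebraMap R F r ≠ 0 := by
      intro h0
      rw [h0, map_zero] at h1
      exact zero_ne_one h1
    have hinv : w.valuation F ((algebraMap R F r)⁻¹) ≤ 1 := by
      rw [map_inv₀, h1, inv_one]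
    refine isUnit_iff_exists_inv.mpr ⟨⟨(algebraMap R F r)⁻¹, hinv⟩, ?_⟩
    apply Subtype.ext
    show algebraMap R F r * (algebraMap R F r)⁻¹ = 1
    exact mul_inv_cancel₀ hr0
  · intro h
    exact places_mem_maximalIdeal_of_lt_one w _ ((w.valuation_lt_one_iff_mem (K := F) r).mpr h)

theorem toPlaceResidue_surjective (w : HeightOneSpectrum R) :
    Function.Surjective (toPlaceResidue (K := K) (F := F) w) := by
  intro y
  obtain ⟨x, rfl⟩ := IsLocalRing.residue_surjective y
  obtain ⟨n, d, hnd⟩ := w.exists_primeCompl_mul_eq_of_integer (x : F) x.2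
  obtain ⟨t, i, hi, hti⟩ := w.isMaximal.exists_inv d.2
  refine ⟨n * t, ?_⟩
  rw [toPlaceResidue_apply]
  symm
  rw [← sub_eq_zero, ← map_sub, IsLocalRing.residue_eq_zero_iff]
  have hxi : x - toPlaceRing (K := K) (F := F) w (n * t)
      = x * toPlaceRing (K := K) (F := F) w i := by
    apply Subtype.ext
    show (x : F) - algebraMap R F (n * t) = (x : F) * algebraMap R F i
    have h1 : algebraMap R F i = 1 - algebraMap R F t * algebraMap R F (d : R) := by
      rw [← map_mul, ← map_one (algebraMap R F), ← map_sub]
      congr 1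
      rw [← hti]
      ring
    rw [h1, map_mul, ← hnd]
    ring
  rw [hxi]
  exact Ideal.mul_mem_left _ _
    (places_mem_maximalIdeal_of_lt_one w _ ((w.valuation_lt_one_iff_mem (K := F) i).mpr hi))

/-- **(B3)** The residue field of the place of a height-one prime `w` of `R` is `R ⧸ w`. -/
def residueFieldEquiv (w : HeightOneSpectrum R) :
    (R ⧸ w.asIdeal) ≃ₐ[K] (Place.ofHeightOneSpectrum (K := K) (F := F) w).ResidueField :=
  AlgEquiv.ofBijective
    (Ideal.Quotient.liftₐ w.asIdeal (toPlaceResidue (K := K) (F := F) w)
      (fun r hr => (toPlaceResidue_eq_zero_iff w r).mpr hr))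
    ⟨by
      rw [injective_iff_map_eq_zero]
      intro x hx
      obtain ⟨r, rfl⟩ := Ideal.Quotient.mk_surjective x
      rw [Ideal.Quotient.eq_zero_iff_mem]
      exact (toPlaceResidue_eq_zero_iff (K := K) (F := F) w r).mp hx,
    fun y => by
      obtain ⟨r, rfl⟩ := toPlaceResidue_surjective (K := K) (F := F) w y
      exact ⟨Ideal.Quotient.mk _ r, rfl⟩⟩

theorem deg_ofHeightOneSpectrum (w : HeightOneSpectrum R) :
    (Place.ofHeightOneSpectrum (K := K) (F := F) w).deg = Module.finrank K (R ⧸ w.asIdeal) :=
  ((residueFieldEquiv (K := K) (F := F) w).toLinearEquiv.finrank_eq).symm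

/-- Over an algebraically closed field, the place of a height-one prime with algebraic residue
field has degree one. -/
theorem deg_ofHeightOneSpectrum_eq_one [IsAlgClosed K] (w : HeightOneSpectrum R)
    [Algebra.IsIntegral K (R ⧸ w.asIdeal)] :
    (Place.ofHeightOneSpectrum (K := K) (F := F) w).deg = 1 := by
  rw [deg_ofHeightOneSpectrum]
  have : IsDomain (R ⧸ w.asIdeal) := Ideal.Quotient.isDomain _
  have hbij : Function.Bijective (algebraMap K (R ⧸ w.asIdeal)) :=
    IsAlgClosed.algebraMap_bijective_of_isIntegral
  rw [← Module.finrank_self K]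
  exact ((AlgEquiv.ofBijective (Algebra.ofId K (R ⧸ w.asIdeal)) hbij).toLinearEquiv.finrank_eq).symm

end bridge

section orderFunction

variable {K F : Type*} [Field K] [Field F] [Algebra K F]

/-- **(B4)** Any integer-valued "order function" on `Fˣ` which is additive on products and whose
non-negative locus is the valuation ring of the place `v` is a positive multiple of `v.ord`. -/
theorem ord_eq_of_order_function (v : Place K F) (o : F → ℤ)
    (hmul : ∀ f g : F, f ≠ 0 → g ≠ 0 → o (f * g) = o f + o g)
    (hmem : ∀ f : F, f ≠ 0 → (f ∈ v.toValuationSubring ↔ 0 ≤ o f)) :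
    ∃ m : ℤ, 0 < m ∧ (∀ π : v.toValuationSubring, Irreducible π → o (π : F) = m) ∧
      ∀ f : F, f ≠ 0 → o f = m * v.ord f := by
  have h1 : o 1 = 0 := by
    have := hmul 1 1 one_ne_zero one_ne_zero
    rw [mul_one] at this
    omega
  have hinv : ∀ f : F, f ≠ 0 → o f⁻¹ = -o f := by
    intro f hf
    have := hmul f f⁻¹ hf (inv_ne_zero hf)
    rw [mul_inv_cancel₀ hf, h1] at this
    omega
  have hunit : ∀ u : v.toValuationSubringˣ, o ((u : v.toValuationSubring) : F) = 0 := by
    intro u
    have hu0 : ((u : v.toValuationSubring) : F) ≠ 0 := by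
      simp [ne_eq, ZeroMemClass.coe_eq_zero]
    have h2 := (hmem _ hu0).mp (u : v.toValuationSubring).2
    have hui : (((u⁻¹ : v.toValuationSubringˣ) : v.toValuationSubring) : F)
        = (((u : v.toValuationSubring) : F))⁻¹ := by
      have h3 : ((u : v.toValuationSubring) : F) *
          (((u⁻¹ : v.toValuationSubringˣ) : v.toValuationSubring) : F) = 1 :=
        congrArg (Subtype.val) (u.mul_inv)
      exact eq_inv_of_mul_eq_one_right h3
    have h4 := (hmem _ (inv_ne_zero hu0)).mp
      (hui ▸ ((u⁻¹ : v.toValuationSubringˣ) : v.toValuationSubring).2)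
    rw [hinv _ hu0] at h4
    omega
  have hzpow : ∀ (x : F), x ≠ 0 → ∀ n : ℤ, o (x ^ n) = n * o x := by
    intro x hx n
    have hnat : ∀ k : ℕ, o (x ^ k) = k * o x := by
      intro k
      induction k with
      | zero => simp [h1]
      | succ k ih =>
        rw [pow_succ, hmul _ _ (pow_ne_zero k hx) hx, ih]
        push_cast
        ring
    obtain ⟨k, rfl | rfl⟩ := n.eq_nat_or_neg
    · rw [zpow_natCast, hnat]
    · rw [zpow_neg, zpow_natCast, hinv _ (pow_ne_zero k hx), hnat]
      ring
  obtain ⟨π, hπ⟩ := IsDiscreteValuationRing.exists_irreducible v.toValuationSubring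
  have hπ0 : (π : F) ≠ 0 := by
    simpa [ne_eq, ZeroMemClass.coe_eq_zero] using hπ.ne_zero
  have hπpos : 0 < o (π : F) := by
    have h2 := (hmem _ hπ0).mp π.2
    rcases h2.lt_or_eq with h | h
    · exact h
    · exfalso
      have h3 : (π : F)⁻¹ ∈ v.toValuationSubring := by
        rw [hmem _ (inv_ne_zero hπ0), hinv _ hπ0]
        omega
      apply hπ.not_isUnit
      refine isUnit_iff_exists_inv.mpr ⟨⟨(π : F)⁻¹, h3⟩, ?_⟩
      apply Subtype.ext
      show (π : F) * (π : F)⁻¹ = 1
      exact mul_inv_cancel₀ hπ0
  have key : ∀ f : F, f ≠ 0 → o f = o (π : F) * v.ord f := by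
    intro f hf
    obtain ⟨u, hu⟩ := v.exists_unit_mul_zpow hf hπ
    have hu0 : ((u : v.toValuationSubring) : F) ≠ 0 := by
      simp [ne_eq, ZeroMemClass.coe_eq_zero]
    conv_lhs => rw [hu]
    rw [hmul _ _ hu0 (zpow_ne_zero _ hπ0), hunit, zero_add, hzpow _ hπ0]
    ring
  refine ⟨o (π : F), hπpos, ?_, key⟩
  intro π' hπ'
  have hπ'0 : (π' : F) ≠ 0 := by
    simpa [ne_eq, ZeroMemClass.coe_eq_zero] using hπ'.ne_zero
  rw [key _ hπ'0, v.ord_coe_irreducible hπ', mul_one]

/-- Membership in the valuation ring of a place in terms of `ord`. -/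
theorem mem_toValuationSubring_iff_ord (v : Place K F) {f : F} (hf : f ≠ 0) :
    f ∈ v.toValuationSubring ↔ 0 ≤ v.ord f := by
  obtain ⟨π, hπ⟩ := IsDiscreteValuationRing.exists_irreducible v.toValuationSubring
  have hπ0 : (π : F) ≠ 0 := by
    simpa [ne_eq, ZeroMemClass.coe_eq_zero] using hπ.ne_zero
  obtain ⟨u, hu⟩ := v.exists_unit_mul_zpow hf hπ
  generalize v.ord f = n at hu ⊢
  constructor
  · intro hfm
    by_contra hneg
    push Not at hneg
    have h2 : ((u : v.toValuationSubring) : F) = f * (π : F) ^ (-n) := by
      rw [hu, mul_assoc, ← zpow_add₀ hπ0, add_neg_cancel, zpow_zero, mul_one]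
    -- `u = f * π^(k+1)`: then `π ∣ u`, contradiction
    obtain ⟨k, hk⟩ := Int.eq_ofNat_of_zero_le (by omega : 0 ≤ -n - 1)
    have h3 : (u : v.toValuationSubring) = π * (⟨f, hfm⟩ * π ^ k) := by
      apply Subtype.ext
      show ((u : v.toValuationSubring) : F) = (π : F) * (f * (π : F) ^ k)
      rw [h2, show -n = (k : ℤ) + 1 by omega, zpow_add₀ hπ0, zpow_natCast, zpow_one]
      ring
    exact hπ.not_isUnit (isUnit_of_mul_isUnit_left (h3 ▸ u.isUnit))
  · intro h0
    obtain ⟨k, hk⟩ := Int.eq_ofNat_of_zero_le h0
    rw [hu, hk, zpow_natCast]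
    exact mul_mem (u : v.toValuationSubring).2 (pow_mem π.2 k)

/-- Two places with the same `ord` function are equal. -/
theorem place_ext_ord {v v' : Place K F} (h : ∀ f : F, f ≠ 0 → (0 ≤ v.ord f ↔ 0 ≤ v'.ord f)) :
    v = v' := by
  apply Place.ext
  ext f
  rcases eq_or_ne f 0 with rfl | hf
  · simp [zero_mem]
  · rw [mem_toValuationSubring_iff_ord v hf, mem_toValuationSubring_iff_ord v' hf, h f hf]

end orderFunction

end Fermat.Agent.S24
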