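import Mathlib
import Fermat.Agent.S24.Places
import Fermat.Agent.S24.Defs

/-!
# S24: the Dedekind ring attached to a separating element `z` of a function field

For `z : F` transcendental over `K` with `F` finite over `K(z)`:
`ddA K z = K[z]` (a polynomial ring, as a subalgebra of `F`), `ddB K z` its integral closure in `F`
(a Dedekind domain with fraction field `F`); the places `v` of `F / K` with `z ∈ O_v` are exactly
the height-one primes of `ddB K z`.  Consequences: every place has degree one (`K` algebraically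
closed) and a centre on the `z`-line.
-/

set_option autoImplicit false

noncomputable section

namespace Fermat.Agent.S24

open IsDedekindDomain AlgebraicCurve IntermediateField Polynomial
open scoped IntermediateField.algebraAdjoinAdjoin

/-- The polynomial ring `K[z] ⊂ F`. -/
abbrev ddA (K : Type) {F : Type} [Field K] [Field F] [Algebra K F] (z : F) : Subalgebra K F :=
  Algebra.adjoin K {z}

/-- The integral closure of `K[z]` in `F`. -/
abbrev ddB (K : Type) {F : Type} [Field K] [Field F] [Algebra K F] (z : F) :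
    Subalgebra (ddA K z) F :=
  integralClosure (ddA K z) F

section setup

variable {K F : Type} [Field K] [Field F] [Algebra K F]

/-- `K[X] ≃ K[z]` for transcendental `z`. -/
def ddAEquiv {z : F} (hz : Transcendental K z) : K[X] ≃ₐ[K] ddA K z :=
  (AlgEquiv.ofInjective (aeval z) (transcendental_iff_injective.mp hz)).trans
    (Subalgebra.equivOfEq _ _ (Algebra.adjoin_singleton_eq_range_aeval K z).symm)

@[simp]
theorem coe_ddAEquiv {z : F} (hz : Transcendental K z) (p : K[X]) :
    ((ddAEquiv hz p : ddA K z) : F) = aeval z p := rfl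

variable (z : F)

instance ddA_isPrincipalIdealRing [h : Fact (Transcendental K z)] :
    IsPrincipalIdealRing (ddA K z) :=
  IsPrincipalIdealRing.of_surjective (ddAEquiv h.out).toAlgHom.toRingHom (ddAEquiv h.out).surjective

/-- The generator `z`, as an element of `K[z]`. -/
def ddGenA (K : Type) {F : Type} [Field K] [Field F] [Algebra K F] (z : F) : ddA K z :=
  ⟨z, Algebra.self_mem_adjoin_singleton K z⟩

/-- The generator `z`, as an element of the integral closure of `K[z]`. -/
def ddGen (K : Type) {F : Type} [Field K] [Field F] [Algebra K F] (z : F) : ddB K z :=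
  algebraMap (ddA K z) (ddB K z) (ddGenA K z)

@[simp] theorem coe_ddGenA : ((ddGenA K z : ddA K z) : F) = z := rfl

@[simp] theorem coe_ddGen : ((ddGen K z : ddB K z) : F) = z := rfl

theorem ddAEquiv_X {z : F} (hz : Transcendental K z) : ddAEquiv hz X = ddGenA K z := by
  apply Subtype.ext
  simp

instance ddB_faithfulSMul : FaithfulSMul (ddA K z) (ddB K z) := by
  rw [faithfulSMul_iff_algebraMap_injective]
  intro a b hab
  exact Subtype.ext (congrArg (fun x : ddB K z => (x : F)) hab)

section finite

variable [CharZero K] [FiniteDimensional K⟮z⟯ F] [h : Fact (Transcendental K z)]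

instance ddB_isDedekindDomain : IsDedekindDomain (ddB K z) :=
  IsIntegralClosure.isDedekindDomain (ddA K z) K⟮z⟯ F (ddB K z)

instance ddB_isFractionRing : IsFractionRing (ddB K z) F :=
  IsIntegralClosure.isFractionRing_of_finite_extension (ddA K z) K⟮z⟯ F (ddB K z)

instance ddB_finite : Module.Finite (ddA K z) (ddB K z) :=
  IsIntegralClosure.finite (ddA K z) K⟮z⟯ F (ddB K z)

instance ddB_free : Module.Free (ddA K z) (ddB K z) :=
  IsIntegralClosure.module_free (ddA K z) K⟮z⟯ F (ddB K z)

theorem ddB_finrank : Module.finrank (ddA K z) (ddB K z) = Module.finrank K⟮z⟯ F :=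
  IsIntegralClosure.rank (ddA K z) K⟮z⟯ F (ddB K z)

end finite

end setup

section places

variable {K F : Type} [Field K] [Field F] [Algebra K F] (z : F)

/-- If `z` lies in the valuation ring of a place, so does the whole integral closure of `K[z]`. -/
theorem dd_mem_of_mem (v : Place K F) (hzv : z ∈ v.toValuationSubring) (b : ddB K z) :
    (b : F) ∈ v.toValuationSubring := by
  -- the valuation ring as a `K`-subalgebra
  let O : Subalgebra K F :=
    { v.toValuationSubring.toSubring with algebraMap_mem' := v.algebraMap_mem' }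
  have hAO : ddA K z ≤ O := Algebra.adjoin_le (Set.singleton_subset_iff.mpr hzv)
  let φ : ddA K z →+* v.toValuationSubring :=
    { toFun := fun a => ⟨(a : F), hAO a.2⟩
      map_one' := rfl
      map_mul' := fun _ _ => rfl
      map_zero' := rfl
      map_add' := fun _ _ => rfl }
  have hb : IsIntegral (ddA K z) (b : F) := b.2
  have hb' : IsIntegral v.toValuationSubring (b : F) :=
    IsIntegral.map_of_comp_eq φ (RingHom.id F) (by ext; rfl) hb
  obtain ⟨y, hy⟩ := (IsIntegrallyClosed.isIntegral_iff (R := v.toValuationSubring) (K := F)).mp hb'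
  rw [← hy]
  exact y.2

variable [CharZero K] [FiniteDimensional K⟮z⟯ F] [h : Fact (Transcendental K z)]

/-- The places `v` with `z ∈ O_v` are the height-one primes of the integral closure of `K[z]`. -/
def ddPlaceEquiv :
    HeightOneSpectrum (ddB K z) ≃ {v : Place K F // z ∈ v.toValuationSubring} :=
  (placeEquivHeightOneSpectrum (K := K) (F := F) (R := ddB K z)).trans
    (Equiv.subtypeEquivRight fun v =>
      ⟨fun hv => hv (ddGen K z), fun hv b => dd_mem_of_mem z v hv b⟩)

@[simp]
theorem coe_ddPlaceEquiv (w : HeightOneSpectrum (ddB K z)) :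
    ((ddPlaceEquiv z w : {v : Place K F // z ∈ v.toValuationSubring}) : Place K F)
      = Place.ofHeightOneSpectrum (K := K) w := rfl

/-- Every place with `z ∈ O_v` comes from a height-one prime of the integral closure of `K[z]`. -/
theorem dd_exists_spectrum (v : Place K F) (hzv : z ∈ v.toValuationSubring) :
    ∃ w : HeightOneSpectrum (ddB K z), Place.ofHeightOneSpectrum (K := K) w = v :=
  exists_ofHeightOneSpectrum_eq v (fun b => dd_mem_of_mem z v hzv b)

end places

section center

/-- Over an algebraically closed field, integral elements of a domain extension are constants. -/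
theorem dd_mem_range_of_isIntegral {K L : Type*} [Field K] [IsAlgClosed K] [CommRing L]
    [IsDomain L] [Algebra K L] {x : L} (hx : IsIntegral K x) : x ∈ (algebraMap K L).range :=
  minpoly.mem_range_of_degree_eq_one K x
    (IsAlgClosed.degree_eq_one_of_irreducible K (minpoly.irreducible hx))

variable {K F : Type} [Field K] [Field F] [Algebra K F] (z : F)
variable [h : Fact (Transcendental K z)]

/-- The `K`-algebra homomorphism `K[X] → ddB K z`, `X ↦ z`. -/
def ddPoly : K[X] →ₐ[K] ddB K z :=
  (IsScalarTower.toAlgHom K (ddA K z) (ddB K z)).comp (ddAEquiv h.out).toAlgHom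

theorem ddPoly_apply (p : K[X]) :
    ddPoly z p = algebraMap (ddA K z) (ddB K z) (ddAEquiv h.out p) := rfl

@[simp]
theorem coe_ddPoly (p : K[X]) : ((ddPoly z p : ddB K z) : F) = aeval z p := rfl

theorem ddPoly_X : ddPoly z X = ddGen K z := by
  rw [ddPoly_apply, ddAEquiv_X]
  rfl

theorem ddPoly_eq_aeval (p : K[X]) : ddPoly z p = aeval (ddGen K z) p := by
  have : ddPoly z = aeval (ddGen K z) := Polynomial.algHom_ext (by rw [ddPoly_X, aeval_X])
  rw [this]

variable [CharZero K] [FiniteDimensional K⟮z⟯ F]

omit [CharZero K] [FiniteDimensional K⟮z⟯ F] in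
/-- A nonzero prime of `ddB K z` contains a nonzero polynomial in `z`. -/
theorem dd_exists_poly_mem (w : HeightOneSpectrum (ddB K z)) :
    ∃ g : K[X], g ≠ 0 ∧ ddPoly z g ∈ w.asIdeal := by
  have hne : w.asIdeal.comap (algebraMap (ddA K z) (ddB K z)) ≠ ⊥ :=
    fun h0 => w.ne_bot (Ideal.eq_bot_of_comap_eq_bot h0)
  obtain ⟨y, hy, hy0⟩ := Submodule.exists_mem_ne_zero_of_ne_bot hne
  refine ⟨(ddAEquiv h.out).symm y, ?_, ?_⟩
  · simpa using hy0
  · rw [ddPoly_apply, AlgEquiv.apply_symm_apply]
    exact hy

variable [IsAlgClosed K]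

omit [CharZero K] [FiniteDimensional K⟮z⟯ F] in
/-- The centre of a height-one prime of `ddB K z` on the `z`-line. -/
theorem dd_exists_center_of_mem (w : HeightOneSpectrum (ddB K z)) :
    ∃ a : K, ddGen K z - algebraMap K (ddB K z) a ∈ w.asIdeal := by
  obtain ⟨g, hg0, hg⟩ := dd_exists_poly_mem z w
  have hdom : IsDomain (ddB K z ⧸ w.asIdeal) := Ideal.Quotient.isDomain _
  have hroot : aeval (Ideal.Quotient.mkₐ K w.asIdeal (ddGen K z)) g = 0 := by
    rw [Polynomial.aeval_algHom_apply, ← ddPoly_eq_aeval]
    exact Ideal.Quotient.eq_zero_iff_mem.mpr hg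
  have halg : IsAlgebraic K (Ideal.Quotient.mkₐ K w.asIdeal (ddGen K z)) := ⟨g, hg0, hroot⟩
  have hint : IsIntegral K (Ideal.Quotient.mkₐ K w.asIdeal (ddGen K z)) := halg.isIntegral
  obtain ⟨a, ha⟩ := dd_mem_range_of_isIntegral hint
  refine ⟨a, ?_⟩
  rw [← Ideal.Quotient.eq_zero_iff_mem, map_sub, sub_eq_zero]
  exact ha.symm

omit [CharZero K] [FiniteDimensional K⟮z⟯ F] in
/-- The residue field of a height-one prime of `ddB K z` is integral over `K`. -/
theorem dd_residue_isIntegral (w : HeightOneSpectrum (ddB K z)) :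
    Algebra.IsIntegral K (ddB K z ⧸ w.asIdeal) := by
  obtain ⟨a, ha⟩ := dd_exists_center_of_mem z w
  have ha' : Ideal.Quotient.mkₐ K w.asIdeal (ddGen K z)
      = algebraMap K (ddB K z ⧸ w.asIdeal) a := by
    rw [← Ideal.Quotient.eq_zero_iff_mem, map_sub, sub_eq_zero] at ha
    exact ha
  let φ : ddA K z →+* K :=
    ((aeval a : K[X] →ₐ[K] K).comp (ddAEquiv h.out).symm.toAlgHom).toRingHom
  have hφ : (algebraMap K (ddB K z ⧸ w.asIdeal)).comp φ
      = (Ideal.Quotient.mk w.asIdeal).comp (algebraMap (ddA K z) (ddB K z)) := by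
    ext y
    obtain ⟨g, rfl⟩ := (ddAEquiv h.out).surjective y
    show algebraMap K _ (aeval a ((ddAEquiv h.out).symm (ddAEquiv h.out g)))
      = Ideal.Quotient.mkₐ K w.asIdeal (ddPoly z g)
    rw [AlgEquiv.symm_apply_apply, ddPoly_eq_aeval,
      ← Polynomial.aeval_algHom_apply (Ideal.Quotient.mkₐ K w.asIdeal) (ddGen K z) g, ha',
      Polynomial.aeval_algebraMap_apply]
  constructor
  intro x
  obtain ⟨b, rfl⟩ := Ideal.Quotient.mk_surjective x
  exact IsIntegral.map_of_comp_eq φ (Ideal.Quotient.mk w.asIdeal) hφ
    (IsIntegralClosure.isIntegral (ddA K z) F b)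

omit [CharZero K] [FiniteDimensional K⟮z⟯ F] in
/-- The residue field of a height-one prime of `ddB K z` is `K`. -/
theorem dd_residue_surjective (w : HeightOneSpectrum (ddB K z)) :
    Function.Surjective (algebraMap K (ddB K z ⧸ w.asIdeal)) := by
  have := dd_residue_isIntegral z w
  have hdom : IsDomain (ddB K z ⧸ w.asIdeal) := Ideal.Quotient.isDomain _
  intro x
  exact dd_mem_range_of_isIntegral (Algebra.IsIntegral.isIntegral (R := K) x)

/-- A place with `z ∈ O_v` has degree one. -/
theorem dd_deg_eq_one_of_mem (v : Place K F) (hzv : z ∈ v.toValuationSubring) : v.deg = 1 := by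
  obtain ⟨w, rfl⟩ := dd_exists_spectrum z v hzv
  have := dd_residue_isIntegral z w
  exact deg_ofHeightOneSpectrum_eq_one w

/-- A place with `z ∈ O_v` has a finite centre on the `z`-line. -/
theorem dd_exists_center_finite (v : Place K F) (hzv : z ∈ v.toValuationSubring) :
    ∃ a : K, 0 < v.ord (z - algebraMap K F a) := by
  obtain ⟨w, rfl⟩ := dd_exists_spectrum z v hzv
  obtain ⟨a, ha⟩ := dd_exists_center_of_mem z w
  refine ⟨a, ?_⟩
  rw [ord_ofHeightOneSpectrum]
  have hlt : w.valuation F (algebraMap (ddB K z) F (ddGen K z - algebraMap K (ddB K z) a)) < 1 :=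
    (w.valuation_lt_one_iff_mem _).mpr ha
  have hcoe : algebraMap (ddB K z) F (ddGen K z - algebraMap K (ddB K z) a)
      = z - algebraMap K F a := rfl
  rw [hcoe] at hlt
  have hne : z - algebraMap K F a ≠ 0 := by
    intro h0
    apply h.out
    rw [sub_eq_zero.mp h0]
    exact isAlgebraic_algebraMap a
  have hv0 : w.valuation F (z - algebraMap K F a) ≠ 0 := (Valuation.ne_zero_iff _).mpr hne
  have : WithZero.log (w.valuation F (z - algebraMap K F a)) < 0 := by
    rw [WithZero.log_lt_iff_lt_exp hv0]
    simpa using hlt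
  omega

end center

section main

variable {K F : Type} [Field K] [Field F] [Algebra K F]

theorem dd_transcendental_inv {z : F} (hz : Transcendental K z) : Transcendental K z⁻¹ := by
  intro halg
  apply hz
  have := halg.inv
  rwa [inv_inv] at this

theorem dd_adjoin_inv (z : F) : K⟮z⁻¹⟯ = K⟮z⟯ := by
  apply le_antisymm
  · rw [adjoin_simple_le_iff]
    exact inv_mem (mem_adjoin_simple_self K z)
  · rw [adjoin_simple_le_iff]
    have : z⁻¹⁻¹ ∈ K⟮z⁻¹⟯ := inv_mem (mem_adjoin_simple_self K z⁻¹)
    rwa [inv_inv] at this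

variable [IsAlgClosed K] [CharZero K]

/-- **Every place of a function field of one variable over an algebraically closed field has
degree one.** -/
theorem dd_deg_eq_one (z : F) (hz : Transcendental K z) [FiniteDimensional K⟮z⟯ F]
    (v : Place K F) : v.deg = 1 := by
  have : Fact (Transcendental K z) := ⟨hz⟩
  by_cases hzv : z ∈ v.toValuationSubring
  · exact dd_deg_eq_one_of_mem z v hzv
  · have hzi : z⁻¹ ∈ v.toValuationSubring :=
      (v.toValuationSubring.mem_or_inv_mem z).resolve_left hzv
    have : Fact (Transcendental K z⁻¹) := ⟨dd_transcendental_inv hz⟩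
    have : FiniteDimensional K⟮z⁻¹⟯ F :=
      (dd_adjoin_inv (K := K) z).symm ▸ (inferInstance : FiniteDimensional K⟮z⟯ F)
    exact dd_deg_eq_one_of_mem z⁻¹ v hzi

/-- **Every place has a centre on the `z`-line.** -/
theorem dd_exists_center (z : F) (hz : Transcendental K z) [FiniteDimensional K⟮z⟯ F]
    (v : Place K F) : ∃ a : Option K, 0 < v.ord (zc z a) := by
  have : Fact (Transcendental K z) := ⟨hz⟩
  by_cases hzv : z ∈ v.toValuationSubring
  · obtain ⟨a, ha⟩ := dd_exists_center_finite z v hzv
    exact ⟨some a, ha⟩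
  · refine ⟨none, ?_⟩
    show 0 < v.ord z⁻¹
    rw [v.ord_inv]
    have hz0 : z ≠ 0 := fun h0 => hzv (h0 ▸ zero_mem _)
    have := (mem_toValuationSubring_iff_ord v hz0).not.mp hzv
    omega

end main

end Fermat.Agent.S24
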