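import Mathlib
import Fermat.Agent.S24.DedekindBase

/-!
# S24 [DD], second half: `dd_sum_ord` and `dd_separating`

For `z : F` transcendental over the algebraically closed field `K` of characteristic zero, with
`F` finite over `K(z)`:
* `dd_sum_ord`: the places `v` with `0 < ord_v z` form a finite set and `∑ ord_v z = [F : K(z)]`
  (`∑ e f = n` over the prime `(z)` of `K[z]`, all residue degrees being one);
* `dd_separating`: Chinese remainder element in the integral closure of `K[z]` with norm
  divisible by `z`.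
-/

set_option autoImplicit false
set_option linter.unusedSectionVars false

noncomputable section

namespace Fermat.Agent.S24

open IsDedekindDomain WithZero AlgebraicCurve IntermediateField Polynomial
open scoped IntermediateField.algebraAdjoinAdjoin

section ddGeneric

variable {K F : Type*} [Field K] [Field F] [Algebra K F]
variable {A B : Type*} [CommRing A] [IsDomain A] [CommRing B] [IsDedekindDomain B] [Algebra A B]
  [Algebra B F] [IsFractionRing B F] [Algebra K B] [IsScalarTower K B F]

/-- The order of a generator `a` of a prime `(a)` of `A` at the place of a prime of `B` over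
`(a)` is the ramification index. -/
theorem ddg_ord_eq_ramificationIdx (a : A) (ha0 : algebraMap A B a ≠ 0)
    (w : HeightOneSpectrum B) [hw : w.asIdeal.LiesOver (Ideal.span {a})] :
    (Place.ofHeightOneSpectrum (K := K) w).ord (algebraMap B F (algebraMap A B a))
      = (w.asIdeal.ramificationIdx A : ℤ) := by
  have hmap : (Ideal.span {a}).map (algebraMap A B) = Ideal.span {algebraMap A B a} := by
    rw [Ideal.map_span, Set.image_singleton]
  have hp : (Ideal.span {a}).map (algebraMap A B) ≠ ⊥ := by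
    rw [hmap, Ne, Ideal.span_singleton_eq_bot]
    exact ha0
  rw [ord_ofHeightOneSpectrum, HeightOneSpectrum.valuation_of_algebraMap,
    HeightOneSpectrum.intValuation_eq_exp_neg_multiplicity _ ha0, log_exp, neg_neg,
    Ideal.IsDedekindDomain.ramificationIdx_eq_multiplicity (Ideal.span {a}) w.asIdeal hp, hmap]

/-- `∑ e = n` over the places lying over a principal maximal ideal with trivial residue
extensions. -/
theorem ddg_sum_ord [Module.Finite A B] [Module.Flat A B] [Module.IsTorsionFree A B]
    (a : A) [hmax : (Ideal.span {a}).IsMaximal] (ha0 : algebraMap A B a ≠ 0)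
    (hf : ∀ Q : (Ideal.span {a}).primesOver B, Q.1.inertiaDeg A = 1)
    (hB : ∀ v : Place K F, 0 < v.ord (algebraMap B F (algebraMap A B a)) →
      ∀ b : B, algebraMap B F b ∈ v.toValuationSubring) :
    ∃ S : Finset (Place K F),
      (∀ v, v ∈ S ↔ 0 < v.ord (algebraMap B F (algebraMap A B a))) ∧
      ∑ v ∈ S, v.ord (algebraMap B F (algebraMap A B a)) = (Module.finrank A B : ℤ) := by
  classical
  have hQ0 : ∀ Q : (Ideal.span {a}).primesOver B, Q.1 ≠ ⊥ := fun Q h => by
    have h1 : a ∈ Q.1.under A := by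
      rw [← Q.2.2.over]
      exact Ideal.mem_span_singleton_self a
    have h2 : algebraMap A B a ∈ Q.1 := h1
    rw [h, Ideal.mem_bot] at h2
    exact ha0 h2
  let W : (Ideal.span {a}).primesOver B → HeightOneSpectrum B := fun Q => ⟨Q.1, Q.2.1, hQ0 Q⟩
  let P : (Ideal.span {a}).primesOver B → Place K F :=
    fun Q => Place.ofHeightOneSpectrum (K := K) (W Q)
  have hPinj : Function.Injective P := fun Q Q' h => by
    have := ofHeightOneSpectrum_injective h
    exact Subtype.ext (congrArg HeightOneSpectrum.asIdeal this)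
  have hord : ∀ Q, (P Q).ord (algebraMap B F (algebraMap A B a))
      = (Q.1.ramificationIdx A : ℤ) := fun Q => by
    have : (W Q).asIdeal.LiesOver (Ideal.span {a}) := Q.2.2
    exact ddg_ord_eq_ramificationIdx a ha0 (W Q)
  have haF : algebraMap B F (algebraMap A B a) ≠ 0 :=
    (map_ne_zero_iff _ (IsFractionRing.injective B F)).mpr ha0
  refine ⟨Finset.univ.image P, ?_, ?_⟩
  · intro v
    constructor
    · intro hv
      obtain ⟨Q, -, rfl⟩ := Finset.mem_image.mp hv
      rw [hord]
      exact_mod_cast Ideal.ramificationIdx_pos Q.1 A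
    · intro hv
      obtain ⟨w, rfl⟩ := exists_ofHeightOneSpectrum_eq v (hB v hv)
      rw [ord_ofHeightOneSpectrum] at hv
      have hne : w.valuation F (algebraMap B F (algebraMap A B a)) ≠ 0 :=
        (Valuation.ne_zero_iff _).mpr haF
      have hlt : w.valuation F (algebraMap B F (algebraMap A B a)) < 1 := by
        rw [← exp_zero, ← log_lt_iff_lt_exp hne]
        linarith
      rw [HeightOneSpectrum.valuation_lt_one_iff_mem] at hlt
      have hlies : w.asIdeal.LiesOver (Ideal.span {a}) := by
        constructor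
        have hle : Ideal.span {a} ≤ w.asIdeal.under A := by
          rw [Ideal.span_singleton_le_iff_mem]
          exact hlt
        have := w.isPrime
        exact hmax.eq_of_le (Ideal.IsPrime.under A _).ne_top hle
      exact Finset.mem_image.mpr ⟨⟨w.asIdeal, w.isPrime, hlies⟩, Finset.mem_univ _, rfl⟩
  · rw [Finset.sum_image (fun Q _ Q' _ h => hPinj h)]
    simp_rw [hord]
    rw [← Nat.cast_sum, ← Ideal.sum_ramification_inertia_eq_finrank (Ideal.span {a}) B]
    congr 1
    exact Finset.sum_congr rfl (fun Q _ => by rw [hf Q, mul_one])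

end ddGeneric

section ddSep

variable {A B : Type*} [CommRing A] [IsDomain A] [IsIntegrallyClosed A] [CommRing B]
  [IsDedekindDomain B] [Algebra A B] [Module.Finite A B] [Module.IsTorsionFree A B]

/-- Chinese remainder element: in a prime `Q`, outside finitely many other primes, with norm in
the prime below `Q`. -/
theorem ddg_separating (Q : Ideal B) [hQ : Q.IsPrime] (hQ0 : Q ≠ ⊥) (T : Finset (Ideal B))
    (hT : ∀ I ∈ T, I.IsPrime ∧ I ≠ ⊥) (hQT : Q ∉ T) :
    ∃ b : B, b ≠ 0 ∧ (∀ I ∈ T, b ∉ I) ∧ Algebra.intNorm A B b ∈ Q.under A := by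
  classical
  have norm_mem : ∀ b ∈ Q, Algebra.intNorm A B b ∈ Q.under A := fun b hb =>
    Ideal.mem_comap.mpr (Ideal.mem_of_dvd _ (Algebra.dvd_algebraMap_intNorm_self A B b) hb)
  have hprime : ∀ i ∈ insert Q T, Prime i := by
    intro i hi
    rw [Finset.mem_insert] at hi
    rcases hi with rfl | hi
    · exact Ideal.prime_of_isPrime hQ0 hQ
    · exact Ideal.prime_of_isPrime (hT i hi).2 (hT i hi).1
  obtain ⟨y, hy⟩ := IsDedekindDomain.exists_forall_sub_mem_ideal (s := insert Q T) (fun i => i)
    (fun _ => 1) hprime (fun i _ j _ h => h)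
    (fun i => if (i : Ideal B) = Q then 0 else 1)
  have hyQ : y ∈ Q := by
    have := hy Q (Finset.mem_insert_self _ _)
    simpa using this
  have hyT : ∀ I ∈ T, y ∉ I := by
    intro I hI hyI
    have h := hy I (Finset.mem_insert_of_mem hI)
    simp only [pow_one] at h
    have hIQ : ¬ (I = Q) := fun h' => hQT (h' ▸ hI)
    rw [if_neg hIQ] at h
    have h1 : (1 : B) ∈ I := by
      have := I.sub_mem hyI h
      simpa using this
    exact (hT I hI).1.ne_top ((Ideal.eq_top_iff_one _).mpr h1)
  by_cases hy0 : y = 0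
  · have hTe : T = ∅ := by
      by_contra hne
      obtain ⟨I, hI⟩ := Finset.nonempty_iff_ne_empty.mpr hne
      exact hyT I hI (hy0 ▸ I.zero_mem)
    obtain ⟨q, hq, hq0⟩ := Submodule.exists_mem_ne_zero_of_ne_bot hQ0
    exact ⟨q, hq0, by simp [hTe], norm_mem q hq⟩
  · exact ⟨y, hy0, hyT, norm_mem y hyQ⟩

end ddSep

section ddInertia

/-- Residue degree one when the residue field is the base field. -/
theorem ddg_inertiaDeg_eq_one {K A B : Type*} [Field K] [CommRing A] [CommRing B] [Algebra K A]
    [Algebra K B] [Algebra A B] [IsScalarTower K A B] (p : Ideal A) [hp : p.IsMaximal]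
    (Q : Ideal B) [hQ : Q.IsMaximal] [hQp : Q.LiesOver p]
    (hK : Function.Surjective (algebraMap K (B ⧸ Q))) : Q.inertiaDeg A = 1 := by
  rw [Ideal.inertiaDeg_eq_of_isMaximal p Q]
  let _ : Field (A ⧸ p) := Ideal.Quotient.field p
  let _ : Field (B ⧸ Q) := Ideal.Quotient.field Q
  have h10 : (1 : B ⧸ Q) ≠ 0 := one_ne_zero
  rw [finrank_eq_one_iff_of_nonzero' (1 : B ⧸ Q) h10]
  intro y
  obtain ⟨k, hk⟩ := hK y
  refine ⟨algebraMap K (A ⧸ p) k, ?_⟩
  rw [Algebra.smul_def, mul_one, ← hk]
  show algebraMap (A ⧸ p) (B ⧸ Q) (Ideal.Quotient.mk p (algebraMap K A k))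
    = Ideal.Quotient.mk Q (algebraMap K B k)
  rw [Ideal.Quotient.algebraMap_mk_of_liesOver, ← IsScalarTower.algebraMap_apply]

end ddInertia

section ddMain

variable {K F : Type} [Field K] [Field F] [Algebra K F] (z : F)
variable [h : Fact (Transcendental K z)]

theorem ddGenA_irreducible : Irreducible (ddGenA K z) := by
  rw [← ddAEquiv_X h.out]
  exact (MulEquiv.irreducible_iff (ddAEquiv h.out).toMulEquiv).mpr Polynomial.irreducible_X

instance ddGenA_span_isMaximal : (Ideal.span {ddGenA K z}).IsMaximal :=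
  PrincipalIdealRing.isMaximal_of_irreducible (ddGenA_irreducible z)

theorem dd_z_ne_zero {z : F} (hz : Transcendental K z) : z ≠ 0 := by
  intro h0
  apply hz
  rw [h0]
  exact isAlgebraic_zero

theorem ddGen_ne_zero : algebraMap (ddA K z) (ddB K z) (ddGenA K z) ≠ 0 := by
  intro h0
  apply dd_z_ne_zero h.out
  have := congrArg (fun b : ddB K z => (b : F)) h0
  exact this

end ddMain

section ddFinite

variable {K F : Type} [Field K] [Field F] [Algebra K F] (z : F)
variable [h : Fact (Transcendental K z)] [CharZero K] [FiniteDimensional K⟮z⟯ F] [IsAlgClosed K]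

theorem dd_primesOver_ne_bot (Q : (Ideal.span {ddGenA K z}).primesOver (ddB K z)) : Q.1 ≠ ⊥ := by
  intro hQ
  have h1 : ddGenA K z ∈ Q.1.under (ddA K z) := by
    rw [← Q.2.2.over]
    exact Ideal.mem_span_singleton_self _
  have h2 : algebraMap (ddA K z) (ddB K z) (ddGenA K z) ∈ Q.1 := h1
  rw [hQ, Ideal.mem_bot] at h2
  exact ddGen_ne_zero z h2

theorem dd_inertiaDeg (Q : (Ideal.span {ddGenA K z}).primesOver (ddB K z)) :
    Q.1.inertiaDeg (ddA K z) = 1 := by
  have hQ0 : Q.1 ≠ ⊥ := dd_primesOver_ne_bot z Q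
  have hlies : Q.1.LiesOver (Ideal.span {ddGenA K z}) := Q.2.2
  have hprime : Q.1.IsPrime := Q.2.1
  have hmax : Q.1.IsMaximal := hprime.isMaximal hQ0
  exact ddg_inertiaDeg_eq_one (K := K) (Ideal.span {ddGenA K z}) Q.1
    (dd_residue_surjective z ⟨Q.1, Q.2.1, hQ0⟩)

theorem dd_sum_ord_fact : ∃ S : Finset (Place K F), (∀ v, v ∈ S ↔ 0 < v.ord z) ∧
    ∑ v ∈ S, v.ord z = (Module.finrank K⟮z⟯ F : ℤ) := by
  have hz0 : z ≠ 0 := dd_z_ne_zero h.out
  have hTF : Module.IsTorsionFree (ddA K z) (ddB K z) := inferInstance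
  have key := ddg_sum_ord (K := K) (F := F) (A := ddA K z) (B := ddB K z) (ddGenA K z)
    (ddGen_ne_zero z) (dd_inertiaDeg z)
    (fun v hv b => dd_mem_of_mem z v ((mem_toValuationSubring_iff_ord v hz0).mpr hv.le) b)
  rw [ddB_finrank] at key
  exact key

theorem dd_separating_fact (v : Place K F) (hv : 0 < v.ord z) (T : Finset (Place K F))
    (hT : v ∉ T) (hT' : ∀ v' ∈ T, 0 < v'.ord z) :
    ∃ b : F, b ≠ 0 ∧ (∀ v' ∈ T, v'.ord b = 0) ∧ ∃ p : K[X], p.eval 0 = 0 ∧
      algebraMap K⟮z⟯ F (Algebra.norm K⟮z⟯ b) = aeval z p := by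
  classical
  have hz0 : z ≠ 0 := dd_z_ne_zero h.out
  have hmem : ∀ v' : Place K F, 0 < v'.ord z → z ∈ v'.toValuationSubring :=
    fun v' h' => (mem_toValuationSubring_iff_ord v' hz0).mpr h'.le
  obtain ⟨w, hw⟩ := dd_exists_spectrum z v (hmem v hv)
  let g : Place K F → Ideal (ddB K z) := fun v' =>
    if h' : z ∈ v'.toValuationSubring then (dd_exists_spectrum z v' h').choose.asIdeal else ⊥
  have hg : ∀ v' ∈ T, ∃ w' : HeightOneSpectrum (ddB K z),
      Place.ofHeightOneSpectrum (K := K) w' = v' ∧ g v' = w'.asIdeal := by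
    intro v' hv'
    have h' := hmem v' (hT' v' hv')
    refine ⟨(dd_exists_spectrum z v' h').choose, (dd_exists_spectrum z v' h').choose_spec, ?_⟩
    simp only [g, dif_pos h']
  have hQT : w.asIdeal ∉ T.image g := by
    intro hmemT
    obtain ⟨v', hv', hgv'⟩ := Finset.mem_image.mp hmemT
    obtain ⟨w', hw', hgw'⟩ := hg v' hv'
    have hww : w' = w := HeightOneSpectrum.ext (by rw [← hgw', hgv'])
    apply hT
    rw [← hw, ← hww, hw']
    exact hv'
  have hTprime : ∀ I ∈ T.image g, I.IsPrime ∧ I ≠ ⊥ := by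
    intro I hI
    obtain ⟨v', hv', rfl⟩ := Finset.mem_image.mp hI
    obtain ⟨w', -, hgw'⟩ := hg v' hv'
    rw [hgw']
    exact ⟨w'.isPrime, w'.ne_bot⟩
  have hwprime := w.isPrime
  have hTF : Module.IsTorsionFree (ddA K z) (ddB K z) := inferInstance
  obtain ⟨b, hb0, hbT, hbN⟩ := ddg_separating (A := ddA K z) (B := ddB K z) w.asIdeal w.ne_bot
    (T.image g) hTprime hQT
  refine ⟨(b : F), ?_, ?_, ?_⟩
  · intro h0
    exact hb0 (Subtype.ext h0)
  · intro v' hv'
    obtain ⟨w', hw', hgw'⟩ := hg v' hv'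
    have hb' : b ∉ w'.asIdeal := by
      rw [← hgw']
      exact hbT _ (Finset.mem_image_of_mem g hv')
    have h1 : w'.valuation F (algebraMap (ddB K z) F b) = 1 :=
      w'.valuation_eq_one_iff_notMem.mpr hb'
    have h2 : algebraMap (ddB K z) F b = (b : F) := rfl
    rw [← hw', ord_ofHeightOneSpectrum, ← h2, h1]
    simp
  · refine ⟨(ddAEquiv h.out).symm (Algebra.intNorm (ddA K z) (ddB K z) b), ?_, ?_⟩
    · have hzw : ddGenA K z ∈ w.asIdeal.under (ddA K z) := by
        rw [← hw, ord_ofHeightOneSpectrum] at hv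
        have hne : w.valuation F z ≠ 0 := (Valuation.ne_zero_iff _).mpr hz0
        have hlt : w.valuation F z < 1 := by
          rw [← exp_zero, ← log_lt_iff_lt_exp hne]
          linarith
        have hlt' : w.valuation F (algebraMap (ddB K z) F (ddGen K z)) < 1 := hlt
        exact (w.valuation_lt_one_iff_mem _).mp hlt'
      have hunder : Ideal.span {ddGenA K z} = w.asIdeal.under (ddA K z) :=
        (ddGenA_span_isMaximal z).eq_of_le (Ideal.IsPrime.under _ _).ne_top
          ((Ideal.span_singleton_le_iff_mem _).mpr hzw)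
      rw [← hunder, Ideal.mem_span_singleton'] at hbN
      obtain ⟨c, hc⟩ := hbN
      have hX : (ddAEquiv h.out).symm (Algebra.intNorm (ddA K z) (ddB K z) b)
          = (ddAEquiv h.out).symm c * X := by
        rw [← hc, map_mul, ← ddAEquiv_X h.out, AlgEquiv.symm_apply_apply]
      rw [hX]
      simp
    · have h1 := Algebra.algebraMap_intNorm (A := ddA K z) (K := K⟮z⟯) (L := F) (B := ddB K z) b
      have h2 : algebraMap (ddB K z) F b = (b : F) := rfl
      rw [h2] at h1
      rw [← h1, ← IsScalarTower.algebraMap_apply (ddA K z) K⟮z⟯ F, ← coe_ddAEquiv h.out,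
        AlgEquiv.apply_symm_apply]
      rfl

end ddFinite

section ddFinal

variable {K F : Type} [Field K] [IsAlgClosed K] [CharZero K] [Field F] [Algebra K F]

/-- **[DD]** `∑_{v, ord_v z > 0} ord_v z = [F : K(z)]`. -/
theorem dd_sum_ord (z : F) (hz : Transcendental K z) [FiniteDimensional K⟮z⟯ F] :
    ∃ S : Finset (Place K F), (∀ v, v ∈ S ↔ 0 < v.ord z) ∧
      ∑ v ∈ S, v.ord z = (Module.finrank K⟮z⟯ F : ℤ) := by
  have : Fact (Transcendental K z) := ⟨hz⟩
  exact dd_sum_ord_fact z

/-- **[DD]** Chinese remainder element: a nonzero `b` of order zero at finitely many given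
places over `z = 0`, whose norm to `K(z)` is a polynomial in `z` without constant term (it lies in
the centre of the remaining place `v`). -/
theorem dd_separating (z : F) (hz : Transcendental K z) [FiniteDimensional K⟮z⟯ F]
    (v : Place K F) (hv : 0 < v.ord z) (T : Finset (Place K F)) (hT : v ∉ T)
    (hT' : ∀ v' ∈ T, 0 < v'.ord z) :
    ∃ b : F, b ≠ 0 ∧ (∀ v' ∈ T, v'.ord b = 0) ∧ ∃ p : K[X], p.eval 0 = 0 ∧
      algebraMap K⟮z⟯ F (Algebra.norm K⟮z⟯ b) = aeval z p := by
  have : Fact (Transcendental K z) := ⟨hz⟩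
  exact dd_separating_fact z v hv T hT hT'

end ddFinal

end Fermat.Agent.S24
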