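/-
S24 helper module: Kähler differentials of a function field in one variable,
the Euler derivation `q d/dq` on Laurent series, and the unfolding of the Prelude
definitions `Place.dCoord`, `Place.differentialCoeff`, `Place.ordDifferential`, `genus`.
-/
import Mathlib
import Fermat.Prelude.Def_AlgebraicCurve_CanonicalDivisor
import Fermat.Agent.S24.Defs

set_option autoImplicit false

open KaehlerDifferential AlgebraicCurve

namespace Fermat.Agent.S24

/-! ### Part A: general facts on `Ω[F⁄K]` (Mathlib only) -/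

section General

variable {K F : Type*} [Field K] [Field F] [Algebra K F]

/-- `D y ∈ F · D x` for every `y ∈ K(x)`. -/
theorem kd_D_mem_span_of_mem_adjoin (x : F) {y : F}
    (hy : y ∈ IntermediateField.adjoin K {x}) :
    D K F y ∈ Submodule.span F {D K F x} := by
  induction hy using IntermediateField.adjoin_induction with
  | mem z hz =>
    rw [Set.mem_singleton_iff] at hz
    subst hz
    exact Submodule.subset_span rfl
  | algebraMap c =>
    rw [Derivation.map_algebraMap]
    exact Submodule.zero_mem _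
  | add a b _ _ ha hb =>
    rw [map_add]
    exact Submodule.add_mem _ ha hb
  | inv a _ ha =>
    rw [Derivation.leibniz_inv]
    exact Submodule.smul_mem _ _ ha
  | mul a b _ _ ha hb =>
    rw [Derivation.leibniz]
    exact Submodule.add_mem _ (Submodule.smul_mem _ _ hb) (Submodule.smul_mem _ _ ha)

/-- In characteristic zero, if `F` is algebraic over `K(x)` then `Ω[F⁄K] = F · D x`. -/
theorem kd_span_D_eq_top [CharZero K] (x : F)
    [Algebra.IsAlgebraic (IntermediateField.adjoin K {x}) F] :
    Submodule.span F {D K F x} = ⊤ := by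
  set E := IntermediateField.adjoin K {x} with hE
  have : Algebra.IsSeparable E F := Algebra.IsAlgebraic.isSeparable_of_perfectField
  have : Algebra.FormallyUnramified E F := Algebra.FormallyUnramified.of_isSeparable E F
  have hsurj : Function.Surjective (KaehlerDifferential.mapBaseChange K E F) := by
    rw [← LinearMap.range_eq_top, KaehlerDifferential.range_mapBaseChange, ← top_le_iff]
    exact fun x _ => Subsingleton.elim _ _
  rw [eq_top_iff]
  rintro ω -
  obtain ⟨t, rfl⟩ := hsurj ω
  induction t with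
  | zero => simp
  | add a b ha hb => rw [map_add]; exact Submodule.add_mem _ ha hb
  | tmul f η =>
    rw [KaehlerDifferential.mapBaseChange_tmul]
    refine Submodule.smul_mem _ _ ?_
    have hη : η ∈ Submodule.span E (Set.range (D K E)) := by
      rw [KaehlerDifferential.span_range_derivation]; trivial
    induction hη using Submodule.span_induction with
    | mem y hy =>
      obtain ⟨e, rfl⟩ := hy
      rw [KaehlerDifferential.map_D]
      exact kd_D_mem_span_of_mem_adjoin x e.2
    | zero => simp
    | add a b _ _ ha hb => rw [map_add]; exact Submodule.add_mem _ ha hb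
    | smul c a _ ha =>
      rw [map_smul]
      have : c • (KaehlerDifferential.map K K E F) a
          = (algebraMap E F c) • (KaehlerDifferential.map K K E F) a :=
        (algebraMap_smul F c _).symm
      rw [this]
      exact Submodule.smul_mem _ _ ha

/-- A derivation with `d x ≠ 0` certifies `D x ≠ 0`. -/
theorem kd_D_ne_zero_of_derivation {M : Type*} [AddCommGroup M] [Module K M] [Module F M]
    [IsScalarTower K F M] (d : Derivation K F M) {x : F} (hx : d x ≠ 0) : D K F x ≠ 0 := by
  intro h
  apply hx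
  rw [← Derivation.liftKaehlerDifferential_comp_D d x, h, map_zero]

/-- A linear relation between differentials is seen by every derivation. -/
theorem kd_coeff_eq_of_derivation {M : Type*} [AddCommGroup M] [Module K M] [Module F M]
    [IsScalarTower K F M] (d : Derivation K F M) {x y : F} {c : F}
    (h : D K F y = c • D K F x) : d y = c • d x := by
  have := congrArg d.liftKaehlerDifferential h
  simpa [Derivation.liftKaehlerDifferential_comp_D] using this

/-- If `D x` spans, every differential is a multiple of `D x`. -/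
theorem kd_exists_eq_smul {x : F} (hspan : Submodule.span F {D K F x} = ⊤) (ω : Ω[F⁄K]) :
    ∃ c : F, ω = c • D K F x := by
  have hω : ω ∈ (⊤ : Submodule F Ω[F⁄K]) := Submodule.mem_top
  rw [← hspan, Submodule.mem_span_singleton] at hω
  exact hω.imp fun _ hf => hf.symm

/-- If `D x` spans and `D t ≠ 0` then `D t` spans as well, and `D x = c • D t` with `c ≠ 0`
as soon as `D x ≠ 0`. -/
theorem kd_exists_eq_smul_of_ne_zero {x t : F} (hspan : Submodule.span F {D K F x} = ⊤)
    (ht : D K F t ≠ 0) (ω : Ω[F⁄K]) : ∃ c : F, ω = c • D K F t := by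
  obtain ⟨b, hb⟩ := kd_exists_eq_smul hspan (D K F t)
  have hb0 : b ≠ 0 := by
    rintro rfl
    exact ht (by rw [hb, zero_smul])
  obtain ⟨c, hc⟩ := kd_exists_eq_smul hspan ω
  refine ⟨c * b⁻¹, ?_⟩
  rw [hc, hb, smul_smul, inv_mul_cancel_right₀ hb0]

/-- Uniqueness of the coefficient with respect to a nonzero differential. -/
theorem kd_coeff_unique {η : Ω[F⁄K]} (hη : η ≠ 0) {c c' : F} (h : c • η = c' • η) : c = c' := by
  have key : (c - c') • η = 0 := by rw [sub_smul, h, sub_self]
  rcases smul_eq_zero.mp key with h | h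
  · exact sub_eq_zero.mp h
  · exact absurd h hη

end General

/-! ### Part B: the Euler derivation `θ = q d/dq` on Laurent series -/

section Theta

variable (K : Type*) [Field K]

/-- `θ f = ∑ n a_n q^n` for `f = ∑ a_n q^n`. -/
noncomputable def kd_thetaFun (f : LaurentSeries K) : LaurentSeries K where
  coeff n := (n : K) * f.coeff n
  isPWO_support' := f.isPWO_support.mono fun n hn => by
    simp only [Function.mem_support, ne_eq] at hn
    exact fun h => hn (by rw [h, mul_zero])

@[simp]
theorem kd_thetaFun_coeff (f : LaurentSeries K) (n : ℤ) :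
    (kd_thetaFun K f).coeff n = (n : K) * f.coeff n := rfl

theorem kd_thetaFun_support_subset (f : LaurentSeries K) :
    (kd_thetaFun K f).support ⊆ f.support := fun n hn => by
  simp only [HahnSeries.mem_support, kd_thetaFun_coeff, ne_eq] at hn ⊢
  exact fun h => hn (by rw [h, mul_zero])

theorem kd_thetaFun_mul (f g : LaurentSeries K) :
    kd_thetaFun K (f * g) = f * kd_thetaFun K g + g * kd_thetaFun K f := by
  ext n
  rw [kd_thetaFun_coeff, HahnSeries.coeff_add, HahnSeries.coeff_mul,
    HahnSeries.coeff_mul_right' g.isPWO_support (kd_thetaFun_support_subset K g),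
    mul_comm g, HahnSeries.coeff_mul_left' f.isPWO_support (kd_thetaFun_support_subset K f),
    Finset.mul_sum, ← Finset.sum_add_distrib]
  refine Finset.sum_congr rfl fun ij hij => ?_
  rw [Finset.mem_antidiagonal] at hij
  rw [kd_thetaFun_coeff, kd_thetaFun_coeff, ← hij.2.2]
  push_cast
  ring

theorem kd_algebraMap_eq_C (c : K) : algebraMap K (LaurentSeries K) c = HahnSeries.C c := by
  rw [HahnSeries.algebraMap_apply']
  simp

theorem kd_thetaFun_algebraMap (c : K) :
    kd_thetaFun K (algebraMap K (LaurentSeries K) c) = 0 := by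
  ext n
  rw [kd_thetaFun_coeff, kd_algebraMap_eq_C, HahnSeries.C_apply, HahnSeries.coeff_single,
    HahnSeries.coeff_zero]
  by_cases hn : n = 0
  · simp [hn]
  · rw [if_neg hn, mul_zero]

theorem kd_thetaFun_add (f g : LaurentSeries K) :
    kd_thetaFun K (f + g) = kd_thetaFun K f + kd_thetaFun K g := by
  ext n
  simp only [kd_thetaFun_coeff, HahnSeries.coeff_add]
  ring

/-- In characteristic zero the constants of `θ` are exactly `K`. -/
theorem kd_thetaFun_eq_zero_iff [CharZero K] (f : LaurentSeries K) :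
    kd_thetaFun K f = 0 ↔ f ∈ Set.range (algebraMap K (LaurentSeries K)) := by
  constructor
  · intro h
    refine ⟨f.coeff 0, ?_⟩
    ext n
    rw [kd_algebraMap_eq_C, HahnSeries.C_apply, HahnSeries.coeff_single]
    by_cases hn : n = 0
    · rw [if_pos hn, hn]
    · rw [if_neg hn]
      have := congrArg (fun g : LaurentSeries K => g.coeff n) h
      simp only [kd_thetaFun_coeff, HahnSeries.coeff_zero] at this
      rcases mul_eq_zero.mp this with h1 | h1
      · exact absurd (Int.cast_eq_zero.mp h1) hn
      · exact h1.symm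
  · rintro ⟨a, rfl⟩
    exact kd_thetaFun_algebraMap K a

/-- The Euler derivation `q d/dq` of `K((q))` over `K` (the `K`-module structure on the
target is the one coming from the algebra structure `K → K((q))`). -/
noncomputable def kd_theta :
    @Derivation K (LaurentSeries K) (LaurentSeries K) _ _ _ _ _ Algebra.toModule :=
  letI : Module K (LaurentSeries K) := Algebra.toModule
  { toFun := kd_thetaFun K
    map_add' := kd_thetaFun_add K
    map_smul' := fun c f => by
      rw [RingHom.id_apply, Algebra.smul_def, Algebra.smul_def, kd_thetaFun_mul,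
        kd_thetaFun_algebraMap, mul_zero, add_zero]
    map_one_eq_zero' := by
      show kd_thetaFun K 1 = 0
      rw [← map_one (algebraMap K (LaurentSeries K))]
      exact kd_thetaFun_algebraMap K 1
    leibniz' := fun f g => by
      show kd_thetaFun K (f * g) = f • kd_thetaFun K g + g • kd_thetaFun K f
      rw [smul_eq_mul, smul_eq_mul]
      exact kd_thetaFun_mul K f g }

theorem kd_theta_apply (f : LaurentSeries K) :
    letI : Module K (LaurentSeries K) := Algebra.toModule
    kd_theta K f = kd_thetaFun K f := rfl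

end Theta

section ThetaHom

variable {K F : Type*} [Field K] [Field F] [Algebra K F]

/-- A relation `D y = c • D x` in `Ω[F⁄K]` gives `θ y = c · θ x` in `K((q))`, for any
`K`-embedding `φ : F → K((q))`. -/
theorem kd_thetaFun_eq_of_D_eq (φ : F →ₐ[K] LaurentSeries K) {x y c : F}
    (h : D K F y = c • D K F x) :
    kd_thetaFun K (φ y) = φ c * kd_thetaFun K (φ x) := by
  let _ : Algebra F (LaurentSeries K) := φ.toRingHom.toAlgebra
  let _ : Module K (LaurentSeries K) := Algebra.toModule
  have hst : @IsScalarTower K F (LaurentSeries K) _ _ Algebra.toSMul :=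
    IsScalarTower.of_algebraMap_eq fun a => (φ.commutes a).symm
  exact @kd_coeff_eq_of_derivation K F _ _ _ (LaurentSeries K) _ Algebra.toModule _ hst
    (@Derivation.compAlgebraMap K F (LaurentSeries K) (LaurentSeries K) _ _ _ _ _ _ _ _
      Algebra.toModule _ hst _ (kd_theta K)) x y c h

/-- For a field `F` with a `K`-embedding into `K((q))`, in characteristic zero, `D t ≠ 0` for
every non-constant `t ∈ F`. -/
theorem kd_D_ne_zero_of_algHom [CharZero K] (φ : F →ₐ[K] LaurentSeries K)
    {t : F} (ht : t ∉ Set.range (algebraMap K F)) : D K F t ≠ 0 := by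
  let _ : Algebra F (LaurentSeries K) := φ.toRingHom.toAlgebra
  let _ : Module K (LaurentSeries K) := Algebra.toModule
  have hst : @IsScalarTower K F (LaurentSeries K) _ _ Algebra.toSMul :=
    IsScalarTower.of_algebraMap_eq fun a => (φ.commutes a).symm
  refine @kd_D_ne_zero_of_derivation K F _ _ _ (LaurentSeries K) _ Algebra.toModule _ hst
    (@Derivation.compAlgebraMap K F (LaurentSeries K) (LaurentSeries K) _ _ _ _ _ _ _ _
      Algebra.toModule _ hst _ (kd_theta K)) t ?_
  show kd_thetaFun K (φ t) ≠ 0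
  intro h
  obtain ⟨a, ha⟩ := (kd_thetaFun_eq_zero_iff K _).mp h
  refine ht ⟨a, φ.toRingHom.injective ?_⟩
  show φ (algebraMap K F a) = φ t
  rw [← ha]
  exact φ.commutes a

/-- For `K ⊆ F ⊆ K((q))` in characteristic zero, `D t ≠ 0` for every non-constant `t ∈ F`. -/
theorem kd_D_ne_zero_of_not_mem_range {K : Type*} [Field K] [CharZero K]
    (F : IntermediateField K (LaurentSeries K))
    {t : F} (ht : t ∉ Set.range (algebraMap K F)) : D K F t ≠ 0 :=
  kd_D_ne_zero_of_algHom F.val ht

end ThetaHom

/-! ### Part C: unfolding the Prelude definitions -/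

section Prelude

variable {K F : Type*} [Field K] [Field F] [Algebra K F]

/-- The private uniformizer hidden in `Place.dCoord` is some element of order one. -/
theorem kd_exists_uniformizer_dCoord (v : Place K F) :
    ∃ t : F, v.ord t = 1 ∧ v.dCoord = D K F t :=
  ⟨_, v.ord_coe_irreducible
    (IsDiscreteValuationRing.exists_irreducible v.toValuationSubring).choose_spec, rfl⟩

/-- Constants have order zero at every place. -/
theorem kd_ord_algebraMap (v : Place K F) (a : K) : v.ord (algebraMap K F a) = 0 := by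
  rcases eq_or_ne a 0 with rfl | ha
  · rw [map_zero, v.ord_zero]
  · have hu : IsUnit (algebraMap K v.toValuationSubring a) :=
      (isUnit_iff_ne_zero.mpr ha).map _
    have := v.ord_coe_unit hu.unit
    rwa [IsUnit.unit_spec, v.coe_algebraMap] at this

/-- An element of nonzero order is not a constant. -/
theorem kd_not_mem_range_of_ord_ne_zero (v : Place K F) {t : F} (ht : v.ord t ≠ 0) :
    t ∉ Set.range (algebraMap K F) := by
  rintro ⟨a, rfl⟩
  exact ht (kd_ord_algebraMap v a)

theorem kd_differentialCoeff_eq (v : Place K F) {ω : Ω[F⁄K]} {c : F} (h0 : v.dCoord ≠ 0)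
    (hω : ω = c • v.dCoord) : v.differentialCoeff ω = c := by
  have h : ∃ f : F, ω = f • v.dCoord := ⟨c, hω⟩
  rw [Place.differentialCoeff, dif_pos h]
  exact kd_coeff_unique h0 (h.choose_spec.symm.trans hω)

theorem kd_ordDifferential_eq_dCoord (v : Place K F) {ω : Ω[F⁄K]} {c : F} (h0 : v.dCoord ≠ 0)
    (hω : ω = c • v.dCoord) : v.ordDifferential ω = v.ord c := by
  rw [Place.ordDifferential, kd_differentialCoeff_eq v h0 hω]

/-- `ordDifferential` computed with respect to the (hidden) uniformizer `t` of `dCoord`. -/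
theorem kd_ordDifferential_eq (v : Place K F) {t c : F} {ω : Ω[F⁄K]} (ht : v.dCoord = D K F t)
    (h0 : D K F t ≠ 0) (hω : ω = c • D K F t) : v.ordDifferential ω = v.ord c :=
  kd_ordDifferential_eq_dCoord v (by rw [ht]; exact h0) (by rw [ht]; exact hω)

/-- `ordDifferential` of a multiple. -/
theorem kd_ordDifferential_smul (v : Place K F) {x : F}
    (hspan : Submodule.span F {D K F x} = ⊤) (hx : D K F x ≠ 0) (h0 : v.dCoord ≠ 0)
    {c : F} (hc : c ≠ 0) :
    v.ordDifferential (c • D K F x) = v.ord c + v.ordDifferential (D K F x) := by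
  obtain ⟨t, -, ht⟩ := kd_exists_uniformizer_dCoord v
  rw [ht] at h0
  obtain ⟨a, ha⟩ := kd_exists_eq_smul_of_ne_zero hspan h0 (D K F x)
  have ha0 : a ≠ 0 := by
    rintro rfl
    exact hx (by rw [ha, zero_smul])
  rw [kd_ordDifferential_eq v ht h0 ha,
    kd_ordDifferential_eq v ht h0 (c := c * a) (by rw [mul_smul, ← ha]), v.ord_mul hc ha0]

/-- **Degree of an arbitrary canonical divisor.**  Suppose `Ω[F⁄K] = F · D x`, `D x ≠ 0`,
local parameters have nonzero differential, `E` is a divisor computing the order of `D x` at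
every place (with respect to *every* local parameter) and principal divisors have degree zero.
Then every divisor `Dv` of a nonzero differential `ω` has the degree of `E`. -/
theorem kd_degree_eq_of_ord (x : F)
    (hspan : Submodule.span F {D K F x} = ⊤) (hx0 : D K F x ≠ 0)
    (hD1 : ∀ (v : Place K F) (t : F), v.ord t = 1 → D K F t ≠ 0)
    (E : Divisor K F)
    (hE : ∀ (v : Place K F) (t c : F), v.ord t = 1 → D K F x = c • D K F t → v.ord c = E v)
    (hpr : ∀ h : F, h ≠ 0 → ∃ P : Divisor K F, (∀ v, P v = v.ord h) ∧ Divisor.degree P = 0)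
    (ω : Ω[F⁄K]) (hω : ω ≠ 0) (Dv : Divisor K F)
    (hDv : ∀ v : Place K F, Dv v = v.ordDifferential ω) :
    Divisor.degree Dv = Divisor.degree E := by
  have hdC : ∀ v : Place K F, v.dCoord ≠ 0 := by
    intro v
    obtain ⟨t, ht1, ht⟩ := kd_exists_uniformizer_dCoord v
    rw [ht]
    exact hD1 v t ht1
  have hEx : ∀ v : Place K F, v.ordDifferential (D K F x) = E v := by
    intro v
    obtain ⟨t, ht1, ht⟩ := kd_exists_uniformizer_dCoord v
    have h0 : D K F t ≠ 0 := ht ▸ hdC v
    obtain ⟨a, ha⟩ := kd_exists_eq_smul_of_ne_zero hspan h0 (D K F x)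
    rw [kd_ordDifferential_eq v ht h0 ha]
    exact hE v t a ht1 ha
  obtain ⟨c, hc⟩ := kd_exists_eq_smul hspan ω
  have hc0 : c ≠ 0 := by
    rintro rfl
    exact hω (by rw [hc, zero_smul])
  obtain ⟨P, hP, hPdeg⟩ := hpr c hc0
  have hdiv : Dv = P + E := by
    ext v
    rw [hDv, Finsupp.add_apply, hP, ← hEx]
    conv_lhs => rw [hc]
    exact kd_ordDifferential_smul v hspan hx0 (hdC v) hc0
  rw [hdiv, map_add, hPdeg, zero_add]

/-- Variant of `kd_degree_eq_of_ord` where all non-constant elements are known to have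
nonzero differential. -/
theorem kd_degree_eq (x : F)
    (hspan : Submodule.span F {D K F x} = ⊤)
    (hD : ∀ t : F, t ∉ Set.range (algebraMap K F) → D K F t ≠ 0)
    (hx : x ∉ Set.range (algebraMap K F))
    (E : Divisor K F)
    (hE : ∀ (v : Place K F) (t c : F), v.ord t = 1 → D K F x = c • D K F t → v.ord c = E v)
    (hpr : ∀ h : F, h ≠ 0 → ∃ P : Divisor K F, (∀ v, P v = v.ord h) ∧ Divisor.degree P = 0)
    (ω : Ω[F⁄K]) (hω : ω ≠ 0) (Dv : Divisor K F)
    (hDv : ∀ v : Place K F, Dv v = v.ordDifferential ω) :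
    Divisor.degree Dv = Divisor.degree E :=
  kd_degree_eq_of_ord x hspan (hD x hx)
    (fun v t ht => hD t (kd_not_mem_range_of_ord_ne_zero v (by rw [ht]; exact one_ne_zero)))
    E hE hpr ω hω Dv hDv

/-- Unfolding of the Prelude genus: if every canonical divisor has degree `2 g - 2` with
`0 ≤ g`, the genus is `g`. -/
theorem genus_eq_of [HasCanonicalDivisor (K := K) (F := F)] (hω0 : ∃ ω : Ω[F⁄K], ω ≠ 0) (g : ℤ)
    (H : ∀ (ω : Ω[F⁄K]) (hω : ω ≠ 0), Divisor.degree (canonicalDivisorOf hω) = 2 * g - 2)
    (hg : 0 ≤ g) : (genus K F : ℤ) = g := by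
  rw [genus, dif_pos hω0, H _ hω0.choose_spec]
  omega

/-- **Abstract genus computation.**  Suppose `Ω[F⁄K] = F · D x`, non-constant elements have
nonzero differential, `E` is a divisor computing the order of `D x` at every place (with
respect to *every* local parameter), principal divisors have degree zero, and
`deg E = 2 g - 2`.  Then the Prelude genus of `F` is `g`. -/
theorem kd_genus_eq [HasCanonicalDivisor (K := K) (F := F)] (x : F)
    (hspan : Submodule.span F {D K F x} = ⊤)
    (hD : ∀ t : F, t ∉ Set.range (algebraMap K F) → D K F t ≠ 0)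
    (hx : x ∉ Set.range (algebraMap K F))
    (E : Divisor K F)
    (hE : ∀ (v : Place K F) (t c : F), v.ord t = 1 → D K F x = c • D K F t → v.ord c = E v)
    (hpr : ∀ h : F, h ≠ 0 → ∃ P : Divisor K F, (∀ v, P v = v.ord h) ∧ Divisor.degree P = 0)
    (g : ℕ) (hg : Divisor.degree E = 2 * (g : ℤ) - 2) :
    genus K F = g := by
  have h := genus_eq_of (K := K) (F := F) ⟨_, hD x hx⟩ (g : ℤ)
    (fun ω hω => by
      rw [kd_degree_eq x hspan hD hx E hE hpr ω hω _ (fun v => canonicalDivisorOf_apply hω v), hg])
    (Int.natCast_nonneg g)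
  exact_mod_cast h

end Prelude

/-! ### Part D: valued differential fields (Lemma A) -/

section VDFLemmas

variable {K F : Type} [Field K] [Field F] [Algebra K F]

/-- The `K`-derivation `V.d ∘ σ : F → V.L` factors through `Ω[F⁄K]`. -/
theorem vdf_exists_lift (V : VDF K) (σ : F →ₐ[K] V.L) :
    ∃ l : Ω[F⁄K] →+ V.L, (∀ f : F, l (D K F f) = V.d (σ f)) ∧
      ∀ (c : F) (ω : Ω[F⁄K]), l (c • ω) = σ c * l ω := by
  let _ : Algebra F V.L := σ.toRingHom.toAlgebra
  have hst : IsScalarTower K F V.L :=
    IsScalarTower.of_algebraMap_eq fun a => (σ.commutes a).symm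
  let δ : Derivation K F V.L :=
    { toFun := fun f => V.d (σ f)
      map_add' := fun a b => by rw [map_add, V.d_add]
      map_smul' := fun c f => by
        rw [RingHom.id_apply, Algebra.smul_def, map_mul, AlgHom.commutes, V.d_mul, V.d_alg,
          mul_zero, add_zero, Algebra.smul_def]
      map_one_eq_zero' := by
        show V.d (σ 1) = 0
        rw [map_one, ← map_one (algebraMap K V.L), V.d_alg]
      leibniz' := fun a b => by
        show V.d (σ (a * b)) = a • V.d (σ b) + b • V.d (σ a)
        rw [map_mul, V.d_mul, Algebra.smul_def, Algebra.smul_def]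
        rfl }
  refine ⟨δ.liftKaehlerDifferential.toAddMonoidHom,
    fun f => δ.liftKaehlerDifferential_comp_D f, fun c ω => ?_⟩
  show δ.liftKaehlerDifferential (c • ω) = σ c * δ.liftKaehlerDifferential ω
  rw [map_smul, Algebra.smul_def]
  rfl

/-- A relation `D h = c • D t` in `Ω[F⁄K]` is seen by the derivation of any valued
differential field. -/
theorem vdf_d_eq_of_D_eq (V : VDF K) (σ : F →ₐ[K] V.L) {t h c : F}
    (hD : D K F h = c • D K F t) : V.d (σ h) = σ c * V.d (σ t) := by
  obtain ⟨l, hl, hsmul⟩ := vdf_exists_lift V σ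
  rw [← hl h, hD, hsmul, hl]

/-- Nonvanishing of `D t` from nonvanishing of `V.d (σ t)`. -/
theorem vdf_D_ne_zero_of_d_ne_zero (V : VDF K) (σ : F →ₐ[K] V.L) {t : F}
    (ht : V.d (σ t) ≠ 0) : D K F t ≠ 0 := by
  obtain ⟨l, hl, -⟩ := vdf_exists_lift V σ
  intro h0
  apply ht
  rw [← hl t, h0, map_zero]

/-- An element of nonzero order has nonzero image, nonzero derivative, and the order of the
derivative drops by one. -/
theorem vdf_d_of_ord_ne_zero (V : VDF K) (σ : F →ₐ[K] V.L) (v : Place K F) (m : ℤ)
    (hm : m ≠ 0) (hv : ∀ f : F, f ≠ 0 → V.w (σ f) = m * v.ord f) {t : F} (ht : v.ord t ≠ 0) :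
    t ≠ 0 ∧ σ t ≠ 0 ∧ V.d (σ t) ≠ 0 ∧ V.w (V.d (σ t)) = m * v.ord t - 1 := by
  have ht0 : t ≠ 0 := by
    rintro rfl
    exact ht v.ord_zero
  have hσt : σ t ≠ 0 := (map_ne_zero σ.toRingHom).mpr ht0
  have hw : V.w (σ t) ≠ 0 := by
    rw [hv t ht0]
    exact mul_ne_zero hm ht
  obtain ⟨h1, h2⟩ := V.w_d (σ t) hσt hw
  exact ⟨ht0, hσt, h1, by rw [h2, hv t ht0]⟩

/-- **Lemma A (nonvanishing).** -/
theorem vdf_D_ne_zero (V : VDF K) (σ : F →ₐ[K] V.L) (v : Place K F) (m : ℤ) (hm : m ≠ 0)
    (hv : ∀ f : F, f ≠ 0 → V.w (σ f) = m * v.ord f) {t : F} (ht : v.ord t ≠ 0) :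
    D K F t ≠ 0 :=
  vdf_D_ne_zero_of_d_ne_zero V σ (vdf_d_of_ord_ne_zero V σ v m hm hv ht).2.2.1

/-- **Lemma A.**  If `D h = c • D t` and `t`, `h` have nonzero order at `v`, then
`ord_v c = ord_v h - ord_v t`. -/
theorem vdf_ord_coeff (V : VDF K) (σ : F →ₐ[K] V.L) (v : Place K F) (m : ℤ) (hm : m ≠ 0)
    (hv : ∀ f : F, f ≠ 0 → V.w (σ f) = m * v.ord f) {t h c : F} (ht : v.ord t ≠ 0)
    (hh : v.ord h ≠ 0) (hD : D K F h = c • D K F t) : v.ord c = v.ord h - v.ord t := by
  obtain ⟨-, -, hdt, hwt⟩ := vdf_d_of_ord_ne_zero V σ v m hm hv ht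
  obtain ⟨-, -, hdh, hwh⟩ := vdf_d_of_ord_ne_zero V σ v m hm hv hh
  have key := vdf_d_eq_of_D_eq V σ hD
  have hσc : σ c ≠ 0 := by
    intro h0
    rw [h0, zero_mul] at key
    exact hdh key
  have hc0 : c ≠ 0 := by
    rintro rfl
    exact hσc (map_zero σ)
  have hw := V.w_mul (σ c) (V.d (σ t)) hσc hdt
  rw [← key, hwh, hwt, hv c hc0] at hw
  have : m * (v.ord h - v.ord t) = m * v.ord c := by linarith
  exact (mul_left_cancel₀ hm this).symm

/-- The differential of the centre element determines `D j`. -/
theorem vdf_D_zc_some (j : F) (a : K) : D K F (zc j (some a)) = D K F j := by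
  show D K F (j - algebraMap K F a) = D K F j
  rw [map_sub, Derivation.map_algebraMap, sub_zero]

theorem vdf_D_zc_none (j : F) :
    D K F (zc j (none : Option K)) = (-(j⁻¹) ^ 2) • D K F j := by
  show D K F j⁻¹ = _
  rw [Derivation.leibniz_inv]

/-- **Local order of `D j`** at a place with finite centre `a`: for every `t` of order `1`,
the coefficient `c` in `D j = c • D t` has order `e - 1`, `e = ord_v (j - a)`. -/
theorem vdf_ord_coeff_zc_some (V : VDF K) (σ : F →ₐ[K] V.L) (v : Place K F) (m : ℤ)
    (hm : m ≠ 0) (hv : ∀ f : F, f ≠ 0 → V.w (σ f) = m * v.ord f) (j : F) (a : K)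
    (ha : 0 < v.ord (zc j (some a))) {t c : F} (ht : v.ord t = 1)
    (hD : D K F j = c • D K F t) : v.ord c = v.ord (zc j (some a)) - 1 := by
  have ht' : v.ord t ≠ 0 := by rw [ht]; exact one_ne_zero
  have h := vdf_ord_coeff V σ v m hm hv ht' ha.ne' (c := c) (by rw [vdf_D_zc_some, hD])
  rw [h, ht]

/-- **Local order of `D j`** at a place with centre at infinity: for every `t` of order `1`,
the coefficient `c` in `D j = c • D t` has order `-e - 1`, `e = ord_v (j⁻¹)`. -/
theorem vdf_ord_coeff_zc_none (V : VDF K) (σ : F →ₐ[K] V.L) (v : Place K F) (m : ℤ)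
    (hm : m ≠ 0) (hv : ∀ f : F, f ≠ 0 → V.w (σ f) = m * v.ord f) (j : F)
    (ha : 0 < v.ord (zc j (none : Option K))) {t c : F} (ht : v.ord t = 1)
    (hD : D K F j = c • D K F t) : v.ord c = -v.ord (zc j (none : Option K)) - 1 := by
  have ht' : v.ord t ≠ 0 := by rw [ht]; exact one_ne_zero
  have hj : v.ord j⁻¹ ≠ 0 := ha.ne'
  have hj0 : j⁻¹ ≠ 0 := by
    intro h0
    rw [h0] at hj
    exact hj v.ord_zero
  have hDj : D K F j ≠ 0 := by
    intro h0
    exact vdf_D_ne_zero V σ v m hm hv (t := zc j (none : Option K)) ha.ne'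
      (by rw [vdf_D_zc_none, h0, smul_zero])
  have hc0 : c ≠ 0 := by
    rintro rfl
    exact hDj (by rw [hD, zero_smul])
  have hneg : (-(j⁻¹) ^ 2) ≠ 0 := neg_ne_zero.mpr (pow_ne_zero 2 hj0)
  have h := vdf_ord_coeff V σ v m hm hv ht' ha.ne' (c := (-(j⁻¹) ^ 2) * c)
    (by rw [vdf_D_zc_none, hD, smul_smul])
  rw [v.ord_mul hneg hc0, ht] at h
  have h2 : v.ord (-(j⁻¹) ^ 2) = 2 * v.ord j⁻¹ := by
    have h1 : (-(j⁻¹) ^ 2) = algebraMap K F (-1) * (j⁻¹ * j⁻¹) := by
      rw [map_neg, map_one]; ring
    rw [h1, v.ord_mul (by rw [map_neg, map_one]; exact neg_ne_zero.mpr one_ne_zero)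
      (mul_ne_zero hj0 hj0), kd_ord_algebraMap, v.ord_mul hj0 hj0]
    ring
  rw [h2] at h
  have h3 : v.ord (zc j (none : Option K)) = v.ord j⁻¹ := rfl
  rw [h3]
  linarith

/-- **Differential half of the Riemann–Hurwitz computation.**  If every place `v` carries a
valued differential field realising `ord_v` (up to a factor), `ctr v` is a centre of `v` on the
`j`-line, `E` is the divisor with `E v = e_v - 1` (finite centre), `-e_v - 1` (infinite centre)
where `e_v = ord_v (zc j (ctr v))`, and principal divisors have degree zero, then every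
canonical divisor has the degree of `E`. -/
theorem vdf_degree_eq (j : F)
    (hspan : Submodule.span F {D K F j} = ⊤)
    (hloc : ∀ v : Place K F, ∃ (V : VDF K) (σ : F →ₐ[K] V.L) (m : ℤ), m ≠ 0 ∧
      ∀ f : F, f ≠ 0 → V.w (σ f) = m * v.ord f)
    (ctr : Place K F → Option K) (hctr : ∀ v : Place K F, 0 < v.ord (zc j (ctr v)))
    (E : Divisor K F)
    (hEfin : ∀ (v : Place K F) (a : K), ctr v = some a → E v = v.ord (zc j (some a)) - 1)
    (hEinf : ∀ v : Place K F, ctr v = none → E v = -v.ord (zc j (none : Option K)) - 1)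
    (hpr : ∀ h : F, h ≠ 0 → ∃ P : Divisor K F, (∀ v, P v = v.ord h) ∧ Divisor.degree P = 0)
    (ω : Ω[F⁄K]) (hω : ω ≠ 0) (Dv : Divisor K F)
    (hDv : ∀ v : Place K F, Dv v = v.ordDifferential ω) :
    Divisor.degree Dv = Divisor.degree E := by
  by_cases hne : Nonempty (Place K F)
  · obtain ⟨v0⟩ := hne
    have hDj : D K F j ≠ 0 := by
      obtain ⟨V, σ, m, hm, hv⟩ := hloc v0
      have h1 := vdf_D_ne_zero V σ v0 m hm hv (hctr v0).ne'
      intro h0
      apply h1
      cases hc : ctr v0 with
      | some a => rw [vdf_D_zc_some, h0]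
      | none => rw [vdf_D_zc_none, h0, smul_zero]
    refine kd_degree_eq_of_ord j hspan hDj ?_ E ?_ hpr ω hω Dv hDv
    · intro v t ht
      obtain ⟨V, σ, m, hm, hv⟩ := hloc v
      exact vdf_D_ne_zero V σ v m hm hv (by rw [ht]; exact one_ne_zero)
    · intro v t c ht hD
      obtain ⟨V, σ, m, hm, hv⟩ := hloc v
      have hpos := hctr v
      cases hc : ctr v with
      | some a =>
        rw [hc] at hpos
        rw [hEfin v a hc]
        exact vdf_ord_coeff_zc_some V σ v m hm hv j a hpos ht hD
      | none =>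
        rw [hc] at hpos
        rw [hEinf v hc]
        exact vdf_ord_coeff_zc_none V σ v m hm hv j hpos ht hD
  · have : IsEmpty (Place K F) := not_nonempty_iff.mp hne
    rw [Subsingleton.elim Dv E]

end VDFLemmas

end Fermat.Agent.S24
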