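import Mathlib

set_option autoImplicit false

/-!
# S24 [NP]: the norm is the product over a full family of embeddings
-/

namespace Fermat.Agent.S24

/-- If `X` indexes pairwise distinct `k`-embeddings of `F` into a field `L` and
`[F : k] ≤ |X|`, then `[F : k] = |X|` and the norm is the product of the conjugates. -/
theorem norm_eq_prod_of_embeddings {k F L : Type*} [Field k] [Field F] [Field L] [Algebra k F]
    [Algebra k L] [CharZero k] [FiniteDimensional k F] {X : Type*} [Fintype X]
    (s : X → (F →ₐ[k] L)) (hs : Function.Injective s)
    (hX : Module.finrank k F ≤ Fintype.card X) :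
    Module.finrank k F = Fintype.card X ∧
      ∀ f : F, algebraMap k L (Algebra.norm k f) = ∏ x, s x f := by
  classical
  let ι : L →ₐ[k] AlgebraicClosure L := IsScalarTower.toAlgHom k L (AlgebraicClosure L)
  let t : X → (F →ₐ[k] AlgebraicClosure L) := fun x => ι.comp (s x)
  have hι : Function.Injective ι := (algebraMap L (AlgebraicClosure L)).injective
  have ht : Function.Injective t := by
    intro x y hxy
    apply hs
    ext f
    have h := DFunLike.congr_fun hxy f
    exact hι h
  have hcard : Fintype.card (F →ₐ[k] AlgebraicClosure L) = Module.finrank k F :=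
    AlgHom.card k F (AlgebraicClosure L)
  have h1 : Fintype.card X ≤ Fintype.card (F →ₐ[k] AlgebraicClosure L) :=
    Fintype.card_le_of_injective t ht
  have heq : Module.finrank k F = Fintype.card X := le_antisymm hX (hcard ▸ h1)
  have hbij : Function.Bijective t :=
    (Fintype.bijective_iff_injective_and_card t).mpr ⟨ht, by rw [hcard, heq]⟩
  refine ⟨heq, fun f => ?_⟩
  have h2 := Algebra.norm_eq_prod_embeddings k (AlgebraicClosure L) f
  rw [← Function.Bijective.prod_comp hbij (fun σ : F →ₐ[k] AlgebraicClosure L => σ f)] at h2
  apply hι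
  have h3 : ι (algebraMap k L (Algebra.norm k f)) =
      algebraMap k (AlgebraicClosure L) (Algebra.norm k f) := ι.commutes _
  rw [h3, h2, map_prod]
  rfl

/-- Ring-hom form: a family of pairwise distinct ring homomorphisms `F → L` agreeing on `k`,
with `[F : k] ≤ |X|`, is a full set of `k`-embeddings: `[F : k] = |X|` and each member sends
the norm to the product of all conjugates. -/
theorem norm_eq_prod_of_ringHoms {k F L : Type*} [Field k] [CharZero k] [Field F] [Field L]
    [Algebra k F] [FiniteDimensional k F] {X : Type*} [Fintype X] (s : X → (F →+* L))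
    (hs : Function.Injective s)
    (hk : ∀ (x y : X) (c : k), s x (algebraMap k F c) = s y (algebraMap k F c))
    (hX : Module.finrank k F ≤ Fintype.card X) :
    Module.finrank k F = Fintype.card X ∧
      ∀ (x : X) (f : F), s x (algebraMap k F (Algebra.norm k f)) = ∏ y, s y f := by
  classical
  have hpos : 0 < Module.finrank k F := Module.finrank_pos
  have hne : Nonempty X := by
    rw [← Fintype.card_pos_iff]
    omega
  obtain ⟨x₀⟩ := hne
  let _ : Algebra k L := ((s x₀).comp (algebraMap k F)).toAlgebra
  have halg : ∀ c : k, algebraMap k L c = s x₀ (algebraMap k F c) := fun _ => rfl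
  have hcomm : ∀ (x : X) (c : k), s x (algebraMap k F c) = algebraMap k L c := fun x c => by
    rw [halg]
    exact hk x x₀ c
  let t : X → (F →ₐ[k] L) := fun x => ⟨s x, hcomm x⟩
  have ht : Function.Injective t := by
    intro x y hxy
    apply hs
    ext f
    exact DFunLike.congr_fun hxy f
  obtain ⟨h1, h2⟩ := norm_eq_prod_of_embeddings t ht hX
  refine ⟨h1, fun x f => ?_⟩
  rw [hk x x₀, ← halg, h2 f]
  rfl

end Fermat.Agent.S24
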