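import Mathlib
import Fermat.Prelude.Def_AlgebraicCurve_DivisorClassGroup

set_option autoImplicit false

/-!
# S24 [PB]: basic facts on places, and places from `ℤ`-valued valuations (Lemma B)
-/

namespace Fermat.Agent.S24

open AlgebraicCurve WithZero IsDedekindDomain

variable {K F : Type} [Field K] [Field F] [Algebra K F]

theorem place_adicValuation_le_one_iff (v : Place K F) (f : F) :
    v.adicValuation f ≤ 1 ↔ f ∈ v.toValuationSubring := by
  constructor
  · intro h
    obtain ⟨a, ha⟩ := IsDiscreteValuationRing.exists_lift_of_le_one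
      (A := v.toValuationSubring) (K := F) h
    rw [← ha]
    exact a.2
  · intro h
    exact v.heightOneSpectrum.valuation_le_one (K := F) ⟨f, h⟩

theorem place_mem_iff (v : Place K F) {f : F} (hf : f ≠ 0) :
    f ∈ v.toValuationSubring ↔ 0 ≤ v.ord f := by
  rw [← place_adicValuation_le_one_iff, Place.ord, neg_nonneg,
    ← log_le_log (v.adicValuation_ne_zero hf) one_ne_zero, log_one]

theorem place_ord_pos_iff (v : Place K F) {f : F} (hf : f ≠ 0) :
    0 < v.ord f ↔ f⁻¹ ∉ v.toValuationSubring := by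
  rw [place_mem_iff v (inv_ne_zero hf), v.ord_inv]
  omega

theorem place_ord_neg (v : Place K F) (f : F) : v.ord (-f) = v.ord f := by
  simp only [Place.ord, Valuation.map_neg]

theorem place_ord_add' (v : Place K F) {f g : F} (hfg : f + g ≠ 0) :
    min (v.ord f) (v.ord g) ≤ v.ord (f + g) := by
  rcases eq_or_ne f 0 with rfl | hf
  · rw [zero_add]
    exact min_le_right _ _
  rcases eq_or_ne g 0 with rfl | hg
  · rw [add_zero]
    exact min_le_left _ _
  have h := v.adicValuation.map_add f g
  have hf' := v.adicValuation_ne_zero hf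
  have hg' := v.adicValuation_ne_zero hg
  have hfg' := v.adicValuation_ne_zero hfg
  rcases le_max_iff.mp h with h1 | h1
  · have h2 := (log_le_log hfg' hf').mpr h1
    simp only [Place.ord]
    exact le_trans (min_le_left _ _) (by omega)
  · have h2 := (log_le_log hfg' hg').mpr h1
    simp only [Place.ord]
    exact le_trans (min_le_right _ _) (by omega)

theorem place_ord_add (v : Place K F) {f g : F} (hf : f ≠ 0) (hg : g ≠ 0) (hfg : f + g ≠ 0) :
    min (v.ord f) (v.ord g) ≤ v.ord (f + g) := by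
  have _ := hf
  have _ := hg
  exact place_ord_add' v hfg

theorem place_ord_add_eq_of_lt (v : Place K F) {f g : F} (hf : f ≠ 0) (h : v.ord f < v.ord g) :
    v.ord (f + g) = v.ord f := by
  rcases eq_or_ne g 0 with rfl | hg
  · rw [add_zero]
  have hne : f + g ≠ 0 := by
    intro h0
    have h1 : g = -f := by
      rw [← sub_eq_zero, sub_neg_eq_add, add_comm]
      exact h0
    rw [h1, place_ord_neg] at h
    exact lt_irrefl _ h
  apply le_antisymm
  · have h1 := place_ord_add' v (f := f + g) (g := -g) (by simpa using hf)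
    rw [add_neg_cancel_right, place_ord_neg] at h1
    rcases min_le_iff.mp h1 with h2 | h2
    · exact h2
    · omega
  · have h1 := place_ord_add' v hne
    rwa [min_eq_left h.le] at h1

theorem place_ord_algebraMap (v : Place K F) (c : K) : v.ord (algebraMap K F c) = 0 := by
  rcases eq_or_ne c 0 with rfl | hc
  · simp
  have hc' : algebraMap K F c ≠ 0 := by simpa using hc
  have h1 := (place_mem_iff v hc').mp (v.algebraMap_mem' c)
  have h2 := (place_mem_iff v (inv_ne_zero hc')).mp (by
    rw [← map_inv₀]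
    exact v.algebraMap_mem' c⁻¹)
  rw [v.ord_inv] at h2
  omega

theorem place_ord_pow (v : Place K F) (f : F) (n : ℕ) : v.ord (f ^ n) = n * v.ord f := by
  have h := v.ord_zpow f n
  rwa [zpow_natCast] at h

theorem place_ord_div (v : Place K F) {f g : F} (hf : f ≠ 0) (hg : g ≠ 0) :
    v.ord (f / g) = v.ord f - v.ord g := by
  rw [div_eq_mul_inv, v.ord_mul hf (inv_ne_zero hg), v.ord_inv]
  ring

theorem place_ord_prod (v : Place K F) {ι : Type} (s : Finset ι) (f : ι → F)
    (hf : ∀ i ∈ s, f i ≠ 0) : v.ord (∏ i ∈ s, f i) = ∑ i ∈ s, v.ord (f i) := by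
  classical
  induction s using Finset.induction_on with
  | empty => simp
  | insert a s ha ih =>
    have h1 : ∀ i ∈ s, f i ≠ 0 := fun i hi => hf i (Finset.mem_insert_of_mem hi)
    rw [Finset.prod_insert ha, Finset.sum_insert ha,
      v.ord_mul (hf a (Finset.mem_insert_self a s)) (Finset.prod_ne_zero_iff.mpr h1), ih h1]

theorem place_eq_of_le (v v' : Place K F)
    (h : ∀ f : F, f ≠ 0 → 0 ≤ v.ord f → 0 ≤ v'.ord f) : v = v' := by
  apply Place.ext
  refine ValuationSubring.eq_of_le_of_ne_top _ (fun f hf => ?_) v'.ne_top'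
  rcases eq_or_ne f 0 with rfl | hf0
  · exact zero_mem _
  · exact (place_mem_iff v' hf0).mpr (h f hf0 ((place_mem_iff v hf0).mp hf))

theorem place_exists_ord_one (v : Place K F) : ∃ t : F, v.ord t = 1 := by
  obtain ⟨π, hπ⟩ := IsDiscreteValuationRing.exists_irreducible v.toValuationSubring
  exact ⟨π, v.ord_coe_irreducible hπ⟩

/-- the order of a unit of the valuation ring is `0` (element form). -/
theorem place_ord_eq_zero_iff (v : Place K F) {f : F} (hf : f ≠ 0) :
    v.ord f = 0 ↔ f ∈ v.toValuationSubring ∧ f⁻¹ ∈ v.toValuationSubring := by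
  rw [place_mem_iff v hf, place_mem_iff v (inv_ne_zero hf), v.ord_inv]
  omega

section LemmaB

variable (w : F → ℤ)

theorem place_w_one (w_mul : ∀ f g : F, f ≠ 0 → g ≠ 0 → w (f * g) = w f + w g) : w 1 = 0 := by
  have h := w_mul 1 1 one_ne_zero one_ne_zero
  rw [one_mul] at h
  omega

theorem place_w_neg (w_mul : ∀ f g : F, f ≠ 0 → g ≠ 0 → w (f * g) = w f + w g) {f : F}
    (hf : f ≠ 0) : w (-f) = w f := by
  have h1 := w_mul (-1) (-1) (neg_ne_zero.mpr one_ne_zero) (neg_ne_zero.mpr one_ne_zero)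
  rw [neg_mul_neg, one_mul, place_w_one w w_mul] at h1
  have h2 := w_mul (-1) f (neg_ne_zero.mpr one_ne_zero) hf
  rw [neg_one_mul] at h2
  omega

theorem place_w_inv (w_mul : ∀ f g : F, f ≠ 0 → g ≠ 0 → w (f * g) = w f + w g) {f : F}
    (hf : f ≠ 0) : w f⁻¹ = -w f := by
  have h := w_mul f f⁻¹ hf (inv_ne_zero hf)
  rw [mul_inv_cancel₀ hf, place_w_one w w_mul] at h
  omega

theorem place_w_pow (w_mul : ∀ f g : F, f ≠ 0 → g ≠ 0 → w (f * g) = w f + w g) {f : F}
    (hf : f ≠ 0) (n : ℕ) : w (f ^ n) = n * w f := by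
  induction n with
  | zero => simp [place_w_one w w_mul]
  | succ n ih =>
    rw [pow_succ, w_mul _ _ (pow_ne_zero n hf) hf, ih]
    push_cast
    ring

theorem place_w_zpow (w_mul : ∀ f g : F, f ≠ 0 → g ≠ 0 → w (f * g) = w f + w g) {f : F}
    (hf : f ≠ 0) (n : ℤ) : w (f ^ n) = n * w f := by
  obtain ⟨k, rfl | rfl⟩ := n.eq_nat_or_neg
  · rw [zpow_natCast, place_w_pow w w_mul hf]
  · rw [zpow_neg, zpow_natCast, place_w_inv w w_mul (pow_ne_zero k hf), place_w_pow w w_mul hf]
    ring

/-- The valuation subring `{f | f = 0 ∨ 0 ≤ w f}` of an abstract `ℤ`-valued valuation. -/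
def placeSubring (w_mul : ∀ f g : F, f ≠ 0 → g ≠ 0 → w (f * g) = w f + w g)
    (w_add : ∀ f g : F, f ≠ 0 → g ≠ 0 → f + g ≠ 0 → min (w f) (w g) ≤ w (f + g)) :
    ValuationSubring F where
  carrier := {f | f = 0 ∨ 0 ≤ w f}
  mul_mem' := by
    rintro a b (rfl | ha) (rfl | hb)
    · left; simp
    · left; simp
    · left; simp
    · rcases eq_or_ne a 0 with rfl | ha0
      · left; simp
      rcases eq_or_ne b 0 with rfl | hb0
      · left; simp
      right
      rw [w_mul a b ha0 hb0]
      omega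
  one_mem' := Or.inr (by rw [place_w_one w w_mul])
  add_mem' := by
    rintro a b ha hb
    rcases eq_or_ne a 0 with rfl | ha0
    · rw [zero_add]; exact hb
    rcases eq_or_ne b 0 with rfl | hb0
    · rw [add_zero]; exact ha
    rcases eq_or_ne (a + b) 0 with hab | hab
    · left; exact hab
    right
    have h := w_add a b ha0 hb0 hab
    have ha' := ha.resolve_left ha0
    have hb' := hb.resolve_left hb0
    exact le_trans (le_min ha' hb') h
  zero_mem' := Or.inl rfl
  neg_mem' := by
    rintro a ha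
    rcases eq_or_ne a 0 with rfl | ha0
    · left; simp
    right
    rw [place_w_neg w w_mul ha0]
    exact ha.resolve_left ha0
  mem_or_inv_mem' := by
    intro f
    rcases eq_or_ne f 0 with rfl | hf
    · left; left; rfl
    rcases le_total 0 (w f) with h | h
    · left; right; exact h
    · right; right
      rw [place_w_inv w w_mul hf]
      omega

theorem mem_placeSubring (w_mul : ∀ f g : F, f ≠ 0 → g ≠ 0 → w (f * g) = w f + w g)
    (w_add : ∀ f g : F, f ≠ 0 → g ≠ 0 → f + g ≠ 0 → min (w f) (w g) ≤ w (f + g)) (f : F) :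
    f ∈ placeSubring w w_mul w_add ↔ f = 0 ∨ 0 ≤ w f := Iff.rfl

/-- **Lemma B**: a nontrivial `ℤ`-valued valuation of `F`, trivial on `K`, comes from a place,
up to a positive integer factor. -/
theorem place_of_valuation (w : F → ℤ)
    (w_mul : ∀ f g : F, f ≠ 0 → g ≠ 0 → w (f * g) = w f + w g)
    (w_add : ∀ f g : F, f ≠ 0 → g ≠ 0 → f + g ≠ 0 → min (w f) (w g) ≤ w (f + g))
    (w_K : ∀ c : K, c ≠ 0 → w (algebraMap K F c) = 0) (hnt : ∃ f : F, f ≠ 0 ∧ w f ≠ 0) :
    ∃ (v : Place K F) (m : ℤ), 0 < m ∧ ∀ f : F, f ≠ 0 → w f = m * v.ord f := by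
  classical
  obtain ⟨f0, hf0, hw0⟩ := hnt
  have hex : ∃ n : ℕ, 0 < n ∧ ∃ f : F, f ≠ 0 ∧ w f = n := by
    rcases lt_or_gt_of_ne hw0 with h | h
    · exact ⟨(-w f0).toNat, by omega, f0⁻¹, inv_ne_zero hf0, by
        rw [place_w_inv w w_mul hf0]; omega⟩
    · exact ⟨(w f0).toNat, by omega, f0, hf0, by omega⟩
  obtain ⟨hm_pos, π, hπ0, hπw⟩ := Nat.find_spec hex
  set m : ℕ := Nat.find hex with hm
  have hmin : ∀ n : ℕ, 0 < n → (∃ f : F, f ≠ 0 ∧ w f = n) → m ≤ n :=
    fun n hn h => Nat.find_min' hex ⟨hn, h⟩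
  have hmZ : (0 : ℤ) < m := by exact_mod_cast hm_pos
  -- divisibility of all values by `m`
  have hdvd : ∀ f : F, f ≠ 0 → (m : ℤ) ∣ w f := by
    intro f hf
    set g : F := f * π ^ (-(w f / m)) with hg
    have hg0 : g ≠ 0 := mul_ne_zero hf (zpow_ne_zero _ hπ0)
    have hwg : w g = w f % m := by
      rw [hg, w_mul _ _ hf (zpow_ne_zero _ hπ0), place_w_zpow w w_mul hπ0, hπw]
      have := Int.emod_add_mul_ediv (w f) m
      linarith
    by_contra hnd
    have hpos : 0 < w f % m := by
      have h1 := Int.emod_nonneg (w f) (ne_of_gt hmZ)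
      have h2 : w f % m ≠ 0 := fun h => hnd (Int.dvd_of_emod_eq_zero h)
      omega
    have hlt : w f % m < m := Int.emod_lt_of_pos _ hmZ
    have := hmin (w f % m).toNat (by omega) ⟨g, hg0, by rw [hwg]; omega⟩
    omega
  set A : ValuationSubring F := placeSubring w w_mul w_add with hA
  have memA : ∀ f : F, f ∈ A ↔ f = 0 ∨ 0 ≤ w f := fun f => Iff.rfl
  have hπA : π ∈ A := Or.inr (by rw [hπw]; omega)
  -- units of `A`
  have hunit : ∀ a : A, IsUnit a ↔ (a : F) ≠ 0 ∧ w (a : F) = 0 := by
    intro a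
    constructor
    · intro ha
      obtain ⟨b, hb⟩ := ha.exists_right_inv
      have hab : (a : F) * (b : F) = 1 := by
        have := congrArg Subtype.val hb
        simpa using this
      have ha0 : (a : F) ≠ 0 := left_ne_zero_of_mul_eq_one hab
      have hb0 : (b : F) ≠ 0 := right_ne_zero_of_mul_eq_one hab
      refine ⟨ha0, ?_⟩
      have h1 := w_mul _ _ ha0 hb0
      rw [hab, place_w_one w w_mul] at h1
      have h2 := ((memA a).mp a.2).resolve_left ha0
      have h3 := ((memA b).mp b.2).resolve_left hb0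
      omega
    · rintro ⟨ha0, haw⟩
      have hinv : (a : F)⁻¹ ∈ A := Or.inr (by rw [place_w_inv w w_mul ha0, haw]; simp)
      refine IsUnit.of_mul_eq_one (⟨(a : F)⁻¹, hinv⟩ : A) ?_
      apply Subtype.ext
      simp [mul_inv_cancel₀ ha0]
  -- the uniformizer
  set πA : A := ⟨π, hπA⟩ with hπAdef
  have hirr : Irreducible πA := by
    refine ⟨fun hu => ?_, fun a b hab => ?_⟩
    · have := ((hunit πA).mp hu).2
      simp only [hπAdef] at this
      omega
    · have hab' : π = (a : F) * (b : F) := by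
        have := congrArg Subtype.val hab
        simpa using this
      have ha0 : (a : F) ≠ 0 := by
        rintro h; rw [h, zero_mul] at hab'; exact hπ0 hab'
      have hb0 : (b : F) ≠ 0 := by
        rintro h; rw [h, mul_zero] at hab'; exact hπ0 hab'
      have h1 := w_mul _ _ ha0 hb0
      rw [← hab', hπw] at h1
      have h2 := ((memA a).mp a.2).resolve_left ha0
      have h3 := ((memA b).mp b.2).resolve_left hb0
      obtain ⟨ka, hka⟩ := hdvd _ ha0
      obtain ⟨kb, hkb⟩ := hdvd _ hb0
      have hka0 : 0 ≤ ka := by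
        by_contra hneg
        push Not at hneg
        have : (m : ℤ) * ka < 0 := mul_neg_of_pos_of_neg hmZ hneg
        omega
      have hkb0 : 0 ≤ kb := by
        by_contra hneg
        push Not at hneg
        have : (m : ℤ) * kb < 0 := mul_neg_of_pos_of_neg hmZ hneg
        omega
      have hsum : ka + kb = 1 := by
        have h4 : (m : ℤ) * (ka + kb) = m * 1 := by rw [mul_add, ← hka, ← hkb]; omega
        exact mul_left_cancel₀ (ne_of_gt hmZ) h4
      rcases (show ka = 0 ∨ kb = 0 by omega) with h0 | h0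
      · left
        exact (hunit a).mpr ⟨ha0, by rw [hka, h0, mul_zero]⟩
      · right
        exact (hunit b).mpr ⟨hb0, by rw [hkb, h0, mul_zero]⟩
  have hfact : IsDiscreteValuationRing.HasUnitMulPowIrreducibleFactorization A := by
    refine ⟨πA, hirr, fun {x} hx => ?_⟩
    have hx0 : (x : F) ≠ 0 := fun h => hx (Subtype.ext h)
    have hxw := ((memA x).mp x.2).resolve_left hx0
    obtain ⟨k, hk⟩ := hdvd _ hx0
    have hk0 : 0 ≤ k := by
      by_contra hneg
      push Not at hneg
      have : (m : ℤ) * k < 0 := mul_neg_of_pos_of_neg hmZ hneg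
      omega
    obtain ⟨n, rfl⟩ := Int.eq_ofNat_of_zero_le hk0
    refine ⟨n, ?_⟩
    have hu0 : (x : F) * (π ^ n)⁻¹ ≠ 0 := mul_ne_zero hx0 (inv_ne_zero (pow_ne_zero n hπ0))
    have huw : w ((x : F) * (π ^ n)⁻¹) = 0 := by
      rw [w_mul _ _ hx0 (inv_ne_zero (pow_ne_zero n hπ0)),
        place_w_inv w w_mul (pow_ne_zero n hπ0), place_w_pow w w_mul hπ0, hπw, hk]
      ring
    have huA : (x : F) * (π ^ n)⁻¹ ∈ A := Or.inr (by rw [huw])
    have hu : IsUnit (⟨(x : F) * (π ^ n)⁻¹, huA⟩ : A) := (hunit _).mpr ⟨hu0, huw⟩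
    refine ⟨hu.unit, ?_⟩
    apply Subtype.ext
    simp only [IsUnit.unit_spec, hπAdef, MulMemClass.coe_mul, SubmonoidClass.coe_pow]
    field_simp
  have hDVR : IsDiscreteValuationRing A :=
    IsDiscreteValuationRing.ofHasUnitMulPowIrreducibleFactorization hfact
  let v : Place K F :=
    { toValuationSubring := A
      algebraMap_mem' := fun c => by
        rcases eq_or_ne c 0 with rfl | hc
        · left; simp
        · right; rw [w_K c hc]
      ne_top' := by
        intro htop
        have h1 : π⁻¹ ∈ A := by rw [htop]; exact ValuationSubring.mem_top _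
        have h2 := ((memA _).mp h1).resolve_left (inv_ne_zero hπ0)
        rw [place_w_inv w w_mul hπ0, hπw] at h2
        omega
      isPrincipalIdealRing' := inferInstance }
  refine ⟨v, m, hmZ, fun f hf => ?_⟩
  obtain ⟨u, hu⟩ := v.exists_unit_mul_zpow hf (π := πA) hirr
  have hu' := (hunit (u : A)).mp u.isUnit
  have h1 : w f = w ((u : A) : F) + w ((πA : F) ^ v.ord f) := by
    conv_lhs => rw [hu]
    exact w_mul _ _ hu'.1 (zpow_ne_zero _ hπ0)
  rw [h1, hu'.2, zero_add]
  have h2 : ((πA : A) : F) = π := rfl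
  rw [h2, place_w_zpow w w_mul hπ0, hπw]
  ring

end LemmaB

end Fermat.Agent.S24
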