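import Mathlib
import Fermat.Agent.S24.Defs

set_option autoImplicit false

/-!
# S24 [RF]: orders of polynomial expressions in a valued differential field, root counting
-/

namespace Fermat.Agent.S24

open Polynomial

variable {K : Type} [Field K]

section vdf

variable (V : VDF K)

theorem rf_w_one : V.w 1 = 0 := by
  have h := V.w_alg 1 one_ne_zero
  rwa [map_one] at h

theorem rf_w_neg_one : V.w (-1) = 0 := by
  have h := V.w_alg (-1) (neg_ne_zero.mpr one_ne_zero)
  rwa [map_neg, map_one] at h

theorem rf_w_neg {u : V.L} (hu : u ≠ 0) : V.w (-u) = V.w u := by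
  have h := V.w_mul (-1) u (neg_ne_zero.mpr one_ne_zero) hu
  rw [neg_one_mul, rf_w_neg_one, zero_add] at h
  exact h

theorem rf_w_inv {u : V.L} (hu : u ≠ 0) : V.w u⁻¹ = -V.w u := by
  have h := V.w_mul u u⁻¹ hu (inv_ne_zero hu)
  rw [mul_inv_cancel₀ hu, rf_w_one] at h
  omega

theorem rf_w_pow {u : V.L} (hu : u ≠ 0) (n : ℕ) : V.w (u ^ n) = n * V.w u := by
  induction n with
  | zero => simp [rf_w_one]
  | succ n ih =>
    rw [pow_succ, V.w_mul _ _ (pow_ne_zero n hu) hu, ih]
    push_cast
    ring

/-- strict ultrametric inequality: the smaller order wins. -/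
theorem rf_w_add_eq_of_lt {u v : V.L} (hu : u ≠ 0) (hv : v ≠ 0) (h : V.w u < V.w v) :
    u + v ≠ 0 ∧ V.w (u + v) = V.w u := by
  have hne : u + v ≠ 0 := by
    intro h0
    have h1 : v = -u := by
      rw [← sub_eq_zero, sub_neg_eq_add, add_comm]
      exact h0
    rw [h1, rf_w_neg V hu] at h
    exact lt_irrefl _ h
  refine ⟨hne, le_antisymm ?_ ?_⟩
  · have h1 := V.w_add (u + v) (-v) hne (neg_ne_zero.mpr hv) (by simpa using hu)
    rw [add_neg_cancel_right, rf_w_neg V hv] at h1
    rcases min_le_iff.mp h1 with h2 | h2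
    · exact h2
    · omega
  · have h1 := V.w_add u v hu hv hne
    rwa [min_eq_left h.le] at h1

end vdf

/-- every polynomial expression in `J` with `w (J - a) > 0` has non-negative order. -/
theorem rf_w_aeval_nonneg (V : VDF K) (J : V.L) (a : K) (E : ℤ) (hE : 0 < E)
    (hJ0 : J - algebraMap K V.L a ≠ 0) (hJ : V.w (J - algebraMap K V.L a) = E) (p : K[X]) :
    aeval J p = 0 ∨ 0 ≤ V.w (aeval J p) := by
  induction' hn : p.natDegree using Nat.strong_induction_on with n ih generalizing p
  by_cases hp0 : p.natDegree = 0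
  · obtain ⟨c, rfl⟩ := natDegree_eq_zero.mp hp0
    by_cases hc : c = 0
    · left; simp [hc]
    · right
      rw [aeval_C, V.w_alg c hc]
  · -- p = C (p.eval a) + (X - C a) * q
    have hdiv := mul_divByMonic_eq_iff_isRoot (p := p - C (p.eval a)) (a := a) |>.mpr (by simp)
    set q := (p - C (p.eval a)) /ₘ (X - C a) with hq
    have hpq : p = C (p.eval a) + (X - C a) * q := by
      rw [hdiv]; ring
    have hqdeg : q.natDegree < n := by
      rw [hq, natDegree_divByMonic _ (monic_X_sub_C a), natDegree_X_sub_C, ← hn]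
      have : (p - C (p.eval a)).natDegree ≤ p.natDegree := by
        refine (natDegree_sub_le _ _).trans ?_
        simp
      omega
    have hev : aeval J p = algebraMap K V.L (p.eval a) + (J - algebraMap K V.L a) * aeval J q := by
      conv_lhs => rw [hpq]
      simp [aeval_def, sub_mul]
    rcases ih q.natDegree hqdeg q rfl with h0 | h0
    · rw [hev, h0, mul_zero, add_zero]
      by_cases hc : p.eval a = 0
      · left; simp [hc]
      · right; rw [V.w_alg _ hc]
    · by_cases hq0 : aeval J q = 0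
      · rw [hev, hq0, mul_zero, add_zero]
        by_cases hc : p.eval a = 0
        · left; simp [hc]
        · right; rw [V.w_alg _ hc]
      · have hprod : V.w ((J - algebraMap K V.L a) * aeval J q) = E + V.w (aeval J q) := by
          rw [V.w_mul _ _ hJ0 hq0, hJ]
        have hprod0 : (J - algebraMap K V.L a) * aeval J q ≠ 0 := mul_ne_zero hJ0 hq0
        by_cases hc : p.eval a = 0
        · right
          rw [hev, hc, map_zero, zero_add, hprod]
          omega
        · by_cases hs : aeval J p = 0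
          · left; exact hs
          · right
            rw [hev] at hs ⊢
            have h1 := V.w_add _ _ (by simpa using hc) hprod0 hs
            rw [V.w_alg _ hc, hprod] at h1
            have h2 : min 0 (E + V.w (aeval J q)) = 0 := min_eq_left (by omega)
            omega

/-- a polynomial not vanishing at `a` has order `0` at a point `J` with `w (J - a) > 0`. -/
theorem rf_w_aeval_of_eval_ne_zero (V : VDF K) (J : V.L) (a : K) (E : ℤ) (hE : 0 < E)
    (hJ0 : J - algebraMap K V.L a ≠ 0) (hJ : V.w (J - algebraMap K V.L a) = E) (p : K[X])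
    (hpa : p.eval a ≠ 0) : aeval J p ≠ 0 ∧ V.w (aeval J p) = 0 := by
  have hdiv := mul_divByMonic_eq_iff_isRoot (p := p - C (p.eval a)) (a := a) |>.mpr (by simp)
  set q := (p - C (p.eval a)) /ₘ (X - C a) with hq
  have hpq : p = C (p.eval a) + (X - C a) * q := by
    rw [hdiv]; ring
  have hev : aeval J p = algebraMap K V.L (p.eval a) + (J - algebraMap K V.L a) * aeval J q := by
    conv_lhs => rw [hpq]
    simp [aeval_def, sub_mul]
  have hc0 : algebraMap K V.L (p.eval a) ≠ 0 := by simpa using hpa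
  by_cases hq0 : aeval J q = 0
  · rw [hev, hq0, mul_zero, add_zero]
    exact ⟨hc0, V.w_alg _ hpa⟩
  · have hprod : V.w ((J - algebraMap K V.L a) * aeval J q) = E + V.w (aeval J q) := by
      rw [V.w_mul _ _ hJ0 hq0, hJ]
    have hnn : 0 ≤ V.w (aeval J q) :=
      (rf_w_aeval_nonneg V J a E hE hJ0 hJ q).resolve_left hq0
    have h1 := rf_w_add_eq_of_lt V hc0 (mul_ne_zero hJ0 hq0) (by rw [V.w_alg _ hpa, hprod]; omega)
    rw [hev]
    exact ⟨h1.1, by rw [h1.2, V.w_alg _ hpa]⟩

/-- **[RF] finite point**: the order of `p(J)` is `E` times the root multiplicity at `a`. -/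
theorem rf_w_aeval_finite (V : VDF K) (J : V.L) (a : K) (E : ℤ) (hE : 0 < E)
    (hJ0 : J - algebraMap K V.L a ≠ 0) (hJ : V.w (J - algebraMap K V.L a) = E)
    {p : K[X]} (hp : p ≠ 0) :
    aeval J p ≠ 0 ∧ V.w (aeval J p) = E * (p.rootMultiplicity a : ℤ) := by
  obtain ⟨q, hpq, hq⟩ := exists_eq_pow_rootMultiplicity_mul_and_not_dvd p hp a
  have hqa : q.eval a ≠ 0 := by
    intro h0
    exact hq (dvd_iff_isRoot.mpr h0)
  obtain ⟨hq0, hqw⟩ := rf_w_aeval_of_eval_ne_zero V J a E hE hJ0 hJ q hqa
  have hev : aeval J p = (J - algebraMap K V.L a) ^ (p.rootMultiplicity a) * aeval J q := by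
    conv_lhs => rw [hpq]
    simp [aeval_def]
  have hpow0 : (J - algebraMap K V.L a) ^ (p.rootMultiplicity a) ≠ 0 := pow_ne_zero _ hJ0
  rw [hev]
  refine ⟨mul_ne_zero hpow0 hq0, ?_⟩
  rw [V.w_mul _ _ hpow0 hq0, rf_w_pow V hJ0, hJ, hqw]
  ring

/-- **[RF] infinite point**: the order of `p(J)` is `-E` times the degree. -/
theorem rf_w_aeval_infty (V : VDF K) (J : V.L) (E : ℤ) (hE : 0 < E) (hJ0 : J ≠ 0)
    (hJ : V.w J⁻¹ = E) {p : K[X]} (hp : p ≠ 0) :
    aeval J p ≠ 0 ∧ V.w (aeval J p) = -(E * (p.natDegree : ℤ)) := by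
  have hwJ : V.w J = -E := by
    have := rf_w_inv V hJ0
    omega
  induction' hn : p.natDegree using Nat.strong_induction_on with n ih generalizing p
  by_cases hp0 : p.natDegree = 0
  · obtain ⟨c, rfl⟩ := natDegree_eq_zero.mp hp0
    have hc : c ≠ 0 := by
      intro h
      exact hp (by simp [h])
    rw [aeval_C]
    refine ⟨by simpa using hc, ?_⟩
    rw [V.w_alg c hc, ← hn, hp0]
    simp
  · -- p = C (coeff 0) + X * divX p
    have hpq : p = C (p.coeff 0) + X * p.divX := by
      conv_lhs => rw [← divX_mul_X_add p]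
      ring
    have hqdeg : p.divX.natDegree = p.natDegree - 1 := natDegree_divX_eq_natDegree_tsub_one
    have hq0 : p.divX ≠ 0 := by
      intro h0
      rw [h0, mul_zero, add_zero] at hpq
      rw [hpq, natDegree_C] at hp0
      exact hp0 rfl
    have hlt : p.divX.natDegree < n := by omega
    obtain ⟨hqne, hqw⟩ := ih p.divX.natDegree hlt hq0 rfl
    have hev : aeval J p = algebraMap K V.L (p.coeff 0) + J * aeval J p.divX := by
      conv_lhs => rw [hpq]
      simp [aeval_def]
    have hprod0 : J * aeval J p.divX ≠ 0 := mul_ne_zero hJ0 hqne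
    have hprod : V.w (J * aeval J p.divX) = -(E * (n : ℤ)) := by
      rw [V.w_mul _ _ hJ0 hqne, hwJ, hqw, hqdeg, hn]
      have hn1 : 1 ≤ n := by omega
      push_cast [hn1]
      ring
    by_cases hc : p.coeff 0 = 0
    · rw [hev, hc, map_zero, zero_add]
      exact ⟨hprod0, hprod⟩
    · have hc0 : algebraMap K V.L (p.coeff 0) ≠ 0 := by simpa using hc
      have hn1 : 1 ≤ n := by omega
      have hlt' : V.w (J * aeval J p.divX) < V.w (algebraMap K V.L (p.coeff 0)) := by
        rw [hprod, V.w_alg _ hc]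
        have : 0 < E * (n : ℤ) := mul_pos hE (by exact_mod_cast hn1)
        omega
      have h1 := rf_w_add_eq_of_lt V hprod0 hc0 hlt'
      rw [hev, add_comm]
      exact ⟨h1.1, by rw [h1.2, hprod]⟩

/-- Over an algebraically closed field the root multiplicities sum to the degree. -/
theorem rf_sum_rootMultiplicity [IsAlgClosed K] {p : K[X]} (hp : p ≠ 0)
    (S : Finset K) (hS : ∀ a, p.IsRoot a → a ∈ S) :
    ∑ a ∈ S, p.rootMultiplicity a = p.natDegree := by
  classical
  have hsub : p.roots.toFinset ⊆ S := by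
    intro a ha
    rw [Multiset.mem_toFinset, mem_roots hp] at ha
    exact hS a ha
  rw [← Finset.sum_subset hsub (fun a _ ha => by
    rw [Multiset.mem_toFinset, mem_roots hp] at ha
    exact rootMultiplicity_eq_zero ha)]
  rw [(IsAlgClosed.splits p).natDegree_eq_card_roots, ← Multiset.toFinset_sum_count_eq]
  exact Finset.sum_congr rfl fun a _ => (count_roots p).symm

section Exports

variable {K : Type} [Field K] [IsAlgClosed K]

set_option linter.unusedSectionVars false

/-- order of a polynomial expression in an element of positive order -/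
theorem vdf_w_aeval (V : VDF K) (Z : V.L) (hZ0 : Z ≠ 0) (hZ : 0 < V.w Z) (q : K[X]) (hq : q ≠ 0) :
    aeval Z q ≠ 0 ∧ V.w (aeval Z q) = V.w Z * q.rootMultiplicity 0 := by
  have h0 : Z - algebraMap K V.L 0 = Z := by rw [map_zero, sub_zero]
  exact rf_w_aeval_finite V Z 0 (V.w Z) hZ (by rw [h0]; exact hZ0) (by rw [h0]) hq

/-- order of a polynomial expression in `J` at a finite point -/
theorem vdf_w_aeval_finite (V : VDF K) (J : V.L) (a : K) (hJ0 : J - algebraMap K V.L a ≠ 0)
    (hJ : 0 < V.w (J - algebraMap K V.L a)) (p : K[X]) (hp : p ≠ 0) :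
    aeval J p ≠ 0 ∧ V.w (aeval J p) = V.w (J - algebraMap K V.L a) * p.rootMultiplicity a :=
  rf_w_aeval_finite V J a _ hJ hJ0 rfl hp

/-- order of a polynomial expression in `J` at infinity -/
theorem vdf_w_aeval_infty (V : VDF K) (J : V.L) (hJ0 : J ≠ 0) (hJ : 0 < V.w J⁻¹) (p : K[X])
    (hp : p ≠ 0) :
    aeval J p ≠ 0 ∧ V.w (aeval J p) = -(V.w J⁻¹ * p.natDegree) :=
  rf_w_aeval_infty V J _ hJ hJ0 rfl hp

theorem sum_rootMultiplicity_eq_natDegree (p : K[X]) (hp : p ≠ 0) (s : Finset K)
    (hs : ∀ a : K, p.IsRoot a → a ∈ s) : ∑ a ∈ s, p.rootMultiplicity a = p.natDegree :=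
  rf_sum_rootMultiplicity hp s hs

end Exports

end Fermat.Agent.S24
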