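import Mathlib
import Fermat.Agent.S24.Defs
import Fermat.Agent.S24.PlaceBasics
import Fermat.Agent.S24.NormProd
import Fermat.Agent.S24.RootCount
import Fermat.Agent.S24.Kaehler
import Fermat.Agent.S24.Count
import Fermat.Agent.S24.DedekindBase
import Fermat.Agent.S24.Dedekind

set_option autoImplicit false

/-!
# Project S24: the abstract Riemann–Hurwitz computation

From a family of local data `U a : LocalDatum K F j X a` (one for each point `a` of the `j`-line)
and the bound `[F : K(j)] ≤ |X|`, compute the degree of the divisor of any nonzero differential.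
-/

namespace Fermat.Agent.S24

open AlgebraicCurve KaehlerDifferential IntermediateField Polynomial

noncomputable section

variable {K F : Type} [Field K] [Field F] [Algebra K F]

/-! ## Step 0: the centre elements -/

section step0

variable {j : F}

theorem am_not_mem_range (hj : Transcendental K j) (c : K) : j ≠ algebraMap K F c := by
  intro h
  apply hj
  rw [h]
  exact isAlgebraic_algebraMap c

theorem am_j_ne_zero (hj : Transcendental K j) : j ≠ 0 := by
  have := am_not_mem_range hj 0
  simpa using this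

theorem am_zc_ne_zero (hj : Transcendental K j) (a : Option K) : zc j a ≠ 0 := by
  cases a with
  | none => exact inv_ne_zero (am_j_ne_zero hj)
  | some a => exact sub_ne_zero.mpr (am_not_mem_range hj a)

theorem am_transcendental_zc (hj : Transcendental K j) (a : Option K) :
    Transcendental K (zc j a) := by
  cases a with
  | none =>
    intro h
    apply hj
    have := h.inv
    simpa [zc] using this
  | some a =>
    intro h
    apply hj
    have h2 : IsAlgebraic K (zc j (some a) + algebraMap K F a) := h.add (isAlgebraic_algebraMap a)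
    simpa [zc] using h2

theorem am_adjoin_zc (a : Option K) : K⟮zc j a⟯ = K⟮j⟯ := by
  cases a with
  | none =>
    apply le_antisymm
    · rw [adjoin_simple_le_iff]
      have h : j ∈ K⟮j⟯ := mem_adjoin_simple_self K j
      exact K⟮j⟯.inv_mem h
    · rw [adjoin_simple_le_iff]
      have : (zc (K := K) j none)⁻¹ ∈ K⟮zc (K := K) j none⟯ :=
        inv_mem (mem_adjoin_simple_self K _)
      simpa [zc] using this
  | some a =>
    apply le_antisymm
    · rw [adjoin_simple_le_iff]
      exact sub_mem (mem_adjoin_simple_self K j) (IntermediateField.algebraMap_mem _ a)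
    · rw [adjoin_simple_le_iff]
      have : zc j (some a) + algebraMap K F a ∈ K⟮zc j (some a)⟯ :=
        add_mem (mem_adjoin_simple_self K _) (IntermediateField.algebraMap_mem _ a)
      simpa [zc] using this

end step0

/-! ## Step 2: the places attached to a local datum -/

section step2

variable {j : F} {X : Type} {a : Option K}

theorem ld_map_ne_zero (D : LocalDatum K F j X a) (x : X) {f : F} (hf : f ≠ 0) : D.σ x f ≠ 0 :=
  (map_ne_zero (D.σ x)).mpr hf

theorem ld_exists (D : LocalDatum K F j X a) (hj : Transcendental K j) (x : X) :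
    ∃ (v : Place K F) (m : ℤ), 0 < m ∧ ∀ f : F, f ≠ 0 → D.V.w (D.σ x f) = m * v.ord f := by
  refine place_of_valuation (fun f => D.V.w (D.σ x f)) ?_ ?_ ?_ ?_
  · intro f g hf hg
    simp only [map_mul]
    exact D.V.w_mul _ _ (ld_map_ne_zero D x hf) (ld_map_ne_zero D x hg)
  · intro f g hf hg hfg
    simp only [map_add]
    refine D.V.w_add _ _ (ld_map_ne_zero D x hf) (ld_map_ne_zero D x hg) ?_
    rw [← map_add]
    exact ld_map_ne_zero D x hfg
  · intro c hc
    simp only [AlgHom.commutes]
    exact D.V.w_alg c hc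
  · refine ⟨zc j a, am_zc_ne_zero hj a, ?_⟩
    simp only [D.w_zc x]
    exact_mod_cast D.E_pos.ne'

/-- the place induced by the `x`-th embedding -/
def LocalDatum.pl (D : LocalDatum K F j X a) (hj : Transcendental K j) (x : X) : Place K F :=
  (ld_exists D hj x).choose

/-- the index of the value group of the `x`-th embedding -/
def LocalDatum.mm (D : LocalDatum K F j X a) (hj : Transcendental K j) (x : X) : ℤ :=
  (ld_exists D hj x).choose_spec.choose

theorem LocalDatum.mm_pos (D : LocalDatum K F j X a) (hj : Transcendental K j) (x : X) :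
    0 < D.mm hj x :=
  (ld_exists D hj x).choose_spec.choose_spec.1

theorem LocalDatum.w_eq (D : LocalDatum K F j X a) (hj : Transcendental K j) (x : X) {f : F}
    (hf : f ≠ 0) : D.V.w (D.σ x f) = D.mm hj x * (D.pl hj x).ord f :=
  (ld_exists D hj x).choose_spec.choose_spec.2 f hf

/-- the ramification index of the place `pl x` over the point `a` -/
def LocalDatum.ee (D : LocalDatum K F j X a) (hj : Transcendental K j) (x : X) : ℤ :=
  (D.pl hj x).ord (zc j a)

theorem LocalDatum.E_eq (D : LocalDatum K F j X a) (hj : Transcendental K j) (x : X) :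
    (D.E : ℤ) = D.mm hj x * D.ee hj x := by
  rw [LocalDatum.ee, ← D.w_eq hj x (am_zc_ne_zero hj a), D.w_zc x]

theorem LocalDatum.ee_pos (D : LocalDatum K F j X a) (hj : Transcendental K j) (x : X) :
    0 < D.ee hj x := by
  have h := D.E_eq hj x
  have hE : (0 : ℤ) < D.E := by exact_mod_cast D.E_pos
  rw [h] at hE
  exact (mul_pos_iff_of_pos_left (D.mm_pos hj x)).mp hE

theorem LocalDatum.ord_nonneg_iff (D : LocalDatum K F j X a) (hj : Transcendental K j) (x : X)
    {f : F} (hf : f ≠ 0) : 0 ≤ (D.pl hj x).ord f ↔ 0 ≤ D.V.w (D.σ x f) := by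
  rw [D.w_eq hj x hf]
  constructor
  · intro h
    exact mul_nonneg (D.mm_pos hj x).le h
  · intro h
    exact nonneg_of_mul_nonneg_right h (D.mm_pos hj x)

theorem LocalDatum.pl_π (D : LocalDatum K F j X a) (hj : Transcendental K j) (x : X) :
    D.pl hj (D.π x) = D.pl hj x := by
  apply place_eq_of_le
  intro f hf h
  rw [D.ord_nonneg_iff hj _ hf] at h ⊢
  rwa [D.w_π] at h

theorem LocalDatum.ee_le (D : LocalDatum K F j X a) [Finite X] (hj : Transcendental K j)
    (x : X) : D.ee hj x ≤ Function.minimalPeriod D.π x := by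
  obtain ⟨t, ht⟩ := place_exists_ord_one (D.pl hj x)
  have ht0 : t ≠ 0 := by
    rintro rfl
    simp at ht
  have h := D.dvd x t ht0
  rw [D.w_eq hj x ht0, ht, mul_one, D.E_eq hj x, mul_comm (D.mm hj x)] at h
  have h2 : D.ee hj x ∣ (Function.minimalPeriod D.π x : ℤ) :=
    (mul_dvd_mul_iff_right (D.mm_pos hj x).ne').mp h
  have hper : 0 < Function.minimalPeriod D.π x :=
    Function.minimalPeriod_pos_of_mem_periodicPts (by
      obtain ⟨n, hn, hpow⟩ := (isOfFinOrder_of_finite D.π).exists_pow_eq_one
      refine Function.mk_mem_periodicPts hn ?_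
      show (⇑D.π)^[n] x = x
      rw [Equiv.Perm.iterate_eq_pow, hpow]
      rfl)
  exact Int.le_of_dvd (by exact_mod_cast hper) h2

end step2

/-! ## centres are unique -/

section centre

variable {j : F}

theorem am_ord_neg (v : Place K F) (f : F) : v.ord (-f) = v.ord f := by
  rcases eq_or_ne f 0 with rfl | hf
  · simp
  have h : (-f) = algebraMap K F (-1) * f := by simp
  rw [h, v.ord_mul (by simp) hf, place_ord_algebraMap, zero_add]

theorem am_center_unique (hj : Transcendental K j) (v : Place K F) {a b : Option K}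
    (ha : 0 < v.ord (zc j a)) (hb : 0 < v.ord (zc j b)) : a = b := by
  have key : ∀ (a : K), 0 < v.ord (zc j (some a)) → 0 < v.ord (zc (K := K) j none) → False := by
    intro a ha hb
    have hjord : v.ord j < 0 := by
      have : v.ord (zc (K := K) j none) = -v.ord j := v.ord_inv j
      omega
    rcases eq_or_ne a 0 with rfl | ha0
    · have : zc j (some (0 : K)) = j := by simp [zc]
      rw [this] at ha
      omega
    · have h := place_ord_add v (sub_ne_zero.mpr (am_not_mem_range hj a))
        (f := j - algebraMap K F a) (g := algebraMap K F a)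
        (by simpa using ha0) (by simpa using am_j_ne_zero hj)
      rw [place_ord_algebraMap, sub_add_cancel] at h
      have ha' : 0 < v.ord (j - algebraMap K F a) := ha
      have : 0 ≤ min (v.ord (j - algebraMap K F a)) 0 := le_min ha'.le le_rfl
      omega
  cases a with
  | none =>
    cases b with
    | none => rfl
    | some b => exact (key b hb ha).elim
  | some a =>
    cases b with
    | none => exact (key a ha hb).elim
    | some b =>
      by_contra hab
      have hab' : a ≠ b := fun h => hab (by rw [h])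
      have hne : algebraMap K F (b - a) ≠ 0 := by
        simpa [sub_eq_zero] using hab'.symm
      have e : (j - algebraMap K F a) + -(j - algebraMap K F b) = algebraMap K F (b - a) := by
        rw [map_sub]; ring
      have h := place_ord_add v (sub_ne_zero.mpr (am_not_mem_range hj a))
        (neg_ne_zero.mpr (sub_ne_zero.mpr (am_not_mem_range hj b))) (by rw [e]; exact hne)
      rw [e, place_ord_algebraMap, am_ord_neg] at h
      have ha' : 0 < v.ord (j - algebraMap K F a) := ha
      have hb' : 0 < v.ord (j - algebraMap K F b) := hb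
      have : 0 < min (v.ord (j - algebraMap K F a)) (v.ord (j - algebraMap K F b)) :=
        lt_min ha' hb'
      omega

end centre

/-! ## Step 1: the norm is the product of the conjugates -/

section step1

variable {j : F} {X : Type} {a : Option K}

theorem vdf_w_one (V : VDF K) : V.w (1 : V.L) = 0 := by
  have := V.w_alg 1 one_ne_zero
  simpa using this

theorem vdf_w_prod (V : VDF K) {ι : Type*} (s : Finset ι) (u : ι → V.L)
    (hu : ∀ i ∈ s, u i ≠ 0) : V.w (∏ i ∈ s, u i) = ∑ i ∈ s, V.w (u i) := by
  classical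
  induction s using Finset.induction_on with
  | empty => simp [vdf_w_one]
  | insert i s hi ih =>
    rw [Finset.prod_insert hi, Finset.sum_insert hi, V.w_mul _ _ (hu i (Finset.mem_insert_self i s))
      (Finset.prod_ne_zero_iff.mpr fun k hk => hu k (Finset.mem_insert_of_mem hk)),
      ih fun k hk => hu k (Finset.mem_insert_of_mem hk)]

theorem ld_agree (D : LocalDatum K F j X a) (x y : X) (c : K⟮j⟯) :
    D.σ x (algebraMap K⟮j⟯ F c) = D.σ y (algebraMap K⟮j⟯ F c) := by
  obtain ⟨c, hc⟩ := c
  show D.σ x c = D.σ y c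
  induction hc using IntermediateField.adjoin_induction with
  | mem z hz =>
    rw [Set.mem_singleton_iff] at hz
    subst hz
    exact D.σ_j x y
  | algebraMap z => simp
  | add u v _ _ hu hv => simp [hu, hv]
  | inv u _ hu => simp [hu]
  | mul u v _ _ hu hv => simp [hu, hv]

theorem ld_finrank_norm [CharZero K] [Fintype X] (D : LocalDatum K F j X a)
    [FiniteDimensional K⟮j⟯ F] (hdeg : Module.finrank K⟮j⟯ F ≤ Fintype.card X) :
    Module.finrank K⟮j⟯ F = Fintype.card X ∧ ∀ (x : X) (f : F),
      D.σ x (algebraMap K⟮j⟯ F (Algebra.norm K⟮j⟯ f)) = ∏ y, D.σ y f := by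
  haveI : CharZero K⟮j⟯ := charZero_of_injective_algebraMap (algebraMap K K⟮j⟯).injective
  have h := norm_eq_prod_of_ringHoms (k := K⟮j⟯) (F := F) (L := D.V.L)
    (fun x => (D.σ x).toRingHom) (fun x y hxy => D.σ_inj (AlgHom.coe_ringHom_injective hxy))
    (fun x y c => ld_agree D x y c) hdeg
  exact h

end step1

/-! ## transport along `K⟮zc j a⟯ = K⟮j⟯` -/

section transport

theorem am_norm_transport {E1 E2 : IntermediateField K F} (h : E1 = E2) (b : F) :
    algebraMap E1 F (Algebra.norm E1 b) = algebraMap E2 F (Algebra.norm E2 b) := by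
  subst h; rfl

theorem am_finrank_transport {E1 E2 : IntermediateField K F} (h : E1 = E2) :
    Module.finrank E1 F = Module.finrank E2 F := by
  subst h; rfl

theorem am_fd_transport {E1 E2 : IntermediateField K F} (h : E1 = E2)
    [FiniteDimensional E1 F] : FiniteDimensional E2 F := by
  subst h; infer_instance

end transport

/-! ## Step 3: exhaustion -/

section step3

variable [IsAlgClosed K] [CharZero K] {j : F} {X : Type} [Fintype X]

omit [IsAlgClosed K] [CharZero K] in
theorem am_nonempty (j : F) [FiniteDimensional K⟮j⟯ F]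
    (hdeg : Module.finrank K⟮j⟯ F ≤ Fintype.card X) : Nonempty X := by
  have h : 0 < Module.finrank K⟮j⟯ F := Module.finrank_pos
  exact Fintype.card_pos_iff.mp (lt_of_lt_of_le h hdeg)

theorem am_exhaustion (U : ∀ a : Option K, LocalDatum K F j X a) (hj : Transcendental K j)
    [FiniteDimensional K⟮j⟯ F] (hdeg : Module.finrank K⟮j⟯ F ≤ Fintype.card X)
    (v : Place K F) : ∃ (a : Option K) (x : X), v = (U a).pl hj x := by
  classical
  obtain ⟨a, ha⟩ := dd_exists_center j hj v
  refine ⟨a, ?_⟩
  by_contra hne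
  push Not at hne
  set D := U a with hD
  let T : Finset (Place K F) := Finset.univ.image (fun x => D.pl hj x)
  have hT : v ∉ T := by
    intro h
    obtain ⟨x, -, hx⟩ := Finset.mem_image.mp h
    exact hne x hx.symm
  have hT' : ∀ v' ∈ T, 0 < v'.ord (zc j a) := by
    intro v' h
    obtain ⟨x, -, rfl⟩ := Finset.mem_image.mp h
    exact D.ee_pos hj x
  have hz := am_transcendental_zc hj a
  haveI : FiniteDimensional K⟮zc j a⟯ F := am_fd_transport (am_adjoin_zc (j := j) a).symm
  obtain ⟨b, hb0, hbT, p, hp0, hnorm⟩ := dd_separating (zc j a) hz v ha T hT hT'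
  rw [am_norm_transport (am_adjoin_zc (j := j) a) b] at hnorm
  obtain ⟨x0⟩ := am_nonempty j hdeg
  have h1 := (ld_finrank_norm D hdeg).2 x0 b
  rw [hnorm, ← Polynomial.aeval_algHom_apply] at h1
  -- p ≠ 0
  have hp : p ≠ 0 := by
    rintro rfl
    rw [map_zero] at hnorm
    have h2 : Algebra.norm K⟮j⟯ b = 0 := by
      have := (algebraMap K⟮j⟯ F).injective (by rw [hnorm, map_zero] : algebraMap K⟮j⟯ F
        (Algebra.norm K⟮j⟯ b) = algebraMap K⟮j⟯ F 0)
      exact this
    exact hb0 (Algebra.norm_eq_zero_iff.mp h2)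
  have hZ0 : D.σ x0 (zc j a) ≠ 0 := ld_map_ne_zero D x0 (am_zc_ne_zero hj a)
  have hZ : 0 < D.V.w (D.σ x0 (zc j a)) := by
    rw [D.w_zc]; exact_mod_cast D.E_pos
  have h2 := (vdf_w_aeval D.V (D.σ x0 (zc j a)) hZ0 hZ p hp).2
  have h3 : 0 < p.rootMultiplicity 0 := (Polynomial.rootMultiplicity_pos hp).mpr hp0
  have h4 : D.V.w (∏ y, D.σ y b) = 0 := by
    rw [vdf_w_prod D.V _ _ fun y _ => ld_map_ne_zero D y hb0]
    apply Finset.sum_eq_zero
    intro y _
    rw [D.w_eq hj y hb0, hbT _ (Finset.mem_image_of_mem _ (Finset.mem_univ y)), mul_zero]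
  rw [h1, h4] at h2
  have h5 : 0 < D.V.w (D.σ x0 (zc j a)) * (p.rootMultiplicity 0 : ℤ) :=
    mul_pos hZ (by exact_mod_cast h3)
  omega

end step3

/-! ## Step 4: counting -/

section step4

variable [IsAlgClosed K] [CharZero K] {j : F} {X : Type} [Fintype X]

open Classical in
/-- the set of places over the point `a` -/
def LocalDatum.places {a : Option K} (D : LocalDatum K F j X a) (hj : Transcendental K j) :
    Finset (Place K F) :=
  Finset.univ.image (fun x => D.pl hj x)

omit [IsAlgClosed K] [CharZero K] in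
theorem LocalDatum.pl_mem_places {a : Option K} (D : LocalDatum K F j X a)
    (hj : Transcendental K j) (x : X) : D.pl hj x ∈ D.places hj := by
  classical
  exact Finset.mem_image_of_mem _ (Finset.mem_univ x)

omit [IsAlgClosed K] [CharZero K] in
theorem LocalDatum.mem_places {a : Option K} (D : LocalDatum K F j X a)
    (hj : Transcendental K j) {v : Place K F} : v ∈ D.places hj ↔ ∃ x, D.pl hj x = v := by
  classical
  simp [LocalDatum.places]

theorem am_mem_places_iff (U : ∀ a : Option K, LocalDatum K F j X a) (hj : Transcendental K j)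
    [FiniteDimensional K⟮j⟯ F] (hdeg : Module.finrank K⟮j⟯ F ≤ Fintype.card X) (a : Option K)
    (v : Place K F) : v ∈ (U a).places hj ↔ 0 < v.ord (zc j a) := by
  constructor
  · intro h
    obtain ⟨x, rfl⟩ := ((U a).mem_places hj).mp h
    exact (U a).ee_pos hj x
  · intro h
    obtain ⟨b, y, rfl⟩ := am_exhaustion U hj hdeg v
    have hb : 0 < ((U b).pl hj y).ord (zc j b) := (U b).ee_pos hj y
    have hab : a = b := am_center_unique hj _ h hb
    subst hab
    exact (U a).pl_mem_places hj y

theorem am_sum_ord_places (U : ∀ a : Option K, LocalDatum K F j X a) (hj : Transcendental K j)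
    [FiniteDimensional K⟮j⟯ F] (hdeg : Module.finrank K⟮j⟯ F ≤ Fintype.card X) (a : Option K) :
    ∑ v ∈ (U a).places hj, v.ord (zc j a) = (Fintype.card X : ℤ) := by
  have hz := am_transcendental_zc hj a
  haveI : FiniteDimensional K⟮zc j a⟯ F := am_fd_transport (am_adjoin_zc (j := j) a).symm
  obtain ⟨S, hS, hsum⟩ := dd_sum_ord (zc j a) hz
  have hSeq : S = (U a).places hj := by
    ext v
    rw [hS, am_mem_places_iff U hj hdeg]
  rw [← hSeq, hsum, am_finrank_transport (am_adjoin_zc (j := j) a), (ld_finrank_norm (U a) hdeg).1]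

open Classical in
theorem am_fibers (U : ∀ a : Option K, LocalDatum K F j X a) (hj : Transcendental K j)
    [FiniteDimensional K⟮j⟯ F] (hdeg : Module.finrank K⟮j⟯ F ≤ Fintype.card X) (a : Option K) :
    ((U a).places hj).card = orbCount (U a).π ∧
      (∀ x, (U a).ee hj x = Function.minimalPeriod (U a).π x) ∧
      ∀ x, ((Finset.univ.filter fun y => (U a).pl hj y = (U a).pl hj x).card : ℤ)
        = (U a).ee hj x := by
  classical
  set D := U a with hD
  have hfc := fiber_count D.π (fun x => D.pl hj x) (fun v => (v.ord (zc j a)).toNat)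
    (fun x => D.pl_π hj x)
    (fun x => by
      have h := D.ee_le hj x
      have h0 := D.ee_pos hj x
      show ((D.pl hj x).ord (zc j a)).toNat ≤ _
      unfold LocalDatum.ee at h h0
      omega)
    (by
      have h := am_sum_ord_places U hj hdeg a
      have h2 : ∑ v ∈ Finset.univ.image (fun x => D.pl hj x), ((v.ord (zc j a)).toNat : ℤ)
          = ∑ v ∈ D.places hj, v.ord (zc j a) := by
        apply Finset.sum_congr rfl
        intro v hv
        have := (am_mem_places_iff U hj hdeg a v).mp hv
        omega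
      have h3 : ((∑ v ∈ Finset.univ.image (fun x => D.pl hj x), (v.ord (zc j a)).toNat : ℕ) : ℤ)
          = (Fintype.card X : ℤ) := by
        rw [Nat.cast_sum, h2, h]
      exact le_of_eq (by exact_mod_cast h3.symm))
  refine ⟨hfc.1, fun x => ?_, fun x => ?_⟩
  · have h := hfc.2.1 x
    have h0 := D.ee_pos hj x
    unfold LocalDatum.ee at h0 ⊢
    omega
  · have h := hfc.2.2 x
    have h0 := D.ee_pos hj x
    unfold LocalDatum.ee at h0 ⊢
    have h' : ((Finset.univ.filter fun y => D.pl hj y = D.pl hj x).card : ℤ)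
        = (((D.pl hj x).ord (zc j a)).toNat : ℤ) := by exact_mod_cast h
    rw [h']
    omega

end step4

/-! ## Step 5: the order of a differential at a place -/

section step5

variable [CharZero K] {j : F} {X : Type}

/-- the order of `dj` at a place of ramification index `e` over the point `a` -/
def kap : Option K → ℤ → ℤ
  | some _, e => e - 1
  | none, e => -e - 1

theorem am_D_j_ne_zero {a : Option K} (D : LocalDatum K F j X a) (hj : Transcendental K j)
    [FiniteDimensional K⟮j⟯ F] (x : X) : KaehlerDifferential.D K F j ≠ 0 := by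
  obtain ⟨t, ht1, -⟩ := kd_exists_uniformizer_dCoord (D.pl hj x)
  have h0 : KaehlerDifferential.D K F t ≠ 0 :=
    vdf_D_ne_zero D.V (D.σ x) (D.pl hj x) (D.mm hj x) (D.mm_pos hj x).ne'
      (fun f hf => D.w_eq hj x hf) (by rw [ht1]; exact one_ne_zero)
  have hspan := kd_span_D_eq_top (K := K) j
  have hmem : KaehlerDifferential.D K F t ∈ Submodule.span F {KaehlerDifferential.D K F j} := by
    rw [hspan]; exact Submodule.mem_top
  obtain ⟨c, hc⟩ := Submodule.mem_span_singleton.mp hmem
  intro h
  rw [h, smul_zero] at hc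
  exact h0 hc.symm

theorem am_ordDifferential {a : Option K} (D : LocalDatum K F j X a) (hj : Transcendental K j)
    [FiniteDimensional K⟮j⟯ F] (x : X) {f : F} (hf : f ≠ 0) :
    (D.pl hj x).ordDifferential (f • KaehlerDifferential.D K F j)
      = (D.pl hj x).ord f + kap a (D.ee hj x) := by
  set v := D.pl hj x with hv
  obtain ⟨t, ht1, htd⟩ := kd_exists_uniformizer_dCoord v
  have ht : v.ord t ≠ 0 := by rw [ht1]; exact one_ne_zero
  have hA := fun {h c : F} => vdf_ord_coeff D.V (D.σ x) v (D.mm hj x) (D.mm_pos hj x).ne'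
    (fun f hf => D.w_eq hj x hf) (t := t) (h := h) (c := c) ht
  have h0 : KaehlerDifferential.D K F t ≠ 0 :=
    vdf_D_ne_zero D.V (D.σ x) v (D.mm hj x) (D.mm_pos hj x).ne'
      (fun f hf => D.w_eq hj x hf) ht
  have hspan := kd_span_D_eq_top (K := K) j
  have hj0 := am_D_j_ne_zero D hj x
  -- `D t = c' • D j`, `c' ≠ 0`
  have hmem : KaehlerDifferential.D K F t ∈ Submodule.span F {KaehlerDifferential.D K F j} := by
    rw [hspan]; exact Submodule.mem_top
  obtain ⟨c', hc'⟩ := Submodule.mem_span_singleton.mp hmem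
  have hc'0 : c' ≠ 0 := by
    rintro rfl
    rw [zero_smul] at hc'
    exact h0 hc'.symm
  -- `D j = cj • D t`
  have hjt : KaehlerDifferential.D K F j = c'⁻¹ • KaehlerDifferential.D K F t := by
    rw [← hc', smul_smul, inv_mul_cancel₀ hc'0, one_smul]
  have hee : v.ord (zc j a) = D.ee hj x := rfl
  have hee0 : v.ord (zc j a) ≠ 0 := by rw [hee]; exact (D.ee_pos hj x).ne'
  cases a with
  | some a =>
    -- `D (j - a) = D j`
    have hz : KaehlerDifferential.D K F (zc j (some a)) = c'⁻¹ • KaehlerDifferential.D K F t := by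
      rw [← hjt]
      simp [zc]
    have hord := hA hee0 hz
    have hω : f • KaehlerDifferential.D K F j = (f * c'⁻¹) • KaehlerDifferential.D K F t := by
      rw [hjt, smul_smul]
    rw [kd_ordDifferential_eq v htd h0 hω, v.ord_mul hf (inv_ne_zero hc'0), hord, ht1, hee]
    rfl
  | none =>
    have hjne := am_j_ne_zero hj
    -- `D (j⁻¹) = -(j⁻¹)^2 • D j`
    have hz : KaehlerDifferential.D K F (zc (K := K) j none)
        = (-(j⁻¹ ^ 2) * c'⁻¹) • KaehlerDifferential.D K F t := by
      show KaehlerDifferential.D K F j⁻¹ = _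
      rw [Derivation.leibniz_inv, hjt, smul_smul]
    have hord := hA hee0 hz
    have hω : f • KaehlerDifferential.D K F j = (f * c'⁻¹) • KaehlerDifferential.D K F t := by
      rw [hjt, smul_smul]
    have hjord : v.ord j = -D.ee hj x := by
      have : v.ord (zc (K := K) j none) = -v.ord j := v.ord_inv j
      rw [hee] at this
      omega
    have h1 : v.ord (-(j⁻¹ ^ 2) * c'⁻¹) = 2 * D.ee hj x + v.ord c'⁻¹ := by
      rw [v.ord_mul (neg_ne_zero.mpr (pow_ne_zero 2 (inv_ne_zero hjne))) (inv_ne_zero hc'0),
        am_ord_neg, ← zpow_natCast, v.ord_zpow, v.ord_inv, hjord]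
      push_cast
      ring
    rw [kd_ordDifferential_eq v htd h0 hω, v.ord_mul hf (inv_ne_zero hc'0)]
    rw [h1, ht1, hee] at hord
    show _ = v.ord f + (-D.ee hj x - 1)
    omega

end step5

/-! ## Step 6: the product formula -/

section step6

variable [IsAlgClosed K] [CharZero K] {j : F} {X : Type} [Fintype X]

theorem am_sum_fiber (U : ∀ a : Option K, LocalDatum K F j X a) (hj : Transcendental K j)
    [FiniteDimensional K⟮j⟯ F] (hdeg : Module.finrank K⟮j⟯ F ≤ Fintype.card X) (a : Option K)
    {f : F} (hf : f ≠ 0) (x0 : X) :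
    ((U a).E : ℤ) * ∑ v ∈ (U a).places hj, v.ord f
      = (U a).V.w ((U a).σ x0 (algebraMap K⟮j⟯ F (Algebra.norm K⟮j⟯ f))) := by
  classical
  set D := U a with hD
  rw [(ld_finrank_norm D hdeg).2 x0 f, vdf_w_prod D.V _ _ fun y _ => ld_map_ne_zero D y hf,
    ← Finset.sum_fiberwise_of_maps_to (g := fun y => D.pl hj y) (t := D.places hj)
      (fun y _ => D.pl_mem_places hj y), Finset.mul_sum]
  apply Finset.sum_congr rfl
  intro v hv
  obtain ⟨x, rfl⟩ := (D.mem_places hj).mp hv
  have hcard := (am_fibers U hj hdeg a).2.2 x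
  have hterm : ∀ y ∈ Finset.univ.filter (fun y => D.pl hj y = D.pl hj x),
      D.V.w (D.σ y f) = D.mm hj x * (D.pl hj x).ord f := by
    intro y hy
    have hy' : D.pl hj y = D.pl hj x := (Finset.mem_filter.mp hy).2
    rw [D.w_eq hj y hf, hy']
    congr 1
    have h1 := D.E_eq hj y
    have h2 := D.E_eq hj x
    have h3 : D.ee hj y = D.ee hj x := by
      unfold LocalDatum.ee
      rw [hy']
    rw [h3] at h1
    have h4 : D.mm hj y * D.ee hj x = D.mm hj x * D.ee hj x := by rw [← h1, ← h2]
    exact mul_right_cancel₀ (D.ee_pos hj x).ne' h4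
  rw [Finset.sum_congr rfl hterm, Finset.sum_const, nsmul_eq_mul, hcard, D.E_eq hj x]
  ring

omit [IsAlgClosed K] [CharZero K] in
theorem am_exists_rat (g : K⟮j⟯) (hg : g ≠ 0) :
    ∃ P Q : K[X], P ≠ 0 ∧ Q ≠ 0 ∧ algebraMap K⟮j⟯ F g * aeval j Q = aeval j P := by
  obtain ⟨P, Q, hPQ⟩ := (IntermediateField.mem_adjoin_simple_iff K (g : F)).mp g.2
  have hg' : (g : F) ≠ 0 := by
    simpa using hg
  have hQ : aeval j Q ≠ 0 := by
    intro h
    rw [h, div_zero] at hPQ
    exact hg' hPQ
  have hP : aeval j P ≠ 0 := by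
    intro h
    rw [h, zero_div] at hPQ
    exact hg' hPQ
  refine ⟨P, Q, ?_, ?_, ?_⟩
  · rintro rfl
    simp at hP
  · rintro rfl
    simp at hQ
  · show (g : F) * aeval j Q = aeval j P
    rw [hPQ, div_mul_cancel₀ _ hQ]

theorem am_sum_ord (U : ∀ a : Option K, LocalDatum K F j X a) (hj : Transcendental K j)
    [FiniteDimensional K⟮j⟯ F] (hdeg : Module.finrank K⟮j⟯ F ≤ Fintype.card X) {f : F}
    (hf : f ≠ 0) :
    ∃ A0 : Finset K, ∀ A : Finset K, A0 ⊆ A →
      ∑ v ∈ (U none).places hj, v.ord f + ∑ a ∈ A, ∑ v ∈ (U (some a)).places hj, v.ord f = 0 := by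
  classical
  obtain ⟨x0⟩ := am_nonempty j hdeg
  have hg : Algebra.norm K⟮j⟯ f ≠ 0 := fun h => hf (Algebra.norm_eq_zero_iff.mp h)
  obtain ⟨P, Q, hP, hQ, hPQ⟩ := am_exists_rat _ hg
  -- the identity in each local field
  have hloc : ∀ a : Option K, (U a).σ x0 (algebraMap K⟮j⟯ F (Algebra.norm K⟮j⟯ f))
      * aeval ((U a).σ x0 j) Q = aeval ((U a).σ x0 j) P := by
    intro a
    rw [Polynomial.aeval_algHom_apply, Polynomial.aeval_algHom_apply, ← map_mul, hPQ]
  have hgne : ∀ a : Option K, (U a).σ x0 (algebraMap K⟮j⟯ F (Algebra.norm K⟮j⟯ f)) ≠ 0 := by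
    intro a
    apply ld_map_ne_zero
    simpa using hg
  -- finite points
  have hfin : ∀ a : K, ∑ v ∈ (U (some a)).places hj, v.ord f
      = (P.rootMultiplicity a : ℤ) - Q.rootMultiplicity a := by
    intro a
    set D := U (some a) with hD
    have hJ : D.σ x0 j - algebraMap K D.V.L a = D.σ x0 (zc j (some a)) := by
      simp [zc]
    have hJ0 : D.σ x0 j - algebraMap K D.V.L a ≠ 0 := by
      rw [hJ]; exact ld_map_ne_zero D x0 (am_zc_ne_zero hj _)
    have hJw : D.V.w (D.σ x0 j - algebraMap K D.V.L a) = D.E := by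
      rw [hJ, D.w_zc]
    have hEpos : (0 : ℤ) < D.E := by exact_mod_cast D.E_pos
    have hwP := vdf_w_aeval_finite D.V (D.σ x0 j) a hJ0 (by rw [hJw]; exact hEpos) P hP
    have hwQ := vdf_w_aeval_finite D.V (D.σ x0 j) a hJ0 (by rw [hJw]; exact hEpos) Q hQ
    have h1 := am_sum_fiber U hj hdeg (some a) hf x0
    have h2 := D.V.w_mul _ _ (hgne (some a)) hwQ.1
    rw [hloc (some a), hwP.2, hwQ.2, hJw] at h2
    have h3 : (D.E : ℤ) * ∑ v ∈ D.places hj, v.ord f
        = D.E * ((P.rootMultiplicity a : ℤ) - Q.rootMultiplicity a) := by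
      rw [h1]; linarith
    exact mul_left_cancel₀ hEpos.ne' h3
  -- the point at infinity
  have hinf : ∑ v ∈ (U none).places hj, v.ord f = (Q.natDegree : ℤ) - P.natDegree := by
    set D := U none with hD
    have hJ : (D.σ x0 j)⁻¹ = D.σ x0 (zc (K := K) j none) := by
      simp [zc]
    have hJ0 : D.σ x0 j ≠ 0 := ld_map_ne_zero D x0 (am_j_ne_zero hj)
    have hJw : D.V.w (D.σ x0 j)⁻¹ = D.E := by
      rw [hJ, D.w_zc]
    have hEpos : (0 : ℤ) < D.E := by exact_mod_cast D.E_pos
    have hwP := vdf_w_aeval_infty D.V (D.σ x0 j) hJ0 (by rw [hJw]; exact hEpos) P hP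
    have hwQ := vdf_w_aeval_infty D.V (D.σ x0 j) hJ0 (by rw [hJw]; exact hEpos) Q hQ
    have h1 := am_sum_fiber U hj hdeg none hf x0
    have h2 := D.V.w_mul _ _ (hgne none) hwQ.1
    rw [hloc none, hwP.2, hwQ.2, hJw] at h2
    have h3 : (D.E : ℤ) * ∑ v ∈ D.places hj, v.ord f
        = D.E * ((Q.natDegree : ℤ) - P.natDegree) := by
      rw [h1]; linarith
    exact mul_left_cancel₀ hEpos.ne' h3
  refine ⟨P.roots.toFinset ∪ Q.roots.toFinset, fun A hA => ?_⟩
  rw [hinf, Finset.sum_congr rfl fun a _ => hfin a, Finset.sum_sub_distrib]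
  have hsP := sum_rootMultiplicity_eq_natDegree P hP A (fun a ha =>
    hA (Finset.mem_union_left _ (Multiset.mem_toFinset.mpr ((Polynomial.mem_roots hP).mpr ha))))
  have hsQ := sum_rootMultiplicity_eq_natDegree Q hQ A (fun a ha =>
    hA (Finset.mem_union_right _ (Multiset.mem_toFinset.mpr ((Polynomial.mem_roots hQ).mpr ha))))
  have hsP' : ∑ a ∈ A, (P.rootMultiplicity a : ℤ) = P.natDegree := by exact_mod_cast hsP
  have hsQ' : ∑ a ∈ A, (Q.rootMultiplicity a : ℤ) = Q.natDegree := by exact_mod_cast hsQ
  rw [hsP', hsQ']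
  ring

end step6

/-! ## Step 7: the degree of the divisor of a differential -/

section step7

variable [IsAlgClosed K] [CharZero K] {j : F} {X : Type} [Fintype X]

omit [IsAlgClosed K] [CharZero K] [Field K] [Field F] [Algebra K F] in
theorem am_orbCount_one : orbCount (1 : Equiv.Perm X) = Fintype.card X := by
  unfold orbCount
  rw [← Nat.card_eq_fintype_card]
  symm
  refine Nat.card_congr (Equiv.ofBijective
    (Quotient.mk (MulAction.orbitRel (Subgroup.zpowers (1 : Equiv.Perm X)) X)) ⟨?_, ?_⟩)
  · intro x y h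
    have h' := Quotient.exact h
    change x ∈ MulAction.orbit (Subgroup.zpowers (1 : Equiv.Perm X)) y at h'
    obtain ⟨⟨g, hg⟩, rfl⟩ := h'
    obtain ⟨k, rfl⟩ := Subgroup.mem_zpowers_iff.mp hg
    simp [Subgroup.smul_def]
  · exact Quotient.mk_surjective

theorem am_sum_kap (U : ∀ a : Option K, LocalDatum K F j X a) (hj : Transcendental K j)
    [FiniteDimensional K⟮j⟯ F] (hdeg : Module.finrank K⟮j⟯ F ≤ Fintype.card X) (a : Option K) :
    ∑ v ∈ (U a).places hj, kap a (v.ord (zc j a)) =
      kap a (Fintype.card X) + 1 - orbCount (U a).π := by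
  have h1 := am_sum_ord_places U hj hdeg a
  have h2 := (am_fibers U hj hdeg a).1
  cases a with
  | some a =>
    simp only [kap]
    rw [Finset.sum_sub_distrib, h1, Finset.sum_const, h2]
    simp
  | none =>
    simp only [kap]
    rw [Finset.sum_sub_distrib, Finset.sum_neg_distrib, h1, Finset.sum_const, h2]
    simp

/-- **The degree of the divisor of a nonzero differential.** -/
theorem degree_canonical (j : F) (hj : Transcendental K j)
    (U : ∀ a : Option K, LocalDatum K F j X a) [FiniteDimensional K⟮j⟯ F]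
    (hdeg : Module.finrank K⟮j⟯ F ≤ Fintype.card X) (S : Finset K)
    (hS : ∀ a : K, a ∉ S → (U (some a)).π = 1) (ω : Ω[F⁄K]) (hω : ω ≠ 0) (D : Divisor K F)
    (hD : ∀ v : Place K F, D v = v.ordDifferential ω) :
    Divisor.degree D = ∑ a ∈ S, ((Fintype.card X : ℤ) - orbCount (U (some a)).π)
      - Fintype.card X - orbCount (U none).π := by
  classical
  -- `ω = f • D j`
  have hspan := kd_span_D_eq_top (K := K) j
  have hmem : ω ∈ Submodule.span F {KaehlerDifferential.D K F j} := by
    rw [hspan]; exact Submodule.mem_top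
  obtain ⟨f, rfl⟩ := Submodule.mem_span_singleton.mp hmem
  have hf : f ≠ 0 := by
    rintro rfl
    simp at hω
  have hDv : ∀ (a : Option K) (x : X), D ((U a).pl hj x)
      = ((U a).pl hj x).ord f + kap a (((U a).pl hj x).ord (zc j a)) := fun a x => by
    rw [hD, am_ordDifferential (U a) hj x hf]
    rfl
  -- centres
  have hcen : ∀ v : Place K F, ∃ a : Option K, v ∈ (U a).places hj := fun v => by
    obtain ⟨a, x, rfl⟩ := am_exhaustion U hj hdeg v
    exact ⟨a, (U a).pl_mem_places hj x⟩
  choose cen hcen using hcen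
  obtain ⟨A0, hA0⟩ := am_sum_ord U hj hdeg hf
  set A : Finset K := S ∪ A0 ∪ (D.support.image cen).eraseNone with hA
  set W : Finset (Place K F) :=
    (U none).places hj ∪ A.biUnion (fun a => (U (some a)).places hj) with hW
  have hsupp : D.support ⊆ W := by
    intro v hv
    have hc := hcen v
    rcases hcv : cen v with _ | a
    · rw [hcv] at hc
      exact Finset.mem_union_left _ hc
    · rw [hcv] at hc
      refine Finset.mem_union_right _ (Finset.mem_biUnion.mpr ⟨a, ?_, hc⟩)
      refine Finset.mem_union_right _ (Finset.mem_eraseNone.mpr ?_)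
      rw [← hcv]
      exact Finset.mem_image_of_mem _ hv
  have hdegD : Divisor.degree D = ∑ v ∈ W, D v := by
    have h1 : Divisor.degree D = D.sum (fun v n => n * (v.deg : ℤ)) := by
      simp [Divisor.degree, Finsupp.liftAddHom_apply]
    rw [h1, Finsupp.sum_of_support_subset D hsupp _ (by simp)]
    apply Finset.sum_congr rfl
    intro v _
    rw [dd_deg_eq_one j hj v]
    simp
  have hdisj1 : Disjoint ((U none).places hj)
      (A.biUnion (fun a => (U (some a)).places hj)) := by
    rw [Finset.disjoint_left]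
    intro v h1 h2
    obtain ⟨a, -, h2⟩ := Finset.mem_biUnion.mp h2
    have := am_center_unique hj v ((am_mem_places_iff U hj hdeg none v).mp h1)
      ((am_mem_places_iff U hj hdeg (some a) v).mp h2)
    cases this
  have hdisj2 : (A : Set K).PairwiseDisjoint (fun a => (U (some a)).places hj) := by
    intro a _ b _ hab
    show Disjoint ((U (some a)).places hj) ((U (some b)).places hj)
    rw [Finset.disjoint_left]
    intro v h1 h2
    have := am_center_unique hj v ((am_mem_places_iff U hj hdeg (some a) v).mp h1)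
      ((am_mem_places_iff U hj hdeg (some b) v).mp h2)
    exact hab (Option.some.inj this)
  have hfib : ∀ a : Option K, ∑ v ∈ (U a).places hj, D v
      = ∑ v ∈ (U a).places hj, v.ord f + ∑ v ∈ (U a).places hj, kap a (v.ord (zc j a)) := by
    intro a
    rw [← Finset.sum_add_distrib]
    apply Finset.sum_congr rfl
    intro v hv
    obtain ⟨x, rfl⟩ := ((U a).mem_places hj).mp hv
    exact hDv a x
  rw [hdegD, Finset.sum_union hdisj1, Finset.sum_biUnion hdisj2, hfib none,
    Finset.sum_congr rfl fun a _ => hfib (some a), Finset.sum_add_distrib]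
  have hν := hA0 A (by
    intro a ha
    exact Finset.mem_union_left _ (Finset.mem_union_right _ ha))
  have hK : ∑ a ∈ A, ∑ v ∈ (U (some a)).places hj, kap (some a) (v.ord (zc j (some a)))
      = ∑ a ∈ S, ((Fintype.card X : ℤ) - orbCount (U (some a)).π) := by
    rw [Finset.sum_congr rfl fun a _ => am_sum_kap U hj hdeg (some a)]
    have hSA : S ⊆ A := fun a ha => Finset.mem_union_left _ (Finset.mem_union_left _ ha)
    rw [← Finset.sum_subset hSA (fun a _ ha => by
      rw [hS a ha, am_orbCount_one]
      simp [kap])]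
    apply Finset.sum_congr rfl
    intro a _
    simp [kap]
  have hK0 := am_sum_kap U hj hdeg none
  have hk : kap (none : Option K) (Fintype.card X : ℤ) = -(Fintype.card X : ℤ) - 1 := rfl
  rw [hK, hK0, hk]
  linarith

omit [IsAlgClosed K] in
/-- There is a nonzero differential. -/
theorem exists_differential_ne_zero (j : F) (hj : Transcendental K j)
    (U : ∀ a : Option K, LocalDatum K F j X a) [FiniteDimensional K⟮j⟯ F]
    (hdeg : Module.finrank K⟮j⟯ F ≤ Fintype.card X) :
    ∃ ω : Ω[F⁄K], ω ≠ 0 := by
  obtain ⟨x0⟩ := am_nonempty j hdeg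
  exact ⟨_, am_D_j_ne_zero (U none) hj x0⟩

end step7

end

end Fermat.Agent.S24
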