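import Mathlib
import Fermat.Agent.S24.Bridge
import Fermat.Agent.S24.Conj

/-!
# Project S24: the functions `ev N r` are modular functions of level `N`
-/

set_option autoImplicit false

noncomputable section

namespace Fermat.Agent.S24

open UpperHalfPlane ModularCurve

/-- `ev N r` is a modular function of level `N` (holomorphic, `Γ₀(N)`-invariant, meromorphic at
all cusps). -/
theorem modFun_ev (N : ℕ) [NeZero N] (r : RN N) : ModFun N (ev N r) := by
  refine ModFun.of_adjoin (N := N) (K := AlgebraicClosure ℚ)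
    {x | ∃ (d : ℕ) (_ : NeZero d), d ∣ N ∧ x = Jd d} (ev N) ?_ ?_ r
  · intro c
    have key : ModFun N (ev N (algebraMap (AlgebraicClosure ℚ) (RN N) c)) := by
      rw [ev_algebraMap]
      exact ModFun.const N _
    exact key
  · rintro s ⟨d, hne, hd, rfl⟩
    have key : ModFun N (ev N ⟨Jd d, Jd_mem_RN hd⟩) := by
      rw [ev_Jd hd]
      have e : (fun τ => jA (scaleH d τ)) = jS d := funext fun τ => (jS_eq_scaleH d τ).symm
      rw [e]
      exact ModFun.jS hd
    exact key

/-- The conjugates of `ev N r` by all of `SL(2,ℤ)` are meromorphic at `i∞`. -/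
theorem ev_growth (N : ℕ) [NeZero N] (r : RN N) (γ : Matrix.SpecialLinearGroup (Fin 2) ℤ) :
    ∃ m : ℕ, IsBoundedAtImInfty
      (fun τ => ev N r (γ • τ) * ModularForm.discriminant τ ^ m) :=
  (modFun_ev N r).growth γ

/-- `ev N r` is `Γ₀(N)`-invariant. -/
theorem ev_invariant (N : ℕ) [NeZero N] (r : RN N)
    {γ : Matrix.SpecialLinearGroup (Fin 2) ℤ} (hγ : γ ∈ CongruenceSubgroup.Gamma0 N) (τ : ℍ) :
    ev N r (γ • τ) = ev N r τ :=
  (modFun_ev N r).inv γ hγ τ

end Fermat.Agent.S24
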