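import Mathlib
import Fermat.Agent.S24.EvModFun

/-!
# Project S24: the conjugate maps `conjEv N x : RN N →+* (ℍ → ℂ)`, `r ↦ ev N r ∘ (rep x)⁻¹`

This is the common input of the local data at the finite points and at the cusp.
-/

set_option autoImplicit false

noncomputable section

namespace Fermat.Agent.S24

open UpperHalfPlane ModularCurve
open Fermat.Agent.ES
open scoped MatrixGroups Manifold

/-- The conjugate embedding attached to a coset `x`: `r ↦ ev N r ∘ (rep x)⁻¹`. -/
def conjEv (N : ℕ) (x : X N) : RN N →+* (ℍ → ℂ) := (conjFHom x).comp (ev N)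

theorem conjEv_apply (N : ℕ) (x : X N) (r : RN N) : conjEv N x r = conjF x (ev N r) := rfl

theorem conjEv_apply_apply (N : ℕ) (x : X N) (r : RN N) (τ : ℍ) :
    conjEv N x r τ = ev N r ((rep x)⁻¹ • τ) := rfl

variable (N : ℕ) [NeZero N]

omit [NeZero N] in
theorem conjEv_algebraMap (x : X N) (c : AlgebraicClosure ℚ) :
    conjEv N x (algebraMap (AlgebraicClosure ℚ) (RN N) c) = fun _ => iotaK c := by
  rw [conjEv_apply, ev_algebraMap]
  rfl

theorem conjEv_mdiff (x : X N) (r : RN N) : MDiff (conjEv N x r) :=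
  (modFun_ev N r).mdiff_conjF x

theorem conjEv_smul (γ : SL(2, ℤ)) (x : X N) (r : RN N) (τ : ℍ) :
    conjEv N (γ • x) r τ = conjEv N x r (γ⁻¹ • τ) :=
  (modFun_ev N r).conjF_smul γ x τ

theorem conjEv_smul_of_fixed {γ : SL(2, ℤ)} {x : X N} (hx : γ • x = x) (r : RN N) (τ : ℍ) :
    conjEv N x r (γ • τ) = conjEv N x r τ :=
  (modFun_ev N r).conjF_smul_of_fixed hx τ

theorem conjEv_vadd (x : X N) (r : RN N) (τ : ℍ) :
    conjEv N x r ((N : ℝ) +ᵥ τ) = conjEv N x r τ := by
  have h := (modFun_ev N r).conjF_vadd x τ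
  rw [conjEv_apply]
  simpa using h

theorem conjEv_bounded (x : X N) (r : RN N) :
    ∃ m : ℕ, IsBoundedAtImInfty (fun τ => conjEv N x r τ * ModularForm.discriminant τ ^ m) :=
  (modFun_ev N r).conjF_bounded x

omit [NeZero N] in
theorem conjEv_eq_zero (x : X N) (r : RN N) (h : conjEv N x r = 0) : r = 0 := by
  apply ev_injective N
  rw [map_zero]
  funext τ
  have h1 := congrFun h (rep x • τ)
  rw [conjEv_apply_apply, inv_smul_smul] at h1
  exact h1

omit [NeZero N] in
theorem conjEv_injective (x : X N) : Function.Injective (conjEv N x) := by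
  rw [injective_iff_map_eq_zero]
  exact fun r hr => conjEv_eq_zero N x r hr

/-- `j` as an element of `RN N`. -/
def jRN : RN N := ⟨Jd 1, Jd_mem_RN (one_dvd N)⟩

theorem algebraMap_jRN : algebraMap (RN N) (modularFunctionFieldBar N) (jRN N) = jF N := rfl

omit [NeZero N] in
theorem ev_jRN : ev N (jRN N) = jA := by
  have h := ev_Jd (N := N) (d := 1) (one_dvd N)
  have e : (fun τ => jA (scaleH 1 τ)) = jA := by
    funext τ
    congr 1
    ext
    simp
  rw [e] at h
  exact h

omit [NeZero N] in
theorem conjEv_jRN (x : X N) : conjEv N x (jRN N) = jA := by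
  rw [conjEv_apply, ev_jRN, conjF_jA]

/-- `j(q^N)` as an element of `RN N`. -/
def jNRN : RN N := ⟨Jd N, Jd_mem_RN dvd_rfl⟩

theorem ev_jNRN : ev N (jNRN N) = jS N := by
  have h := ev_Jd (N := N) (d := N) dvd_rfl
  have e : (fun τ => jA (scaleH N τ)) = jS N := funext fun τ => (jS_eq_scaleH N τ).symm
  rw [e] at h
  exact h

/-- The conjugate embeddings are pairwise distinct. -/
theorem conjEv_sep (x y : X N) (h : ∀ r : RN N, conjEv N x r = conjEv N y r) : x = y := by
  apply conjF_jS_injective N
  have h1 := h (jNRN N)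
  rw [conjEv_apply, conjEv_apply, ev_jNRN] at h1
  exact h1

theorem conjEv_ne (x y : X N) (hxy : x ≠ y) : conjEv N x (jNRN N) ≠ conjEv N y (jNRN N) := by
  intro h
  apply hxy
  apply conjF_jS_injective N
  rw [conjEv_apply, conjEv_apply, ev_jNRN] at h
  exact h

/-! ### Lifting algebra homomorphisms from `RN N` to the function field -/

/-- The extension of an injective `ℚ̄`-algebra hom on `RN N` to the function field. -/
def liftRN {L : Type} [Field L] [Algebra (AlgebraicClosure ℚ) L]
    (θ : RN N →ₐ[AlgebraicClosure ℚ] L) (hθ : Function.Injective θ) :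
    modularFunctionFieldBar N →ₐ[AlgebraicClosure ℚ] L :=
  IsFractionRing.liftAlgHom (g := θ) hθ

theorem liftRN_algebraMap {L : Type} [Field L] [Algebra (AlgebraicClosure ℚ) L]
    (θ : RN N →ₐ[AlgebraicClosure ℚ] L) (hθ : Function.Injective θ) (r : RN N) :
    liftRN N θ hθ (algebraMap (RN N) (modularFunctionFieldBar N) r) = θ r := by
  rw [liftRN, IsFractionRing.liftAlgHom_apply, IsFractionRing.lift_algebraMap]
  rfl

theorem liftRN_jF {L : Type} [Field L] [Algebra (AlgebraicClosure ℚ) L]
    (θ : RN N →ₐ[AlgebraicClosure ℚ] L) (hθ : Function.Injective θ) :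
    liftRN N θ hθ (jF N) = θ (jRN N) := by
  rw [← algebraMap_jRN, liftRN_algebraMap]

theorem liftRN_div {L : Type} [Field L] [Algebra (AlgebraicClosure ℚ) L]
    (θ : RN N →ₐ[AlgebraicClosure ℚ] L) (hθ : Function.Injective θ) (r s : RN N) :
    liftRN N θ hθ (algebraMap (RN N) (modularFunctionFieldBar N) r
      / algebraMap (RN N) (modularFunctionFieldBar N) s) = θ r / θ s := by
  rw [map_div₀, liftRN_algebraMap, liftRN_algebraMap]

/-- Two algebra homs on the function field agreeing on `RN N` are equal. -/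
theorem algHom_ext_RN {L : Type} [Field L] [Algebra (AlgebraicClosure ℚ) L]
    {σ τ : modularFunctionFieldBar N →ₐ[AlgebraicClosure ℚ] L}
    (h : ∀ r : RN N, σ (algebraMap (RN N) (modularFunctionFieldBar N) r)
      = τ (algebraMap (RN N) (modularFunctionFieldBar N) r)) : σ = τ := by
  apply AlgHom.ext
  intro f
  obtain ⟨r, s, _, rfl⟩ := exists_div_RN N f
  rw [map_div₀, map_div₀, h r, h s]

end Fermat.Agent.S24
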