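import Fermat.Agent.S24.LocalFinite
import Fermat.Agent.S24.ConjEv

set_option autoImplicit false

/-!
# S24: the local datum of the modular function field at a finite point of the `j`-line

`finiteDatum N a : LocalDatum ℚ̄ F (jF N) (X N) (some a)` for `F = modularFunctionFieldBar N`,
obtained from the abstract builder `finiteDatumOf` and the conjugate family `conjEv N`.
-/

namespace Fermat.Agent.S24

open UpperHalfPlane ModularCurve
open Fermat.Agent.ES
open scoped MatrixGroups Manifold

noncomputable section

variable (N : ℕ) [NeZero N]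

/-- The conjugate family of the modular function field of level `N`. -/
def conjFam : ConjFam iotaK (RN N) (X N) where
  c := conjEv N
  c_alg := conjEv_algebraMap N
  c_mdiff := conjEv_mdiff N
  c_smul := conjEv_smul N
  c_zero := conjEv_eq_zero N
  jR := jRN N
  c_j := conjEv_jRN N
  c_sep := conjEv_sep N

/-- **The local datum at the finite point `a`** of the `j`-line, for the modular function field
of level `N`. -/
def finiteDatum (a : AlgebraicClosure ℚ) :
    LocalDatum (AlgebraicClosure ℚ) (modularFunctionFieldBar N) (jF N) (X N) (some a) :=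
  finiteDatumOf (conjFam N) (jF N) (algebraMap_jRN N) a

theorem finiteDatum_V (a : AlgebraicClosure ℚ) :
    (finiteDatum N a).V = mgermVDF iotaK (lfPoint iotaK a : ℂ) := rfl

theorem finiteDatum_E (a : AlgebraicClosure ℚ) :
    (finiteDatum N a).E = ramIdx (lfPoint iotaK a) := rfl

theorem finiteDatum_π (a : AlgebraicClosure ℚ) :
    (finiteDatum N a).π = MulAction.toPerm (lfGen a) := rfl

theorem finiteDatum_π_1728 :
    (finiteDatum N (1728 : AlgebraicClosure ℚ)).π = MulAction.toPerm ModularGroup.S :=
  finiteDatumOf_π_1728 (conjFam N) (jF N) (algebraMap_jRN N)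

theorem finiteDatum_π_zero :
    (finiteDatum N (0 : AlgebraicClosure ℚ)).π
      = MulAction.toPerm (ModularGroup.S * ModularGroup.T) :=
  finiteDatumOf_π_zero (conjFam N) (jF N) (algebraMap_jRN N)

theorem finiteDatum_π_generic (a : AlgebraicClosure ℚ) (h0 : a ≠ 0) (h1 : a ≠ 1728) :
    (finiteDatum N a).π = 1 :=
  finiteDatumOf_π_generic (conjFam N) (jF N) (algebraMap_jRN N) a h0 h1

end

end Fermat.Agent.S24
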