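import Mathlib
import Fermat.Statements.S24
import Fermat.Agent.S24.Defs
import Fermat.Agent.S24.AlgMain
import Fermat.Agent.S24.Bridge
import Fermat.Agent.S24.DegBound
import Fermat.Agent.S24.LocalCusp
import Fermat.Agent.S24.LocalFiniteInst
import Fermat.Agent.ES.Final

set_option autoImplicit false

/-! Final assembly of project S24: the genus of `X₀(N)` via Riemann–Hurwitz for `j`. -/

namespace Fermat.Agent.S24

open AlgebraicCurve KaehlerDifferential ModularCurve IntermediateField
open scoped MatrixGroups

noncomputable section

/-! ## concrete side -/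

abbrev KK : Type := AlgebraicClosure ℚ
abbrev FF (N : ℕ) : Type := ↥(modularFunctionFieldBar N)
abbrev XX (N : ℕ) : Type := Fermat.Agent.ES.X N

variable (N : ℕ) [NeZero N]

/-- the local datum at a point of the `j`-line (`none` is the cusp `∞`). -/
def localDatum : (a : Option KK) → LocalDatum KK (FF N) (jF N) (XX N) a
  | none => cuspDatum N
  | some a => finiteDatum N a

theorem localDatum_π_none : (localDatum N none).π = MulAction.toPerm ModularGroup.T :=
  cuspDatum_π N

theorem localDatum_π_1728 :
    (localDatum N (some (1728 : KK))).π = MulAction.toPerm ModularGroup.S :=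
  finiteDatum_π_1728 N

theorem localDatum_π_zero :
    (localDatum N (some (0 : KK))).π = MulAction.toPerm (ModularGroup.S * ModularGroup.T) :=
  finiteDatum_π_zero N

theorem localDatum_π_generic (a : KK) (h0 : a ≠ 0) (h1 : a ≠ 1728) :
    (localDatum N (some a)).π = 1 :=
  finiteDatum_π_generic N a h0 h1

theorem card_XX : Fintype.card (XX N) = dedekindPsi N := by
  rw [← Nat.card_eq_fintype_card]
  exact Fermat.Agent.ES.card_X_eq N

/-- the final assembly -/
theorem genus_eq [HasCanonicalDivisor (K := KK) (F := FF N)] :
    (genus KK (FF N) : ℚ) = genusFormula N := by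
  classical
  haveI := finiteDimensional_FF N
  have h1728 : (1728 : KK) ≠ 0 := by norm_num
  have hj := transcendental_jF N
  set c2 := orbCount (MulAction.toPerm ModularGroup.S : Equiv.Perm (XX N)) with hc2
  set c3 := orbCount (MulAction.toPerm (ModularGroup.S * ModularGroup.T) : Equiv.Perm (XX N))
    with hc3
  have e2 := orbCount_S N
  have e3 := orbCount_ST N
  have eT := orbCount_T N
  have eX := card_XX N
  -- the dimension formula gives integrality
  have hdim := Fermat.Agent.ES.finrank_cuspForm_eq_genus N
  set d := Module.finrank ℂ (CuspForm (CongruenceSubgroup.Gamma0 N) 2) with hd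
  have key : ∀ (ω : Ω[FF N⁄KK]) (hω : ω ≠ 0),
      Divisor.degree (canonicalDivisorOf hω) = 2 * (d : ℤ) - 2 := by
    intro ω hω
    have h := degree_canonical (jF N) hj (localDatum N) (finrank_FF_le N) {1728, 0}
      (fun a ha => by
        simp only [Finset.mem_insert, Finset.mem_singleton, not_or] at ha
        exact localDatum_π_generic N a ha.2 ha.1)
      ω hω (canonicalDivisorOf hω) (fun v => canonicalDivisorOf_apply hω v)
    rw [h, Finset.sum_pair h1728, localDatum_π_1728, localDatum_π_zero, localDatum_π_none, eX,
      eT]
    -- arithmetic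
    have hq : (2 * (d : ℚ) - 2) = ((dedekindPsi N : ℚ) - c2) + ((dedekindPsi N : ℚ) - c3)
        - dedekindPsi N - cuspCount N := by
      rw [hdim, genusFormula]
      have e2' : (2 : ℚ) * c2 = dedekindPsi N + nuTwo N := by exact_mod_cast e2
      have e3' : (3 : ℚ) * c3 = dedekindPsi N + 2 * nuThree N := by exact_mod_cast e3
      linarith
    have hz : ((2 * (d : ℤ) - 2 : ℤ) : ℚ) = ((((dedekindPsi N : ℤ) - c2) + ((dedekindPsi N : ℤ) - c3)
        - dedekindPsi N - cuspCount N : ℤ) : ℚ) := by
      push_cast
      linarith
    exact_mod_cast hz.symm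
  have hg := genus_eq_of (exists_differential_ne_zero (jF N) hj (localDatum N) (finrank_FF_le N))
    (d : ℤ) key (by positivity)
  rw [← hdim]
  exact_mod_cast hg

end

end Fermat.Agent.S24
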