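import Fermat.Agent.S24.JAnalytic

/-!
# S24: the local parameter at the cusp (function level)

For a level `N` the local parameter at the cusp `i∞` is `s = exp(2πiτ/N)`.  We pull functions on
`ℍ` back to the punctured `s`-disc along `s ↦ τ(s) = N/(2πi) · log s` and prove:

* `cuspPull_meromorphicAt`: an `N`-periodic holomorphic `u` with `u · Δ ^ m` bounded at `i∞`
  pulls back to a function meromorphic at `s = 0`;
* `cuspPull_vadd`: `τ ↦ τ + k` corresponds to the rotation `s ↦ ζ_N ^ k · s`;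
* `meromorphicOrderAt_cuspPull_jA`: `jA` has a pole of order exactly `N` in `s`;
* `cuspPull_eq_of_eventuallyEq`: the pull-back germ determines a holomorphic function;
* `meromorphicOrderAt_comp_const_mul`, `rot_pow_order_eq_one`: rotations of the `s`-disc.
-/

set_option autoImplicit false

namespace Fermat.Agent.S24

open UpperHalfPlane hiding I
open Real Complex Filter Function Asymptotics
open ModularForm EisensteinSeries
open scoped Manifold MatrixGroups ModularForm Topology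
open Fermat.Agent.ES

noncomputable section

local notation "𝕢" => Periodic.qParam

/-- The point `τ(s) = N/(2πi) · log s` of `ℍ` (junk unless `0 < ‖s‖ < 1`). -/
def cuspPt (N : ℕ) (s : ℂ) : ℍ := ofComplex (Periodic.invQParam N s)

/-- Pull-back of a function on `ℍ` to the `s`-disc, `s = exp(2πiτ/N)`. -/
def cuspPull (N : ℕ) (u : ℍ → ℂ) : ℂ → ℂ := fun s => u (cuspPt N s)

theorem cuspPull_apply (N : ℕ) (u : ℍ → ℂ) (s : ℂ) : cuspPull N u s = u (cuspPt N s) := rfl

theorem cuspPull_add (N : ℕ) (u v : ℍ → ℂ) :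
    cuspPull N (u + v) = cuspPull N u + cuspPull N v := rfl

theorem cuspPull_mul (N : ℕ) (u v : ℍ → ℂ) :
    cuspPull N (u * v) = cuspPull N u * cuspPull N v := rfl

theorem cuspPull_inv (N : ℕ) (u : ℍ → ℂ) : cuspPull N u⁻¹ = (cuspPull N u)⁻¹ := rfl

theorem cuspPull_div (N : ℕ) (u v : ℍ → ℂ) :
    cuspPull N (u / v) = cuspPull N u / cuspPull N v := rfl

theorem cuspPull_const (N : ℕ) (c : ℂ) : cuspPull N (fun _ => c) = fun _ => c := rfl

theorem cuspPull_one (N : ℕ) : cuspPull N 1 = 1 := rfl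

theorem cuspPull_zero (N : ℕ) : cuspPull N 0 = 0 := rfl

/-- `cuspPull N` as a ring homomorphism. -/
def cuspPullHom (N : ℕ) : (ℍ → ℂ) →+* (ℂ → ℂ) where
  toFun := cuspPull N
  map_one' := rfl
  map_mul' _ _ := rfl
  map_zero' := rfl
  map_add' _ _ := rfl

@[simp] theorem cuspPullHom_apply (N : ℕ) (u : ℍ → ℂ) : cuspPullHom N u = cuspPull N u := rfl

variable {N : ℕ} [NeZero N]

theorem cusp_natCast_pos : (0 : ℝ) < (N : ℝ) := Nat.cast_pos.mpr (NeZero.pos N)

omit [NeZero N] in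
theorem cuspPull_eq_cuspFunction (u : ℍ → ℂ) {s : ℂ} (hs : s ≠ 0) :
    cuspPull N u s = UpperHalfPlane.cuspFunction N u s := by
  rw [UpperHalfPlane.cuspFunction, Periodic.cuspFunction_eq_of_nonzero _ _ hs]
  rfl

theorem coe_cuspPt {s : ℂ} (hs0 : s ≠ 0) (hs1 : ‖s‖ < 1) :
    (cuspPt N s : ℂ) = Periodic.invQParam N s := by
  unfold cuspPt
  rw [ofComplex_apply_of_im_pos
    (Periodic.im_invQParam_pos_of_norm_lt_one (cusp_natCast_pos (N := N)) hs1 hs0)]

theorem qParam_cuspPt {s : ℂ} (hs0 : s ≠ 0) (hs1 : ‖s‖ < 1) : 𝕢 N (cuspPt N s) = s := by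
  rw [coe_cuspPt hs0 hs1]
  exact Periodic.qParam_right_inv (cusp_natCast_pos (N := N)).ne' hs0

theorem tendsto_cuspPt : Tendsto (cuspPt N) (𝓝[≠] 0) atImInfty :=
  tendsto_comap_im_ofComplex.comp (Periodic.invQParam_tendsto (cusp_natCast_pos (N := N)))

theorem cusp_punctured_disc_mem : {s : ℂ | s ≠ 0 ∧ ‖s‖ < 1} ∈ 𝓝[≠] (0 : ℂ) := by
  have h1 : {s : ℂ | ‖s‖ < 1} ∈ 𝓝 (0 : ℂ) := by
    simpa [Metric.ball, dist_eq_norm] using Metric.ball_mem_nhds (0 : ℂ) one_pos
  filter_upwards [self_mem_nhdsWithin, mem_nhdsWithin_of_mem_nhds h1] with s hs hs1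
  exact ⟨hs, hs1⟩

omit [NeZero N] in
/-- An `N`-periodic function on `ℍ` gives an `N`-periodic function on `ℂ`. -/
theorem cusp_periodic_comp_ofComplex {u : ℍ → ℂ}
    (hper : ∀ τ : ℍ, u ((N : ℝ) +ᵥ τ) = u τ) : Periodic (u ∘ ofComplex) ((N : ℝ) : ℂ) := by
  intro w
  by_cases hw : 0 < im w
  · have hw' : 0 < im (w + ((N : ℝ) : ℂ)) := by simpa using hw
    simp only [comp_apply, ofComplex_apply_of_im_pos hw', ofComplex_apply_of_im_pos hw]
    rw [← hper ⟨w, hw⟩]
    congr 1
    ext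
    simp [add_comm]
  · have hw0 : im w ≤ 0 := not_lt.mp hw
    have hw' : im (w + ((N : ℝ) : ℂ)) ≤ 0 := by simpa using hw0
    simp only [comp_apply]
    rw [ofComplex_apply_of_im_nonpos hw', ofComplex_apply_of_im_nonpos hw0]

theorem cuspPull_qParam {u : ℍ → ℂ} (hper : ∀ τ : ℍ, u ((N : ℝ) +ᵥ τ) = u τ) (τ : ℍ) :
    cuspPull N u (𝕢 N τ) = u τ := by
  rw [cuspPull_eq_cuspFunction u (Periodic.qParam_ne_zero _)]
  exact UpperHalfPlane.eq_cuspFunction τ (cusp_natCast_pos (N := N)).ne'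
    (cusp_periodic_comp_ofComplex hper)

theorem cusp_discriminant_vadd_one (τ : ℍ) :
    ModularForm.discriminant ((1 : ℝ) +ᵥ τ) = ModularForm.discriminant τ := by
  have h := discriminant_smul ModularGroup.T τ
  rw [UpperHalfPlane.modular_T_smul] at h
  have hd : denom ModularGroup.T τ = 1 := by simp [denom, ModularGroup.coe_T]
  rw [hd] at h
  simpa using h

theorem cusp_discriminant_vadd_nat (n : ℕ) (τ : ℍ) :
    ModularForm.discriminant ((n : ℝ) +ᵥ τ) = ModularForm.discriminant τ := by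
  induction n with
  | zero => simp
  | succ n ih =>
    have e : (((n + 1 : ℕ) : ℝ)) +ᵥ τ = (1 : ℝ) +ᵥ ((n : ℝ) +ᵥ τ) := by
      rw [← add_vadd]
      congr 1
      push_cast
      ring
    rw [e, cusp_discriminant_vadd_one, ih]

omit [NeZero N] in
theorem cusp_jA_vadd_natCast (τ : ℍ) : jA ((N : ℝ) +ᵥ τ) = jA τ := by
  have h := jA_smul (ModularGroup.T ^ (N : ℤ)) τ
  rwa [UpperHalfPlane.modular_T_zpow_smul] at h

/-- **Meromorphy at the cusp.** -/
theorem cuspPull_meromorphicAt {u : ℍ → ℂ} (hu : MDiff u)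
    (hper : ∀ τ : ℍ, u ((N : ℝ) +ᵥ τ) = u τ) {m : ℕ}
    (hbd : IsBoundedAtImInfty (fun τ => u τ * ModularForm.discriminant τ ^ m)) :
    MeromorphicAt (cuspPull N u) 0 := by
  have hN : (0 : ℝ) < N := cusp_natCast_pos
  set f : ℍ → ℂ := fun τ => u τ * ModularForm.discriminant τ ^ m with hf
  have hfper : ∀ τ : ℍ, f ((N : ℝ) +ᵥ τ) = f τ := fun τ => by
    simp only [hf, hper, cusp_discriminant_vadd_nat N]
  have hfmd : MDiff f := hu.mul (mdiff_discriminant.pow m)
  have hf_an : AnalyticAt ℂ (UpperHalfPlane.cuspFunction N f) 0 :=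
    analyticAt_cuspFunction_zero hN (cusp_periodic_comp_ofComplex hfper) hfmd hbd
  have hΔb : IsBoundedAtImInfty (ModularForm.discriminant : ℍ → ℂ) :=
    IsZeroAtImInfty.isBoundedAtImInfty tendsto_discriminant
  have hΔ_an : AnalyticAt ℂ (UpperHalfPlane.cuspFunction N ModularForm.discriminant) 0 :=
    analyticAt_cuspFunction_zero hN
      (cusp_periodic_comp_ofComplex (fun τ => cusp_discriminant_vadd_nat N τ))
      mdiff_discriminant hΔb
  have key : cuspPull N u =ᶠ[𝓝[≠] 0] fun s => UpperHalfPlane.cuspFunction N f s /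
      (UpperHalfPlane.cuspFunction N ModularForm.discriminant s) ^ m := by
    filter_upwards [self_mem_nhdsWithin] with s hs
    rw [← cuspPull_eq_cuspFunction f hs, ← cuspPull_eq_cuspFunction _ hs]
    simp only [cuspPull, hf]
    have h0 : ModularForm.discriminant (cuspPt N s) ^ m ≠ 0 :=
      pow_ne_zero _ (discriminant_ne_zero _)
    rw [mul_div_assoc, div_self h0, mul_one]
  exact (hf_an.meromorphicAt.div (hΔ_an.meromorphicAt.pow m)).congr key.symm

/-- **Translations are rotations**: `τ ↦ τ + k` corresponds to `s ↦ ζ_N ^ k · s`. -/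
theorem cuspPull_vadd {u : ℍ → ℂ} (hper : ∀ τ : ℍ, u ((N : ℝ) +ᵥ τ) = u τ) (k : ℤ) :
    cuspPull N (fun τ => u ((k : ℝ) +ᵥ τ)) =ᶠ[𝓝[≠] 0]
      fun s => cuspPull N u (cexp (2 * π * I * k / N) * s) := by
  filter_upwards [cusp_punctured_disc_mem] with s hs
  obtain ⟨hs0, hs1⟩ := hs
  have hq : 𝕢 N (cuspPt N s) = s := qParam_cuspPt hs0 hs1
  have hq' : 𝕢 N (((k : ℝ) +ᵥ cuspPt N s : ℍ) : ℂ) =
      cexp (2 * π * I * k / N) * 𝕢 N (cuspPt N s) := by
    simp only [Periodic.qParam, UpperHalfPlane.coe_vadd]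
    rw [← Complex.exp_add]
    congr 1
    push_cast
    ring
  rw [hq] at hq'
  change u ((k : ℝ) +ᵥ cuspPt N s) = cuspPull N u (cexp (2 * π * I * k / N) * s)
  rw [← hq', cuspPull_qParam hper]

theorem cuspPull_jA_meromorphicAt : MeromorphicAt (cuspPull N jA) 0 := by
  refine cuspPull_meromorphicAt (m := 1) mdiff_jA (fun τ => cusp_jA_vadd_natCast τ) ?_
  have h : IsBoundedAtImInfty (fun τ : ℍ => E₄ τ ^ 3) := by
    have : Tendsto (fun τ : ℍ => E₄ τ ^ 3) atImInfty (𝓝 (1 ^ 3)) := tendsto_E₄.pow 3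
    exact this.isBigO_one ℝ
  refine h.congr' (Eventually.of_forall fun τ => ?_) (Eventually.of_forall fun τ => rfl)
  change E₄ τ ^ 3 = jA τ * ModularForm.discriminant τ ^ 1
  rw [pow_one, jA_mul_discriminant]

/-- **`jA` has a pole of order exactly `N` in the parameter `s`.** -/
theorem meromorphicOrderAt_cuspPull_jA :
    meromorphicOrderAt (cuspPull N jA) 0 = ((-(N : ℤ) : ℤ) : WithTop ℤ) := by
  have hmer : MeromorphicAt (cuspPull N jA) 0 := cuspPull_jA_meromorphicAt
  have hpow : MeromorphicAt (fun s : ℂ => s ^ N) 0 := by fun_prop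
  have hH : Tendsto (fun s => cuspPull N jA s * s ^ N) (𝓝[≠] 0) (𝓝 1) := by
    have h1 := tendsto_jA_mul_q.comp (tendsto_cuspPt (N := N))
    refine h1.congr' ?_
    filter_upwards [cusp_punctured_disc_mem] with s hs
    obtain ⟨hs0, hs1⟩ := hs
    simp only [comp_apply, cuspPull]
    congr 1
    have hq : 𝕢 N (cuspPt N s) = s := qParam_cuspPt hs0 hs1
    conv_rhs => rw [← hq]
    simp only [Periodic.qParam]
    rw [← Complex.exp_nat_mul]
    congr 1
    have hN0 : (N : ℂ) ≠ 0 := Nat.cast_ne_zero.mpr (NeZero.ne N)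
    push_cast
    field_simp
  have hHmer : MeromorphicAt (fun s => cuspPull N jA s * s ^ N) 0 := hmer.mul hpow
  have h0 : meromorphicOrderAt (fun s => cuspPull N jA s * s ^ N) 0 = 0 :=
    (tendsto_ne_zero_iff_meromorphicOrderAt_eq_zero hHmer).mp ⟨1, one_ne_zero, hH⟩
  have hid : meromorphicOrderAt (fun s : ℂ => s ^ N) 0 = (N : WithTop ℤ) := by
    have h := meromorphicOrderAt_pow (f := (id : ℂ → ℂ)) (x := 0) (n := N) (by fun_prop)
    rw [meromorphicOrderAt_id, mul_one] at h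
    exact h
  have hmul := meromorphicOrderAt_mul hmer hpow
  have hmul' : meromorphicOrderAt (fun s => cuspPull N jA s * s ^ N) 0 =
      meromorphicOrderAt (cuspPull N jA) 0 + (N : WithTop ℤ) := by
    rw [← hid]
    exact hmul
  rw [h0] at hmul'
  -- solve in `WithTop ℤ`
  cases ho : meromorphicOrderAt (cuspPull N jA) 0 with
  | top => rw [ho] at hmul'; simp at hmul'
  | coe n =>
    rw [ho] at hmul'
    have h2 : ((n + (N : ℤ) : ℤ) : WithTop ℤ) = ((0 : ℤ) : WithTop ℤ) := by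
      rw [WithTop.coe_add]
      exact_mod_cast hmul'.symm
    have h3 : n + (N : ℤ) = 0 := WithTop.coe_injective h2
    congr 1
    omega

/-- **Identity theorem**: the pull-back germ at `s = 0` determines a holomorphic function. -/
theorem cuspPull_eq_of_eventuallyEq {u v : ℍ → ℂ} (hu : MDiff u) (hv : MDiff v)
    (h : cuspPull N u =ᶠ[𝓝[≠] 0] cuspPull N v) : u = v := by
  have hN : (0 : ℝ) < N := cusp_natCast_pos
  -- the difference, as a function on `ℂ`
  set g : ℂ → ℂ := (fun τ => u τ - v τ) ∘ ofComplex with hg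
  have hgd : DifferentiableOn ℂ g {z : ℂ | 0 < z.im} :=
    UpperHalfPlane.mdifferentiable_iff.mp (hu.sub hv)
  have hopen : IsOpen {z : ℂ | 0 < z.im} := Complex.continuous_im.isOpen_preimage _ isOpen_Ioi
  have hconn : IsPreconnected {z : ℂ | 0 < z.im} := (convex_halfSpace_im_gt 0).isPreconnected
  have hgan : AnalyticOnNhd ℂ g {z : ℂ | 0 < z.im} := hgd.analyticOnNhd hopen
  -- the germ condition pulled back along `𝕢 N`
  have h1 : ∀ᶠ z in comap im atTop, cuspPull N u (𝕢 N z) = cuspPull N v (𝕢 N z) :=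
    (Periodic.qParam_tendsto hN).eventually h
  obtain ⟨A, hA⟩ : ∃ A : ℝ, ∀ z : ℂ, A ≤ z.im →
      cuspPull N u (𝕢 N z) = cuspPull N v (𝕢 N z) := by
    rw [Filter.eventually_comap] at h1
    obtain ⟨A, hA⟩ := (Filter.eventually_atTop.mp h1)
    exact ⟨A, fun z hz => hA z.im hz z rfl⟩
  -- on a small disc around `z₀` the map `cuspPt N ∘ 𝕢 N` is the identity
  set B : ℝ := max A 0 + 1 with hB
  have hBpos : 0 < B := by positivity
  set z₀ : ℂ := B * I with hz₀
  have hz₀im : z₀.im = B := by simp [hz₀]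
  have hz₀re : z₀.re = 0 := by simp [hz₀]
  have hz₀mem : z₀ ∈ {z : ℂ | 0 < z.im} := by simpa [hz₀im] using hBpos
  have hev : ∀ᶠ z in 𝓝 z₀, g z = 0 := by
    have hU1 : ∀ᶠ z : ℂ in 𝓝 z₀, A < z.im := by
      refine (Complex.continuous_im.isOpen_preimage _ isOpen_Ioi).mem_nhds ?_
      simp only [Set.mem_preimage, Set.mem_Ioi, hz₀im, hB]
      linarith [le_max_left A 0]
    have hU2 : ∀ᶠ z : ℂ in 𝓝 z₀, 0 < z.im := hopen.mem_nhds hz₀mem
    have hU3 : ∀ᶠ z : ℂ in 𝓝 z₀, -(N : ℝ) / 2 < z.re :=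
      (Complex.continuous_re.isOpen_preimage _ isOpen_Ioi).mem_nhds (by
        simp only [Set.mem_preimage, Set.mem_Ioi, hz₀re]; linarith)
    have hU4 : ∀ᶠ z : ℂ in 𝓝 z₀, z.re < (N : ℝ) / 2 :=
      (Complex.continuous_re.isOpen_preimage _ isOpen_Iio).mem_nhds (by
        simp only [Set.mem_preimage, Set.mem_Iio, hz₀re]; linarith)
    filter_upwards [hU1, hU2, hU3, hU4] with z hz1 hz2 hz3 hz4
    have hinv : Periodic.invQParam N (𝕢 N z) = z := by
      have hN0 : (N : ℂ) ≠ 0 := Nat.cast_ne_zero.mpr (NeZero.ne N)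
      have hlog : Complex.log (cexp (2 * π * I * z / (N : ℝ))) = 2 * π * I * z / (N : ℝ) := by
        have him : (2 * π * I * z / ((N : ℝ) : ℂ)).im = 2 * π * z.re / N := by
          rw [Complex.div_ofReal_im]
          simp [Complex.mul_im, Complex.mul_re]
        have hc : 0 < 2 * π / (N : ℝ) := by positivity
        have e1 : 2 * π * z.re / N = (2 * π / N) * z.re := by ring
        have e2 : (2 * π / (N : ℝ)) * (-(N : ℝ) / 2) = -π := by field_simp
        have e3 : (2 * π / (N : ℝ)) * ((N : ℝ) / 2) = π := by field_simp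
        apply Complex.log_exp
        · rw [him, e1]
          have := mul_lt_mul_of_pos_left hz3 hc
          rwa [e2] at this
        · rw [him, e1]
          have := (mul_lt_mul_of_pos_left hz4 hc).le
          rwa [e3] at this
      simp only [Periodic.invQParam, Periodic.qParam]
      rw [hlog]
      have hpi : (2 * (π : ℂ) * I) ≠ 0 := Complex.two_pi_I_ne_zero
      push_cast
      field_simp
    have hpt : cuspPt N (𝕢 N z) = ofComplex z := by
      unfold cuspPt
      rw [hinv]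
    have := hA z hz1.le
    simp only [cuspPull, hpt] at this
    simp only [hg, comp_apply]
    rw [this, sub_self]
  have hzero := hgan.eqOn_zero_of_preconnected_of_eventuallyEq_zero hconn hz₀mem hev
  funext τ
  have := hzero τ.im_pos
  simp only [hg, comp_apply, Pi.zero_apply, ofComplex_apply] at this
  exact sub_eq_zero.mp this

/-! ### Rotations of the disc -/

/-- the order at `0` is invariant under `s ↦ c · s`. -/
theorem cusp_meromorphicOrderAt_comp_const_mul {f : ℂ → ℂ} {c : ℂ} (hc : c ≠ 0) :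
    meromorphicOrderAt (fun s => f (c * s)) 0 = meromorphicOrderAt f 0 := by
  have hg : AnalyticAt ℂ (fun s : ℂ => c * s) 0 := by fun_prop
  have hd : deriv (fun s : ℂ => c * s) 0 ≠ 0 := by
    have : deriv (fun s : ℂ => c * s) 0 = c := by
      simp
    rwa [this]
  have h := meromorphicOrderAt_comp_of_deriv_ne_zero (f := f) hg hd
  simpa [Function.comp_def] using h

theorem cusp_meromorphicAt_comp_const_mul {f : ℂ → ℂ} (c : ℂ) (hf : MeromorphicAt f 0) :
    MeromorphicAt (fun s => f (c * s)) 0 := by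
  have hg : AnalyticAt ℂ (fun s : ℂ => c * s) 0 := by fun_prop
  have hf' : MeromorphicAt f ((fun s : ℂ => c * s) 0) := by simpa using hf
  exact hf'.comp_analyticAt hg

/-- a meromorphic germ at `0` invariant under the rotation `s ↦ c · s` has order `n` with
`c ^ n = 1`. -/
theorem cusp_rot_zpow_order_eq_one {f : ℂ → ℂ} {c : ℂ} (hc : c ≠ 0) (hf : MeromorphicAt f 0) {n : ℤ}
    (hn : meromorphicOrderAt f 0 = n) (hinv : (fun s => f (c * s)) =ᶠ[𝓝[≠] 0] f) :
    c ^ n = 1 := by
  obtain ⟨g, hg_an, hg0, hg⟩ := (meromorphicOrderAt_eq_int_iff hf).mp hn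
  simp only [sub_zero, smul_eq_mul] at hg
  -- `f (c s) = (c s)^n g (c s)` near `0`
  have hcs : Tendsto (fun s : ℂ => c * s) (𝓝[≠] 0) (𝓝[≠] 0) := by
    refine tendsto_nhdsWithin_of_tendsto_nhds_of_eventually_within _ ?_ ?_
    · have : Tendsto (fun s : ℂ => c * s) (𝓝 0) (𝓝 (c * 0)) := (continuous_const_mul c).tendsto 0
      rw [mul_zero] at this
      exact this.mono_left nhdsWithin_le_nhds
    · filter_upwards [self_mem_nhdsWithin] with s hs
      exact mul_ne_zero hc hs
  have hg' : ∀ᶠ s in 𝓝[≠] 0, f (c * s) = (c * s) ^ n * g (c * s) := hcs.eventually hg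
  -- so `c^n g (c s) = g s` on a punctured neighbourhood
  have hkey : ∀ᶠ s in 𝓝[≠] (0 : ℂ), c ^ n * g (c * s) = g s := by
    filter_upwards [hg, hg', hinv, self_mem_nhdsWithin] with s h1 h2 h3 hs
    have hs0 : s ^ n ≠ 0 := zpow_ne_zero _ hs
    have h4 : (c * s) ^ n * g (c * s) = s ^ n * g s := by rw [← h2, ← h1]; exact h3
    rw [mul_zpow] at h4
    have h5 : s ^ n * (c ^ n * g (c * s)) = s ^ n * g s := by rw [← h4]; ring
    exact mul_left_cancel₀ hs0 h5
  -- pass to the limit `s → 0`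
  have hgc : ContinuousAt g 0 := hg_an.continuousAt
  have hl1 : Tendsto (fun s => c ^ n * g (c * s)) (𝓝[≠] 0) (𝓝 (c ^ n * g 0)) := by
    have h0 : Tendsto (fun s : ℂ => c * s) (𝓝[≠] 0) (𝓝 0) := hcs.mono_right nhdsWithin_le_nhds
    exact (hgc.tendsto.comp h0).const_mul _
  have hl2 : Tendsto (fun s => c ^ n * g (c * s)) (𝓝[≠] 0) (𝓝 (g 0)) :=
    (hgc.tendsto.mono_left nhdsWithin_le_nhds).congr' (hkey.mono fun s hs => hs.symm)
  have hne : (𝓝[≠] (0 : ℂ)).NeBot := inferInstance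
  have heq : c ^ n * g 0 = g 0 := tendsto_nhds_unique hl1 hl2
  have : (c ^ n - 1) * g 0 = 0 := by rw [sub_mul, heq, one_mul, sub_self]
  rcases mul_eq_zero.mp this with h | h
  · exact sub_eq_zero.mp h
  · exact absurd h hg0

end

end Fermat.Agent.S24
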