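import Fermat.Agent.S24.MGerm
import Fermat.Agent.S24.JAnalytic

set_option autoImplicit false

/-!
# S24: the local datum at a finite point of the `j`-line

For `a : K` (with `ι : K →+* ℂ`) we pick `τ_a : ℍ` with `jA τ_a = ι a` (`τ_a = i` for `a = 1728`,
`τ_a = ρ` for `a = 0`) and build the `LocalDatum` whose local field is the field of meromorphic
germs at `τ_a`, from an abstract family `c x : R →+* (ℍ → ℂ)` of conjugate realisations of a
subring `R` with fraction field `F`.
-/

namespace Fermat.Agent.S24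

open UpperHalfPlane hiding I
open Complex Filter
open scoped Topology Manifold MatrixGroups
open Fermat.Agent.ES

noncomputable section

/-! ### Möbius maps in the coordinate of `ℂ` -/

/-- The Möbius map of `γ` in the coordinate of `ℂ`. -/
def lfMoeb (γ : SL(2, ℤ)) (z : ℂ) : ℂ := ((γ • ofComplex z : ℍ) : ℂ)

theorem lfMoeb_coe (γ : SL(2, ℤ)) (τ : ℍ) : lfMoeb γ (τ : ℂ) = ((γ • τ : ℍ) : ℂ) := by
  simp [lfMoeb]

theorem lf_det_mapGL (γ : SL(2, ℤ)) :
    (Matrix.SpecialLinearGroup.mapGL ℝ γ : GL (Fin 2) ℝ).val.det = 1 := by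
  have := Matrix.SpecialLinearGroup.det_mapGL (R := ℤ) (S := ℝ) (n := Fin 2) γ
  have h3 := congrArg Units.val this
  rw [Matrix.GeneralLinearGroup.val_det_apply] at h3
  exact h3

theorem lf_det_mapGL_pos (γ : SL(2, ℤ)) :
    0 < (Matrix.SpecialLinearGroup.mapGL ℝ γ : GL (Fin 2) ℝ).val.det := by
  rw [lf_det_mapGL]
  exact one_pos

theorem lf_analyticAt_moeb (γ : SL(2, ℤ)) (τ : ℍ) : AnalyticAt ℂ (lfMoeb γ) (τ : ℂ) :=
  UpperHalfPlane.analyticAt_smul (g := (Matrix.SpecialLinearGroup.mapGL ℝ γ : GL (Fin 2) ℝ))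
    (lf_det_mapGL_pos γ) τ

theorem lf_deriv_moeb (γ : SL(2, ℤ)) (τ : ℍ) :
    deriv (lfMoeb γ) (τ : ℂ) = 1 / denom γ τ ^ 2 := by
  have h := UpperHalfPlane.deriv_smul (g := (Matrix.SpecialLinearGroup.mapGL ℝ γ : GL (Fin 2) ℝ))
    (lf_det_mapGL_pos γ) τ
  have h2 : ((Matrix.SpecialLinearGroup.mapGL ℝ γ : GL (Fin 2) ℝ).val.det : ℂ) = 1 := by
    rw [lf_det_mapGL]
    simp
  rw [h2] at h
  exact h

theorem lf_deriv_moeb_ne_zero (γ : SL(2, ℤ)) (τ : ℍ) : deriv (lfMoeb γ) (τ : ℂ) ≠ 0 :=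
  UpperHalfPlane.deriv_smul_ne_zero
    (g := (Matrix.SpecialLinearGroup.mapGL ℝ γ : GL (Fin 2) ℝ)) (lf_det_mapGL_pos γ) τ

theorem lf_deriv_S_inv_I :
    deriv (lfMoeb (ModularGroup.S)⁻¹) ((UpperHalfPlane.I : ℍ) : ℂ) = -1 := by
  rw [lf_deriv_moeb, ModularGroup.denom_apply]
  have h1 : ((ModularGroup.S)⁻¹ : SL(2, ℤ)) 1 0 = -1 := by decide
  have h2 : ((ModularGroup.S)⁻¹ : SL(2, ℤ)) 1 1 = 0 := by decide
  rw [h1, h2, UpperHalfPlane.coe_I]
  simp

theorem lf_deriv_ST_inv_ρ :
    deriv (lfMoeb (ModularGroup.S * ModularGroup.T)⁻¹) ((ρ : ℍ) : ℂ) = (ρ : ℂ) := by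
  rw [lf_deriv_moeb, ModularGroup.denom_apply]
  have h1 : ((ModularGroup.S * ModularGroup.T)⁻¹ : SL(2, ℤ)) 1 0 = -1 := by decide
  have h2 : ((ModularGroup.S * ModularGroup.T)⁻¹ : SL(2, ℤ)) 1 1 = 0 := by decide
  rw [h1, h2]
  have h3 : (ρ : ℂ) ^ 3 = 1 := by
    have : (ρ : ℂ) ^ 3 = (ρ : ℂ) * (ρ : ℂ) ^ 2 := by ring
    rw [this, ρ_sq]
    linear_combination -ρ_sq
  have hρ0 : (ρ : ℂ) ≠ 0 := fun h => by rw [h] at h3; norm_num at h3
  have h4 : (((-1 : ℤ) : ℂ)) * (ρ : ℂ) + (((0 : ℤ) : ℂ)) = -(ρ : ℂ) := by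
    push_cast; ring
  rw [h4]
  field_simp
  linear_combination -h3

theorem lf_ρ_cube : (ρ : ℂ) ^ 3 = 1 := by
  have : (ρ : ℂ) ^ 3 = (ρ : ℂ) * (ρ : ℂ) ^ 2 := by ring
  rw [this, ρ_sq]
  linear_combination -ρ_sq

theorem lf_ρ_ne_one : (ρ : ℂ) ≠ 1 := by
  intro h
  have h2 := ρ_sq
  rw [h] at h2
  norm_num at h2

/-- `ρ ^ n = 1` forces `3 ∣ n`. -/
theorem lf_three_dvd_of_ρ_zpow {n : ℤ} (h : (ρ : ℂ) ^ n = 1) : (3 : ℤ) ∣ n := by
  have hprim : IsPrimitiveRoot (ρ : ℂ) 3 := by
    refine IsPrimitiveRoot.mk_of_lt _ (by norm_num) lf_ρ_cube ?_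
    intro l hl0 hl3 hl
    interval_cases l
    · exact lf_ρ_ne_one (by simpa using hl)
    · have h2 := ρ_sq
      rw [hl] at h2
      have h3 : (ρ : ℂ) = -2 := by linear_combination h2
      have h4 := lf_ρ_cube
      rw [h3] at h4
      norm_num at h4
  exact_mod_cast (hprim.zpow_eq_one_iff_dvd n).mp h

/-- `(-1) ^ n = 1` forces `2 ∣ n`. -/
theorem lf_two_dvd_of_neg_one_zpow {n : ℤ} (h : (-1 : ℂ) ^ n = 1) : (2 : ℤ) ∣ n := by
  have hprim : IsPrimitiveRoot (-1 : ℂ) 2 := by
    refine IsPrimitiveRoot.mk_of_lt _ (by norm_num) (by norm_num) ?_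
    intro l hl0 hl2 hl
    interval_cases l
    norm_num at hl
  exact_mod_cast (hprim.zpow_eq_one_iff_dvd n).mp h

/-! ### The conjugate family and its germs -/

/-- An abstract family of conjugate realisations `c x : R →+* (ℍ → ℂ)` (`x` in a set `X` of
cosets with an action of `SL(2,ℤ)`) of a `K`-algebra `R`, relative to `ι : K →+* ℂ`. -/
structure ConjFam {K : Type} [Field K] (ι : K →+* ℂ) (R X : Type) [CommRing R] [Algebra K R]
    [MulAction SL(2, ℤ) X] where
  /-- the conjugates -/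
  c : X → R →+* (ℍ → ℂ)
  c_alg : ∀ x (a : K), c x (algebraMap K R a) = fun _ => ι a
  c_mdiff : ∀ x r, MDiff (c x r)
  c_smul : ∀ (γ : SL(2, ℤ)) x r τ, c (γ • x) r τ = c x r (γ⁻¹ • τ)
  c_zero : ∀ x r, c x r = 0 → r = 0
  /-- the element `j` -/
  jR : R
  c_j : ∀ x, c x jR = jA
  c_sep : ∀ x y, (∀ r, c x r = c y r) → x = y

namespace ConjFam

variable {K : Type} [Field K] {ι : K →+* ℂ} {R F X : Type} [CommRing R] [Field F]
  [Algebra K R] [Algebra K F] [Algebra R F] [IsScalarTower K R F] [IsFractionRing R F]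
  [MulAction SL(2, ℤ) X] (C : ConjFam ι R X)

theorem meromorphicAt (τ0 : ℍ) (x : X) (r : R) :
    MeromorphicAt (C.c x r ∘ ofComplex) (τ0 : ℂ) :=
  (analyticAt_comp_ofComplex (C.c_mdiff x r) τ0).meromorphicAt

/-- The germ at `τ0` of the `x`-conjugate, on `R`. -/
def theta (τ0 : ℍ) (x : X) : R →+* MGerm (τ0 : ℂ) where
  toFun r := MGerm.of (C.c x r ∘ ofComplex) (C.meromorphicAt τ0 x r)
  map_one' := by
    apply (MGerm.of_eq_iff _ (MeromorphicAt.const 1 _)).mpr
    rw [map_one]
    exact Eventually.of_forall fun z => rfl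
  map_mul' r s := by
    rw [MGerm.of_mul]
    apply (MGerm.of_eq_iff _ _).mpr
    rw [map_mul]
    exact Eventually.of_forall fun z => rfl
  map_zero' := by
    apply (MGerm.of_eq_iff _ (MeromorphicAt.const 0 _)).mpr
    rw [map_zero]
    exact Eventually.of_forall fun z => rfl
  map_add' r s := by
    rw [MGerm.of_add]
    apply (MGerm.of_eq_iff _ _).mpr
    rw [map_add]
    exact Eventually.of_forall fun z => rfl

theorem theta_apply (τ0 : ℍ) (x : X) (r : R) :
    C.theta τ0 x r = MGerm.of (C.c x r ∘ ofComplex) (C.meromorphicAt τ0 x r) := rfl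

theorem theta_algebraMap (τ0 : ℍ) (x : X) (a : K) :
    C.theta τ0 x (algebraMap K R a) = algebraMap ℂ (MGerm (τ0 : ℂ)) (ι a) := by
  rw [theta_apply, MGerm.algebraMap_eq]
  apply (MGerm.of_eq_iff _ _).mpr
  rw [C.c_alg]
  exact Eventually.of_forall fun z => rfl

theorem eq_of_germ_eq {u v : ℍ → ℂ} (hu : MDiff u) (hv : MDiff v) (τ0 : ℍ)
    (h : u ∘ ofComplex =ᶠ[𝓝[≠] (τ0 : ℂ)] v ∘ ofComplex) : u = v := by
  have h0 : u - v = 0 := by
    apply UpperHalfPlane.eq_zero_of_frequently (τ := τ0) (hu.sub hv)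
    have hc : Filter.Tendsto ((↑) : ℍ → ℂ) (𝓝[≠] τ0) (𝓝[≠] (τ0 : ℂ)) := by
      refine tendsto_nhdsWithin_of_tendsto_nhds_of_eventually_within _
        (UpperHalfPlane.continuous_coe.continuousAt.mono_left nhdsWithin_le_nhds) ?_
      filter_upwards [self_mem_nhdsWithin] with z hz
      intro hzz
      exact hz (UpperHalfPlane.ext hzz)
    have := hc.eventually h
    refine (this.mono fun z hz => ?_).frequently
    have hz' : u z = v z := by simpa using hz
    simp [hz']
  exact sub_eq_zero.mp h0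

theorem theta_injective (τ0 : ℍ) (x : X) : Function.Injective (C.theta τ0 x) := by
  rw [injective_iff_map_eq_zero]
  intro r hr
  apply C.c_zero x
  rw [theta_apply] at hr
  have h1 := (MGerm.of_eq_zero_iff _).mp hr
  have h2 : C.c x r = fun _ => (0 : ℂ) := by
    apply eq_of_germ_eq (C.c_mdiff x r) mdifferentiable_const τ0
    filter_upwards [h1] with z hz
    exact hz
  exact h2

variable (F) in
/-- The conjugate embedding at `τ0` on the fraction field `F` of `R`. -/
def sigma (τ0 : ℍ) (x : X) : F →+* MGerm (τ0 : ℂ) :=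
  IsFractionRing.lift (A := R) (K := F) (g := C.theta τ0 x) (C.theta_injective τ0 x)

theorem sigma_algebraMap (τ0 : ℍ) (x : X) (r : R) :
    C.sigma F τ0 x (algebraMap R F r) = C.theta τ0 x r :=
  IsFractionRing.lift_algebraMap (A := R) (K := F) (g := C.theta τ0 x)
    (C.theta_injective τ0 x) r

theorem sigma_algebraMapK (τ0 : ℍ) (x : X) (a : K) :
    C.sigma F τ0 x (algebraMap K F a) = algebraMap ℂ (MGerm (τ0 : ℂ)) (ι a) := by
  rw [IsScalarTower.algebraMap_apply K R F, sigma_algebraMap, theta_algebraMap]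

theorem sigma_div (τ0 : ℍ) (x : X) (r s : R) :
    C.sigma F τ0 x (algebraMap R F r / algebraMap R F s)
      = MGerm.of ((C.c x r ∘ ofComplex) / (C.c x s ∘ ofComplex))
          ((C.meromorphicAt τ0 x r).div (C.meromorphicAt τ0 x s)) := by
  rw [map_div₀, sigma_algebraMap, sigma_algebraMap, theta_apply, theta_apply, MGerm.of_div]

theorem theta_ne_zero (τ0 : ℍ) (x : X) {r : R} (hr : r ≠ 0) : C.theta τ0 x r ≠ 0 :=
  fun h => hr ((C.theta_injective τ0 x) (by rw [h, map_zero]))

/-- Orders of the conjugates under the action of `SL(2,ℤ)` on the cosets. -/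
theorem w_theta_smul (τ0 : ℍ) (g : SL(2, ℤ)) (x : X) (r : R) :
    MGerm.w (C.theta τ0 (g • x) r) = MGerm.w (C.theta (g⁻¹ • τ0) x r) := by
  rw [theta_apply, theta_apply, MGerm.w_of, MGerm.w_of]
  have e : C.c (g • x) r ∘ ofComplex = fun z : ℂ => C.c x r (g⁻¹ • ofComplex z) := by
    funext z
    exact C.c_smul g x r (ofComplex z)
  rw [e]
  have := UpperHalfPlane.meromorphicOrderAt_comp_smul (f := C.c x r) (τ := τ0)
    (g := (Matrix.SpecialLinearGroup.mapGL ℝ g⁻¹ : GL (Fin 2) ℝ)) (lf_det_mapGL_pos g⁻¹)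
  exact congrArg WithTop.untop₀ this

theorem w_sigma_smul {τ0 : ℍ} {g : SL(2, ℤ)} (hfix : g • τ0 = τ0) (x : X) (f : F) :
    MGerm.w (C.sigma F τ0 (g • x) f) = MGerm.w (C.sigma F τ0 x f) := by
  have hfix' : g⁻¹ • τ0 = τ0 := by rw [inv_smul_eq_iff, hfix]
  have key : ∀ r : R, MGerm.w (C.theta τ0 (g • x) r) = MGerm.w (C.theta τ0 x r) := by
    intro r
    rw [w_theta_smul, hfix']
  obtain ⟨a, b, hb, rfl⟩ := IsFractionRing.div_surjective (A := R) f
  haveI : Nontrivial R := (IsFractionRing.nontrivial_iff_nontrivial R F).mpr inferInstance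
  have hb0 : b ≠ 0 := nonZeroDivisors.ne_zero hb
  rcases eq_or_ne a 0 with rfl | ha
  · simp
  rw [map_div₀, map_div₀, sigma_algebraMap, sigma_algebraMap, sigma_algebraMap, sigma_algebraMap,
    MGerm.w_div (C.theta_ne_zero τ0 _ ha) (C.theta_ne_zero τ0 _ hb0),
    MGerm.w_div (C.theta_ne_zero τ0 _ ha) (C.theta_ne_zero τ0 _ hb0), key, key]

/-- **Rotation**: at a coset fixed by `g` (which fixes `τ0`), orders are constrained by the
derivative of the Möbius map. -/
theorem rot {τ0 : ℍ} {g : SL(2, ℤ)} (hfix : g • τ0 = τ0) {x : X} (hx : g • x = x) {f : F}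
    (hf : f ≠ 0) : deriv (lfMoeb g⁻¹) (τ0 : ℂ) ^ MGerm.w (C.sigma F τ0 x f) = 1 := by
  have hfix' : g⁻¹ • τ0 = τ0 := by rw [inv_smul_eq_iff, hfix]
  obtain ⟨a, b, hb, rfl⟩ := IsFractionRing.div_surjective (A := R) f
  rw [sigma_div (F := F)]
  have hne : MGerm.of ((C.c x a ∘ ofComplex) / (C.c x b ∘ ofComplex))
      ((C.meromorphicAt τ0 x a).div (C.meromorphicAt τ0 x b)) ≠ 0 := by
    rw [← sigma_div (F := F)]
    exact (map_ne_zero _).mpr hf
  refine MGerm.rotation (lf_analyticAt_moeb g⁻¹ τ0) (by rw [lfMoeb_coe, hfix'])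
    (lf_deriv_moeb_ne_zero g⁻¹ τ0) _ hne ?_
  refine Eventually.of_forall fun z => ?_
  have e : ∀ r : R, C.c x r (ofComplex (lfMoeb g⁻¹ z)) = C.c x r (ofComplex z) := by
    intro r
    have h1 : ofComplex (lfMoeb g⁻¹ z) = g⁻¹ • ofComplex z := by
      simp [lfMoeb]
    rw [h1, ← C.c_smul g x r (ofComplex z), hx]
  simp only [Function.comp_apply, Pi.div_apply, e]

end ConjFam

/-! ### The points `τ_a` and the local monodromy -/

section points

variable {K : Type} [Field K] (ι : K →+* ℂ)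

theorem lf_jA_I : jA UpperHalfPlane.I = 1728 := by
  have h := jA_sub_mul_discriminant UpperHalfPlane.I
  rw [E₆_I] at h
  have h2 : jA UpperHalfPlane.I - 1728 = 0 := by
    rcases mul_eq_zero.mp (h.trans (by ring)) with h3 | h3
    · exact h3
    · exact absurd h3 (ModularForm.discriminant_ne_zero _)
  linear_combination h2

theorem lf_jA_ρ : jA ρ = 0 := by
  unfold jA
  rw [E₄_ρ]
  simp

theorem lf_jA_of_E₆ {τ : ℍ} (h : ModularForm.E₆ τ = 0) : jA τ = 1728 := by
  have h1 := jA_sub_mul_discriminant τ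
  rw [h] at h1
  have h2 : jA τ - 1728 = 0 := by
    rcases mul_eq_zero.mp (h1.trans (by ring)) with h3 | h3
    · exact h3
    · exact absurd h3 (ModularForm.discriminant_ne_zero _)
  linear_combination h2

theorem lf_jA_of_E₄ {τ : ℍ} (h : ModularForm.E₄ τ = 0) : jA τ = 0 := by
  unfold jA
  rw [h]
  simp

open Classical in
/-- The chosen point `τ_a` above `a`. -/
def lfPoint (a : K) : ℍ :=
  if a = 1728 then UpperHalfPlane.I else if a = 0 then ρ
  else Classical.choose (jA_surjective (ι a))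

open Classical in
/-- The generator of the stabiliser of `τ_a` (modulo `±1`). -/
def lfGen (a : K) : SL(2, ℤ) :=
  if a = 1728 then ModularGroup.S else if a = 0 then ModularGroup.S * ModularGroup.T else 1

theorem lf_jA_point (a : K) : jA (lfPoint ι a) = ι a := by
  unfold lfPoint
  split_ifs with h1 h2
  · rw [lf_jA_I, h1]
    exact (map_ofNat ι 1728).symm
  · rw [lf_jA_ρ, h2, map_zero]
  · exact Classical.choose_spec (jA_surjective (ι a))

theorem lf_gen_smul_point (a : K) : lfGen a • lfPoint ι a = lfPoint ι a := by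
  unfold lfPoint lfGen
  split_ifs with h1 h2
  · exact S_smul_I
  · exact ST_smul_ρ
  · exact one_smul _ _

theorem lf_ramIdx_1728 : ramIdx (lfPoint ι (1728 : K)) = 2 := by
  unfold lfPoint
  rw [if_pos rfl]
  unfold ramIdx
  rw [if_pos E₆_I]

include ι in
theorem lf_1728_ne_zero : (1728 : K) ≠ 0 := by
  intro h
  have := congrArg ι h
  rw [map_zero, map_ofNat ι 1728] at this
  norm_num at this

theorem lf_ramIdx_zero : ramIdx (lfPoint ι (0 : K)) = 3 := by
  unfold lfPoint
  rw [if_neg (lf_1728_ne_zero ι).symm, if_pos rfl]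
  unfold ramIdx
  have h6 : ModularForm.E₆ ρ ≠ 0 := by
    intro h
    have := lf_jA_of_E₆ h
    rw [lf_jA_ρ] at this
    norm_num at this
  rw [if_neg h6, if_pos E₄_ρ]

theorem lf_ramIdx_generic {a : K} (h0 : a ≠ 0) (h1 : a ≠ 1728) : ramIdx (lfPoint ι a) = 1 := by
  have hj := lf_jA_point ι a
  unfold ramIdx
  have h6 : ModularForm.E₆ (lfPoint ι a) ≠ 0 := by
    intro h
    have := lf_jA_of_E₆ h
    rw [hj] at this
    apply h1
    apply ι.injective
    rw [this]
    exact (map_ofNat ι 1728).symm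
  have h4 : ModularForm.E₄ (lfPoint ι a) ≠ 0 := by
    intro h
    have := lf_jA_of_E₄ h
    rw [hj] at this
    apply h0
    apply ι.injective
    rw [this, map_zero]
  rw [if_neg h6, if_neg h4]

theorem lf_gen_1728 : lfGen (1728 : K) = ModularGroup.S := by
  unfold lfGen
  rw [if_pos rfl]

include ι in
theorem lf_gen_zero : lfGen (0 : K) = ModularGroup.S * ModularGroup.T := by
  unfold lfGen
  rw [if_neg (lf_1728_ne_zero ι).symm, if_pos rfl]

theorem lf_gen_generic {a : K} (h0 : a ≠ 0) (h1 : a ≠ 1728) : lfGen a = 1 := by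
  unfold lfGen
  rw [if_neg h1, if_neg h0]

end points

/-! ### The local datum at a finite point -/

section datum

variable {K : Type} [Field K] {ι : K →+* ℂ} {R F X : Type} [CommRing R] [Field F]
  [Algebra K R] [Algebra K F] [Algebra R F] [IsScalarTower K R F] [IsFractionRing R F]
  [MulAction SL(2, ℤ) X] (C : ConjFam ι R X)

namespace ConjFam

include C in
/-- `-1` acts trivially on the cosets. -/
theorem neg_one_smul (x : X) : (-1 : SL(2, ℤ)) • x = x := by
  apply C.c_sep
  intro r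
  funext τ
  rw [C.c_smul]
  congr 1
  have h : ((-1 : SL(2, ℤ))⁻¹) = -1 := by decide
  rw [h, ModularGroup.SL_neg_smul, one_smul]

include C in
theorem S_sq_smul (x : X) : ModularGroup.S • ModularGroup.S • x = x := by
  rw [← mul_smul]
  have h : ModularGroup.S * ModularGroup.S = -1 := by decide
  rw [h, C.neg_one_smul]

include C in
theorem ST_cube_smul (x : X) :
    (ModularGroup.S * ModularGroup.T) • (ModularGroup.S * ModularGroup.T) •
      (ModularGroup.S * ModularGroup.T) • x = x := by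
  rw [← mul_smul, ← mul_smul]
  have h : (ModularGroup.S * ModularGroup.T) * (ModularGroup.S * ModularGroup.T) *
      (ModularGroup.S * ModularGroup.T) = -1 := by decide
  rw [h, C.neg_one_smul]

/-- The conjugate embeddings as `K`-algebra homomorphisms into the valued differential field of
germs at `τ0`. -/
def sigmaAlg (F : Type) [Field F] [Algebra K F] [Algebra R F] [IsScalarTower K R F]
    [IsFractionRing R F] (τ0 : ℍ) (x : X) : F →ₐ[K] (mgermVDF ι (τ0 : ℂ)).L :=
  { toFun := C.sigma F τ0 x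
    map_one' := map_one (C.sigma F τ0 x)
    map_mul' := map_mul (C.sigma F τ0 x)
    map_zero' := map_zero (C.sigma F τ0 x)
    map_add' := map_add (C.sigma F τ0 x)
    commutes' := fun a => C.sigma_algebraMapK τ0 x a }

theorem sigmaAlg_apply (τ0 : ℍ) (x : X) (f : F) : C.sigmaAlg F τ0 x f = C.sigma F τ0 x f := rfl

theorem w_sigma_zc {τ0 : ℍ} {a : K} (ha : jA τ0 = ι a) (x : X) :
    MGerm.w (C.sigma F τ0 x (algebraMap R F C.jR - algebraMap K F a)) = ramIdx τ0 := by
  have e1 : algebraMap R F C.jR - algebraMap K F a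
      = algebraMap R F (C.jR - algebraMap K R a) := by
    rw [map_sub, ← IsScalarTower.algebraMap_apply K R F]
  rw [e1, sigma_algebraMap, theta_apply, MGerm.w_of]
  have e2 : C.c x (C.jR - algebraMap K R a) ∘ ofComplex
      = fun w : ℂ => jA (ofComplex w) - jA τ0 := by
    funext w
    rw [map_sub, C.c_j, C.c_alg, ha]
    rfl
  rw [e2]
  have han : AnalyticAt ℂ (fun w : ℂ => jA (ofComplex w) - jA τ0) (τ0 : ℂ) :=
    (analyticAt_comp_ofComplex mdiff_jA τ0).sub analyticAt_const
  rw [han.meromorphicOrderAt_eq, analyticOrderAt_jA_sub]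
  rfl

theorem sigma_j_eq (τ0 : ℍ) (x y : X) :
    C.sigma F τ0 x (algebraMap R F C.jR) = C.sigma F τ0 y (algebraMap R F C.jR) := by
  rw [sigma_algebraMap, sigma_algebraMap, theta_apply, theta_apply]
  apply (MGerm.of_eq_iff _ _).mpr
  exact Eventually.of_forall fun z => by simp only [Function.comp_apply, C.c_j]

theorem sigma_injective (τ0 : ℍ) {x y : X} (h : C.sigma F τ0 x = C.sigma F τ0 y) : x = y := by
  apply C.c_sep
  intro r
  have h1 : C.theta τ0 x r = C.theta τ0 y r := by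
    rw [← sigma_algebraMap (F := F), ← sigma_algebraMap (F := F), h]
  rw [theta_apply, theta_apply, MGerm.of_eq_iff] at h1
  exact eq_of_germ_eq (C.c_mdiff x r) (C.c_mdiff y r) τ0 h1

end ConjFam

theorem lf_cases (ι : K →+* ℂ) (a : K) :
    ramIdx (lfPoint ι a) = 1 ∨
    (ramIdx (lfPoint ι a) = 2 ∧ lfGen a = ModularGroup.S ∧ lfPoint ι a = UpperHalfPlane.I) ∨
    (ramIdx (lfPoint ι a) = 3 ∧ lfGen a = ModularGroup.S * ModularGroup.T ∧ lfPoint ι a = ρ) := by
  by_cases h1 : a = 1728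
  · subst h1
    right; left
    refine ⟨lf_ramIdx_1728 ι, lf_gen_1728, ?_⟩
    unfold lfPoint
    rw [if_pos rfl]
  by_cases h0 : a = 0
  · subst h0
    right; right
    refine ⟨lf_ramIdx_zero ι, lf_gen_zero ι, ?_⟩
    unfold lfPoint
    rw [if_neg h1, if_pos rfl]
  · left
    exact lf_ramIdx_generic ι h0 h1

/-- **The local datum at the finite point `a`** of the `j`-line. -/
def finiteDatumOf (j : F) (hj : algebraMap R F C.jR = j) (a : K) :
    LocalDatum K F j X (some a) where
  V := mgermVDF ι (lfPoint ι a : ℂ)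
  σ := fun x => C.sigmaAlg F (lfPoint ι a) x
  E := ramIdx (lfPoint ι a)
  E_pos := ramIdx_pos _
  w_zc := fun x => by
    show MGerm.w (C.sigma F (lfPoint ι a) x (j - algebraMap K F a)) = _
    rw [← hj, C.w_sigma_zc (lf_jA_point ι a) x]
  σ_j := fun x y => by
    show C.sigma F (lfPoint ι a) x j = C.sigma F (lfPoint ι a) y j
    rw [← hj]
    exact C.sigma_j_eq _ x y
  σ_inj := fun x y h => by
    apply C.sigma_injective (F := F) (lfPoint ι a)
    ext f
    exact congrArg Subtype.val (DFunLike.congr_fun h f)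
  π := MulAction.toPerm (lfGen a)
  w_π := fun x f => C.w_sigma_smul (lf_gen_smul_point ι a) x f
  dvd := fun x f hf => by
    show ((ramIdx (lfPoint ι a) : ℕ) : ℤ) ∣
      (Function.minimalPeriod (MulAction.toPerm (lfGen a)) x : ℤ)
        * MGerm.w (C.sigma F (lfPoint ι a) x f)
    have hrot : lfGen a • x = x →
        deriv (lfMoeb (lfGen a)⁻¹) ((lfPoint ι a : ℍ) : ℂ)
          ^ MGerm.w (C.sigma F (lfPoint ι a) x f) = 1 :=
      fun hx => C.rot (lf_gen_smul_point ι a) hx hf
    have hfixed : Function.minimalPeriod (MulAction.toPerm (lfGen a)) x = 1 →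
        lfGen a • x = x := by
      intro h
      have := Function.isPeriodicPt_minimalPeriod (MulAction.toPerm (lfGen a)) x
      rw [h] at this
      exact this
    generalize MGerm.w (C.sigma F (lfPoint ι a) x f) = n at hrot ⊢
    rcases lf_cases ι a with h1 | ⟨h2, hg, hp⟩ | ⟨h3, hg, hp⟩
    · rw [h1]
      exact one_dvd _
    · have hper : Function.minimalPeriod (MulAction.toPerm (lfGen a)) x ∣ 2 := by
        apply Function.IsPeriodicPt.minimalPeriod_dvd
        show lfGen a • lfGen a • x = x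
        rw [hg]
        exact C.S_sq_smul x
      rcases (Nat.dvd_prime Nat.prime_two).mp hper with h | h
      · have h4 := hrot (hfixed h)
        rw [hg, hp, lf_deriv_S_inv_I] at h4
        have h5 := lf_two_dvd_of_neg_one_zpow h4
        rw [h, h2]
        simpa using h5
      · rw [h, h2]
        exact dvd_mul_right _ _
    · have hper : Function.minimalPeriod (MulAction.toPerm (lfGen a)) x ∣ 3 := by
        apply Function.IsPeriodicPt.minimalPeriod_dvd
        show lfGen a • lfGen a • lfGen a • x = x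
        rw [hg]
        exact C.ST_cube_smul x
      rcases (Nat.dvd_prime Nat.prime_three).mp hper with h | h
      · have h4 := hrot (hfixed h)
        rw [hg, hp, lf_deriv_ST_inv_ρ] at h4
        have h5 := lf_three_dvd_of_ρ_zpow h4
        rw [h, h3]
        simpa using h5
      · rw [h, h3]
        exact dvd_mul_right _ _

theorem finiteDatumOf_V (j : F) (hj : algebraMap R F C.jR = j) (a : K) :
    (finiteDatumOf C j hj a).V = mgermVDF ι (lfPoint ι a : ℂ) := rfl

theorem finiteDatumOf_E (j : F) (hj : algebraMap R F C.jR = j) (a : K) :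
    (finiteDatumOf C j hj a).E = ramIdx (lfPoint ι a) := rfl

theorem finiteDatumOf_π (j : F) (hj : algebraMap R F C.jR = j) (a : K) :
    (finiteDatumOf C j hj a).π = MulAction.toPerm (lfGen a) := rfl

theorem finiteDatumOf_π_1728 (j : F) (hj : algebraMap R F C.jR = j) :
    (finiteDatumOf C j hj (1728 : K)).π = MulAction.toPerm ModularGroup.S := by
  rw [finiteDatumOf_π, lf_gen_1728]

theorem finiteDatumOf_π_zero (j : F) (hj : algebraMap R F C.jR = j) :
    (finiteDatumOf C j hj (0 : K)).π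
      = MulAction.toPerm (ModularGroup.S * ModularGroup.T) := by
  rw [finiteDatumOf_π, lf_gen_zero ι]

theorem finiteDatumOf_π_generic (j : F) (hj : algebraMap R F C.jR = j) (a : K) (h0 : a ≠ 0)
    (h1 : a ≠ 1728) : (finiteDatumOf C j hj a).π = 1 := by
  rw [finiteDatumOf_π, lf_gen_generic h0 h1]
  ext x
  simp

end datum

end

end Fermat.Agent.S24
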